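import Fermat.Agent.CFT.SUnits
import Mathlib.RepresentationTheory.Homological.GroupCohomology.Hilbert90
import Mathlib.NumberTheory.NumberField.InfinitePlace.Ramification

/-!
The index of norms of S-units in a cyclic extension of prime degree.
-/

set_option autoImplicit false

namespace Fermat.Agent.CFT

open NumberField IsDedekindDomain Module
open scoped Classical

noncomputable section

variable {K L : Type} [Field K] [NumberField K] [Field L] [NumberField L] [Algebra K L]

/-- A prime above `v`. -/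
def someAbove (L : Type) [Field L] [NumberField L] [Algebra K L]
    (v : HeightOneSpectrum (𝓞 K)) : HeightOneSpectrum (𝓞 L) :=
  (primeUnder_surjective (L := L) v).choose

lemma primeUnder_someAbove (v : HeightOneSpectrum (𝓞 K)) : primeUnder K (someAbove L v) = v :=
  (primeUnder_surjective (L := L) v).choose_spec

variable [IsGalois K L]

/-- The primes of `L` above a finite set of primes of `K`. -/
def placesAbove (L : Type) [Field L] [NumberField L] [Algebra K L] [IsGalois K L]
    (S : Finset (HeightOneSpectrum (𝓞 K))) : Finset (HeightOneSpectrum (𝓞 L)) :=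
  S.biUnion fun v ↦ (Finset.univ : Finset (L ≃ₐ[K] L)).image fun σ ↦ σ • someAbove L v

lemma mem_placesAbove {S : Finset (HeightOneSpectrum (𝓞 K))} {w : HeightOneSpectrum (𝓞 L)} :
    w ∈ placesAbove L S ↔ primeUnder K w ∈ S := by
  simp only [placesAbove, Finset.mem_biUnion, Finset.mem_image, Finset.mem_univ, true_and]
  constructor
  · rintro ⟨v, hv, σ, rfl⟩
    rwa [primeUnder_smul, primeUnder_someAbove]
  · intro h
    obtain ⟨σ, hσ⟩ := exists_smul_eq_of_primeUnder_eq
      (primeUnder_someAbove (L := L) (primeUnder K w))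
    exact ⟨_, h, σ, hσ⟩

/-- The number of places of `S` which do not split. -/
def nonSplitCount (L : Type) [Field L] [NumberField L] [Algebra K L]
    (S : Finset (HeightOneSpectrum (𝓞 K))) : ℕ :=
  (S.filter fun v ↦ IsNonSplit K L v).card

variable {p : ℕ}

lemma card_placesAbove (hp : p.Prime) (hdeg : finrank K L = p)
    (S : Finset (HeightOneSpectrum (𝓞 K))) :
    (placesAbove L S).card + (p - 1) * nonSplitCount L S = p * S.card := by
  rw [placesAbove, Finset.card_biUnion]
  swap
  · intro v _ v' _ hne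
    simp only [Function.onFun, Finset.disjoint_left, Finset.mem_image, Finset.mem_univ, true_and]
    rintro w ⟨σ, rfl⟩ ⟨τ, hτ⟩
    refine hne ?_
    have := congrArg (primeUnder K) hτ
    rwa [primeUnder_smul, primeUnder_smul, primeUnder_someAbove, primeUnder_someAbove,
      eq_comm] at this
  rw [nonSplitCount, Finset.card_filter, Finset.mul_sum, ← Finset.sum_add_distrib, mul_comm,
    ← smul_eq_mul, ← Finset.sum_const]
  refine Finset.sum_congr rfl fun v _ ↦ ?_
  by_cases h : IsNonSplit K L v
  · have hfix := (isNonSplit_iff (primeUnder_someAbove (L := L) v)).mp h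
    rw [if_pos h, Finset.image_congr (g := fun _ ↦ someAbove L v) (fun σ _ ↦ hfix σ),
      Finset.image_const Finset.univ_nonempty, Finset.card_singleton]
    have := hp.pos
    omega
  · rw [if_neg h, mul_zero, add_zero, Finset.card_image_of_injective, Finset.card_univ,
      Fintype.card_eq_nat_card, IsGalois.card_aut_eq_finrank, hdeg]
    intro σ τ hστ
    rcases fixed_or_free hp hdeg (someAbove L v) with hfix | hfree
    · exact absurd ((isNonSplit_iff (primeUnder_someAbove (L := L) v)).mpr hfix) h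
    · have : (τ⁻¹ * σ) • someAbove L v = someAbove L v := by
        rw [mul_smul]
        exact inv_smul_eq_iff.mpr hστ
      exact (inv_mul_eq_one.mp (hfree _ this)).symm

variable (S : Finset (HeightOneSpectrum (𝓞 K)))

local notation "UK" => sUnits K (S : Set (HeightOneSpectrum (𝓞 K)))
local notation "UL" => sUnits L (placesAbove L S : Set (HeightOneSpectrum (𝓞 L)))

lemma units_map_mem_sUnits (σ : L ≃ₐ[K] L) {x : Lˣ} (hx : x ∈ UL) :
    Units.map (σ : L →* L) x ∈ UL := fun w hw ↦ by
  rw [Units.coe_map, MonoidHom.coe_coe, ordv_apply]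
  refine hx _ fun h ↦ hw ?_
  rw [Finset.mem_coe, mem_placesAbove] at h ⊢
  rwa [primeUnder_smul] at h

/-- The action of an automorphism on `S`-units. -/
def sigmaEnd (σ : L ≃ₐ[K] L) : Module.End ℤ (Additive UL) :=
  (MonoidHom.toAdditive (((Units.map (σ : L →* L)).comp (UL).subtype).codRestrict UL
    fun x ↦ units_map_mem_sUnits S σ x.2)).toIntLinearMap

lemma sigmaEnd_apply (σ : L ≃ₐ[K] L) (x : Additive UL) :
    (((sigmaEnd S σ x).toMul : Lˣ) : L) = σ ((x.toMul : Lˣ) : L) := rfl

lemma sigmaEnd_pow (σ : L ≃ₐ[K] L) (i : ℕ) (x : Additive UL) :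
    ((((sigmaEnd S σ) ^ i) x).toMul : Lˣ).val = (σ ^ i) ((x.toMul : Lˣ) : L) := by
  induction i with
  | zero => rfl
  | succ i ih =>
    rw [pow_succ', Module.End.mul_apply, sigmaEnd_apply, ih, pow_succ', AlgEquiv.mul_apply]

lemma algebraMap_mem_sUnits {x : Kˣ} (hx : x ∈ UK) :
    Units.map (algebraMap K L).toMonoidHom x ∈ UL := fun w hw ↦ by
  rw [Units.coe_map]
  simp only [RingHom.toMonoidHom_eq_coe, MonoidHom.coe_coe]
  rw [ordv_algebraMap, hx _ fun h ↦ hw (by rw [Finset.mem_coe, mem_placesAbove]; exact h), mul_zero]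

/-- `S`-units of `K` inside those of `L`. -/
def sUnitsMap : Additive UK →ₗ[ℤ] Additive UL :=
  (MonoidHom.toAdditive (((Units.map (algebraMap K L).toMonoidHom).comp (UK).subtype).codRestrict UL
    fun x ↦ algebraMap_mem_sUnits S x.2)).toIntLinearMap

lemma sUnitsMap_injective : Function.Injective (sUnitsMap (L := L) S) := fun x y h ↦ by
  have h1 := congrArg (fun z ↦ (((Additive.toMul z : UL) : Lˣ) : L)) h
  exact Additive.toMul.injective (Subtype.ext (Units.ext ((algebraMap K L).injective h1)))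

lemma norm_mem_sUnits {y : Lˣ} (hy : y ∈ UL) : Units.map (Algebra.norm K) y ∈ UK := fun v hv ↦ by
  have h := ordv_algebraMap_norm (K := K) (someAbove L v) y.ne_zero
  rw [ordv_algebraMap, primeUnder_someAbove, Finset.sum_eq_zero fun σ _ ↦ hy _ fun hw ↦ hv (by
    rw [Finset.mem_coe, mem_placesAbove, primeUnder_smul, primeUnder_someAbove] at hw
    exact hw)] at h
  rw [Units.coe_map]
  rcases mul_eq_zero.mp h with h | h
  · exact absurd h (by exact_mod_cast (ramIdx_pos (someAbove L v)).ne')
  · exact h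

/-- Norms of `S`-units. -/
def normSUnits (L : Type) [Field L] [NumberField L] [Algebra K L] [IsGalois K L]
    (S : Finset (HeightOneSpectrum (𝓞 K))) : Subgroup Kˣ :=
  (sUnits L (placesAbove L S : Set (HeightOneSpectrum (𝓞 L)))).map (Units.map (Algebra.norm K))

lemma normSUnits_le : normSUnits L S ≤ UK := by
  rintro _ ⟨y, hy, rfl⟩
  exact norm_mem_sUnits S hy

lemma prod_pow_eq_norm (hp : p.Prime) (hdeg : finrank K L = p) {σ : L ≃ₐ[K] L} (hσ : σ ≠ 1)
    (y : L) : ∏ i ∈ Finset.range p, (σ ^ i) y = algebraMap K L (Algebra.norm K y) := by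
  have : Fact p.Prime := ⟨hp⟩
  have hord : orderOf σ = p := orderOf_eq_prime
    (by rw [← (IsGalois.card_aut_eq_finrank K L).trans hdeg]; exact pow_card_eq_one') hσ
  rw [Algebra.norm_eq_prod_automorphisms, ← Fin.prod_univ_eq_prod_range]
  refine Fintype.prod_bijective (fun i : Fin p ↦ σ ^ (i : ℕ)) ?_ _ _ fun i ↦ rfl
  rw [Fintype.bijective_iff_injective_and_card]
  refine ⟨fun i j h ↦ Fin.ext (pow_injOn_Iio_orderOf (by simp [hord]) (by simp [hord]) h), ?_⟩
  rw [Fintype.card_fin, Fintype.card_eq_nat_card, IsGalois.card_aut_eq_finrank, hdeg]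

/-- `H¹` of the `S`-units vanishes. -/
lemma exists_sub_eq_of_norm_eq_one (hp : p.Prime) (hdeg : finrank K L = p) {σ : L ≃ₐ[K] L}
    (hσ : σ ≠ 1) (hunr : ∀ w : HeightOneSpectrum (𝓞 L), primeUnder K w ∉ S → ramIdx K w = 1)
    (hgen : GenClass (S : Set (HeightOneSpectrum (𝓞 K)))) (x : Additive UL)
    (hx : Algebra.norm K ((x.toMul : Lˣ) : L) = 1) :
    ∃ a, sigmaEnd S σ a - a = x := by
  have : Fact p.Prime := ⟨hp⟩
  have : IsCyclic (L ≃ₐ[K] L) :=
    isCyclic_of_prime_card ((IsGalois.card_aut_eq_finrank K L).trans hdeg)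
  obtain ⟨z, hz⟩ := groupCohomology.exists_div_of_norm_eq_one
    (mem_zpowers_of_ne_one hp hdeg hσ) hx
  have hinv : ∀ w : HeightOneSpectrum (𝓞 L), primeUnder K w ∉ S →
      ∀ τ : L ≃ₐ[K] L, ordv (τ • w) (z : L) = ordv w (z : L) := by
    have h1 : ∀ w : HeightOneSpectrum (𝓞 L), primeUnder K w ∉ S →
        ordv (σ • w) (z : L) = ordv w (z : L) := fun w hw ↦ by
      have h2 := (x.toMul : UL).2 (σ • w) (by
        rw [Finset.mem_coe, mem_placesAbove, primeUnder_smul]; exact hw)
      rw [← hz, ordv_div _ z.ne_zero (by simp)] at h2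
      rw [ordv_smul] at h2
      linarith
    intro w hw τ
    obtain ⟨k, rfl⟩ := Submonoid.mem_powers_iff _ _ |>.mp
      (mem_powers_iff_mem_zpowers.mpr (mem_zpowers_of_ne_one hp hdeg hσ τ))
    induction k with
    | zero => simp
    | succ k ih =>
      rw [pow_succ', mul_smul, h1 _ (by rwa [primeUnder_smul]), ih]
  let d : HeightOneSpectrum (𝓞 K) →₀ ℤ :=
    Finsupp.ofSupportFinite (fun v ↦ ordv (someAbove L v) (z : L))
      (((finite_setOf_ordv_ne_zero z.ne_zero).image (primeUnder K)).subset fun v hv ↦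
        ⟨someAbove L v, hv, primeUnder_someAbove v⟩)
  obtain ⟨c, hc, hcv⟩ := hgen.exists_ordv d
  have hmem : Units.mk0 (algebraMap K L c) (by simpa using hc) * z⁻¹ ∈ UL := fun w hw ↦ by
    rw [Finset.mem_coe, mem_placesAbove] at hw
    rw [Units.val_mul, Units.val_mk0, Units.val_inv_eq_inv_val,
      ordv_mul w (by simpa using hc) (inv_ne_zero z.ne_zero), ordv_inv, ordv_algebraMap,
      hunr w hw, hcv _ hw]
    obtain ⟨τ, hτ⟩ := exists_smul_eq_of_primeUnder_eq
      (primeUnder_someAbove (L := L) (primeUnder K w))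
    conv_lhs => arg 2; rw [← hτ]
    rw [hinv _ (by rwa [primeUnder_someAbove])]
    simp [d, Finsupp.ofSupportFinite_coe]
  refine ⟨Additive.ofMul ⟨_, hmem⟩, Additive.toMul.injective (Subtype.ext (Units.ext ?_))⟩
  change σ (algebraMap K L c * ((z⁻¹ : Lˣ) : L)) *
    ((Units.mk0 (algebraMap K L c) _ * z⁻¹)⁻¹ : Lˣ).val = ((x.toMul : UL) : Lˣ).val
  rw [← hz, Units.val_inv_eq_inv_val, Units.val_inv_eq_inv_val, Units.val_mul, Units.val_mk0,
    Units.val_inv_eq_inv_val, map_mul, AlgEquiv.commutes, map_inv₀]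
  have hc' : algebraMap K L c ≠ 0 := by simpa using hc
  field_simp

/-- The index of norms of `S`-units. -/
theorem relIndex_normSUnits [IsUnramifiedAtInfinitePlaces K L] (hp : p.Prime)
    (hdeg : finrank K L = p)
    (hunr : ∀ w : HeightOneSpectrum (𝓞 L), primeUnder K w ∉ S → ramIdx K w = 1)
    (hgen : GenClass (S : Set (HeightOneSpectrum (𝓞 K)))) :
    (normSUnits L S).relIndex UK * p = p ^ nonSplitCount L S := by
  obtain ⟨σ, hσ⟩ := exists_ne_one hp hdeg
  set s := sigmaEnd S σ with hs
  have hsp : s ^ p = 1 := LinearMap.ext fun x ↦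
    Additive.toMul.injective (Subtype.ext (Units.ext (by
      rw [sigmaEnd_pow, show σ ^ p = 1 by
        rw [← (IsGalois.card_aut_eq_finrank K L).trans hdeg]; exact pow_card_eq_one']
      rfl)))
  set f : Additive UL →+ Additive UL := (s - 1).toAddMonoidHom with hf
  set g : Additive UL →+ Additive UL := (∑ i ∈ Finset.range p, s ^ i).toAddMonoidHom with hg
  have key := herbrand_lattice hp s hsp f g (fun a ↦ rfl) (fun a ↦ by
    simp [g, LinearMap.sum_apply])
  have hgnorm : ∀ x : Additive UL, (((g x).toMul : UL) : Lˣ).val =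
      algebraMap K L (Algebra.norm K ((x.toMul : Lˣ) : L)) := fun x ↦ by
    rw [← prod_pow_eq_norm hp hdeg hσ]
    simp only [g, LinearMap.toAddMonoidHom_coe, LinearMap.sum_apply, toMul_sum,
      SubmonoidClass.coe_finsetProd, Units.coe_prod, hs, sigmaEnd_pow]
  have h1 : herbIdx g f = 1 := by
    rw [herbIdx, AddSubgroup.relIndex_eq_one]
    intro x hx
    obtain ⟨a, ha⟩ := exists_sub_eq_of_norm_eq_one S hp hdeg hσ hunr hgen x
      ((algebraMap K L).injective (by
        rw [← hgnorm, show g x = 0 from hx, map_one]; rfl))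
    exact ⟨a, ha⟩
  have hkerS : LinearMap.ker (s - 1) = LinearMap.range (sUnitsMap (L := L) S) := by
    refine le_antisymm (fun x hx ↦ ?_) ?_
    · have hfix : σ ((x.toMul : Lˣ) : L) = ((x.toMul : Lˣ) : L) := by
        rw [LinearMap.mem_ker, LinearMap.sub_apply, sub_eq_zero] at hx
        rw [← sigmaEnd_apply S σ x, ← hs, hx]; rfl
      obtain ⟨c, hc⟩ := (IsGalois.mem_range_algebraMap_iff_fixed _).mpr fun τ ↦ by
        obtain ⟨k, rfl⟩ := Submonoid.mem_powers_iff _ _ |>.mp
          (mem_powers_iff_mem_zpowers.mpr (mem_zpowers_of_ne_one hp hdeg hσ τ))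
        induction k with
        | zero => rfl
        | succ k ih => rw [pow_succ, AlgEquiv.mul_apply, hfix, ih]
      have hc0 : c ≠ 0 := fun e ↦ (x.toMul : Lˣ).ne_zero (by rw [← hc, e, map_zero])
      refine ⟨Additive.ofMul ⟨Units.mk0 c hc0, fun v hv ↦ ?_⟩,
        Additive.toMul.injective (Subtype.ext (Units.ext hc))⟩
      have h2 := (x.toMul : UL).2 (someAbove L v) (by
        rw [Finset.mem_coe, mem_placesAbove, primeUnder_someAbove]; exact hv)
      rw [← hc, ordv_algebraMap, primeUnder_someAbove] at h2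
      rcases mul_eq_zero.mp h2 with h | h
      · exact absurd h (by exact_mod_cast (ramIdx_pos (someAbove L v)).ne')
      · exact h
    · rintro _ ⟨x, rfl⟩
      rw [LinearMap.mem_ker, LinearMap.sub_apply, sub_eq_zero]
      exact Additive.toMul.injective (Subtype.ext (Units.ext (σ.commutes _)))
  have hrk : finrank ℤ (LinearMap.ker (s - 1)) = Units.rank K + S.card := by
    rw [hkerS, ← (LinearEquiv.ofInjective _ (sUnitsMap_injective S)).finrank_eq, finrank_sUnits]
  have hidx : herbIdx f g = (normSUnits L S).relIndex UK := by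
    let ι : Additive UK →+ Additive UL := (sUnitsMap S).toAddMonoidHom
    have hker : f.ker = (⊤ : AddSubgroup (Additive UK)).map ι := by
      ext x
      change x ∈ LinearMap.ker (s - 1) ↔ _
      rw [hkerS]
      exact ⟨fun ⟨a, ha⟩ ↦ ⟨a, trivial, ha⟩, fun ⟨a, _, ha⟩ ↦ ⟨a, ha⟩⟩
    have hrange : g.range =
        (((normSUnits L S).subgroupOf UK).toAddSubgroup).map ι := by
      refine le_antisymm ?_ ?_
      · rintro _ ⟨x, rfl⟩
        refine ⟨Additive.ofMul ⟨_, norm_mem_sUnits S (x.toMul : UL).2⟩,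
          ⟨_, (x.toMul : UL).2, rfl⟩, Additive.toMul.injective (Subtype.ext (Units.ext ?_))⟩
        rw [hgnorm]; rfl
      · rintro _ ⟨a, ⟨y, hy, hya⟩, rfl⟩
        refine ⟨Additive.ofMul ⟨y, hy⟩, Additive.toMul.injective (Subtype.ext (Units.ext ?_))⟩
        rw [hgnorm]
        exact congrArg (fun u : Kˣ ↦ algebraMap K L (u : K)) hya
    rw [herbIdx, hker, hrange,
      AddSubgroup.relIndex_map_map_of_injective (f := ι) _ _ (sUnitsMap_injective S),
      AddSubgroup.relIndex_top_right, Subgroup.index_toAddSubgroup]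
    rfl
  rw [h1, one_pow, one_mul, finrank_sUnits, hrk, hidx] at key
  set i := (normSUnits L S).relIndex UK
  have hc1 := card_placesAbove (L := L) hp hdeg S
  have hc2 : Units.rank L + 1 = p * (Units.rank K + 1) := by
    have h1 := IsUnramifiedAtInfinitePlaces.card_infinitePlace K L
    rw [hdeg, mul_comm] at h1
    have h2 : 0 < Fintype.card (InfinitePlace K) := Fintype.card_pos
    have h3 : 0 < Fintype.card (InfinitePlace L) := Fintype.card_pos
    rw [Units.rank, Units.rank, Nat.sub_add_cancel h2, Nat.sub_add_cancel h3, h1]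
  obtain ⟨q, rfl⟩ : ∃ q, p = q + 1 := ⟨p - 1, by have := hp.pos; omega⟩
  simp only [Nat.add_sub_cancel] at *
  set A := Units.rank L + (placesAbove L S).card
  have e : (q + 1) * (Units.rank K + S.card) + q = A + q * nonSplitCount L S := by
    simp only [A]
    linarith
  have hq : q ≠ 0 := by have := hp.two_le; omega
  refine Nat.pow_left_injective hq ?_
  refine mul_right_cancel₀ (pow_ne_zero A (Nat.succ_ne_zero q)) ?_
  simp only [Nat.succ_eq_add_one]
  calc (i * (q + 1)) ^ q * (q + 1) ^ A = i ^ q * (q + 1) ^ A * (q + 1) ^ q := by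
        rw [mul_pow]; ring
    _ = (q + 1) ^ ((q + 1) * (Units.rank K + S.card) + q) := by rw [key, ← pow_add]
    _ = _ := by rw [e, pow_add, mul_comm q, pow_mul]; ring

end

end Fermat.Agent.CFT
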