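import Fermat.Agent.CFT.Near
import Fermat.Agent.CFT.FirstInequality

/-!
Weak approximation at finitely many primes, local norm groups, local norms at split places.
-/

set_option autoImplicit false

namespace Fermat.Agent.CFT

open NumberField IsDedekindDomain Module WithZero
open scoped Classical

noncomputable section

section OneField

variable {K : Type*} [Field K] [NumberField K]

lemma exists_den (a : HeightOneSpectrum (𝓞 K) → K) (S : Finset (HeightOneSpectrum (𝓞 K))) :
    ∃ d : 𝓞 K, d ≠ 0 ∧ ∀ v ∈ S, ∃ b : 𝓞 K, algebraMap (𝓞 K) K b = a v * algebraMap (𝓞 K) K d := by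
  obtain ⟨d, hd⟩ := IsLocalization.exist_integer_multiples (nonZeroDivisors (𝓞 K)) S a
  exact ⟨d, nonZeroDivisors.ne_zero d.2, fun v hv ↦ by
    obtain ⟨b, hb⟩ := hd v hv
    exact ⟨b, by rw [hb, Algebra.smul_def, mul_comm]⟩⟩

/-- Weak approximation, multiplicatively, by `y / d` with `y`, `d` integral. -/
theorem exists_near_div (S : Finset (HeightOneSpectrum (𝓞 K)))
    (a : HeightOneSpectrum (𝓞 K) → K) (ha : ∀ v ∈ S, a v ≠ 0) (N : ℕ) :
    ∃ y d : 𝓞 K, y ≠ 0 ∧ d ≠ 0 ∧
      ∀ v ∈ S, Near v N (algebraMap (𝓞 K) K y / algebraMap (𝓞 K) K d / a v) := by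
  rcases S.eq_empty_or_nonempty with rfl | ⟨v₀, hv₀⟩
  · exact ⟨1, 1, one_ne_zero, one_ne_zero, fun v hv ↦ by simp at hv⟩
  obtain ⟨d, hd, hb⟩ := exists_den a S
  choose b hb using hb
  have hb0 : ∀ v (hv : v ∈ S), b v hv ≠ 0 := fun v hv h ↦ by
    have := hb v hv
    rw [h, map_zero, eq_comm, mul_eq_zero] at this
    exact this.elim (ha v hv) (by simpa using hd)
  set k : HeightOneSpectrum (𝓞 K) → ℕ := fun v ↦
    if hv : v ∈ S then (ordv v (algebraMap (𝓞 K) K (b v hv))).toNat else 0
  obtain ⟨y, hy⟩ := IsDedekindDomain.exists_forall_sub_mem_ideal (s := S) (fun v ↦ v.asIdeal)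
    (fun v ↦ N + k v + 1) (fun v _ ↦ v.prime)
    (fun v _ v' _ hne h ↦ hne (HeightOneSpectrum.ext h)) (fun v ↦ b v.1 v.2)
  have key : ∀ v (hv : v ∈ S), y ≠ 0 ∧
      Near v N (algebraMap (𝓞 K) K y / algebraMap (𝓞 K) K d / a v) := by
    intro v hv
    have hkv : ordv v (algebraMap (𝓞 K) K (b v hv)) = k v := by
      simp only [k, dif_pos hv]
      exact (Int.toNat_of_nonneg (ordv_algebraMap_nonneg v _)).symm
    have hB0 : algebraMap (𝓞 K) K (b v hv) ≠ 0 := by simpa using hb0 v hv
    have hsub : v.valuation K (algebraMap (𝓞 K) K y - algebraMap (𝓞 K) K (b v hv)) ≤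
        exp (-((N + k v + 1 : ℕ) : ℤ)) := by
      rw [← map_sub, v.valuation_of_algebraMap, v.intValuation_le_pow_iff_mem]
      exact hy v hv
    constructor
    · intro h0
      rw [h0, map_zero, zero_sub, Valuation.map_neg, valuation_le_exp_iff v hB0, hkv] at hsub
      push_cast at hsub
      omega
    · rw [Near, div_div, mul_comm, ← hb v hv, div_sub_one hB0, map_div₀,
        div_le_iff₀ (zero_lt_iff.mpr (valuation_ne_zero v hB0)),
        valuation_eq_exp v hB0, hkv, ← exp_add]
      refine hsub.trans (exp_le_exp.mpr ?_)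
      push_cast
      omega
  exact ⟨y, d, (key v₀ hv₀).1, hd, fun v hv ↦ (key v hv).2⟩

/-- Weak approximation, multiplicatively. -/
theorem exists_near_div' (S : Finset (HeightOneSpectrum (𝓞 K)))
    (a : HeightOneSpectrum (𝓞 K) → K) (ha : ∀ v ∈ S, a v ≠ 0) (N : ℕ) :
    ∃ x : K, x ≠ 0 ∧ ∀ v ∈ S, Near v N (x / a v) := by
  obtain ⟨y, d, hy, hd, h⟩ := exists_near_div S a ha N
  exact ⟨_, div_ne_zero (by simpa using hy) (by simpa using hd), h⟩

lemma Near.ordv_eq {v : HeightOneSpectrum (𝓞 K)} {n : ℕ} (hn : 1 ≤ n) {x y : K}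
    (h : Near v n (x / y)) (hy : y ≠ 0) : ordv v x = ordv v y := by
  have h1 := h.valuation_eq_one v hn
  rw [map_div₀, div_eq_one_iff_eq (valuation_ne_zero v hy)] at h1
  simp only [ordv, h1]

end OneField

variable (K L : Type) [Field K] [NumberField K] [Field L] [NumberField L] [Algebra K L]

/-- The elements of `Kˣ` which are local norms at `v`. -/
def locNorms (v : HeightOneSpectrum (𝓞 K)) : Subgroup Kˣ where
  carrier := {x | IsLocalNormAt K L v (x : K)}
  one_mem' := by simpa using isLocalNormAt_one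
  mul_mem' {x y} hx hy := by simpa using hx.mul hy
  inv_mem' {x} hx := by simpa using hx.inv

variable {K L}

lemma mem_locNorms {v : HeightOneSpectrum (𝓞 K)} {x : Kˣ} :
    x ∈ locNorms K L v ↔ IsLocalNormAt K L v (x : K) := Iff.rfl

lemma near_of_near_algebraMap (w : HeightOneSpectrum (𝓞 L)) {n : ℕ} {x : K}
    (h : Near w (ramIdx K w * n) (algebraMap K L x)) : Near (primeUnder K w) n x := by
  rw [Near, ← map_one (algebraMap K L), ← map_sub] at h
  by_cases h0 : x - 1 = 0
  · rw [Near, h0, map_zero]; exact zero_le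
  rw [valuation_le_exp_iff w ((map_ne_zero _).mpr h0), ordv_algebraMap] at h
  rw [Near, valuation_le_exp_iff _ h0]
  push_cast at h
  exact le_of_mul_le_mul_left h (by exact_mod_cast ramIdx_pos w)

variable [IsGalois K L] {p : ℕ}

/-- At a split place everything is a local norm. -/
theorem isLocalNormAt_of_not_isNonSplit (hp : p.Prime) (hdeg : finrank K L = p)
    {v : HeightOneSpectrum (𝓞 K)} (hv : ¬ IsNonSplit K L v) {a : K} (ha : a ≠ 0) :
    IsLocalNormAt K L v a := by
  intro n
  set w := someAbove L v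
  have hwv : primeUnder K w = v := primeUnder_someAbove v
  have hfree : ∀ σ : L ≃ₐ[K] L, σ • w = w → σ = 1 := by
    rcases fixed_or_free hp hdeg w with h | h
    · exact absurd ((isNonSplit_iff hwv).mpr h) hv
    · exact h
  set a' : HeightOneSpectrum (𝓞 L) → L := fun w' ↦ if w' = w then algebraMap K L a else 1
  have ha' : ∀ w', a' w' ≠ 0 := fun w' ↦ by simp only [a']; split_ifs <;> simp [ha]
  obtain ⟨b, hb, hb'⟩ := exists_near_div' (placesAbove L {v}) a' (fun w' _ ↦ ha' w')
    (ramIdx K w * (n + 1))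
  refine ⟨b, hb, ?_⟩
  have hmem : ∀ τ : L ≃ₐ[K] L, τ⁻¹ • w ∈ placesAbove L {v} := fun τ ↦ by
    rw [mem_placesAbove, primeUnder_smul, hwv, Finset.mem_singleton]
  have hτ : ∀ τ : L ≃ₐ[K] L,
      Near w (ramIdx K w * (n + 1)) (τ b / (if τ = 1 then algebraMap K L a else 1)) := by
    intro τ
    have h := hb' _ (hmem τ)
    have he : a' (τ⁻¹ • w) = if τ = 1 then algebraMap K L a else 1 := by
      simp only [a']
      by_cases h1 : τ = 1
      · simp [h1]
      · rw [if_neg h1, if_neg fun e ↦ h1 (inv_eq_one.mp (hfree _ e))]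
    rw [he] at h
    have hfix : τ (if τ = 1 then algebraMap K L a else 1) =
        if τ = 1 then algebraMap K L a else 1 := by split_ifs <;> simp
    rw [← hfix, ← map_div₀]
    have e : τ (b / if τ = 1 then algebraMap K L a else 1) - 1 =
        τ ((b / if τ = 1 then algebraMap K L a else 1) - 1) := by rw [map_sub, map_one]
    rw [Near, e]
    by_cases h0 : (b / if τ = 1 then algebraMap K L a else 1) - 1 = 0
    · rw [h0, map_zero, map_zero]; exact zero_le
    rw [valuation_le_exp_iff w ((map_ne_zero _).mpr h0), ordv_apply, ← valuation_le_exp_iff _ h0]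
    exact h
  have hprod : Near w (ramIdx K w * (n + 1)) (algebraMap K L (Algebra.norm K b / a)) := by
    have e : algebraMap K L (Algebra.norm K b / a) =
        ∏ τ : L ≃ₐ[K] L, τ b / (if τ = 1 then algebraMap K L a else 1) := by
      rw [map_div₀, Algebra.norm_eq_prod_automorphisms, Finset.prod_div_distrib]
      simp
    rw [e]
    exact Finset.prod_induction _ _ (fun x y hx hy ↦ hx.mul w hy) (near_one w _) fun τ _ ↦ hτ τ
  have h1 := near_of_near_algebraMap w hprod
  rw [hwv] at h1
  change Near v n _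
  rw [← inv_div]
  exact (h1.inv v (by omega)).mono v (Nat.le_succ n)

end

end Fermat.Agent.CFT
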