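import Fermat.Agent.Chebotarev.Main
import Fermat.Agent.TameInertia.Frobenius
import Mathlib.FieldTheory.KummerPolynomial
import Mathlib.RingTheory.IntegralDomain

/-!
An auxiliary prime `q ≡ 1 mod p` modulo which a given prime is not a `p`-th power.
-/

set_option autoImplicit false

namespace Fermat.Agent.CFT

open Polynomial Module

noncomputable section

local notation "Ω" => AlgebraicClosure ℚ

local instance isAlgebraicQbar_aux : Algebra.IsAlgebraic ℚ (AlgebraicClosure ℚ) :=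
  AlgebraicClosure.isAlgebraic ℚ
local instance isAlgClosureQbar_aux : IsAlgClosure ℚ (AlgebraicClosure ℚ) :=
  ⟨inferInstance, inferInstance⟩

/-- An auxiliary prime. -/
theorem exists_aux_prime {p : ℕ} (hp : p.Prime) {ℓ : ℕ} (hℓ : ℓ.Prime) (bad : Finset ℕ) :
    ∃ q : ℕ, q.Prime ∧ q ∉ bad ∧ q ≠ ℓ ∧ q ≠ p ∧
      ∃ m, q = p * m + 1 ∧ (ℓ : ZMod q) ^ m ≠ 1 := by
  have := Fact.mk hp
  have : NeZero p := ⟨hp.ne_zero⟩
  obtain ⟨ζ, hζ⟩ := HasEnoughRootsOfUnity.exists_primitiveRoot Ω p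
  let Z : IntermediateField ℚ Ω := IntermediateField.adjoin ℚ {ζ}
  have : IsCyclotomicExtension {p} ℚ Z := hζ.intermediateField_adjoin_isCyclotomicExtension ℚ
  have : FiniteDimensional ℚ Z := IsCyclotomicExtension.finiteDimensional {p} ℚ Z
  have hdeg : finrank ℚ Z = p - 1 := by
    rw [IsCyclotomicExtension.finrank Z (cyclotomic.irreducible_rat hp.pos), Nat.totient_prime hp]
  obtain ⟨α, hα⟩ := IsAlgClosed.exists_pow_nat_eq ((ℓ : Ω)) hp.pos
  have hℓ0 : (ℓ : Ω) ≠ 0 := Nat.cast_ne_zero.mpr hℓ.ne_zero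
  have hα0 : α ≠ 0 := fun h ↦ hℓ0 (by rw [← hα, h, zero_pow hp.ne_zero])
  have hnopow : ∀ b : Z, b ^ p ≠ (ℓ : Z) := by
    intro b hb
    have h1 : Algebra.norm ℚ b ^ p = (ℓ : ℚ) ^ (p - 1) := by
      rw [← map_pow, hb, show (ℓ : Z) = algebraMap ℚ Z ℓ by simp, Algebra.norm_algebraMap, hdeg]
    have := Fact.mk hℓ
    have h2 := congrArg (padicValRat ℓ) h1
    rw [padicValRat.pow, padicValRat.pow, padicValRat.self hℓ.one_lt, mul_one] at h2
    have h3 : (p : ℤ) ∣ ((p - 1 : ℕ) : ℤ) := ⟨_, h2.symm⟩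
    rw [Int.natCast_dvd_natCast] at h3
    have h5 : 2 ≤ p := hp.two_le
    have h4 : p ≤ p - 1 := Nat.le_of_dvd (by omega) h3
    omega
  have hirr := X_pow_sub_C_irreducible_of_prime hp hnopow
  have hαroot : aeval α (X ^ p - C (ℓ : Z)) = 0 := by simp [hα]
  have hαint : IsIntegral Z α := ⟨_, monic_X_pow_sub_C _ hp.ne_zero, hαroot⟩
  have hmin : minpoly Z α = X ^ p - C (ℓ : Z) :=
    (minpoly.eq_of_irreducible_of_monic hirr hαroot (monic_X_pow_sub_C _ hp.ne_zero)).symm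
  have : Normal ℚ Ω := IsAlgClosure.normal ℚ Ω
  have : Normal Z Ω := Normal.tower_top_of_normal ℚ Z Ω
  obtain ⟨g₀, hg₀⟩ : ∃ g : Ω ≃ₐ[Z] Ω, g α = α * ζ :=
    minpoly.exists_algEquiv_of_root' hαint.isAlgebraic (by
      rw [hmin]; simp [mul_pow, hζ.pow_eq_one, hα])
  let g := g₀.restrictScalars ℚ
  let M : IntermediateField ℚ Ω := IntermediateField.adjoin ℚ {ζ, α}
  have : FiniteDimensional ℚ M := by
    have : Finite ({ζ, α} : Set Ω) := Set.toFinite _
    exact IntermediateField.finiteDimensional_adjoin fun x _ ↦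
      Algebra.IsIntegral.isIntegral x
  obtain ⟨q, hq, hqbad, A, hA, σ, hσ, heq⟩ :=
    Fermat.Agent.Chebotarev.exists_isFrobeniusAt_eqOn M g (bad ∪ {p, ℓ})
  simp only [Finset.mem_union, Finset.mem_insert, Finset.mem_singleton, not_or] at hqbad
  obtain ⟨hqb, hqp, hqℓ⟩ := hqbad
  have hζM : ζ ∈ M := IntermediateField.subset_adjoin ℚ _ (by simp)
  have hαM : α ∈ M := IntermediateField.subset_adjoin ℚ _ (by simp)
  have hσζ : σ ζ = ζ := (heq ζ hζM).trans (g₀.commutes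
    ⟨ζ, IntermediateField.mem_adjoin_simple_self ℚ ζ⟩)
  have hσα : σ α = α * ζ := (heq α hαM).trans hg₀
  have hqndvd : ¬ q ∣ p := fun h ↦ hqp ((Nat.prime_dvd_prime_iff_eq hq hp).mp h)
  have hmod : q % p = 1 % p := by
    have h1 := Fermat.Agent.TameInertia.frobenius_root_of_unity hq hA hσ hqndvd hζ.pow_eq_one
    rw [hσζ] at h1
    conv_lhs at h1 => rw [← pow_one ζ]
    rw [← pow_mod_orderOf, ← pow_mod_orderOf ζ q, ← hζ.eq_orderOf] at h1
    exact (hζ.pow_inj (Nat.mod_lt _ hp.pos) (Nat.mod_lt _ hp.pos) h1).symm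
  obtain ⟨m, hm⟩ : ∃ m, q = p * m + 1 := ⟨q / p, by
    rw [Nat.mod_eq_of_lt hp.one_lt] at hmod
    have := Nat.div_add_mod q p
    omega⟩
  refine ⟨q, hq, hqb, hqℓ, hqp, m, hm, fun hpow ↦ ?_⟩
  have := Fact.mk hq
  have hℓq : (ℓ : ZMod q) ≠ 0 := by
    rw [Ne, ZMod.natCast_eq_zero_iff]
    exact fun h ↦ hqℓ ((Nat.prime_dvd_prime_iff_eq hq hℓ).mp h)
  obtain ⟨t, ht⟩ : ∃ t : ℕ, (t : ZMod q) ^ p = (ℓ : ZMod q) := by
    obtain ⟨u, hu⟩ := IsCyclic.exists_generator (α := (ZMod q)ˣ)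
    obtain ⟨i, hi⟩ := (mem_powers_iff_mem_zpowers.mpr (hu (Units.mk0 _ hℓq)) :
      Units.mk0 (ℓ : ZMod q) hℓq ∈ Submonoid.powers u)
    simp only at hi
    have h1 : u ^ (i * m) = 1 := by
      rw [pow_mul, hi]
      exact Units.ext (by simpa using hpow)
    rw [← orderOf_dvd_iff_pow_eq_one, orderOf_eq_card_of_forall_mem_zpowers hu,
      Nat.card_eq_fintype_card, ZMod.card_units, show q - 1 = p * m by omega] at h1
    have hm0 : 0 < m := by
      rcases Nat.eq_zero_or_pos m with h | h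
      · exfalso; rw [hm, h, mul_zero, zero_add] at hq; exact Nat.not_prime_one hq
      · exact h
    obtain ⟨j, rfl⟩ := Nat.dvd_of_mul_dvd_mul_right hm0 h1
    refine ⟨((u ^ j : (ZMod q)ˣ) : ZMod q).val, ?_⟩
    rw [ZMod.natCast_zmod_val, ← Units.val_pow_eq_pow_val, ← pow_mul, mul_comm, hi]
    rfl
  have hdvd : (q : ℤ) ∣ (ℓ : ℤ) - (t : ℤ) ^ p := by
    rw [← ZMod.intCast_zmod_eq_zero_iff_dvd]
    push_cast
    rw [ht, sub_self]
  obtain ⟨c, hc⟩ := hdvd
  have hvint : ∀ z : ℤ, A.valuation (z : Ω) ≤ 1 := fun z ↦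
    (A.valuation_le_one_iff _).mpr (intCast_mem A z)
  have hvq : A.valuation (q : Ω) < 1 := (ValuationSubring.mem_nonunits_iff A).mp hA
  have hsmall : A.valuation (α ^ p - (t : Ω) ^ p) < 1 := by
    rw [hα, show (ℓ : Ω) - (t : Ω) ^ p = ((((q : ℤ) * c : ℤ)) : Ω) by rw [← hc]; push_cast; rfl]
    push_cast
    rw [map_mul]
    exact lt_of_le_of_lt (mul_le_of_le_one_right' (hvint c)) hvq
  obtain ⟨μ, hμ, hμs⟩ : ∃ μ ∈ nthRootsFinset p (1 : Ω), A.valuation (α - μ * t) < 1 := by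
    by_contra! hall
    rw [hζ.pow_sub_pow_eq_prod_sub_mul α (t : Ω) hp.pos, map_prod] at hsmall
    exact absurd hsmall (not_lt.mpr (Finset.one_le_prod' fun μ hμ ↦ hall μ hμ))
  rw [mem_nthRootsFinset hp.pos] at hμ
  obtain ⟨i, -, rfl⟩ := hζ.eq_pow_of_pow_eq_one hμ
  have hsmall2 : A.valuation (α * ζ - ζ ^ i * t) < 1 := by
    have h1 : σ (α - ζ ^ i * t) ∈ A.nonunits := by
      rw [ValuationSubring.mem_nonunits_iff,
        Fermat.Agent.MultRed.decomp_isometry hσ.mem_decompositionSubgroup]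
      exact hμs
    rwa [map_sub, map_mul, map_pow, hσζ, hσα, map_natCast,
      ValuationSubring.mem_nonunits_iff] at h1
  have hsmall3 : A.valuation (α * (ζ - 1)) < 1 := by
    rw [show α * (ζ - 1) = (α * ζ - ζ ^ i * t) - (α - ζ ^ i * t) by ring]
    exact A.valuation.map_sub_lt hsmall2 hμs
  have hvℓ : A.valuation (ℓ : Ω) = 1 := by
    refine le_antisymm (by simp) (not_lt.mp fun hlt ↦ ?_)
    obtain ⟨a, b, hab⟩ : ∃ a b : ℤ, a * q + b * ℓ = 1 := by
      obtain ⟨a, b, h⟩ := Int.isCoprime_iff_nat_coprime.mpr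
        (by simpa using (Nat.coprime_primes hq hℓ).mpr hqℓ : Nat.Coprime (Int.natAbs q) (Int.natAbs ℓ))
      exact ⟨a, b, h⟩
    have : A.valuation ((1 : ℤ) : Ω) < 1 := by
      rw [← hab]; push_cast
      exact A.valuation.map_add_lt
        (by rw [map_mul]; exact lt_of_le_of_lt (mul_le_of_le_one_left' (hvint a)) hvq)
        (by rw [map_mul]; exact lt_of_le_of_lt (mul_le_of_le_one_left' (hvint b)) hlt)
    simp at this
  have hvα : A.valuation α = 1 :=
    (pow_eq_one_iff_of_nonneg zero_le hp.ne_zero).1 (by rw [← map_pow, hα, hvℓ])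
  rw [map_mul, hvα, one_mul] at hsmall3
  exact hζ.ne_one hp.one_lt (Fermat.Agent.TameInertia.root_eq_of_close hq hA hqndvd hζ.pow_eq_one
    (one_pow p) ((ValuationSubring.mem_nonunits_iff A).mpr hsmall3))

end

end Fermat.Agent.CFT
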