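import Mathlib.NumberTheory.NumberField.Basic
import Mathlib.NumberTheory.NumberField.InfinitePlace.Ramification
import Mathlib.RingTheory.DedekindDomain.AdicValuation
import Mathlib.RingTheory.Norm.Basic

/-!
Completion-free local norm groups for extensions of number fields.
-/

set_option autoImplicit false

namespace Fermat.Agent.CFT

open NumberField IsDedekindDomain Module

variable (K L : Type*) [Field K] [Field L] [NumberField K] [Algebra K L]

/-- `a / b ≡ 1` modulo the `n`-th power of `v`. -/
def CongrAt (v : HeightOneSpectrum (𝓞 K)) (n : ℕ) (a b : K) : Prop :=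
  v.valuation K (a / b - 1) ≤ WithZero.exp (-(n : ℤ))

/-- `a` is a norm from `L` in the completion at `v`: it is congruent to norms of elements of `L`
modulo arbitrarily high powers of `v`. -/
def IsLocalNormAt (v : HeightOneSpectrum (𝓞 K)) (a : K) : Prop :=
  ∀ n : ℕ, ∃ b : L, b ≠ 0 ∧ CongrAt K v n a (Algebra.norm K b)

/-- `a` is a norm from `L` at every finite place. -/
def IsLocalNormEverywhere (a : K) : Prop :=
  ∀ v : HeightOneSpectrum (𝓞 K), IsLocalNormAt K L v a

/-- `v` has only one prime of `L` above it (it does not split, for `L/K` of prime degree). -/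
def IsNonSplit [NumberField L] (v : HeightOneSpectrum (𝓞 K)) : Prop :=
  ∀ w w' : HeightOneSpectrum (𝓞 L), w.asIdeal.under (𝓞 K) = v.asIdeal →
    w'.asIdeal.under (𝓞 K) = v.asIdeal → w = w'

end Fermat.Agent.CFT
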