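import Fermat.Agent.CFT.Cyclo
import Mathlib.NumberTheory.NumberField.InfinitePlace.TotallyRealComplex

/-!
The product formula for an extension generated by a root of unity of prime order: an element
which is a local norm above `q` has norm symbol one, its archimedean part being the sign of its
norm. No hypothesis at `p = 2` or at the real places.
-/

set_option autoImplicit false

namespace Fermat.Agent.CFT

open NumberField IsDedekindDomain Module UniqueFactorizationMonoid
open scoped Classical Pointwise nonZeroDivisors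

noncomputable section

section Complex

variable {M : Type} [Field M] [NumberField M]

omit [NumberField M] in
/-- A field with a root of unity of order at least three has no real embedding. -/
lemma isTotallyComplex_of_root {q : ℕ} (hq : 2 < q) {ζ : M} (hζ : IsPrimitiveRoot ζ q) :
    IsTotallyComplex M := ⟨fun w ↦ by
  rw [← InfinitePlace.not_isReal_iff_isComplex]
  intro hw
  rw [InfinitePlace.isReal_iff, ComplexEmbedding.isReal_iff] at hw
  have h1 : ((starRingEnd ℂ).comp w.embedding) ζ = w.embedding ζ := congrArg (fun f ↦ f ζ) hw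
  obtain ⟨r, hr⟩ := Complex.conj_eq_iff_real.mp h1
  have hr' : IsPrimitiveRoot r q := by
    refine IsPrimitiveRoot.of_map_of_injective (f := Complex.ofRealHom) ?_ Complex.ofReal_injective
    show IsPrimitiveRoot (r : ℂ) q
    exact hr ▸ hζ.map_of_injective w.embedding.injective
  have hrq := hr'.pow_eq_one
  have habs : |r| = 1 := by
    refine (pow_eq_one_iff_of_nonneg (abs_nonneg r) (show q ≠ 0 by omega)).mp ?_
    rw [← abs_pow, hrq, abs_one]
  have h2 : r ^ 2 = 1 := by rw [← sq_abs, habs, one_pow]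
  exact absurd (Nat.le_of_dvd two_pos (hr'.dvd_of_pow_eq_one 2 h2)) (by omega)⟩

/-- Norms from totally complex fields are positive. -/
lemma norm_rat_pos [IsTotallyComplex M] {x : M} (hx : x ≠ 0) : 0 < Algebra.norm ℚ x := by
  have key : ((Algebra.norm ℚ x : ℚ) : ℂ) =
      (∏ w : InfinitePlace M, Complex.normSq (w.embedding x) : ℝ) := by
    rw [← eq_ratCast (algebraMap ℚ ℂ), Algebra.norm_eq_prod_embeddings,
      ← Fintype.prod_equiv (RingHom.equivRatAlgHom M ℂ) (fun φ : M →+* ℂ ↦ φ x)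
        (fun φ : M →ₐ[ℚ] ℂ ↦ φ x) fun _ ↦ rfl,
      ← Finset.prod_fiberwise Finset.univ InfinitePlace.mk, Complex.ofReal_prod]
    refine Finset.prod_congr rfl fun w _ ↦ ?_
    have hne : ComplexEmbedding.conjugate w.embedding ≠ w.embedding := fun e ↦
      IsTotallyComplex.complexEmbedding_not_isReal w.embedding (ComplexEmbedding.isReal_iff.mpr e)
    have hfib : Finset.univ.filter (fun φ : M →+* ℂ ↦ InfinitePlace.mk φ = w) =
        {w.embedding, ComplexEmbedding.conjugate w.embedding} := by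
      ext φ
      simp only [Finset.mem_filter, Finset.mem_univ, true_and, Finset.mem_insert,
        Finset.mem_singleton]
      conv_lhs => rw [← InfinitePlace.mk_embedding w, eq_comm, InfinitePlace.mk_eq_iff]
      exact ⟨fun h ↦ h.imp Eq.symm Eq.symm, fun h ↦ h.imp Eq.symm Eq.symm⟩
    rw [hfib, Finset.prod_insert (by simpa using hne.symm), Finset.prod_singleton,
      ComplexEmbedding.conjugate_coe_eq, Complex.mul_conj]
  have hpos : 0 < (∏ w : InfinitePlace M, Complex.normSq (w.embedding x)) :=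
    Finset.prod_pos fun w _ ↦ Complex.normSq_pos.mpr (by simpa using hx)
  have h1 := congrArg Complex.re key
  rw [Complex.ofReal_re, Complex.ratCast_re] at h1
  exact_mod_cast h1 ▸ hpos

end Complex

variable {K M : Type} [Field K] [NumberField K] [Field M] [NumberField M] [Algebra K M]
  [IsGalois K M] {q : ℕ} [Fact q.Prime] {ζ : M} (hζ : IsPrimitiveRoot ζ q)

/-- The norm of a prime, modulo `q`. -/
def rmod (q : ℕ) (u : HeightOneSpectrum (𝓞 K)) : ZMod q := ((Ideal.absNorm u.asIdeal : ℕ) : ZMod q)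

lemma rmod_ne_zero {u : HeightOneSpectrum (𝓞 K)} (hu : (q : 𝓞 K) ∉ u.asIdeal) :
    rmod q u ≠ 0 := by
  rw [rmod, Ne, ZMod.natCast_eq_zero_iff]
  intro hdvd
  obtain ⟨ℓ, f, hℓ, -, hN, hℓmem⟩ := Fermat.Agent.ExtVanishing.absNorm_prime_pow K u
  rw [hN] at hdvd
  exact hu ((Nat.prime_dvd_prime_iff_eq Fact.out hℓ).mp ((Fact.out : q.Prime).dvd_of_dvd_pow hdvd) ▸
    hℓmem)

include hζ in
omit [NumberField K] [NumberField M] [IsGalois K M] in
lemma autToPow_injective_of (hgen : ∀ σ : M ≃ₐ[K] M, σ ζ = ζ → σ = 1) :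
    Function.Injective (hζ.autToPow K) := by
  rw [injective_iff_map_eq_one]
  intro σ hσ
  refine hgen σ ?_
  rw [← hζ.autToPow_spec K σ, hσ, Units.val_one]
  have : Fact (1 < q) := ⟨(Fact.out : q.Prime).one_lt⟩
  rw [ZMod.val_one, pow_one]

include hζ in
/-- A global norm has trivial symbol at a place away from `q`. -/
lemma rmod_pow_ordv_norm (hgen : ∀ σ : M ≃ₐ[K] M, σ ζ = ζ → σ = 1) {u : HeightOneSpectrum (𝓞 K)}
    (hu : (q : 𝓞 K) ∉ u.asIdeal) {b : M} (hb : b ≠ 0) :
    rmod q u ^ ordv u (Algebra.norm K b) = 1 := by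
  set W := someAbove M u
  have hWu : primeUnder K W = u := primeUnder_someAbove u
  have hinj := autToPow_injective_of hζ hgen
  have he : ramIdx K W = 1 := ramIdx_eq_one_of_notMem hζ W (by rwa [hWu]) hinj
  obtain ⟨φ, hφW, hφ⟩ := exists_frob_zeta hζ W (by rwa [hWu])
  rw [hWu] at hφ
  set D := MulAction.stabilizer (M ≃ₐ[K] M) W
  have h1 := ordv_algebraMap_norm (K := K) W hb
  rw [ordv_algebraMap, hWu, he, Nat.cast_one, one_mul] at h1
  obtain ⟨X, hX⟩ : ∃ X : ℤ, ∑ σ : M ≃ₐ[K] M, ordv (σ • W) b = Nat.card D * X := by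
    refine ⟨∑ c : (M ≃ₐ[K] M) ⧸ D, ordv (c.out • W) b, ?_⟩
    have hbij : Function.Bijective
        (fun x : ((M ≃ₐ[K] M) ⧸ D) × D ↦ x.1.out * (x.2 : M ≃ₐ[K] M)) := by
      refine ⟨fun x y hxy ↦ ?_, fun g ↦ ⟨(QuotientGroup.mk g,
        ⟨(QuotientGroup.mk g : (M ≃ₐ[K] M) ⧸ D).out⁻¹ * g,
          QuotientGroup.eq.mp (QuotientGroup.out_eq' _)⟩), mul_inv_cancel_left _ _⟩⟩
      have h2 : x.1 = y.1 := by
        rw [← QuotientGroup.out_eq' x.1, ← QuotientGroup.out_eq' y.1,
          ← QuotientGroup.mk_mul_of_mem x.1.out x.2.2, ← QuotientGroup.mk_mul_of_mem y.1.out y.2.2]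
        exact congrArg _ hxy
      simp only [h2, mul_right_inj] at hxy
      exact Prod.ext h2 (Subtype.ext hxy)
    rw [Finset.mul_sum, ← Fintype.sum_bijective _ hbij _ (fun σ ↦ ordv (σ • W) b) fun _ ↦ rfl,
      Fintype.sum_prod_type]
    refine Finset.sum_congr rfl fun c _ ↦ ?_
    have hconst : ∀ s : D, ordv ((c.out * (s : M ≃ₐ[K] M)) • W) b = ordv (c.out • W) b :=
      fun s ↦ by rw [mul_smul, show (s : M ≃ₐ[K] M) • W = W from s.2]
    rw [Finset.sum_congr rfl fun s _ ↦ hconst s, Finset.sum_const, Finset.card_univ,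
      nsmul_eq_mul, Fintype.card_eq_nat_card]
  have hpow : rmod q u ^ Nat.card D = 1 := by
    have h2 : φ ^ Nat.card D = 1 :=
      orderOf_dvd_iff_pow_eq_one.mp (Subgroup.orderOf_dvd_natCard D hφW)
    have h3 := congrArg (fun g ↦ ((hζ.autToPow K g : (ZMod q)ˣ) : ZMod q)) h2
    simp only [map_pow, map_one, Units.val_pow_eq_pow_val, Units.val_one, hφ] at h3
    exact h3
  rw [h1, hX, zpow_mul, zpow_natCast, hpow, one_zpow]

include hζ in
/-- The product formula. -/
theorem prod_rmod_zpow (hq2 : q ≠ 2) (hgen : ∀ σ : M ≃ₐ[K] M, σ ζ = ζ → σ = 1) {a : K}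
    (ha : a ≠ 0) (T : Finset (HeightOneSpectrum (𝓞 K))) (hTq : ∀ u ∈ T, (q : 𝓞 K) ∉ u.asIdeal)
    (hT : ∀ u, u ∉ T → (q : 𝓞 K) ∉ u.asIdeal → rmod q u ^ ordv u a = 1)
    (hloc : ∀ u, (q : 𝓞 K) ∈ u.asIdeal → IsLocalNormAt K M u a) :
    ∏ u ∈ T, rmod q u ^ ordv u a = if 0 < Algebra.norm ℚ a then 1 else -1 := by
  have hq : q.Prime := Fact.out
  have hq3 : 2 < q := lt_of_le_of_ne hq.two_le hq2.symm
  have : IsTotallyComplex M := isTotallyComplex_of_root hq3 hζ
  have hq0 : (q : 𝓞 K) ≠ 0 := Nat.cast_ne_zero.mpr hq.ne_zero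
  have hqbot : (Ideal.span {(q : 𝓞 K)}) ≠ ⊥ := by simpa using hq0
  set Wq := (Ideal.finite_factors hqbot).toFinset
  have hWq : ∀ w, w ∈ Wq ↔ (q : 𝓞 K) ∈ w.asIdeal := fun w ↦ by
    simp only [Wq, Set.Finite.mem_toFinset, Set.mem_ofPred_eq, Ideal.dvd_span_singleton]
  set E : ℕ := 1 + ∑ w ∈ Wq, (ordv w (q : K)).toNat
  have hE : ∀ w ∈ Wq, ordv w (q : K) ≤ E := fun w hw ↦ by
    have h1 := Finset.single_le_sum (f := fun w ↦ (ordv w (q : K)).toNat)
      (fun _ _ ↦ Nat.zero_le _) hw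
    simp only [E]
    omega
  -- a global element whose norm approximates `a` above `q`
  have hchoice : ∀ u, ∃ b : M, b ≠ 0 ∧ (u ∈ Wq → Near u E (a / Algebra.norm K b)) := fun u ↦ by
    by_cases hu : u ∈ Wq
    · obtain ⟨b, hb, hbn⟩ := isLocalNormAt_iff.mp (hloc u ((hWq u).mp hu)) E
      exact ⟨b, hb, fun _ ↦ hbn⟩
    · exact ⟨1, one_ne_zero, fun h ↦ absurd h hu⟩
  choose β hβ0 hβ using hchoice
  set N := E * Nat.card (M ≃ₐ[K] M)
  obtain ⟨b, hb, hbnear⟩ := exists_near_div' (placesAbove M Wq)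
    (fun W ↦ β (primeUnder K W)) (fun W _ ↦ hβ0 _) N
  have hNb : Algebra.norm K b ≠ 0 := norm_ne_zero' hb
  set c := a / Algebra.norm K b with hcdef
  have hc : c ≠ 0 := div_ne_zero ha hNb
  have hnear : ∀ u ∈ Wq, Near u E c := by
    intro u hu
    set W := someAbove M u
    have hWu : primeUnder K W = u := primeUnder_someAbove u
    have hr : Near W N (algebraMap K M (Algebra.norm K (b / β u))) := by
      rw [Algebra.norm_eq_prod_automorphisms]
      refine Finset.prod_induction _ _ (fun x y hx hy ↦ hx.mul W hy) (near_one W N) fun σ _ ↦ ?_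
      have h1 : primeUnder K (σ⁻¹ • W) = u := by rw [primeUnder_smul, hWu]
      have h2 := hbnear (σ⁻¹ • W) (by rw [mem_placesAbove, h1]; exact hu)
      rw [h1] at h2
      rw [Near, show σ (b / β u) - 1 = σ (b / β u - 1) by rw [map_sub, map_one],
        ← smul_inv_smul σ W, valuation_smul]
      exact h2
    have hr' : Near u E (Algebra.norm K (b / β u)) := by
      rw [Near] at hr ⊢
      by_cases h0 : Algebra.norm K (b / β u) - 1 = 0
      · rw [h0, map_zero]; exact zero_le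
      rw [valuation_le_exp_iff u h0]
      rw [← map_one (algebraMap K M), ← map_sub, valuation_le_exp_iff W ((map_ne_zero _).mpr h0),
        ordv_algebraMap, hWu] at hr
      have he : ramIdx K W ≤ Nat.card (M ≃ₐ[K] M) := by
        rw [← card_inertia]; exact Subgroup.card_le_card_group _
      have he0 := ramIdx_pos (K := K) W
      by_contra hlt
      rw [not_le] at hlt
      have h3 : (ramIdx K W : ℤ) * ordv u (Algebra.norm K (b / β u) - 1) <
          ramIdx K W * (E : ℤ) := mul_lt_mul_of_pos_left hlt (by exact_mod_cast he0)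
      have h4 : (ramIdx K W : ℤ) * E ≤ N := by
        simp only [N, Nat.cast_mul]
        rw [mul_comm]
        exact mul_le_mul_of_nonneg_left (by exact_mod_cast he) (Nat.cast_nonneg E)
      omega
    have hE1 : 1 ≤ E := Nat.le_add_right 1 _
    have h5 := (hβ u hu).mul u (hr'.inv u hE1)
    rw [show Algebra.norm K (b / β u) = Algebra.norm K b / Algebra.norm K (β u) by
      rw [eq_div_iff (norm_ne_zero' (hβ0 u)), ← map_mul, div_mul_cancel₀ _ (hβ0 u)],
      inv_div, div_mul_div_cancel₀ (norm_ne_zero' (hβ0 u))] at h5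
    exact h5
  -- clear denominators by an element congruent to one
  set s := (finite_setOf_ordv_ne_zero hc).toFinset
  have hsW : ∀ w ∈ s, w ∉ Wq := fun w hw hwq ↦ by
    simp only [s, Set.Finite.mem_toFinset, Set.mem_ofPred_eq] at hw
    exact hw ((Near.ordv_eq le_rfl (y := (1 : K)) (by
      rw [div_one]; exact (hnear w hwq).mono w (Nat.le_add_right 1 _)) one_ne_zero).trans
      (ordv_one w))
  obtain ⟨d, hd, e, he, hde⟩ : ∃ d ∈ ∏ w ∈ s, w.asIdeal ^ (-ordv w c).toNat,
      ∃ e ∈ Ideal.span {(q : 𝓞 K)}, d + e = 1 :=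
    Ideal.isCoprime_iff_exists.mp (IsCoprime.prod_left fun w hw ↦
      (isCoprime_of_not_dvd w fun hdvd ↦
        hsW w hw ((hWq w).mpr (Ideal.dvd_span_singleton.mp hdvd))).pow_left)
  have hdW : ∀ w ∈ Wq, d ∉ w.asIdeal := fun w hw hm ↦
    w.isPrime.ne_top ((Ideal.eq_top_iff_one _).mpr (hde ▸ add_mem hm
      ((Ideal.span_singleton_le_iff_mem _).mpr ((hWq w).mp hw) he)))
  have hd0 : d ≠ 0 := by
    intro e0
    rw [e0, zero_add] at hde
    rw [hde] at he
    have h1 := Ideal.absNorm_span_singleton (q : 𝓞 K)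
    rw [(Ideal.eq_top_iff_one _).mpr he, Ideal.absNorm_top,
      show ((q : 𝓞 K)) = algebraMap ℤ (𝓞 K) q by simp, Algebra.norm_algebraMap, Int.natAbs_pow,
      Int.natAbs_natCast] at h1
    exact (Nat.one_lt_pow finrank_pos.ne' hq.one_lt).ne h1
  have hd0' : algebraMap (𝓞 K) K d ≠ 0 := by simpa using hd0
  obtain ⟨A, hA⟩ := exists_eq_algebraMap (x := c * algebraMap (𝓞 K) K d) fun w ↦ by
    rw [ordv_mul w hc hd0']
    have h1 := ordv_algebraMap_nonneg w d
    by_cases hw : w ∈ s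
    · have h2 : ((-ordv w c).toNat : ℤ) ≤ ordv w (algebraMap (𝓞 K) K d) := by
        rw [natCast_le_ordv_iff w hd0, Ideal.dvd_span_singleton]
        exact Ideal.dvd_iff_le.mp
          (Finset.dvd_prod_of_mem (fun v' ↦ v'.asIdeal ^ (-ordv v' c).toNat) hw) hd
      omega
    · simp only [s, Set.Finite.mem_toFinset, Set.mem_ofPred_eq, not_not] at hw
      omega
  have hA0 : A ≠ 0 := fun e0 ↦ mul_ne_zero hc hd0' (by rw [← hA, e0, map_zero])
  have hAd : A - d ∈ Ideal.span {(q : 𝓞 K)} := by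
    have hq0' : (q : K) ≠ 0 := Nat.cast_ne_zero.mpr hq.ne_zero
    obtain ⟨x, hx⟩ := exists_eq_algebraMap (x := (algebraMap (𝓞 K) K (A - d)) / (q : K)) fun w ↦ by
      by_cases h0 : algebraMap (𝓞 K) K (A - d) = 0
      · simp [h0, ordv]
      rw [ordv_div w h0 hq0']
      by_cases hw : w ∈ Wq
      · have h1 : (E : ℤ) ≤ ordv w (algebraMap (𝓞 K) K (A - d)) := by
          refine (valuation_le_exp_iff w h0).mp ?_
          rw [map_sub, hA, show c * algebraMap (𝓞 K) K d - algebraMap (𝓞 K) K d =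
            (c - 1) * algebraMap (𝓞 K) K d by ring, map_mul]
          exact (mul_le_of_le_one_right' (w.valuation_le_one d)).trans (hnear w hw)
        have := hE w hw
        omega
      · have h1 : ordv w (q : K) = 0 := by
          have h2 := ordv_algebraMap_nonneg w (q : 𝓞 K)
          have h3 := mt (one_le_ordv_algebraMap_iff w hq0).mp fun hm' ↦ hw ((hWq w).mpr hm')
          rw [map_natCast] at h2 h3
          omega
        have := ordv_algebraMap_nonneg w (A - d)
        omega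
    refine Ideal.mem_span_singleton'.mpr ⟨x, FaithfulSMul.algebraMap_injective (𝓞 K) K ?_⟩
    rw [map_mul, hx, map_natCast, div_mul_cancel₀ _ hq0']
  have hW0 : ∀ w ∈ Wq, cnt w (Ideal.span {d}) = 0 ∧ cnt w (Ideal.span {A}) = 0 := fun w hw ↦ by
    have key : ∀ r : 𝓞 K, r ≠ 0 → r ∉ w.asIdeal → cnt w (Ideal.span {r}) = 0 := fun r hr hrw ↦ by
      by_contra hne
      refine hrw ?_
      have := (le_cnt_iff w (I := Ideal.span {r}) (by simpa using hr) 1).mp
        (Nat.one_le_iff_ne_zero.mpr hne)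
      rwa [pow_one, Ideal.dvd_span_singleton] at this
    refine ⟨key d hd0 (hdW w hw), key A hA0 fun hm ↦ hdW w hw ?_⟩
    have := sub_mem hm ((Ideal.span_singleton_le_iff_mem _).mpr ((hWq w).mp hw) hAd)
    rwa [sub_sub_cancel] at this
  set T' := (T ∪ ((finite_setOf_cnt_ne_zero (Ideal.span {A})).toFinset ∪
    (finite_setOf_cnt_ne_zero (Ideal.span {d})).toFinset)) \ Wq
  have hT'q : ∀ w ∈ T', (q : 𝓞 K) ∉ w.asIdeal := fun w hw hm ↦
    (Finset.mem_sdiff.mp hw).2 ((hWq w).mpr hm)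
  have hout : ∀ w, w ∉ T' → cnt w (Ideal.span {A}) = 0 ∧ cnt w (Ideal.span {d}) = 0 := by
    intro w hw
    by_cases hwq : w ∈ Wq
    · exact (hW0 w hwq).symm
    have hw' := fun h ↦ hw (Finset.mem_sdiff.mpr ⟨h, hwq⟩)
    refine ⟨?_, ?_⟩ <;> by_contra hne <;> refine hw' (Finset.mem_union_right _ ?_)
    · exact Finset.mem_union_left _ (by simpa using hne)
    · exact Finset.mem_union_right _ (by simpa using hne)
  -- signs and absolute values
  set sg : ℤ → ZMod q := fun z ↦ if 0 < z then 1 else -1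
  have hsg : ∀ z : ℤ, z ≠ 0 → (z : ZMod q) = sg z * ((z.natAbs : ℕ) : ZMod q) := fun z hz ↦ by
    simp only [sg]
    rcases lt_or_gt_of_ne hz with h | h
    · rw [if_neg h.not_gt, show z = -((z.natAbs : ℕ) : ℤ) by omega]
      simp
    · rw [if_pos h, show z = ((z.natAbs : ℕ) : ℤ) by omega]
      simp
  have hzA : Algebra.norm ℤ A ≠ 0 := Algebra.norm_ne_zero_iff.mpr hA0
  have hzd : Algebra.norm ℤ d ≠ 0 := Algebra.norm_ne_zero_iff.mpr hd0
  have hnorm : sg (Algebra.norm ℤ A) * ((Ideal.absNorm (Ideal.span {A}) : ℕ) : ZMod q) =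
      sg (Algebra.norm ℤ d) * ((Ideal.absNorm (Ideal.span {d}) : ℕ) : ZMod q) := by
    rw [Ideal.absNorm_span_singleton, Ideal.absNorm_span_singleton, ← hsg _ hzA, ← hsg _ hzd]
    exact norm_congr hAd
  have hsgn : sg (Algebra.norm ℤ A) =
      (if 0 < Algebra.norm ℚ a then 1 else -1) * sg (Algebra.norm ℤ d) := by
    have hab : Algebra.norm ℚ c * Algebra.norm ℚ b = Algebra.norm ℚ a := by
      rw [← Algebra.norm_norm (R := ℚ) (S := K) (A := M) (a := b), ← map_mul, hcdef, div_mul_cancel₀ _ hNb]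
    have hbpos : 0 < Algebra.norm ℚ b := norm_rat_pos hb
    have hAc : (Algebra.norm ℤ A : ℚ) = Algebra.norm ℚ c * (Algebra.norm ℤ d : ℚ) := by
      rw [Algebra.coe_norm_int, Algebra.coe_norm_int, ← map_mul]
      exact congrArg _ hA
    have hc' : Algebra.norm ℚ c ≠ 0 := Algebra.norm_ne_zero_iff.mpr hc
    have hiff : (0 < Algebra.norm ℤ A) ↔ ((0 < Algebra.norm ℚ a) ↔ 0 < Algebra.norm ℤ d) := by
      rw [← Int.cast_pos (R := ℚ), hAc, ← hab, mul_pos_iff_of_pos_right hbpos,
        ← Int.cast_pos (R := ℚ) (n := Algebra.norm ℤ d)]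
      have hd' : (Algebra.norm ℤ d : ℚ) ≠ 0 := by exact_mod_cast hzd
      rcases lt_or_gt_of_ne hc' with h1 | h1 <;> rcases lt_or_gt_of_ne hd' with h2 | h2
      · simp [mul_pos_of_neg_of_neg h1 h2, h1.not_gt, h2.not_gt]
      · simp [(mul_neg_of_neg_of_pos h1 h2).not_gt, h1.not_gt, h2]
      · simp [(mul_neg_of_pos_of_neg h1 h2).not_gt, h1, h2.not_gt]
      · simp [mul_pos h1 h2, h1, h2]
    simp only [sg]
    by_cases h1 : 0 < Algebra.norm ℚ a <;> by_cases h2 : 0 < Algebra.norm ℤ d <;>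
      simp [hiff, h1, h2]
  have hsg1 : ∀ z, sg z ≠ 0 := fun z ↦ by simp only [sg]; split_ifs <;> simp
  rw [hsgn] at hnorm
  have hP : (if 0 < Algebra.norm ℚ a then (1 : ZMod q) else -1) *
      ((Ideal.absNorm (Ideal.span {A}) : ℕ) : ZMod q) =
        ((Ideal.absNorm (Ideal.span {d}) : ℕ) : ZMod q) := by
    refine mul_left_cancel₀ (hsg1 (Algebra.norm ℤ d)) ?_
    rw [← hnorm]; ring
  rw [absNorm_eq_prod_cnt T' (by simpa using hA0) fun w hw ↦ (hout w hw).1,
    absNorm_eq_prod_cnt T' (by simpa using hd0) fun w hw ↦ (hout w hw).2,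
    Nat.cast_prod, Nat.cast_prod] at hP
  simp only [Nat.cast_pow, ← rmod.eq_def] at hP
  have hterm : ∀ w ∈ T', rmod q w ^ cnt w (Ideal.span {A}) =
      rmod q w ^ ordv w a * rmod q w ^ cnt w (Ideal.span {d}) := by
    intro w hw
    have hr := rmod_ne_zero (hT'q w hw)
    have hcnt : (cnt w (Ideal.span {A}) : ℤ) = ordv w c + cnt w (Ideal.span {d}) := by
      rw [cnt_span w hA0, cnt_span w hd0, hA, ordv_mul w hc hd0']
    rw [← zpow_natCast, hcnt, zpow_add₀ hr, zpow_natCast, hcdef, ordv_div w ha hNb,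
      zpow_sub₀ hr, rmod_pow_ordv_norm hζ hgen (hT'q w hw) hb, div_one]
  rw [Finset.prod_congr rfl (fun w hw ↦ show _ = _ from hterm w hw), Finset.prod_mul_distrib,
    ← mul_assoc, mul_left_eq_self₀] at hP
  have hTT' : T ⊆ T' := fun w hw ↦ Finset.mem_sdiff.mpr
    ⟨Finset.mem_union_left _ hw, fun h ↦ hTq w hw ((hWq w).mp h)⟩
  rw [← Finset.prod_subset hTT' fun w hw hwT ↦ hT w hwT (hT'q w hw)] at hP
  rcases hP with hP | hP
  · split_ifs with h <;> simp only [h, if_true, if_false, one_mul, neg_mul] at hP ⊢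
    · exact hP
    · exact (neg_eq_iff_eq_neg.mp hP)
  · exact absurd hP (Finset.prod_ne_zero_iff.mpr fun w hw ↦ pow_ne_zero _ (rmod_ne_zero (hT'q w hw)))

end

end Fermat.Agent.CFT
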