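import Mathlib.GroupTheory.Index
import Mathlib.Data.ZMod.Basic
import Mathlib.Data.ZMod.QuotientGroup
import Mathlib.Algebra.BigOperators.Fin
import Mathlib.Tactic.Ring
import Mathlib.Algebra.BigOperators.Ring.Finset
import Mathlib.Algebra.Order.Ring.Int

/-!
Herbrand quotients of a pair of endomorphisms.
-/

set_option autoImplicit false

namespace Fermat.Agent.CFT

open AddSubgroup

variable {A : Type*} [AddCommGroup A]

/-- `[ker f : im g]`. -/
noncomputable def herbIdx (f g : A →+ A) : ℕ := g.range.relIndex f.ker

/-- `[ker f ∩ C : g C]` for a stable subgroup `C`. -/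
noncomputable def herbIdxOn (f g : A →+ A) (C : AddSubgroup A) : ℕ :=
  (C.map g).relIndex (f.ker ⊓ C)

lemma index_eq_ker_mul_map (f : A →+ A) (B : AddSubgroup A) :
    B.index = B.relIndex f.ker * (B.map f).relIndex f.range := by
  have h1 : B.relIndex f.ker * (B.map f).relIndex f.range =
      B.relIndex (B ⊔ f.ker) * (B ⊔ f.ker).index := by
    rw [sup_comm B f.ker, relIndex_sup_right]
    congr 1
    rw [AddMonoidHom.range_eq_map f, relIndex_map_map, top_sup_eq, relIndex_top_right, sup_comm]
  rw [h1, relIndex_mul_index le_sup_left]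

/-- Passing to a stable subgroup of finite index does not change the Herbrand quotient. -/
theorem herbrand_finite_index (f g : A →+ A) (hfg : ∀ a, f (g a) = 0) (hgf : ∀ a, g (f a) = 0)
    (B : AddSubgroup A) (hf : B.map f ≤ B) (hg : B.map g ≤ B) (hB : B.index ≠ 0) :
    herbIdx f g * herbIdxOn g f B = herbIdx g f * herbIdxOn f g B := by
  have tower : ∀ u v : A →+ A, (∀ a, u (v a) = 0) → B.map v ≤ B →
      (B.map v).relIndex v.range * herbIdx u v = herbIdxOn u v B * B.relIndex u.ker := by
    intro u v huv hv
    have h1 : B.map v ≤ v.range := by rintro _ ⟨a, -, rfl⟩; exact ⟨a, rfl⟩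
    have h2 : v.range ≤ u.ker := by rintro _ ⟨a, rfl⟩; exact huv a
    rw [herbIdx, relIndex_mul_relIndex _ _ _ h1 h2, herbIdxOn,
      ← inf_relIndex_right B u.ker, inf_comm B u.ker,
      relIndex_mul_relIndex _ _ _ (le_inf (h1.trans h2) hv) inf_le_left]
  have e1 := tower f g hfg hg
  have e2 := tower g f hgf hf
  have n1 := index_eq_ker_mul_map f B
  have n2 := index_eq_ker_mul_map g B
  refine mul_left_cancel₀ hB ?_
  calc B.index * (herbIdx f g * herbIdxOn g f B)
      = B.relIndex g.ker * ((B.map g).relIndex g.range * herbIdx f g) * herbIdxOn g f B := by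
        rw [n2]; ring
    _ = B.relIndex f.ker * herbIdxOn f g B * (herbIdxOn g f B * B.relIndex g.ker) := by
        rw [e1]; ring
    _ = B.relIndex f.ker * herbIdxOn f g B * ((B.map f).relIndex f.range * herbIdx g f) := by
        rw [← e2]
    _ = B.index * (herbIdx g f * herbIdxOn f g B) := by
        rw [n1]; ring

end Fermat.Agent.CFT
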