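import Fermat.Agent.CFT.Near
import Fermat.Agent.CFT.Herbrand
import Mathlib.FieldTheory.Galois.NormalBasis
import Mathlib.RingTheory.Trace.Basic
import Mathlib.LinearAlgebra.BilinearForm.Properties

/-!
At a place which does not split, not every element is a local norm (the local norm index is at
least `p`): Herbrand quotient of the finite-level groups `Lˣ / (1 + Λ)` for a normal basis lattice
`Λ`, without completions.
-/

set_option autoImplicit false

namespace Fermat.Agent.CFT

open NumberField IsDedekindDomain Module WithZero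

noncomputable section

variable {K L : Type*} [Field K] [NumberField K] [Field L] [NumberField L] [Algebra K L]

omit [NumberField K] in
lemma valuation_smul (σ : L ≃ₐ[K] L) (w : HeightOneSpectrum (𝓞 L)) (x : L) :
    (σ • w).valuation L (σ x) = w.valuation L x := by
  obtain ⟨a, b, hb, rfl⟩ := IsFractionRing.div_surjective (A := 𝓞 L) x
  have e : ∀ r : 𝓞 L, σ (algebraMap (𝓞 L) L r) = algebraMap (𝓞 L) L (σ • r) := fun r ↦ rfl
  simp only [map_div₀, e, HeightOneSpectrum.valuation_of_algebraMap, intValuation_smul]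

lemma valuation_algebraMap (w : HeightOneSpectrum (𝓞 L)) (y : K) :
    w.valuation L (algebraMap K L y) = (primeUnder K w).valuation K y ^ ramIdx K w :=
  (HeightOneSpectrum.valuation_liesOver L (primeUnder K w) w y).symm

lemma exists_exp_bound {ι : Type*} [Finite ι] {w : HeightOneSpectrum (𝓞 L)} (f : ι → L) :
    ∃ C : ℕ, ∀ i, w.valuation L (f i) ≤ exp (C : ℤ) := by
  cases nonempty_fintype ι
  refine ⟨∑ i, (w.valuation L (f i)).log.natAbs, fun i ↦ ?_⟩
  by_cases h : w.valuation L (f i) = 0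
  · rw [h]; exact zero_le
  rw [← exp_log h, exp_le_exp]
  have h1 := Finset.single_le_sum (f := fun i ↦ (w.valuation L (f i)).log.natAbs)
    (fun _ _ ↦ Nat.zero_le _) (Finset.mem_univ i)
  omega

/-- If the Herbrand quotient is computed by a free rank-one subgroup on which the two maps are `0`
and multiplication by `p`, some cycle is not a boundary. -/
lemma exists_ker_not_range {A : Type*} [AddCommGroup A] (f g : A →+ A) {p : ℕ} (hp : 1 < p)
    (hfg : ∀ a, f (g a) = 0) (hgf : ∀ a, g (f a) = 0) (x₀ : A) (hf : f x₀ = 0)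
    (hg : g x₀ = (p : ℤ) • x₀) (hinj : ∀ k : ℤ, k • x₀ = 0 → k = 0)
    (hfin : Finite (A ⧸ AddSubgroup.zmultiples x₀)) (_hgker : Finite g.ker) :
    ∃ x, x ∈ f.ker ∧ x ∉ g.range := by
  set B := AddSubgroup.zmultiples x₀ with hB
  have hBidx : B.index ≠ 0 := Nat.card_ne_zero.mpr ⟨inferInstance, hfin⟩
  have hkey := herbrand_finite_index f g hfg hgf B
    (by rw [hB, AddMonoidHom.map_zmultiples, hf, AddSubgroup.zmultiples_zero_eq_bot]; exact bot_le)
    (by rw [hB, AddMonoidHom.map_zmultiples, hg, AddSubgroup.zmultiples_le]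
        exact ⟨(p : ℤ), rfl⟩) hBidx
  have hgB : herbIdxOn g f B = 1 := by
    have h1 : g.ker ⊓ B = ⊥ := by
      rw [eq_bot_iff]
      rintro x ⟨hx1, hx2⟩
      obtain ⟨k, rfl⟩ := hx2
      have h3 : g (k • x₀) = 0 := hx1
      rw [map_zsmul, hg, smul_smul] at h3
      have hk : k = 0 := by simpa [(zero_lt_one.trans hp).ne'] using hinj _ h3
      simp [hk]
    rw [herbIdxOn, h1, hB, AddMonoidHom.map_zmultiples, hf,
      AddSubgroup.zmultiples_zero_eq_bot, AddSubgroup.relIndex_self]
  have hfB : herbIdxOn f g B = p := by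
    have h1 : f.ker ⊓ B = B := by
      rw [inf_eq_right, hB, AddSubgroup.zmultiples_le]
      exact hf
    have h2 : B.map g = (AddSubgroup.zmultiples (p : ℤ)).map (zmultiplesHom _ x₀) := by
      rw [hB, AddMonoidHom.map_zmultiples, hg, AddMonoidHom.map_zmultiples]; rfl
    have h3 : B = (⊤ : AddSubgroup ℤ).map (zmultiplesHom _ x₀) := by
      ext x; simp [hB, AddSubgroup.mem_zmultiples_iff]
    rw [herbIdxOn, h1, h2]
    conv_lhs => arg 2; rw [h3]
    rw [AddSubgroup.relIndex_map_map_of_injective _ _ fun k l h ↦ by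
        have : (k - l) • x₀ = 0 := by
          rw [sub_smul, sub_eq_zero]; exact h
        exact sub_eq_zero.mp (hinj _ this),
      AddSubgroup.relIndex_top_right, Int.index_zmultiples, Int.natAbs_natCast]
  rw [hgB, hfB, mul_one] at hkey
  have hlt : herbIdx f g ≠ 1 := fun h1 ↦ by
    rw [h1] at hkey
    exact hp.ne' (Nat.eq_one_of_mul_eq_one_left hkey.symm)
  by_contra! hc
  exact hlt (AddSubgroup.relIndex_eq_one.mpr hc)

universe uG in
/-- The quotient by a subgroup stable under two endomorphisms, written additively. -/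
lemma exists_quotient_pair {G : Type uG} [CommGroup G] (V : Subgroup G) (fU gU : G →* G)
    (hf : V ≤ V.comap fU) (hg : V ≤ V.comap gU) (hfg : ∀ u, fU (gU u) = 1)
    (hgf : ∀ u, gU (fU u) = 1) :
    ∃ (A : Type uG) (_ : AddCommGroup A) (cl : G → A) (f g : A →+ A),
      Function.Surjective cl ∧ (∀ u u', cl (u * u') = cl u + cl u') ∧
      (∀ (u : G) (k : ℤ), cl (u ^ k) = k • cl u) ∧
      (∀ u u', u⁻¹ * u' ∈ V → cl u = cl u') ∧ (∀ u, cl u = 0 ↔ u ∈ V) ∧
      (∀ u, f (cl u) = cl (fU u)) ∧ (∀ u, g (cl u) = cl (gU u)) ∧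
      (∀ a, f (g a) = 0) ∧ (∀ a, g (f a) = 0) := by
  have hcl : Function.Surjective (fun u : G ↦ Additive.ofMul (u : G ⧸ V)) := fun x ↦ by
    obtain ⟨u, hu⟩ := QuotientGroup.mk_surjective (Additive.toMul x)
    exact ⟨u, by simp [hu]⟩
  refine ⟨Additive (G ⧸ V), inferInstance, fun u : G ↦ Additive.ofMul (u : G ⧸ V),
    (QuotientGroup.map V V fU hf).toAdditive, (QuotientGroup.map V V gU hg).toAdditive,
    hcl, fun u u' ↦ rfl, fun u k ↦ rfl,
    fun u u' h ↦ congrArg Additive.ofMul (QuotientGroup.eq.mpr h),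
    fun u ↦ QuotientGroup.eq_one_iff u, fun u ↦ rfl, fun u ↦ rfl, fun a ↦ ?_, fun a ↦ ?_⟩
  · obtain ⟨u, rfl⟩ := hcl a
    change Additive.ofMul ((fU (gU u) : G) : G ⧸ V) = 0
    rw [hfg]; rfl
  · obtain ⟨u, rfl⟩ := hcl a
    change Additive.ofMul ((gU (fU u) : G) : G ⧸ V) = 0
    rw [hgf]; rfl

variable [IsGalois K L]

section Lattice

local notation "bas" => IsGalois.normalBasis K L

/-- The dual of the normal basis for the trace form. -/
def dualVec (g : L ≃ₐ[K] L) : L :=
  ((Algebra.traceForm K L).toDual (traceForm_nondegenerate K L)).symm ((bas).coord g)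

lemma trace_dualVec_mul (g : L ≃ₐ[K] L) (x : L) :
    Algebra.trace K L (dualVec g * x) = (bas).repr x g := by
  have := LinearMap.BilinForm.apply_toDual_symm_apply
    (hB := traceForm_nondegenerate K L) ((bas).coord g) x
  rw [Algebra.traceForm_apply] at this
  exact this

/-- An element of trace one. -/
def traceOne : L := dualVec (K := K) (L := L) 1 * bas 1

lemma trace_traceOne : Algebra.trace K L (traceOne (K := K) : L) = 1 := by
  rw [traceOne, trace_dualVec_mul]
  simp

variable (K) in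
/-- `C` bounds the normal basis, its dual and an element of trace one at `w`. -/
def IsBound (w : HeightOneSpectrum (𝓞 L)) (C : ℕ) : Prop :=
  (∀ g : L ≃ₐ[K] L, w.valuation L (dualVec g) ≤ exp (C : ℤ)) ∧
    w.valuation L (bas 1) ≤ exp (C : ℤ) ∧ w.valuation L (traceOne (K := K) : L) ≤ exp (C : ℤ)

lemma exists_isBound (w : HeightOneSpectrum (𝓞 L)) : ∃ C, IsBound K w C := by
  obtain ⟨C, hC⟩ := exists_exp_bound (w := w)
    (fun i : (L ≃ₐ[K] L) ⊕ Bool ↦
      Sum.elim dualVec (fun t ↦ if t then bas 1 else traceOne (K := K)) i)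
  exact ⟨C, fun g ↦ hC (Sum.inl g), hC (Sum.inr true), hC (Sum.inr false)⟩

/-- The lattice spanned by `v^j` times the normal basis. -/
def Lam (v : HeightOneSpectrum (𝓞 K)) (j : ℕ) (x : L) : Prop :=
  ∀ g, v.valuation K ((bas).repr x g) ≤ exp (-(j : ℤ))

variable {v : HeightOneSpectrum (𝓞 K)}

lemma lam_zero (j : ℕ) : Lam v j (0 : L) := fun g ↦ by simp

lemma lam_add {j : ℕ} {x y : L} (hx : Lam v j x) (hy : Lam v j y) : Lam v j (x + y) := fun g ↦ by
  rw [map_add, Finsupp.add_apply]
  exact ((v.valuation K).map_add _ _).trans (max_le (hx g) (hy g))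

lemma lam_neg {j : ℕ} {x : L} (hx : Lam v j x) : Lam v j (-x) := fun g ↦ by
  rw [map_neg, Finsupp.neg_apply, (v.valuation K).map_neg]; exact hx g

lemma lam_mono {i j : ℕ} (hij : i ≤ j) {x : L} (hx : Lam v j x) : Lam v i x := fun g ↦
  (hx g).trans (exp_le_exp.mpr (by omega))

lemma repr_apply_smul (τ : L ≃ₐ[K] L) (x : L) (g : L ≃ₐ[K] L) :
    (bas).repr (τ x) g = (bas).repr x (τ⁻¹ * g) := by
  have h : τ x = ∑ h : L ≃ₐ[K] L, (bas).repr x (τ⁻¹ * h) • bas h := by
    conv_lhs => rw [← (bas).sum_repr x]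
    rw [map_sum]
    refine Fintype.sum_equiv (Equiv.mulLeft τ) _ _ fun h ↦ ?_
    rw [Algebra.smul_def, map_mul, AlgEquiv.commutes, Algebra.smul_def,
      IsGalois.normalBasis_apply h, IsGalois.normalBasis_apply (Equiv.mulLeft τ h)]
    simp [AlgEquiv.mul_apply]
  rw [h, (bas).repr_sum_self]

lemma lam_sigma (τ : L ≃ₐ[K] L) {j : ℕ} {x : L} (hx : Lam v j x) : Lam v j (τ x) := fun g ↦ by
  rw [repr_apply_smul]; exact hx _

lemma lam_sub_one_sigma (τ : L ≃ₐ[K] L) {j : ℕ} {x : L} (hx : Lam v j (x - 1)) :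
    Lam v j (τ x - 1) := by
  rw [← map_one τ, ← map_sub]; exact lam_sigma τ hx

variable {w : HeightOneSpectrum (𝓞 L)} {C : ℕ}

/-- The threshold from which `1 + Λ_j` is a group. -/
abbrev lev (C : ℕ) : ℕ := 3 * C + 2

omit [IsGalois K L] [NumberField K] in
lemma lev_le (w : HeightOneSpectrum (𝓞 L)) {j : ℕ} (hj : lev C ≤ j) :
    (3 * C + ramIdx K w + 1 : ℤ) ≤ ramIdx K w * j := by
  have he0 : 0 < ramIdx K w := ramIdx_pos w
  set e := ramIdx K w
  have h1 : e * lev C ≤ e * j := Nat.mul_le_mul_left e hj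
  have h2 : 3 * C ≤ e * (3 * C) := Nat.le_mul_of_pos_left _ he0
  have h3 : e * lev C = e * (3 * C) + 2 * e := by rw [lev]; ring
  have h4 : 3 * C + e + 1 ≤ e * j := by omega
  exact_mod_cast h4

omit [IsGalois K L] [NumberField K] in
lemma valuation_galois (hfix : ∀ σ : L ≃ₐ[K] L, σ • w = w) (g : L ≃ₐ[K] L) (x : L) :
    w.valuation L (g x) = w.valuation L x := by
  have := valuation_smul g w x
  rw [hfix g] at this
  exact this

omit [IsGalois K L] in
lemma valuation_algebraMap_pow (w : HeightOneSpectrum (𝓞 L)) (j : ℕ) {c : K}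
    (hc : (primeUnder K w).valuation K c ≤ exp (-(j : ℤ))) :
    w.valuation L (algebraMap K L c) ≤ exp (-((ramIdx K w : ℤ) * j)) := by
  rw [valuation_algebraMap]
  refine (pow_le_pow_left₀ zero_le hc _).trans (le_of_eq ?_)
  rw [← exp_nsmul, nsmul_eq_mul, mul_neg]

variable (hfix : ∀ σ : L ≃ₐ[K] L, σ • w = w) (hC : IsBound K w C)
include hfix hC

lemma lam_val {j : ℕ} {x : L} (hx : Lam (primeUnder K w) j x) :
    w.valuation L x ≤ exp (-((ramIdx K w : ℤ) * j) + C) := by
  conv_lhs => rw [← (bas).sum_repr x]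
  refine Valuation.map_sum_le _ fun g _ ↦ ?_
  rw [Algebra.smul_def, map_mul, IsGalois.normalBasis_apply g, valuation_galois hfix, exp_add]
  exact mul_le_mul' (valuation_algebraMap_pow w j (hx g)) hC.2.1

lemma lam_of_val {j : ℕ} {x : L}
    (hx : w.valuation L x ≤ exp (-((ramIdx K w : ℤ) * j + C))) :
    Lam (primeUnder K w) j x := by
  intro g
  rw [← trace_dualVec_mul]
  set e := ramIdx K w
  have h1 : w.valuation L (algebraMap K L (Algebra.trace K L (dualVec g * x))) ≤
      exp (-((e : ℤ) * j)) := by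
    rw [trace_eq_sum_automorphisms]
    refine Valuation.map_sum_le _ fun τ _ ↦ ?_
    rw [valuation_galois hfix, map_mul,
      show -((e : ℤ) * j) = (C : ℤ) + -((e : ℤ) * j + C) by ring, exp_add]
    exact mul_le_mul' (hC.1 g) hx
  rw [valuation_algebraMap] at h1
  refine (pow_le_pow_iff_left₀ zero_le zero_le (ramIdx_pos w).ne').mp (h1.trans (le_of_eq ?_))
  rw [← exp_nsmul, nsmul_eq_mul, mul_neg]

lemma lam_mul {j : ℕ} (hj : lev C ≤ j) {x y : L} (hx : Lam (primeUnder K w) j x)
    (hy : Lam (primeUnder K w) j y) : Lam (primeUnder K w) (j + 1) (x * y) := by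
  refine lam_of_val hfix hC ?_
  rw [map_mul]
  refine (mul_le_mul' (lam_val hfix hC hx) (lam_val hfix hC hy)).trans ?_
  rw [← exp_add, exp_le_exp]
  have := lev_le (K := K) w hj
  push_cast
  linarith

lemma inv_val {j : ℕ} (hj : lev C ≤ j) {x : L} (hx : Lam (primeUnder K w) j (x - 1)) :
    w.valuation L x = 1 := by
  have := Valuation.map_one_add_of_lt (w.valuation L) (x := x - 1) ((lam_val hfix hC hx).trans_lt
    (by rw [← exp_zero, exp_lt_exp]; have := lev_le (K := K) w hj; linarith))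
  simpa using this

lemma inv_mul' {j : ℕ} (hj : lev C ≤ j) {x y : L} (hx : Lam (primeUnder K w) j (x - 1))
    (hy : Lam (primeUnder K w) j (y - 1)) : Lam (primeUnder K w) j (x * y - 1) := by
  rw [show x * y - 1 = (x - 1) + (y - 1) + (x - 1) * (y - 1) by ring]
  exact lam_add (lam_add hx hy) (lam_mono (Nat.le_succ j) (lam_mul hfix hC hj hx hy))

lemma inv_inv' {j : ℕ} (hj : lev C ≤ j) {x : L} (hx : Lam (primeUnder K w) j (x - 1)) :
    Lam (primeUnder K w) j (x⁻¹ - 1) := by
  have hx1 := inv_val hfix hC hj hx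
  have hx0 : x ≠ 0 := fun h ↦ by simp [h] at hx1
  rw [show x⁻¹ - 1 = -(x - 1) + (x - 1) * (x - 1) * x⁻¹ by field_simp; ring]
  refine lam_add (lam_neg hx) (lam_of_val hfix hC ?_)
  rw [map_mul, map_mul, map_inv₀, hx1, inv_one, mul_one]
  refine (mul_le_mul' (lam_val hfix hC hx) (lam_val hfix hC hx)).trans ?_
  rw [← exp_add, exp_le_exp]
  have := lev_le (K := K) w hj
  linarith

/-- Successive approximation: an element nearly fixed by the Galois group is, up to `1 + Λ_M`,
in `K`. -/
lemma exists_descent {y : L} (hy0 : y ≠ 0)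
    (hall : ∀ τ : L ≃ₐ[K] L, Lam (primeUnder K w) (lev C + 3 * C) (τ y / y - 1)) :
    ∃ a : K, a ≠ 0 ∧ Lam (primeUnder K w) (lev C + 3 * C) (y / algebraMap K L a - 1) := by
  set e := ramIdx K w with he
  have he0 : 0 < e := ramIdx_pos w
  set M := lev C + 3 * C with hM
  set a := Algebra.trace K L (traceOne (K := K) * y) with ha
  have hay : w.valuation L (algebraMap K L a / y - 1) ≤ exp (-((e : ℤ) * lev C + C)) := by
    have h1 : algebraMap K L a / y - 1 =
        ∑ τ : L ≃ₐ[K] L, τ (traceOne (K := K)) * (τ y / y - 1) := by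
      have h2 : ∑ τ : L ≃ₐ[K] L, τ (traceOne (K := K) : L) = 1 := by
        rw [← trace_eq_sum_automorphisms, trace_traceOne, map_one]
      simp only [mul_sub, Finset.sum_sub_distrib, mul_one, h2, mul_div_assoc', ← Finset.sum_div,
        ← map_mul, ha, trace_eq_sum_automorphisms]
    rw [h1]
    refine Valuation.map_sum_le _ fun τ _ ↦ ?_
    rw [map_mul, valuation_galois hfix]
    refine (mul_le_mul' hC.2.2 (lam_val hfix hC (hall τ))).trans ?_
    rw [← exp_add, exp_le_exp]
    have h2 : (e : ℤ) * M = e * lev C + e * (3 * C) := by rw [hM]; push_cast; ring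
    have h3 : (3 * C : ℤ) ≤ e * (3 * C) :=
      le_mul_of_one_le_left (by positivity) (by exact_mod_cast he0)
    linarith
  have hquot := lam_of_val hfix hC (x := algebraMap K L a / y - 1) hay
  have hW1 := inv_val hfix hC le_rfl hquot
  have ha0 : a ≠ 0 := fun h ↦ by simp [h] at hW1
  have hstep : ∀ j, lev C ≤ j → j ≤ M →
      ∃ a' : K, a' ≠ 0 ∧ Lam (primeUnder K w) j (y / algebraMap K L a' - 1) := by
    intro j hj
    induction j, hj using Nat.le_induction with
    | base =>
      intro _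
      exact ⟨a, ha0, by simpa using inv_inv' hfix hC le_rfl hquot⟩
    | succ j hj ih =>
      intro hjM'
      obtain ⟨a', ha', hμΛ⟩ := ih (by omega)
      set z := y / algebraMap K L a' with hz'
      set μ := z - 1 with hμ
      have hzW := inv_val hfix hC hj hμΛ
      have hz0 : z ≠ 0 := fun h ↦ by simp [h] at hzW
      have hdiff : ∀ τ : L ≃ₐ[K] L, Lam (primeUnder K w) (j + 1) (τ μ - μ) := by
        intro τ
        have h1 : τ z / z = τ y / y := by
          simp only [hz', map_div₀, AlgEquiv.commutes]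
          have : algebraMap K L a' ≠ 0 := by simpa using ha'
          field_simp
        have h2 : τ μ - μ = (τ y / y - 1) + (τ y / y - 1) * μ := by
          rw [← h1, hμ, map_sub, map_one]
          field_simp
          ring
        have hδ := lam_mono hjM' (hall τ)
        rw [h2]
        exact lam_add hδ (lam_mul hfix hC hj (lam_mono (Nat.le_succ j) hδ) hμΛ)
      set c := (bas).repr μ 1 with hc
      set T := Algebra.trace K L (bas 1) with hT
      have hTsum : algebraMap K L (c * T) = ∑ g : L ≃ₐ[K] L, c • bas g := by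
        rw [map_mul, hT, trace_eq_sum_automorphisms, Finset.mul_sum]
        exact Finset.sum_congr rfl fun g _ ↦ by
          rw [IsGalois.normalBasis_apply g, Algebra.smul_def]
      set z' := 1 + algebraMap K L (c * T) with hz''
      have hcΛ : Lam (primeUnder K w) j (z' - 1) := by
        intro g
        rw [hz'', add_sub_cancel_left, hTsum, (bas).repr_sum_self]
        exact hμΛ 1
      have hsub : Lam (primeUnder K w) (j + 1) (μ - algebraMap K L (c * T)) := by
        intro g
        rw [map_sub, Finsupp.sub_apply, hTsum, (bas).repr_sum_self]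
        have h2 := hdiff g⁻¹ 1
        rwa [map_sub, Finsupp.sub_apply, repr_apply_smul, inv_inv, mul_one] at h2
      have hz'W := inv_val hfix hC hj hcΛ
      have hz'0 : z' ≠ 0 := fun h ↦ by simp [h] at hz'W
      have hK : (1 + c * T : K) ≠ 0 := fun h ↦ hz'0 (by
        rw [hz'', ← map_one (algebraMap K L), ← map_add, h, map_zero])
      refine ⟨a' * (1 + c * T), mul_ne_zero ha' hK, ?_⟩
      have heq : y / algebraMap K L (a' * (1 + c * T)) - 1 =
          (μ - algebraMap K L (c * T)) + (μ - algebraMap K L (c * T)) * (z'⁻¹ - 1) := by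
        rw [map_mul (algebraMap K L) a', map_add, map_one, ← hz'',
          show y / (algebraMap K L a' * z') = z * z'⁻¹ by rw [hz']; field_simp, hμ,
          show algebraMap K L (c * T) = z' - 1 by rw [hz'']; ring]
        field_simp
        ring
      rw [heq]
      exact lam_add hsub (lam_mul hfix hC hj (lam_mono (Nat.le_succ j) hsub)
        (inv_inv' hfix hC hj hcΛ))
  exact hstep M (Nat.le_add_right _ _) le_rfl

/-- The group `1 + Λ_M`. -/
def lamGroup : Subgroup Lˣ where
  carrier := {u | Lam (primeUnder K w) (lev C + 3 * C) ((u : L) - 1)}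
  one_mem' := by simp [lam_zero]
  mul_mem' := fun {a b} ha hb ↦ by
    simpa using inv_mul' hfix hC (Nat.le_add_right _ _) ha hb
  inv_mem' := fun {a} ha ↦ by simpa using inv_inv' hfix hC (Nat.le_add_right _ _) ha

end Lattice

open Classical in
/-- At a non-split place some element of `K` is not a local norm. -/
theorem exists_not_isLocalNormAt {p : ℕ} (hp : p.Prime) (hdeg : finrank K L = p)
    {w : HeightOneSpectrum (𝓞 L)} (hfix : ∀ σ : L ≃ₐ[K] L, σ • w = w) :
    ∃ a : K, a ≠ 0 ∧ ¬ IsLocalNormAt K L (primeUnder K w) a := by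
  set v := primeUnder K w with hv
  set e := ramIdx K w with he
  have he0 : 0 < e := ramIdx_pos w
  set W := w.valuation L
  set Vl := v.valuation K
  have hWσ : ∀ (g : L ≃ₐ[K] L) (x : L), W (g x) = W x := valuation_galois hfix
  have hWK : ∀ y : K, W (algebraMap K L y) = Vl y ^ e := valuation_algebraMap w
  obtain ⟨σ₀, hσ₀⟩ := exists_ne_one hp hdeg
  obtain ⟨C, hC⟩ := exists_isBound (K := K) w
  set M : ℕ := lev C + 3 * C with hM
  have hjM : lev C ≤ M := Nat.le_add_right _ _
  obtain ⟨Vg, hmem⟩ : ∃ V : Subgroup Lˣ, ∀ u : Lˣ, u ∈ V ↔ Lam v M ((u : L) - 1) :=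
    ⟨lamGroup hfix hC, fun _ ↦ Iff.rfl⟩
  have hVσ : ∀ (τ : L ≃ₐ[K] L) (u : Lˣ), u ∈ Vg →
      Units.map ((τ : L →* L)) u ∈ Vg := fun τ u hu ↦
    (hmem _).mpr (lam_sub_one_sigma τ ((hmem _).mp hu))
  let fU : Lˣ →* Lˣ := Units.map (σ₀ : L →* L) / MonoidHom.id Lˣ
  let gU : Lˣ →* Lˣ := Units.map ((algebraMap K L).toMonoidHom.comp (Algebra.norm K))
  have hfV : Vg ≤ Vg.comap fU := fun u hu ↦ by
    simp only [Subgroup.mem_comap, fU, MonoidHom.div_apply, MonoidHom.id_apply]
    exact Vg.div_mem (hVσ σ₀ u hu) hu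
  have hgV : Vg ≤ Vg.comap gU := fun u hu ↦ by
    have : gU u = ∏ τ : L ≃ₐ[K] L, Units.map (τ : L →* L) u := by
      refine Units.ext ?_
      simp [gU, Algebra.norm_eq_prod_automorphisms]
    rw [Subgroup.mem_comap, this]
    exact Subgroup.prod_mem _ fun τ _ ↦ hVσ τ u hu
  have hfU1 : ∀ u, fU (gU u) = 1 := fun u ↦ Units.ext (by simp [fU, gU])
  have hgU1 : ∀ u, gU (fU u) = 1 := fun u ↦ Units.ext (by
    have : Algebra.norm K (σ₀ (u : L)) = Algebra.norm K (u : L) :=
      (Algebra.norm_eq_of_algEquiv σ₀ _).symm ▸ rfl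
    have hu0 : Algebra.norm K (u : L) ≠ 0 := norm_ne_zero' u.ne_zero
    simp [fU, gU, div_eq_mul_inv, this, hu0])
  obtain ⟨A, hA, cl, f, g, hcl, hcl_mul, hcl_zpow, hcl_eq, hcl_zero, hf_cl, hg_cl, hfg, hgf⟩ :=
    exists_quotient_pair Vg fU gU hfV hgV hfU1 hgU1
  -- finiteness of the unit part
  set n : ℕ := e * M + C + 1 with hn
  have hVof : ∀ u : Lˣ, W ((u : L) - 1) ≤ exp (-(n : ℤ)) → u ∈ Vg := fun u hu ↦
    (hmem _).mpr <| lam_of_val hfix hC (hu.trans (exp_le_exp.mpr (by simp only [hn, hM, he, lev]; push_cast; linarith)))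
  have : Finite (𝓞 L ⧸ w.asIdeal ^ n) :=
    Ring.HasFiniteQuotients.finiteQuotient (pow_ne_zero n w.ne_bot)
  let Wu : Set (A) := cl '' {u | W (u : L) = 1}
  have hWfin : Wu.Finite := by
    let T : (𝓞 L ⧸ w.asIdeal ^ n) → A := fun r ↦
      if h : algebraMap (𝓞 L) L (Quotient.out r) = 0 then 0 else cl (Units.mk0 _ h)
    refine (Set.finite_range T).subset ?_
    rintro _ ⟨u, hu, rfl⟩
    obtain ⟨a, ha⟩ := w.exists_valuation_sub_lt_of_integer (K := L) (x := (u : L)) (le_of_eq hu)
      (Units.mk0 (exp (-(n : ℤ))) exp_ne_zero)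
    refine ⟨Ideal.Quotient.mk _ a, ?_⟩
    set r := Quotient.out (Ideal.Quotient.mk (w.asIdeal ^ n) a) with hr
    have hra : W (algebraMap (𝓞 L) L r - algebraMap (𝓞 L) L a) ≤ exp (-(n : ℤ)) := by
      rw [← map_sub, w.valuation_of_algebraMap, w.intValuation_le_pow_iff_mem,
        ← Ideal.Quotient.mk_eq_mk_iff_sub_mem]
      exact Quotient.out_eq _
    have hru : W (algebraMap (𝓞 L) L r - u) ≤ exp (-(n : ℤ)) := by
      rw [show algebraMap (𝓞 L) L r - u =
        (algebraMap (𝓞 L) L r - algebraMap (𝓞 L) L a) + (algebraMap (𝓞 L) L a - u) by ring]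
      exact (W.map_add _ _).trans (max_le hra (by simpa using ha.le))
    have hr0 : algebraMap (𝓞 L) L r ≠ 0 := fun h0 ↦ by
      rw [h0, zero_sub, W.map_neg, hu] at hru
      exact absurd hru (not_le.mpr (exp_neg_lt_one (by omega)))
    simp only [T]
    rw [dif_neg hr0]
    refine (hcl_eq _ _ (hVof _ ?_)).symm
    rw [Units.val_mul, Units.val_inv_eq_inv_val, Units.val_mk0,
      show (u : L)⁻¹ * algebraMap (𝓞 L) L r - 1 = (u : L)⁻¹ * (algebraMap (𝓞 L) L r - u) by
        field_simp [u.ne_zero],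
      map_mul, map_inv₀, hu, inv_one, one_mul]
    exact hru
  obtain ⟨π₀, hπ₀⟩ := v.valuation_exists_uniformizer K
  obtain ⟨ω, hω⟩ := w.valuation_exists_uniformizer L
  have hπ0 : π₀ ≠ 0 := fun h ↦ by rw [h, map_zero] at hπ₀; exact exp_ne_zero hπ₀.symm
  have hω0 : ω ≠ 0 := fun h ↦ by rw [h, map_zero] at hω; exact exp_ne_zero hω.symm
  have hπL : algebraMap K L π₀ ≠ 0 := (map_ne_zero _).mpr hπ0
  let π : Lˣ := Units.mk0 (algebraMap K L π₀) hπL
  let ωu : Lˣ := Units.mk0 ω hω0
  have hWπ : W (π : L) = exp (-(e : ℤ)) := by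
    simp only [π, Units.val_mk0]
    rw [hWK, hπ₀, ← exp_nsmul, nsmul_eq_mul, mul_neg, mul_one]
  set B : AddSubgroup (A) := AddSubgroup.zmultiples (cl π) with hB
  have hfin : Finite (A ⧸ B) := by
    have := hWfin.to_subtype
    refine Finite.of_surjective
      (fun q : Wu × Fin e ↦ (QuotientAddGroup.mk ((q.1 : A) + cl (ωu ^ (q.2 : ℕ))) :
        A ⧸ B)) fun x ↦ ?_
    obtain ⟨a, rfl⟩ := QuotientAddGroup.mk_surjective x
    obtain ⟨u, rfl⟩ := hcl a
    set k := -(W (u : L)).log with hk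
    have hu : W (u : L) = exp (-k) := by
      rw [hk, neg_neg, exp_log]; simp
    have hei : 0 < (e : ℤ) := by exact_mod_cast he0
    refine ⟨(⟨cl (u * (π ^ (k / e))⁻¹ * (ωu ^ (k % e).toNat)⁻¹), _, ?_, rfl⟩,
      ⟨(k % e).toNat, ?_⟩), ?_⟩
    · change W ((u * (π ^ (k / e))⁻¹ * (ωu ^ (k % e).toNat)⁻¹ : Lˣ) : L) = 1
      simp only [Units.val_mul, Units.val_inv_eq_inv_val, Units.val_zpow_eq_zpow_val,
        Units.val_pow_eq_pow_val, map_mul, map_inv₀, map_zpow₀, map_pow, hWπ, hu]
      rw [show W (ωu : L) = exp (-1) from hω, ← exp_zsmul, ← exp_nsmul, ← exp_neg, ← exp_neg,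
        ← exp_add, ← exp_add, ← exp_zero]
      congr 1
      rw [smul_eq_mul, nsmul_eq_mul, Int.toNat_of_nonneg (Int.emod_nonneg _ hei.ne')]
      have := Int.ediv_mul_add_emod k (e : ℤ)
      linarith
    · have := Int.emod_lt_of_pos k hei
      have := Int.emod_nonneg k hei.ne'
      omega
    · simp only
      rw [← hcl_mul, inv_mul_cancel_right]
      refine (QuotientAddGroup.eq).mpr ?_
      refine ⟨k / e, ?_⟩
      show (k / e) • cl π = -cl (u * (π ^ (k / e))⁻¹) + cl u
      have hinv : cl ((π ^ (k / e))⁻¹) = -((k / e : ℤ) • cl π) := by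
        rw [← zpow_neg, hcl_zpow, neg_zsmul]
      rw [hcl_mul, hinv]
      abel
  have hgπ : g (cl π) = (p : ℤ) • cl π := by
    rw [hg_cl, ← hcl_zpow]
    congr 1
    refine Units.ext ?_
    simp [gU, π, Algebra.norm_algebraMap, hdeg, map_pow]
  have hfπ : f (cl π) = 0 := by
    rw [hf_cl, show fU π = 1 from Units.ext (by simp [fU, π, hπ0])]
    exact (hcl_zero 1).mpr (one_mem _)
  have hBinj : ∀ k : ℤ, k • cl π = 0 → k = 0 := by
    intro k hk
    rw [← hcl_zpow, hcl_zero] at hk
    have h1 := inv_val hfix hC hjM ((hmem _).mp hk)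
    rw [Units.val_zpow_eq_zpow_val, map_zpow₀, hWπ, ← exp_zsmul, ← exp_zero] at h1
    have h2 := exp_injective h1
    simp only [smul_eq_mul, mul_neg, neg_eq_zero, mul_eq_zero] at h2
    rcases h2 with h2 | h2
    · exact h2
    · omega
  have hgker : Finite (g.ker) := by
    have hsub : (g.ker : Set (A)) ⊆ Wu := by
      intro x hx
      obtain ⟨u, rfl⟩ := hcl x
      have h1 : cl (gU u) = 0 := (hg_cl u).symm.trans hx
      have h2 := inv_val hfix hC hjM ((hmem _).mp ((hcl_zero _).mp h1))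
      refine ⟨u, ?_, rfl⟩
      have h3 : W (((gU u : Lˣ) : L)) = W (u : L) ^ p := by
        simp only [gU, Units.coe_map, MonoidHom.coe_comp, Function.comp_apply,
          RingHom.toMonoidHom_eq_coe, MonoidHom.coe_coe, Algebra.norm_eq_prod_automorphisms,
          map_prod, hWσ, Finset.prod_const, Finset.card_univ]
        rw [Fintype.card_eq_nat_card, IsGalois.card_aut_eq_finrank, hdeg]
      rw [h3] at h2
      exact (pow_eq_one_iff_of_nonneg zero_le hp.ne_zero).mp h2
    exact (hWfin.subset hsub).to_subtype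
  obtain ⟨x, hxf, hxg⟩ := exists_ker_not_range (A := A) f g hp.one_lt hfg hgf
    (cl π) hfπ hgπ hBinj hfin hgker
  obtain ⟨u, rfl⟩ := hcl x
  have hfu : fU u ∈ Vg := (hcl_zero _).mp ((hf_cl u).symm.trans hxf)
  -- `σ y / y ∈ 1 + Λ_M` for every automorphism
  have hall : ∀ τ : L ≃ₐ[K] L, Lam v M (τ (u : L) / u - 1) := by
    intro τ
    obtain ⟨k, rfl⟩ := Submonoid.mem_powers_iff _ _ |>.mp
      (mem_powers_iff_mem_zpowers.mpr (mem_zpowers_of_ne_one hp hdeg hσ₀ τ))
    induction k with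
    | zero => simp [lam_zero]
    | succ k ih =>
      have h1 : Lam v M (σ₀ (u : L) / u - 1) := by
        have : Lam v M (((fU u : Lˣ) : L) - 1) := (hmem _).mp hfu
        simpa [fU, div_eq_mul_inv] using this
      have h3 := inv_mul' hfix hC hjM (lam_sub_one_sigma σ₀ ih) h1
      rw [map_div₀] at h3
      rw [pow_succ', AlgEquiv.mul_apply]
      convert h3 using 1
      have : σ₀ (u : L) ≠ 0 := by simp
      field_simp [u.ne_zero]
  obtain ⟨a', ha', hya⟩ := exists_descent hfix hC u.ne_zero hall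
  refine ⟨a', ha', fun hloc ↦ hxg ?_⟩
  obtain ⟨x, hx, hax⟩ := hloc n
  refine ⟨cl (Units.mk0 x hx), ?_⟩
  rw [hg_cl]
  refine hcl_eq _ _ ((hmem _).mpr ?_)
  change Lam v M ((((gU (Units.mk0 x hx))⁻¹ * u : Lˣ) : L) - 1)
  have hN0 : algebraMap K L (Algebra.norm K x) ≠ 0 := (map_ne_zero _).mpr (norm_ne_zero' hx)
  have ha0' : algebraMap K L a' ≠ 0 := by simpa using ha'
  rw [Units.val_mul, Units.val_inv_eq_inv_val,
    show ((gU (Units.mk0 x hx) : Lˣ) : L) = algebraMap K L (Algebra.norm K x) from rfl,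
    show (algebraMap K L (Algebra.norm K x))⁻¹ * (u : L) =
      algebraMap K L (a' / Algebra.norm K x) * ((u : L) / algebraMap K L a') by
        rw [map_div₀]; field_simp]
  refine inv_mul' hfix hC hjM (lam_of_val hfix hC ?_) hya
  rw [← map_one (algebraMap K L), ← map_sub, hWK]
  refine (pow_le_pow_left₀ zero_le hax e).trans ?_
  rw [← exp_nsmul, exp_le_exp, nsmul_eq_mul]
  have h1 : n ≤ e * n := Nat.le_mul_of_pos_left _ he0
  have h2 : (e : ℤ) * M + C + 1 = (n : ℤ) := by simp [n]
  have h3 : (n : ℤ) ≤ e * n := by exact_mod_cast h1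
  linarith

end

end Fermat.Agent.CFT
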