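import Fermat.Agent.CFT.SecondIndex
import Fermat.Agent.CFT.LocalIndex

/-!
Hasse's norm theorem for cyclic extensions of prime degree, local indices, and the cokernel of
`Kˣ → ⊕ᵥ` (local norm classes).
-/

set_option autoImplicit false

namespace Fermat.Agent.CFT

open NumberField IsDedekindDomain Module
open scoped Classical

noncomputable section

variable {K L : Type} [Field K] [NumberField K] [Field L] [NumberField L] [Algebra K L]
  [IsGalois K L] {p : ℕ}

omit [IsGalois K L] in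
lemma pow_prime_mem_locNorms (hdeg : finrank K L = p) (v : HeightOneSpectrum (𝓞 K)) (x : Kˣ) :
    x ^ p ∈ locNorms K L v := by
  rw [mem_locNorms, Units.val_pow_eq_pow_val, ← hdeg]
  exact isLocalNormAt_pow_finrank x.ne_zero

lemma normSUnits_le_locS (S : Finset (HeightOneSpectrum (𝓞 K))) :
    normSUnits L S ≤ locS L S := by
  rintro _ ⟨y, -, rfl⟩
  exact mem_locS.mpr fun v _ ↦ by simpa using isLocalNormAt_norm y.ne_zero

omit [IsGalois K L] in
/-- Weak approximation gives a surjection onto the local norm class groups. -/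
lemma exists_near_class (S : Finset (HeightOneSpectrum (𝓞 K)))
    (a : HeightOneSpectrum (𝓞 K) → K) (ha : ∀ v ∈ S, a v ≠ 0) :
    ∃ x : K, x ≠ 0 ∧ ∀ v ∈ S, IsLocalNormAt K L v (x / a v) := by
  choose n hn1 hn using fun v : HeightOneSpectrum (𝓞 K) ↦ exists_near_isLocalNormAt (L := L) v
  obtain ⟨x, hx, hxa⟩ := exists_near_div' S a ha (S.sup n)
  exact ⟨x, hx, fun v hv ↦ hn v _ ((hxa v hv).mono v (Finset.le_sup hv))⟩

variable [IsUnramifiedAtInfinitePlaces K L]

/-- The global indices for a large set of places. -/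
theorem index_facts (hp : p.Prime) (hdeg : finrank K L = p)
    {S : Finset (HeightOneSpectrum (𝓞 K))} (hS : IsGood L S) :
    (sUnits K (S : Set (HeightOneSpectrum (𝓞 K))) ⊔ locS L S).index = p ∧
      sUnits K (S : Set (HeightOneSpectrum (𝓞 K))) ⊓ locS L S ≤ normSUnits L S ∧
      ∀ v ∈ S, IsNonSplit K L v → (locNorms K L v).index = p := by
  have := Fact.mk hp
  set U := sUnits K (S : Set (HeightOneSpectrum (𝓞 K)))
  set NU := normSUnits L S
  set W := locS L S
  have hfirst := relIndex_normSUnits (L := L) S hp hdeg hS.unramified hS.gen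
  obtain ⟨hc0, hc⟩ := index_sUnits_sup_locS_le hp hdeg hS
  set a := NU.relIndex U
  set b := (U ⊓ W).relIndex U
  set c := (U ⊔ W).index
  have hle : NU ≤ U ⊓ W := le_inf (normSUnits_le S) (normSUnits_le_locS S)
  have hab : NU.relIndex (U ⊓ W) * b = a :=
    Subgroup.relIndex_mul_relIndex _ _ _ hle inf_le_left
  have ha0 : a ≠ 0 := fun h ↦ by
    rw [h, zero_mul] at hfirst
    exact (pow_ne_zero _ hp.ne_zero) hfirst.symm
  have hWidx : W.index = b * c := by
    rw [← Subgroup.relIndex_mul_index (show W ≤ U ⊔ W from le_sup_right),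
      Subgroup.relIndex_sup_right]
    congr 1
    exact (Subgroup.inf_relIndex_left U W).symm
  set ns := S.filter fun v ↦ IsNonSplit K L v
  let D := MonoidHom.mk' (M := Kˣ) (G := (v : ns) → Kˣ ⧸ locNorms K L v.1)
    (fun x v ↦ QuotientGroup.mk x) fun _ _ ↦ rfl
  have hD : Function.Surjective D := by
    intro t
    choose t' ht' using fun v : ns ↦ QuotientGroup.mk'_surjective _ (t v)
    obtain ⟨x, hx, hxt⟩ := exists_near_class (L := L) ns
      (fun v ↦ if hv : v ∈ ns then (t' ⟨v, hv⟩ : K) else 1)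
      (fun v hv ↦ by rw [dif_pos hv]; exact Units.ne_zero _)
    refine ⟨Units.mk0 x hx, funext fun v ↦ ?_⟩
    rw [← ht' v]
    refine (QuotientGroup.eq).mpr ?_
    rw [mem_locNorms, Units.val_mul, Units.val_inv_eq_inv_val, Units.val_mk0]
    have h1 := (hxt v.1 v.2).inv
    rw [dif_pos v.2, inv_div] at h1
    convert h1 using 1
    ring
  have hker : W ≤ D.ker := fun x hx ↦ funext fun v ↦
    (QuotientGroup.eq_one_iff _).mpr (mem_locS.mp hx v.1 (Finset.mem_filter.mp v.2).1)
  have hdvd : ∏ v : ns, (locNorms K L v.1).index ∣ W.index := by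
    have h := Subgroup.index_dvd_of_le hker
    rw [Subgroup.index_ker D, MonoidHom.range_eq_top.mpr hD, Subgroup.card_top, Nat.card_pi] at h
    exact h
  have hWle : W.index ≤ a * p := by
    rw [hWidx]
    exact Nat.mul_le_mul (Nat.le_of_dvd (Nat.pos_of_ne_zero ha0) ⟨_, by rw [mul_comm, hab]⟩) hc
  have hb0 : b ≠ 0 := fun h ↦ by rw [h, mul_zero] at hab; exact ha0 hab.symm
  have hW0 : W.index ≠ 0 := by rw [hWidx]; exact mul_ne_zero hb0 hc0
  have hge : ∀ v : ns, p ≤ (locNorms K L v.1).index := by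
    intro v
    obtain ⟨hvS, hvns⟩ := Finset.mem_filter.mp v.2
    have h0 : (locNorms K L v.1).index ≠ 0 := fun h ↦
      hW0 (Nat.eq_zero_of_zero_dvd ((Finset.prod_eq_zero (f := fun u : ns ↦ (locNorms K L u.1).index) (Finset.mem_univ v) h) ▸ hdvd))
    have : (locNorms K L v.1).FiniteIndex := ⟨h0⟩
    obtain ⟨x, hx, hxn⟩ := exists_not_isLocalNormAt hp hdeg
      ((isNonSplit_iff (primeUnder_someAbove (L := L) v.1)).mp hvns)
    rw [primeUnder_someAbove] at hxn
    have hord : orderOf (QuotientGroup.mk (s := locNorms K L v.1) (Units.mk0 x hx)) = p :=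
      orderOf_eq_prime ((QuotientGroup.eq_one_iff _).mpr (pow_prime_mem_locNorms hdeg v.1 _))
        fun h ↦ hxn ((mem_locNorms (x := Units.mk0 x hx)).mp ((QuotientGroup.eq_one_iff _).mp h))
    calc p = orderOf _ := hord.symm
      _ ≤ Nat.card (Kˣ ⧸ locNorms K L v.1) := Nat.le_of_dvd Nat.card_pos (orderOf_dvd_natCard _)
  have hcard : p ^ nonSplitCount L S = ∏ _v : ns, p := by
    rw [Finset.prod_const, Finset.card_univ, Fintype.card_coe]; rfl
  have hprod : ∏ v : ns, (locNorms K L v.1).index ≤ ∏ _v : ns, p :=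
    hcard ▸ hfirst ▸ (Nat.le_of_dvd (Nat.pos_of_ne_zero hW0) hdvd).trans hWle
  have heq : ∀ v : ns, (locNorms K L v.1).index = p := by
    intro v
    refine le_antisymm ?_ (hge v)
    by_contra hlt
    exact absurd hprod (not_le.mpr (Finset.prod_lt_prod (fun _ _ ↦ hp.pos) (fun u _ ↦ hge u)
      ⟨v, Finset.mem_univ v, not_le.mp hlt⟩))
  have hWeq : W.index = a * p := le_antisymm hWle (by
    rw [hfirst, hcard, ← Finset.prod_congr rfl fun v _ ↦ heq v]
    exact Nat.le_of_dvd (Nat.pos_of_ne_zero hW0) hdvd)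
  have hbc : b = a ∧ c = p := by
    have hba : b ≤ a := Nat.le_of_dvd (Nat.pos_of_ne_zero ha0) ⟨_, by rw [mul_comm, hab]⟩
    have h1 : b * c = a * p := hWidx ▸ hWeq
    refine ⟨le_antisymm hba ?_, le_antisymm hc ?_⟩
    · by_contra h
      exact absurd h1 (Nat.mul_lt_mul_of_lt_of_le (not_le.mp h) hc hp.pos).ne
    · by_contra h
      exact absurd h1 (Nat.mul_lt_mul_of_le_of_lt hba (not_le.mp h) (Nat.pos_of_ne_zero ha0)).ne
  refine ⟨hbc.2, ?_, fun v hv hns ↦ heq ⟨v, Finset.mem_filter.mpr ⟨hv, hns⟩⟩⟩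
  rw [← Subgroup.relIndex_eq_one]
  rw [hbc.1] at hab
  exact (mul_eq_right₀ ha0).mp hab

/-- The local norm index at a non-split place. -/
theorem index_locNorms (hp : p.Prime) (hdeg : finrank K L = p) {v : HeightOneSpectrum (𝓞 K)}
    (hv : IsNonSplit K L v) : (locNorms K L v).index = p := by
  obtain ⟨T, hT⟩ := exists_isGood (L := L) hp hdeg
  exact (index_facts hp hdeg (hT (insert v T) (Finset.subset_insert _ _))).2.2 v
    (Finset.mem_insert_self _ _) hv

/-- At an unramified non-split place the local norms are the elements of valuation divisible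
by `p`. -/
theorem isLocalNormAt_iff_dvd_ordv (hp : p.Prime) (hdeg : finrank K L = p)
    {v : HeightOneSpectrum (𝓞 K)} (hns : IsNonSplit K L v)
    (hunr : ∀ w : HeightOneSpectrum (𝓞 L), primeUnder K w = v → ramIdx K w = 1) {a : K}
    (ha : a ≠ 0) : IsLocalNormAt K L v a ↔ (p : ℤ) ∣ ordv v a := by
  have := Fact.mk hp
  set w := someAbove L v
  have hwv : primeUnder K w = v := primeUnder_someAbove v
  have hfix := (isNonSplit_iff hwv).mp hns
  have hdvd : ∀ x : K, IsLocalNormAt K L v x → (p : ℤ) ∣ ordv v x := by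
    intro x hx
    obtain ⟨b, hb, hxb⟩ := hx 1
    have h := ordv_algebraMap_norm (K := K) w hb
    rw [sum_ordv_of_fixed hdeg hfix, ordv_algebraMap, hwv, hunr w hwv, Nat.cast_one, one_mul] at h
    exact ⟨ordv w b, (Near.ordv_eq le_rfl hxb (norm_ne_zero' hb)).trans h⟩
  refine ⟨hdvd a, fun hda ↦ ?_⟩
  let val : Kˣ ⧸ locNorms K L v →* Multiplicative (ZMod p) :=
    QuotientGroup.lift _
      { toFun := fun x ↦ Multiplicative.ofAdd (ordv v (x : K) : ZMod p)
        map_one' := by simp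
        map_mul' := fun x y ↦ by
          rw [Units.val_mul, ordv_mul v x.ne_zero y.ne_zero, Int.cast_add, ofAdd_add] }
      fun x hx ↦ Multiplicative.toAdd.injective
        ((ZMod.intCast_zmod_eq_zero_iff_dvd _ _).mpr (hdvd _ hx))
  have hval : Function.Surjective val := by
    intro y
    obtain ⟨x, hx, hx1⟩ := exists_ordv_eq_one v
    refine ⟨QuotientGroup.mk ((Units.mk0 x hx) ^ y.toAdd.val), Multiplicative.toAdd.injective ?_⟩
    change ((ordv v (((Units.mk0 x hx) ^ y.toAdd.val : Kˣ) : K) : ℤ) : ZMod p) = y.toAdd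
    rw [Units.val_pow_eq_pow_val, Units.val_mk0, ordv_pow, hx1, mul_one, Int.cast_natCast,
      ZMod.natCast_zmod_val]
  have : Finite (Kˣ ⧸ locNorms K L v) :=
    Nat.finite_of_card_ne_zero
    (by rw [show Nat.card (Kˣ ⧸ locNorms K L v) = p from index_locNorms hp hdeg hns]; exact hp.ne_zero)
  have hbij : Function.Bijective val := (Nat.bijective_iff_surjective_and_card _).mpr
    ⟨hval, (index_locNorms hp hdeg hns).trans (by simp)⟩
  have h1 : val (QuotientGroup.mk (Units.mk0 a ha)) = 1 :=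
    Multiplicative.toAdd.injective ((ZMod.intCast_zmod_eq_zero_iff_dvd _ _).mpr hda)
  exact (mem_locNorms (x := Units.mk0 a ha)).mp
    ((QuotientGroup.eq_one_iff _).mp (hbij.1 (h1.trans (map_one val).symm)))

/-- Outside a large set of places, units are local norms. -/
theorem isLocalNormAt_of_ordv_eq_zero (hp : p.Prime) (hdeg : finrank K L = p)
    {S : Finset (HeightOneSpectrum (𝓞 K))} (hS : IsGood L S) {v : HeightOneSpectrum (𝓞 K)}
    (hv : v ∉ S) {a : K} (ha : a ≠ 0) (h0 : ordv v a = 0) : IsLocalNormAt K L v a := by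
  by_cases hns : IsNonSplit K L v
  · exact (isLocalNormAt_iff_dvd_ordv hp hdeg hns
      (fun w hw ↦ hS.unramified w (hw.symm ▸ hv)) ha).mpr (h0 ▸ dvd_zero _)
  · exact isLocalNormAt_of_not_isNonSplit hp hdeg hns ha

/-- Hasse norm theorem for cyclic extensions of prime degree unramified at the infinite places
(automatic for odd degree). -/
theorem hasse_norm (hp : p.Prime) (hdeg : finrank K L = p) {a : K} (ha : a ≠ 0)
    (h : IsLocalNormEverywhere K L a) : ∃ b : L, Algebra.norm K b = a := by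
  obtain ⟨T, hT⟩ := exists_isGood (L := L) hp hdeg
  set S := T ∪ (finite_setOf_ordv_ne_zero ha).toFinset
  have hmem : Units.mk0 a ha ∈ sUnits K (S : Set (HeightOneSpectrum (𝓞 K))) ⊓ locS L S :=
    ⟨fun v hv ↦ by
      by_contra hne
      exact hv (Finset.mem_union_right _ (by simpa using hne)), mem_locS.mpr fun v _ ↦ h v⟩
  obtain ⟨y, -, hy⟩ := (index_facts hp hdeg (hT S Finset.subset_union_left)).2.1 hmem
  exact ⟨y, congrArg Units.val hy⟩

/-- The cokernel of `Kˣ → ⊕ᵥ (local norm classes)` has order at most `p`: given a non-split place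
`v₀` outside the kernel, any prescription can be met up to a power of a fixed element at `v₀`. -/
theorem exists_local_prescription (hp : p.Prime) (hdeg : finrank K L = p)
    (S : Finset (HeightOneSpectrum (𝓞 K)))
    (v₀ : HeightOneSpectrum (𝓞 K)) (e : K) (he : e ≠ 0)
    (hex : ¬ ∃ c : K, c ≠ 0 ∧ IsLocalNormAt K L v₀ (c / e) ∧
      ∀ v, v ≠ v₀ → IsLocalNormAt K L v c)
    (a : HeightOneSpectrum (𝓞 K) → K) (ha : ∀ v, a v ≠ 0) (hS : ∀ v, v ∉ S → a v = 1) :
    ∃ (c : K) (i : ℤ), c ≠ 0 ∧ IsLocalNormAt K L v₀ (c / (a v₀ * e ^ i)) ∧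
      ∀ v, v ≠ v₀ → IsLocalNormAt K L v (c / a v) := by
  have := Fact.mk hp
  obtain ⟨T, hT⟩ := exists_isGood (L := L) hp hdeg
  set S' := T ∪ insert v₀ S
  have hG := hT S' Finset.subset_union_left
  have hv₀ : v₀ ∈ S' := Finset.mem_union_right _ (Finset.mem_insert_self _ _)
  set H := sUnits K (S' : Set (HeightOneSpectrum (𝓞 K))) ⊔ locS L S'
  obtain ⟨x₀, hx₀0, hx₀⟩ := exists_near_class (L := L) S' (Function.update (fun _ ↦ (1 : K)) v₀ e)
    (fun v _ ↦ by by_cases h : v = v₀ <;> simp [h, he])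
  obtain ⟨x, hx0, hx⟩ := exists_near_class (L := L) S' a (fun v _ ↦ ha v)
  have hx₀e : IsLocalNormAt K L v₀ (x₀ / e) := by simpa using hx₀ v₀ hv₀
  have hx₀1 : ∀ v ∈ S', v ≠ v₀ → IsLocalNormAt K L v x₀ := fun v hv hne ↦ by
    simpa [hne] using hx₀ v hv
  have hout : ∀ u ∈ sUnits K (S' : Set (HeightOneSpectrum (𝓞 K))), ∀ v ∉ S',
      IsLocalNormAt K L v (u : K) := fun u hu v hv ↦
    isLocalNormAt_of_ordv_eq_zero hp hdeg hG hv u.ne_zero (hu v hv)
  have hnot : Units.mk0 x₀ hx₀0 ∉ H := by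
    intro hmem
    obtain ⟨u, hu, z, hz, huz⟩ := Subgroup.mem_sup.mp hmem
    have hux : (u : K) = x₀ * (z : K)⁻¹ := by
      rw [eq_mul_inv_iff_mul_eq₀ z.ne_zero]; exact congrArg Units.val huz
    refine hex ⟨u, u.ne_zero, ?_, fun v hne ↦ ?_⟩
    · rw [hux, mul_div_right_comm]
      exact hx₀e.mul (mem_locS.mp hz v₀ hv₀).inv
    · by_cases hv : v ∈ S'
      · rw [hux]
        exact (hx₀1 v hv hne).mul (mem_locS.mp hz v hv).inv
      · exact hout u hu v hv
  have hidx : Nat.card (Kˣ ⧸ H) = p := (index_facts hp hdeg hG).1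
  obtain ⟨k, hk⟩ := Subgroup.mem_zpowers_iff.mp (mem_zpowers_of_prime_card hidx
    (show (QuotientGroup.mk (Units.mk0 x₀ hx₀0) : Kˣ ⧸ H) ≠ 1 from fun h ↦
      hnot ((QuotientGroup.eq_one_iff _).mp h))
    (g' := (QuotientGroup.mk (Units.mk0 x hx0) : Kˣ ⧸ H)))
  rw [← QuotientGroup.mk_zpow, QuotientGroup.eq] at hk
  obtain ⟨u, hu, z, hz, huz⟩ := Subgroup.mem_sup.mp hk
  have hux : (u : K) = x * (x₀ ^ k)⁻¹ * (z : K)⁻¹ := by
    rw [eq_mul_inv_iff_mul_eq₀ z.ne_zero]
    have h := congrArg Units.val huz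
    simpa [mul_comm] using h
  have hloc_zpow : ∀ v, IsLocalNormAt K L v x₀ → ∀ j : ℤ, IsLocalNormAt K L v (x₀ ^ j) :=
    fun v h j ↦ by
      have := (locNorms K L v).zpow_mem (show Units.mk0 x₀ hx₀0 ∈ locNorms K L v from h) j
      simpa [mem_locNorms] using this
  refine ⟨u, -k, u.ne_zero, ?_, fun v hne ↦ ?_⟩
  · have hz' : (x₀ / e) ^ (-k) = (x₀ ^ k)⁻¹ * e ^ k := by
      rw [zpow_neg, div_zpow, inv_div, div_eq_mul_inv, mul_comm]
    have h2 : IsLocalNormAt K L v₀ ((x₀ / e) ^ (-k)) := by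
      have := (locNorms K L v₀).zpow_mem
        (show Units.mk0 (x₀ / e) (div_ne_zero hx₀0 he) ∈ locNorms K L v₀ from hx₀e) (-k)
      simpa [mem_locNorms, -zpow_neg] using this
    rw [hux, show x * (x₀ ^ k)⁻¹ * (z : K)⁻¹ / (a v₀ * e ^ (-k)) =
      x / a v₀ * ((x₀ ^ k)⁻¹ * e ^ k) * (z : K)⁻¹ by
        rw [zpow_neg]; field_simp, ← hz']
    exact ((hx v₀ hv₀).mul h2).mul (mem_locS.mp hz v₀ hv₀).inv
  · by_cases hv : v ∈ S'
    · rw [hux, show x * (x₀ ^ k)⁻¹ * (z : K)⁻¹ / a v = x / a v * (x₀ ^ k)⁻¹ * (z : K)⁻¹ by ring]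
      exact ((hx v hv).mul (hloc_zpow v (hx₀1 v hv hne) k).inv).mul (mem_locS.mp hz v hv).inv
    · rw [hS v fun h ↦ hv (Finset.mem_union_right _ (Finset.mem_insert_of_mem h)), div_one]
      exact hout u hu v hv

end

end Fermat.Agent.CFT
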