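import Fermat.Agent.CFT.Cyclo
import Fermat.Agent.CFT.AuxPrime

/-!
The class character of an everywhere unramified cyclic extension of odd prime degree.
-/

set_option autoImplicit false

namespace Fermat.Agent.CFT

open NumberField IsDedekindDomain Module
open scoped Classical Pointwise nonZeroDivisors

noncomputable section

section

variable {K : Type} [Field K] [NumberField K]

omit [NumberField K] in
lemma eq_of_natCast_mem {a b : ℕ} (ha : a.Prime) (hb : b.Prime) {w : HeightOneSpectrum (𝓞 K)}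
    (hma : (a : 𝓞 K) ∈ w.asIdeal) (hmb : (b : 𝓞 K) ∈ w.asIdeal) : a = b := by
  by_contra hne
  obtain ⟨x, y, hxy⟩ := Int.isCoprime_iff_nat_coprime.mpr
    (by simpa using (Nat.coprime_primes ha hb).mpr hne :
      Nat.Coprime (Int.natAbs a) (Int.natAbs b))
  refine w.isPrime.ne_top ((Ideal.eq_top_iff_one _).mpr ?_)
  have h1 : ((x * (a : ℤ) + y * (b : ℤ) : ℤ) : 𝓞 K) = 1 := by rw [hxy]; simp
  rw [← h1]
  push_cast
  exact add_mem (Ideal.mul_mem_left _ _ hma) (Ideal.mul_mem_left _ _ hmb)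

lemma cnt_eq_zero_of_isCoprime {S : Finset (HeightOneSpectrum (𝓞 K))}
    {I : Ideal (𝓞 K)} (hI0 : I ≠ ⊥) (hI : IsCoprime I (modulus S 1))
    {v : HeightOneSpectrum (𝓞 K)} (hv : v ∈ S) : cnt v I = 0 := by
  by_contra h0
  exact not_dvd_of_isCoprime_modulus le_rfl hI hv
    (by simpa using (le_cnt_iff v hI0 1).mp (Nat.one_le_iff_ne_zero.mpr h0))

lemma ordv_add_cnt_eq {x y : 𝓞 K} (hx : x ≠ 0) (hy : y ≠ 0) {I J : Ideal (𝓞 K)} (hI : I ≠ ⊥)
    (hJ : J ≠ ⊥) (h : Ideal.span {x} * I = Ideal.span {y} * J) (v : HeightOneSpectrum (𝓞 K)) :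
    ordv v (algebraMap (𝓞 K) K x) + cnt v I = ordv v (algebraMap (𝓞 K) K y) + cnt v J := by
  have h1 := congrArg (cnt v) h
  rw [cnt_mul v (by simpa using hx) hI, cnt_mul v (by simpa using hy) hJ] at h1
  rw [← cnt_span v hx, ← cnt_span v hy]
  exact_mod_cast h1

variable {L : Type} [Field L] [NumberField L] [Algebra K L] [IsGalois K L] {p : ℕ}

/-- Units are local norms at unramified places. -/
lemma isLocalNormAt_of_unit (hp : p.Prime) (hdeg : finrank K L = p)
    (hunr : ∀ u : HeightOneSpectrum (𝓞 L), ramIdx K u = 1) [IsUnramifiedAtInfinitePlaces K L]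
    {v : HeightOneSpectrum (𝓞 K)} {a : K} (ha : a ≠ 0) (h0 : ordv v a = 0) :
    IsLocalNormAt K L v a := by
  by_cases hns : IsNonSplit K L v
  · exact (isLocalNormAt_iff_dvd_ordv hp hdeg hns (fun u _ ↦ hunr u) ha).mpr (h0 ▸ dvd_zero _)
  · exact isLocalNormAt_of_not_isNonSplit hp hdeg hns ha

/-- The degree `p` reciprocity law: no element is a local norm everywhere but at one inert place
of residue degree prime to `p` where its valuation is prime to `p`. -/
theorem dvd_ordv_of_isLocalNormAt_ne (hp : p.Prime) (hp2 : p ≠ 2) (hdeg : finrank K L = p)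
    (hunr : ∀ u : HeightOneSpectrum (𝓞 L), ramIdx K u = 1)
    {v : HeightOneSpectrum (𝓞 K)} (hns : IsNonSplit K L v)
    (hv : ∀ ℓ f : ℕ, ℓ.Prime → Ideal.absNorm v.asIdeal = ℓ ^ f → ¬ p ∣ f)
    {c : K} (hc : c ≠ 0) (hloc : ∀ v', v' ≠ v → IsLocalNormAt K L v' c) :
    (p : ℤ) ∣ ordv v c := by
  have := Fact.mk hp
  obtain ⟨ℓ, f, hℓ, -, hN, hℓv⟩ := Fermat.Agent.ExtVanishing.absNorm_prime_pow K v
  obtain ⟨bad, hbad⟩ := exists_bad_primes (K := K)
  obtain ⟨q, hq, hqbad, hqℓ, hqp, m, hqm, hℓm⟩ := exists_aux_prime hp hℓ bad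
  have := Fact.mk hq
  have hqv : (q : 𝓞 K) ∉ v.asIdeal := fun h ↦ hqℓ (eq_of_natCast_mem hq hℓ h hℓv)
  have hvm : ((Ideal.absNorm v.asIdeal : ℕ) : ZMod q) ^ m ≠ 1 := by
    intro h
    rw [hN, Nat.cast_pow, ← pow_mul, mul_comm, pow_mul] at h
    have hℓ0 : (ℓ : ZMod q) ≠ 0 := by
      rw [Ne, ZMod.natCast_eq_zero_iff]
      exact fun hd ↦ hqℓ ((Nat.prime_dvd_prime_iff_eq hq hℓ).mp hd)
    have hℓp : ((ℓ : ZMod q) ^ m) ^ p = 1 := by
      rw [← pow_mul, mul_comm, show p * m = q - 1 by omega]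
      exact ZMod.pow_card_sub_one_eq_one hℓ0
    have h2 := pow_gcd_eq_one.mpr ⟨hℓp, h⟩
    rw [(hp.coprime_iff_not_dvd.mpr (hv ℓ f hℓ hN)).gcd_eq_one, pow_one] at h2
    exact hℓm h2
  have hord : ∀ w : HeightOneSpectrum (𝓞 K), (q : 𝓞 K) ∈ w.asIdeal → ordv w (q : K) = 1 :=
    hbad q hq hqbad
  obtain ⟨L', _, _, _, _, h'⟩ := exists_isAux K hp hqm hord v hqv hvm
  let Ω := AlgebraicClosure K
  let iL : L →ₐ[K] Ω := IsAlgClosed.lift
  let iL' : L' →ₐ[K] Ω := IsAlgClosed.lift
  by_cases hAB : iL.fieldRange = iL'.fieldRange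
  · let e : L ≃ₐ[K] L' := ((AlgEquiv.ofInjectiveField iL).trans
      (IntermediateField.equivOfEq hAB)).trans (AlgEquiv.ofInjectiveField iL').symm
    refine h'.dvd_ordv hp hp2 hqm hord hqv hvm hc fun v' hne ↦ ?_
    rw [isLocalNormAt_iff]
    intro n
    obtain ⟨b, hb, hbn⟩ := hloc v' hne n
    exact ⟨e b, (map_ne_zero e).mpr hb, by rw [Algebra.norm_eq_of_algEquiv]; exact hbn⟩
  let F : IntermediateField K Ω := iL.fieldRange ⊔ iL'.fieldRange
  have : FiniteDimensional K iL.fieldRange :=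
    (AlgEquiv.ofInjectiveField iL).toLinearEquiv.finiteDimensional
  have : FiniteDimensional K iL'.fieldRange :=
    (AlgEquiv.ofInjectiveField iL').toLinearEquiv.finiteDimensional
  have : Normal K iL.fieldRange := Normal.of_algEquiv (AlgEquiv.ofInjectiveField iL)
  have : Normal K iL'.fieldRange := Normal.of_algEquiv (AlgEquiv.ofInjectiveField iL')
  have : FiniteDimensional K F := IntermediateField.finiteDimensional_sup _ _
  have : Normal K F := IntermediateField.normal_sup K Ω _ _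
  have : NumberField F := NumberField.of_module_finite K F
  have : IsGalois K F := ⟨⟩
  let jL : L →ₐ[K] F := (IntermediateField.inclusion
    (le_sup_left : iL.fieldRange ≤ F)).comp iL.rangeRestrict
  let jL' : L' →ₐ[K] F := (IntermediateField.inclusion
    (le_sup_right : iL'.fieldRange ≤ F)).comp iL'.rangeRestrict
  let : Algebra L F := jL.toRingHom.toAlgebra
  let : Algebra L' F := jL'.toRingHom.toAlgebra
  have : IsScalarTower K L F := IsScalarTower.of_algebraMap_eq fun x ↦ (jL.commutes x).symm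
  have : IsScalarTower K L' F := IsScalarTower.of_algebraMap_eq fun x ↦ (jL'.commutes x).symm
  have hfaith : ∀ g : F ≃ₐ[K] F, (∀ x : L, g (algebraMap L F x) = algebraMap L F x) →
      (∀ x : L', g (algebraMap L' F x) = algebraMap L' F x) → g = 1 := by
    intro g hL hL'
    let E : IntermediateField K F := IntermediateField.fixedField (Subgroup.zpowers g)
    have hE : ∀ y : F, g y = y → y ∈ E := fun y hy s ↦ by
      obtain ⟨s, k, rfl⟩ := s
      exact (Subgroup.zpowers_le.mpr
        (show g ∈ MulAction.stabilizer (F ≃ₐ[K] F) y from hy) ⟨k, rfl⟩ :)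
    have hle : F ≤ E.map F.val := sup_le
      (by rintro _ ⟨x, rfl⟩; exact ⟨algebraMap L F x, hE _ (hL x), rfl⟩)
      (by rintro _ ⟨x, rfl⟩; exact ⟨algebraMap L' F x, hE _ (hL' x), rfl⟩)
    refine AlgEquiv.ext fun y ↦ ?_
    obtain ⟨z, hz, hzy⟩ := hle y.2
    obtain rfl : z = y := Subtype.ext hzy
    exact hz ⟨g, Subgroup.mem_zpowers g⟩
  have hL' : finrank K L' = p := h'.deg
  have hcard : Nat.card (F ≃ₐ[K] F) = p * p := by
    have hinj : Function.Injective
        ((AlgEquiv.restrictNormalHom (F := K) (K₁ := F) L).prod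
          (AlgEquiv.restrictNormalHom (F := K) (K₁ := F) L')) := by
      rw [injective_iff_map_eq_one]
      intro g hg
      refine hfaith g (fun x ↦ ?_) fun x ↦ ?_
      · rw [← g.restrictNormal_commutes L x, show g.restrictNormal L = 1 from congrArg Prod.fst hg]
        rfl
      · rw [← g.restrictNormal_commutes L' x,
          show g.restrictNormal L' = 1 from congrArg Prod.snd hg]
        rfl
    have hdvd : Nat.card (F ≃ₐ[K] F) ∣ p ^ 2 := by
      have := Subgroup.card_dvd_of_injective _ hinj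
      rwa [Nat.card_prod, IsGalois.card_aut_eq_finrank K L, IsGalois.card_aut_eq_finrank K L',
        hdeg, hL', ← sq] at this
    obtain ⟨i, hi, hcard⟩ := (Nat.dvd_prime_pow hp).mp hdvd
    have hgt : p < Nat.card (F ≃ₐ[K] F) := by
      by_contra hle
      rw [IsGalois.card_aut_eq_finrank, not_lt] at hle
      have h1 : finrank K iL.fieldRange = p :=
        (AlgEquiv.ofInjectiveField iL).toLinearEquiv.finrank_eq.symm.trans hdeg
      have h2 : finrank K iL'.fieldRange = p :=
        (AlgEquiv.ofInjectiveField iL').toLinearEquiv.finrank_eq.symm.trans hL'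
      exact hAB ((IntermediateField.eq_of_le_of_finrank_le (le_sup_left : iL.fieldRange ≤ F)
        (by rw [h1]; exact hle)).trans (IntermediateField.eq_of_le_of_finrank_le
          (le_sup_right : iL'.fieldRange ≤ F) (by rw [h2]; exact hle)).symm)
    interval_cases i
    · rw [hcard, pow_zero] at hgt; exact absurd hp.one_lt (by omega)
    · rw [hcard, pow_one] at hgt; omega
    · rw [hcard, sq]
  have hcross : IsCross K L L' F p v :=
    { prime := hp
      ne_two := hp2
      degL := hdeg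
      degL' := hL'
      degF := (IsGalois.card_aut_eq_finrank K F).symm.trans hcard
      faithful := hfaith
      unrL := hunr
      ramL' := fun u hu ↦ by
        have hmem : (q : 𝓞 K) ∈ (primeUnder K u).asIdeal := by
          by_contra hn; exact hu (h'.unr u hn)
        refine ⟨h'.ram u hmem, fun hpm ↦ hqp (eq_of_natCast_mem hq hp hmem hpm), ?_⟩
        obtain ⟨ℓ', f', hℓ', -, hN', hℓ'mem⟩ :=
          Fermat.Agent.ExtVanishing.absNorm_prime_pow K (primeUnder K u)
        obtain rfl := eq_of_natCast_mem hq hℓ' hmem hℓ'mem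
        have h1 : q - 1 ∣ q ^ f' - 1 := by simpa using Nat.sub_dvd_pow_sub_pow q 1 f'
        rw [show q - 1 = p * m by omega] at h1
        obtain ⟨k, hk⟩ := (dvd_mul_right p m).trans h1
        exact ⟨k, by rw [hN']; have := Nat.one_le_pow f' q hq.pos; omega⟩
      unrV := fun u hu ↦ h'.unr u (hu.symm ▸ hqv)
      nsL := hns
      nsL' := h'.inert v hqv hvm }
  obtain ⟨c', hc', hloc', hdvd⟩ := hcross.exists_crossed hc hloc
  exact hdvd (h'.dvd_ordv hp hp2 hqm hord hqv hvm hc' hloc')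

end

variable (K L : Type) [Field K] [NumberField K] [Field L] [NumberField L] [Algebra K L]
  [IsGalois K L] {p : ℕ}

/-- The class character of an everywhere unramified cyclic extension of odd prime degree:
trivial on a prime of residue degree prime to `p` exactly when it splits. -/
theorem exists_classChar (hp : p.Prime) (hp2 : p ≠ 2) (hdeg : finrank K L = p)
    (hunr : ∀ w : HeightOneSpectrum (𝓞 L),
      w.asIdeal.ramificationIdx (𝓞 K) = 1) :
    ∃ χ : ClassGroup (𝓞 K) →* Multiplicative (ZMod p), Function.Surjective χ ∧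
      ∀ v : HeightOneSpectrum (𝓞 K), (∀ ℓ f : ℕ, ℓ.Prime → Ideal.absNorm v.asIdeal = ℓ ^ f →
          ¬ p ∣ f) →
        (χ (ClassGroup.mk0 ⟨v.asIdeal, mem_nonZeroDivisors_of_ne_zero v.ne_bot⟩) = 1 ↔
          ¬ IsNonSplit K L v) := by
  have := Fact.mk hp
  have : IsUnramifiedAtInfinitePlaces K L :=
    IsUnramifiedAtInfinitePlaces_of_odd_finrank (hdeg ▸ hp.odd_of_ne_two hp2)
  have hram : ∀ u : HeightOneSpectrum (𝓞 L), ramIdx K u = 1 := fun u ↦ by
    rw [ramIdx, Ideal.ramificationIdx'_eq_ramificationIdx _ _ (primeUnder K u).ne_bot]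
    exact hunr u
  have hunit := fun (v : HeightOneSpectrum (𝓞 K)) (a : Kˣ) (h : ordv v (a : K) = 0) ↦
    isLocalNormAt_of_unit hp hdeg hram a.ne_zero h
  obtain ⟨S, hT⟩ := exists_isGood (K := K) (L := L) hp hdeg
  have hS := hT S subset_rfl
  set H := sUnits K (S : Set (HeightOneSpectrum (𝓞 K))) ⊔ locS L S with hHdef
  have hidx : H.index = p := (index_facts hp hdeg hS).1
  let eQ : Kˣ ⧸ H ≃* Multiplicative (ZMod p) :=
    mulEquivOfPrimeCardEq (p := p) hidx (Nat.card_congr Multiplicative.toAdd |>.trans (Nat.card_zmod p))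
  let φ : Kˣ →* Multiplicative (ZMod p) := eQ.toMonoidHom.comp (QuotientGroup.mk' H)
  have hφ : ∀ x, φ x = 1 ↔ x ∈ H := fun x ↦
    (EmbeddingLike.map_eq_one_iff (f := eQ)).trans (QuotientGroup.eq_one_iff x)
  have hφsurj : Function.Surjective φ := fun y ↦ by
    obtain ⟨x, hx⟩ := QuotientGroup.mk_surjective (eQ.symm y)
    exact ⟨x, by change eQ (x : Kˣ ⧸ H) = y; rw [hx, eQ.apply_symm_apply]⟩
  have hφU : ∀ x y : Kˣ, (∀ w, w ∉ S → ordv w (x : K) = ordv w (y : K)) → φ x = φ y := by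
    intro x y h
    rw [← div_eq_one, ← map_div, hφ]
    refine Subgroup.mem_sup_left fun w hw ↦ ?_
    rw [Units.val_div_eq_div_val, ordv_div w x.ne_zero y.ne_zero, h w hw, sub_self]
  have hφloc : ∀ x : Kˣ, x ∈ locS L S → φ x = 1 := fun x hx ↦ (hφ x).mpr (Subgroup.mem_sup_right hx)
  set θ : Ideal (𝓞 K) → Multiplicative (ZMod p) := fun I ↦ φ (divRep hS.gen I) with hθ
  have hθeq : ∀ I (x : Kˣ), (∀ w, w ∉ S → ordv w (x : K) = cnt w I) → θ I = φ x := fun I x h ↦
    hφU _ _ fun w hw ↦ (ordv_divRep hS.gen I hw).trans (h w hw).symm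
  have hne : ∀ J : (Ideal (𝓞 K))⁰, (J : Ideal (𝓞 K)) ≠ ⊥ := fun J ↦ nonZeroDivisors.coe_ne_zero J
  have hkey : ∀ J J' : (Ideal (𝓞 K))⁰, IsCoprime (J : Ideal (𝓞 K)) (modulus S 1) →
      IsCoprime (J' : Ideal (𝓞 K)) (modulus S 1) → ClassGroup.mk0 J = ClassGroup.mk0 J' →
      θ J = θ J' := by
    intro J J' hJ hJ' he
    obtain ⟨x, y, hx, hy, hxy⟩ := ClassGroup.mk0_eq_mk0_iff.mp he
    let ux : Kˣ := Units.mk0 (algebraMap (𝓞 K) K x) (by simpa using hx)
    let uy : Kˣ := Units.mk0 (algebraMap (𝓞 K) K y) (by simpa using hy)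
    have h1 := ordv_add_cnt_eq hx hy (hne J) (hne J') hxy
    have h2 : φ ux = φ uy := by
      rw [← div_eq_one, ← map_div]
      refine hφloc _ (mem_locS.mpr fun w hw ↦ hunit w _ ?_)
      have := h1 w
      rw [cnt_eq_zero_of_isCoprime (hne J) hJ hw, cnt_eq_zero_of_isCoprime (hne J') hJ' hw] at this
      rw [Units.val_div_eq_div_val, ordv_div w ux.ne_zero uy.ne_zero]
      simpa [ux, uy, sub_eq_zero] using this
    have h3 : φ (ux * divRep hS.gen J) = φ (uy * divRep hS.gen J') := hφU _ _ fun w hw ↦ by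
      rw [Units.val_mul, Units.val_mul, ordv_mul w ux.ne_zero (Units.ne_zero _),
        ordv_mul w uy.ne_zero (Units.ne_zero _), ordv_divRep _ _ hw, ordv_divRep _ _ hw]
      exact h1 w
    rw [map_mul, map_mul, h2] at h3
    exact mul_left_cancel h3
  choose J hJc hJm using exists_mk0_eq_isCoprime (modulus S 1) (modulus_ne_bot (S := S) 1)
  let χ : ClassGroup (𝓞 K) →* Multiplicative (ZMod p) :=
    { toFun := fun c ↦ θ (J c)
      map_one' := by
        rw [hkey (J 1) 1 (hJm 1) isCoprime_one_left (by rw [hJc, map_one]),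
          hθeq _ 1 fun w _ ↦ by rw [OneMemClass.coe_one, cnt_one, Units.val_one, ordv_one,
            Nat.cast_zero], map_one]
      map_mul' := fun a b ↦ by
        rw [hkey (J (a * b)) (J a * J b) (hJm _)
          (by rw [Submonoid.coe_mul]; exact (hJm a).mul_left (hJm b))
          (by rw [hJc, map_mul, hJc, hJc])]
        rw [hθeq _ (divRep hS.gen (J a) * divRep hS.gen (J b)) fun w hw ↦ by
          rw [Submonoid.coe_mul, Units.val_mul, ordv_mul w (Units.ne_zero _) (Units.ne_zero _),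
            ordv_divRep _ _ hw, ordv_divRep _ _ hw, cnt_mul w (hne _) (hne _), Nat.cast_add],
          map_mul] }
  refine ⟨χ, ?_, fun v hv ↦ ?_⟩
  · have hint : ∀ r : 𝓞 K, ∀ hr : r ≠ 0,
        φ (Units.mk0 (algebraMap (𝓞 K) K r) (by simpa using hr)) ∈ χ.range := by
      intro r hr
      obtain ⟨I, hI, hIm, hIcnt⟩ := exists_ideal_away S 1 hr
      let I₀ : (Ideal (𝓞 K))⁰ := ⟨I, mem_nonZeroDivisors_of_ne_zero hI⟩
      refine ⟨ClassGroup.mk0 I₀, ?_⟩
      change θ (J _) = _
      rw [hkey _ I₀ (hJm _) hIm (hJc _)]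
      exact hθeq _ _ fun w hw ↦ (hIcnt w hw).symm
    intro y
    obtain ⟨x, rfl⟩ := hφsurj y
    obtain ⟨a, b, hb, hab⟩ := IsFractionRing.div_surjective (A := 𝓞 K) (x : K)
    have hb0 : b ≠ 0 := nonZeroDivisors.ne_zero hb
    have ha0 : a ≠ 0 := fun h ↦ x.ne_zero (by rw [← hab, h, map_zero, zero_div])
    have hx : x = Units.mk0 (algebraMap (𝓞 K) K a) (by simpa using ha0) /
        Units.mk0 (algebraMap (𝓞 K) K b) (by simpa using hb0) := by
      apply Units.ext
      rw [Units.val_div_eq_div_val]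
      exact hab.symm
    exact MonoidHom.mem_range.mp (by
      rw [hx, map_div]; exact div_mem (hint a ha0) (hint b hb0))
  set V : (Ideal (𝓞 K))⁰ := ⟨v.asIdeal, mem_nonZeroDivisors_of_ne_zero v.ne_bot⟩
  obtain ⟨x, y, hx, hy, hxy⟩ := ClassGroup.mk0_eq_mk0_iff.mp (hJc (ClassGroup.mk0 V))
  set Jv := J (ClassGroup.mk0 V)
  let u : Kˣ := Units.mk0 (algebraMap (𝓞 K) K x) (by simpa using hx) /
    Units.mk0 (algebraMap (𝓞 K) K y) (by simpa using hy)
  have hu : ∀ w, ordv w (u : K) + cnt w (Jv : Ideal (𝓞 K)) = if w = v then 1 else 0 := fun w ↦ by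
    have h1 := ordv_add_cnt_eq hx hy (hne Jv) v.ne_bot hxy w
    rw [cnt_prime] at h1
    rw [Units.val_div_eq_div_val, Units.val_mk0, Units.val_mk0,
      ordv_div w (by simpa using hx) (by simpa using hy)]
    push_cast at h1
    linarith
  have huS : ∀ w ∈ S, ordv w (u : K) = if w = v then 1 else 0 := fun w hw ↦ by
    simpa [cnt_eq_zero_of_isCoprime (hne Jv) (hJm _) hw] using hu w
  set z := u * divRep hS.gen (Jv : Ideal (𝓞 K)) with hz
  have hzord : ∀ w, w ∉ S → ordv w (z : K) = if w = v then 1 else 0 := fun w hw ↦ by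
    rw [hz, Units.val_mul, ordv_mul w u.ne_zero (Units.ne_zero _), ordv_divRep _ _ hw, hu]
  constructor
  · intro h1 hns
    obtain ⟨s, hs, t, ht, hst⟩ := Subgroup.mem_sup.mp ((hφ (divRep hS.gen Jv)).mp h1)
    have htord : ∀ w, w ∉ S → ordv w ((u * t : Kˣ) : K) = if w = v then 1 else 0 := fun w hw ↦ by
      rw [← hzord w hw, hz, ← hst, Units.val_mul, Units.val_mul, Units.val_mul,
        ordv_mul w u.ne_zero (mul_ne_zero s.ne_zero t.ne_zero), ordv_mul w s.ne_zero t.ne_zero,
        ordv_mul w u.ne_zero t.ne_zero, hs w hw, zero_add]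
    have hloc : ∀ w, w ≠ v → IsLocalNormAt K L w ((u * t : Kˣ) : K) := fun w hwv ↦ by
      by_cases hw : w ∈ S
      · rw [Units.val_mul]
        exact (hunit w u (by rw [huS w hw, if_neg hwv])).mul (mem_locS.mp ht w hw)
      · exact hunit w _ (by rw [htord w hw, if_neg hwv])
    have h2 := dvd_ordv_of_isLocalNormAt_ne hp hp2 hdeg hram hns hv (Units.ne_zero _) hloc
    by_cases hw : v ∈ S
    · rw [Units.val_mul, ordv_mul v u.ne_zero t.ne_zero, huS v hw, if_pos rfl] at h2
      have h3 := (isLocalNormAt_iff_dvd_ordv hp hdeg hns (fun w _ ↦ hram w) t.ne_zero).mp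
        (mem_locS.mp ht v hw)
      exact (Nat.prime_iff_prime_int.mp hp).not_dvd_one ((dvd_add_left h3).mp h2)
    · rw [htord v hw, if_pos rfl] at h2
      exact (Nat.prime_iff_prime_int.mp hp).not_dvd_one h2
  · intro hsplit
    have hu' : φ u = 1 := hφloc _ (mem_locS.mpr fun w hw ↦ by
      by_cases hwv : w = v
      · exact hwv ▸ isLocalNormAt_of_not_isNonSplit hp hdeg hsplit u.ne_zero
      · exact hunit w u (by rw [huS w hw, if_neg hwv]))
    set S' := insert v S
    have hH' : (sUnits K (S' : Set (HeightOneSpectrum (𝓞 K))) ⊔ locS L S').index = p :=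
      (index_facts hp hdeg (hT S' (Finset.subset_insert _ _))).1
    have hle : H ≤ sUnits K (S' : Set (HeightOneSpectrum (𝓞 K))) ⊔ locS L S' := by
      refine sup_le_sup (fun a ha w hw ↦ ha w fun h ↦ hw (Finset.mem_insert_of_mem h)) fun a ha ↦ ?_
      refine mem_locS.mpr fun w hw ↦ ?_
      rcases Finset.mem_insert.mp hw with rfl | hw
      · exact isLocalNormAt_of_not_isNonSplit hp hdeg hsplit a.ne_zero
      · exact mem_locS.mp ha w hw
    have hge := Subgroup.relIndex_mul_index hle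
    rw [hidx, hH', Nat.mul_eq_right hp.ne_zero] at hge
    have hzH : φ z = 1 := (hφ z).mpr (Subgroup.relIndex_eq_one.mp hge (Subgroup.mem_sup_left
      fun w hw ↦ by
        rw [hzord w fun h ↦ hw (Finset.mem_insert_of_mem h),
          if_neg (fun h : w = v ↦ hw (by rw [h]; exact Finset.mem_insert_self _ _))]))
    rw [hz, map_mul, hu', one_mul] at hzH
    exact hzH

end

end Fermat.Agent.CFT
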