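import Fermat.Agent.CFT.Residue
import Fermat.Agent.CFT.Hasse

/-!
Crossing an unramified cyclic extension with an auxiliary one: an element which is a local norm
from the first everywhere outside `v` gives one for the second with the same valuation at `v`
modulo `p`, up to a factor prime to `p`.
-/

set_option autoImplicit false

namespace Fermat.Agent.CFT

open NumberField IsDedekindDomain Module
open scoped Classical Pointwise

noncomputable section

lemma pow_congr_zmod {M : Type*} [Monoid M] {p : ℕ} [NeZero p] {g : M} (hg : g ^ p = 1) {a b : ℕ}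
    (hab : (a : ZMod p) = (b : ZMod p)) : g ^ a = g ^ b := by
  have key : ∀ n : ℕ, g ^ n = g ^ (n % p) := fun n ↦ by
    conv_lhs => rw [← Nat.mod_add_div n p, pow_add, pow_mul, hg, one_pow, mul_one]
  rw [key a, key b, (ZMod.natCast_eq_natCast_iff' a b p).mp hab]

lemma aut_pow_eq_one {K L : Type} [Field K] [Field L] [Algebra K L] [FiniteDimensional K L]
    [IsGalois K L] {p : ℕ} (hdeg : finrank K L = p) (g : L ≃ₐ[K] L) : g ^ p = 1 := by
  rw [← (IsGalois.card_aut_eq_finrank K L).trans hdeg]; exact pow_card_eq_one'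

/-- The arithmetic of two telescoping orbit functions. -/
lemma sum_shift_modEq {p : ℕ} [NeZero p] (k : ℕ) (d z : ZMod p → ℤ)
    (h : ∀ i : ZMod p, d (i - k) - d i = z (i - 1) - z i) :
    (p : ℤ) ∣ ∑ i, z i - k * ∑ i, d i := by
  set f : ZMod p → ℤ := fun i ↦ z i - ∑ j ∈ Finset.range k, d (i - j) with hf
  have hstep : ∀ i : ZMod p, f (i - 1) = f i := fun i ↦ by
    have h1 : ∑ j ∈ Finset.range k, d (i - 1 - j) = ∑ j ∈ Finset.range k, d (i - j) - d i + d (i - k) := by
      have h2 := Finset.sum_range_succ' (fun j : ℕ ↦ d (i - (j : ZMod p))) k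
      have h3 := Finset.sum_range_succ (fun j : ℕ ↦ d (i - (j : ZMod p))) k
      simp only [Nat.cast_zero, sub_zero] at h2
      rw [h3] at h2
      have h4 : ∀ j : ℕ, i - 1 - (j : ZMod p) = i - ((j + 1 : ℕ) : ZMod p) := fun j ↦ by
        push_cast; ring
      simp only [h4]
      linarith
    simp only [hf, h1]
    linarith [h i]
  have hconst : ∀ n : ℕ, f (n : ZMod p) = f 0 := by
    intro n
    induction n with
    | zero => simp
    | succ n ih => rw [← ih, ← hstep ((n + 1 : ℕ) : ZMod p), Nat.cast_succ, add_sub_cancel_right]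
  have hsum : ∑ i, f i = (p : ℤ) * f 0 := by
    rw [Finset.sum_congr rfl (fun i _ ↦ show f i = f 0 by rw [← ZMod.natCast_zmod_val i, hconst]),
      Finset.sum_const, Finset.card_univ, ZMod.card, nsmul_eq_mul]
  refine ⟨f 0, ?_⟩
  rw [← hsum]
  simp only [hf, Finset.sum_sub_distrib]
  rw [Finset.sum_comm, Finset.sum_congr rfl fun (j : ℕ) _ ↦
    show ∑ i, d (i - (j : ZMod p)) = ∑ i, d i from (Equiv.subRight ((j : ZMod p))).sum_comp d, Finset.sum_const, Finset.card_range, nsmul_eq_mul]

section Tower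

variable {K L F : Type} [Field K] [NumberField K] [Field L] [NumberField L] [Field F]
  [NumberField F] [Algebra K L] [Algebra L F] [Algebra K F] [IsScalarTower K L F]

omit [NumberField K] [NumberField L] [NumberField F] in
lemma primeUnder_tower (W : HeightOneSpectrum (𝓞 F)) :
    primeUnder K (primeUnder L W) = primeUnder K W := by
  have : IsScalarTower (𝓞 K) (𝓞 L) (𝓞 F) := inferInstance
  refine HeightOneSpectrum.ext ?_
  exact Ideal.under_under (B := 𝓞 L) W.asIdeal

lemma ramIdx_tower (W : HeightOneSpectrum (𝓞 F)) :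
    ramIdx K W = ramIdx L W * ramIdx K (primeUnder L W) := by
  obtain ⟨x, hx, hx1⟩ := exists_ordv_eq_one (primeUnder K W)
  have h1 := ordv_algebraMap (K := K) W x
  rw [IsScalarTower.algebraMap_apply K L F, ordv_algebraMap (K := L) W, ordv_algebraMap,
    primeUnder_tower, hx1, mul_one, mul_one] at h1
  exact_mod_cast h1.symm

omit [NumberField K] [NumberField L] [NumberField F] in
lemma smul_restrictScalars (σ : F ≃ₐ[L] F) (W : HeightOneSpectrum (𝓞 F)) :
    (σ.restrictScalars K) • W = σ • W := rfl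

omit [NumberField K] [NumberField L] [NumberField F] in
lemma mem_inertia_restrictScalars {σ : F ≃ₐ[L] F} {W : HeightOneSpectrum (𝓞 F)}
    (h : σ ∈ W.asIdeal.inertia (F ≃ₐ[L] F)) :
    σ.restrictScalars K ∈ W.asIdeal.inertia (F ≃ₐ[K] F) := h

omit [NumberField K] [NumberField L] [NumberField F] in
lemma exists_restrictScalars_eq (g : F ≃ₐ[K] F)
    (hg : ∀ x : L, g (algebraMap L F x) = algebraMap L F x) :
    ∃ σ : F ≃ₐ[L] F, σ.restrictScalars K = g :=
  ⟨AlgEquiv.ofRingEquiv (f := g.toRingEquiv) hg, AlgEquiv.ext fun _ ↦ rfl⟩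

omit [NumberField K] [NumberField L] [NumberField F] in
lemma restrictScalars_pow (σ : F ≃ₐ[L] F) (i : ℕ) :
    (σ ^ i).restrictScalars K = (σ.restrictScalars K) ^ i := by
  induction i with
  | zero => rfl
  | succ i ih =>
    rw [pow_succ, pow_succ, ← ih]; rfl

lemma near_one_of_near_algebraMap (W : HeightOneSpectrum (𝓞 F)) {x : K}
    (h : Near W 1 (algebraMap K F x)) : Near (primeUnder K W) 1 x := by
  rw [Near, ← map_one (algebraMap K F), ← map_sub] at h
  by_cases h0 : x - 1 = 0
  · rw [Near, h0, map_zero]; exact zero_le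
  rw [valuation_le_exp_iff W ((map_ne_zero _).mpr h0), ordv_algebraMap] at h
  rw [Near, valuation_le_exp_iff _ h0]
  push_cast at h ⊢
  by_contra hlt
  nlinarith [(ramIdx K W).zero_le]

variable [IsGalois K L] [IsGalois K F]

omit [NumberField K] [NumberField L] [NumberField F] [IsGalois K F] in
lemma restrictNormal_mem_inertia {g : F ≃ₐ[K] F} {W : HeightOneSpectrum (𝓞 F)}
    (hg : g ∈ W.asIdeal.inertia (F ≃ₐ[K] F)) :
    g.restrictNormal L ∈ (primeUnder L W).asIdeal.inertia (L ≃ₐ[K] L) := fun r ↦ by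
  change algebraMap (𝓞 L) (𝓞 F) (g.restrictNormal L • r - r) ∈ W.asIdeal
  rw [map_sub]
  have e : algebraMap (𝓞 L) (𝓞 F) (g.restrictNormal L • r) = g • algebraMap (𝓞 L) (𝓞 F) r :=
    RingOfIntegers.ext (g.restrictNormal_commutes L (r : L))
  rw [e]
  exact hg _

omit [NumberField F] [IsGalois K F] in
lemma apply_algebraMap_of_mem_inertia (hL : ∀ u : HeightOneSpectrum (𝓞 L), ramIdx K u = 1)
    {g : F ≃ₐ[K] F} {W : HeightOneSpectrum (𝓞 F)} (hg : g ∈ W.asIdeal.inertia (F ≃ₐ[K] F))
    (x : L) : g (algebraMap L F x) = algebraMap L F x := by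
  have h1 : (primeUnder L W).asIdeal.inertia (L ≃ₐ[K] L) = ⊥ :=
    Subgroup.card_eq_one.mp ((card_inertia _).trans (hL _))
  have h2 : g.restrictNormal L = 1 := (Subgroup.mem_bot).mp (h1 ▸ restrictNormal_mem_inertia hg)
  rw [← g.restrictNormal_commutes L x, h2]; rfl

end Tower

variable (K L L' F : Type) [Field K] [NumberField K] [Field L] [NumberField L] [Field L']
  [NumberField L'] [Field F] [NumberField F] [Algebra K L] [Algebra K L'] [Algebra K F]
  [Algebra L F] [Algebra L' F] [IsScalarTower K L F] [IsScalarTower K L' F]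
  [IsGalois K L] [IsGalois K L'] [IsGalois K F]

/-- An unramified extension `L`, an auxiliary extension `L'` and their compositum `F`. -/
structure IsCross (p : ℕ) (v : HeightOneSpectrum (𝓞 K)) : Prop where
  prime : p.Prime
  ne_two : p ≠ 2
  degL : finrank K L = p
  degL' : finrank K L' = p
  degF : finrank K F = p * p
  faithful : ∀ g : F ≃ₐ[K] F, (∀ x : L, g (algebraMap L F x) = algebraMap L F x) →
    (∀ x : L', g (algebraMap L' F x) = algebraMap L' F x) → g = 1
  unrL : ∀ u : HeightOneSpectrum (𝓞 L), ramIdx K u = 1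
  ramL' : ∀ u : HeightOneSpectrum (𝓞 L'), ramIdx K u ≠ 1 →
    ramIdx K u = p ∧ (p : 𝓞 K) ∉ (primeUnder K u).asIdeal ∧
      ∃ k, Ideal.absNorm (primeUnder K u).asIdeal = p * k + 1
  unrV : ∀ u : HeightOneSpectrum (𝓞 L'), primeUnder K u = v → ramIdx K u = 1
  nsL : IsNonSplit K L v
  nsL' : IsNonSplit K L' v

variable {K L L' F}

/-- The two generators of the group of the compositum. -/
structure Gens (p : ℕ) where
  σ : F ≃ₐ[L'] F
  τ : F ≃ₐ[L] F
  σ_ne : σ ≠ 1
  τ_ne : τ ≠ 1
  comm : Commute (σ.restrictScalars K) (τ.restrictScalars K)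
  gen : ∀ g : F ≃ₐ[K] F, ∃ a b : ℕ, g = (σ.restrictScalars K) ^ a * (τ.restrictScalars K) ^ b

variable {p : ℕ} {v : HeightOneSpectrum (𝓞 K)}

omit [IsScalarTower K L F] [IsGalois K L] [IsGalois K F] in
lemma IsCross.degσ (h : IsCross K L L' F p v) : finrank L' F = p := by
  have h1 := Module.finrank_mul_finrank K L' F
  rw [h.degL', h.degF] at h1
  exact mul_left_cancel₀ h.prime.ne_zero h1

omit [IsScalarTower K L' F] [IsGalois K L'] [IsGalois K F] in
lemma IsCross.degτ (h : IsCross K L L' F p v) : finrank L F = p := by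
  have h1 := Module.finrank_mul_finrank K L F
  rw [h.degL, h.degF] at h1
  exact mul_left_cancel₀ h.prime.ne_zero h1

lemma IsCross.exists_gens (h : IsCross K L L' F p v) :
    Nonempty (Gens (K := K) (L := L) (L' := L') (F := F) p) := by
  have : Fact p.Prime := ⟨h.prime⟩
  have : IsGalois L F := IsGalois.tower_top_of_isGalois K L F
  have : IsGalois L' F := IsGalois.tower_top_of_isGalois K L' F
  obtain ⟨σ, hσ⟩ := exists_ne_one (L := F) h.prime h.degσ
  obtain ⟨τ, hτ⟩ := exists_ne_one (L := F) h.prime h.degτ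
  set s := σ.restrictScalars K
  set t := τ.restrictScalars K
  have hrel : ∀ a b : ℕ, s ^ a * t ^ b = 1 → σ ^ a = 1 ∧ τ ^ b = 1 := by
    intro a b hab
    have hts : ∀ x : F, (σ ^ a) ((τ ^ b) x) = x := fun x ↦ by
      have := AlgEquiv.congr_fun hab x
      rw [← restrictScalars_pow, ← restrictScalars_pow] at this
      exact this
    have h1 : (σ ^ a).restrictScalars K = 1 := h.faithful _
      (fun x ↦ by
        have := hts (algebraMap L F x)
        rwa [AlgEquiv.commutes] at this)
      (fun x ↦ (σ ^ a).commutes x)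
    have h1' : σ ^ a = 1 := AlgEquiv.ext fun x ↦ AlgEquiv.congr_fun h1 x
    refine ⟨h1', AlgEquiv.ext fun x ↦ ?_⟩
    have := hts x
    rwa [h1', AlgEquiv.one_apply] at this
  have hcomm : Commute s t := by
    have key : ∀ g g' : F ≃ₐ[K] F, g * g' * g⁻¹ * g'⁻¹ = 1 := fun g g' ↦ by
      have : IsCyclic (L ≃ₐ[K] L) :=
        isCyclic_of_prime_card ((IsGalois.card_aut_eq_finrank K L).trans h.degL)
      have : IsCyclic (L' ≃ₐ[K] L') :=
        isCyclic_of_prime_card ((IsGalois.card_aut_eq_finrank K L').trans h.degL')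
      let := IsCyclic.commGroup (α := L ≃ₐ[K] L)
      let := IsCyclic.commGroup (α := L' ≃ₐ[K] L')
      refine h.faithful _ (fun x ↦ ?_) fun x ↦ ?_
      · rw [← AlgEquiv.restrictNormal_commutes _ L x]
        congr 1
        have h2 : AlgEquiv.restrictNormalHom L (g * g' * g⁻¹ * g'⁻¹) = 1 := by
          simp only [map_mul, map_inv]
          rw [mul_comm (AlgEquiv.restrictNormalHom L g) (AlgEquiv.restrictNormalHom L g')]
          group
        exact AlgEquiv.congr_fun h2 x
      · rw [← AlgEquiv.restrictNormal_commutes _ L' x]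
        congr 1
        have h2 : AlgEquiv.restrictNormalHom L' (g * g' * g⁻¹ * g'⁻¹) = 1 := by
          simp only [map_mul, map_inv]
          rw [mul_comm (AlgEquiv.restrictNormalHom L' g) (AlgEquiv.restrictNormalHom L' g')]
          group
        exact AlgEquiv.congr_fun h2 x
    have := key s t
    rw [mul_inv_eq_one, mul_inv_eq_iff_eq_mul] at this
    exact this
  refine ⟨⟨σ, τ, hσ, hτ, hcomm, ?_⟩⟩
  have hcard : Fintype.card (F ≃ₐ[K] F) = p * p := by
    rw [Fintype.card_eq_nat_card, IsGalois.card_aut_eq_finrank, h.degF]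
  have hoσ : orderOf σ = p := orderOf_eq_prime
    (by rw [← (IsGalois.card_aut_eq_finrank L' F).trans h.degσ]; exact pow_card_eq_one') hσ
  have hoτ : orderOf τ = p := orderOf_eq_prime
    (by rw [← (IsGalois.card_aut_eq_finrank L F).trans h.degτ]; exact pow_card_eq_one') hτ
  have hbij : Function.Bijective (fun ab : Fin p × Fin p ↦ s ^ (ab.1 : ℕ) * t ^ (ab.2 : ℕ)) := by
    rw [Fintype.bijective_iff_injective_and_card]
    refine ⟨fun x y hxy ↦ ?_, by simp [hcard]⟩
    have hsp : s ^ p = 1 := by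
      have : σ ^ p = 1 := by rw [← hoσ]; exact pow_orderOf_eq_one σ
      rw [← restrictScalars_pow, this]; rfl
    have htp : t ^ p = 1 := by
      have : τ ^ p = 1 := by rw [← hoτ]; exact pow_orderOf_eq_one τ
      rw [← restrictScalars_pow, this]; rfl
    have h1 : s ^ ((x.1 : ℕ) + (p - y.1)) * t ^ ((x.2 : ℕ) + (p - y.2)) = 1 := by
      have hy1 := y.1.2
      have hy2 := y.2.2
      have hxy' : s ^ (x.1 : ℕ) * t ^ (x.2 : ℕ) = s ^ (y.1 : ℕ) * t ^ (y.2 : ℕ) := hxy
      rw [pow_add, pow_add, mul_assoc, ← mul_assoc (s ^ (p - (y.1 : ℕ))),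
        (hcomm.pow_pow (p - (y.1 : ℕ)) (x.2 : ℕ)).eq, ← mul_assoc, ← mul_assoc, hxy',
        mul_assoc, mul_assoc, ← mul_assoc (t ^ (y.2 : ℕ)),
        ← (hcomm.pow_pow (p - (y.1 : ℕ)) (y.2 : ℕ)).eq, mul_assoc, ← pow_add,
        Nat.add_sub_cancel' hy2.le, htp, mul_one, ← pow_add, Nat.add_sub_cancel' hy1.le, hsp]
    obtain ⟨ha, hb⟩ := hrel _ _ h1
    rw [← orderOf_dvd_iff_pow_eq_one, hoσ] at ha
    rw [← orderOf_dvd_iff_pow_eq_one, hoτ] at hb
    refine Prod.ext (Fin.ext ?_) (Fin.ext ?_)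
    · have := x.1.2
      have := y.1.2
      obtain ⟨c, hc⟩ := ha
      rcases c with _ | _ | c
      · omega
      · omega
      · rw [Nat.mul_succ, Nat.mul_succ] at hc; omega
    · have := x.2.2
      have := y.2.2
      obtain ⟨c, hc⟩ := hb
      rcases c with _ | _ | c
      · omega
      · omega
      · rw [Nat.mul_succ, Nat.mul_succ] at hc; omega
  intro g
  obtain ⟨⟨a, b⟩, hab⟩ := hbij.2 g
  exact ⟨a, b, hab.symm⟩

omit [IsGalois K L] [IsGalois K L'] [IsGalois K F] [NumberField K] [NumberField L] [NumberField L'] [NumberField F] in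
lemma Gens.smul_comm (G : Gens (K := K) (L := L) (L' := L') (F := F) p) (n : ℕ)
    (W : HeightOneSpectrum (𝓞 F)) : G.τ • ((G.σ ^ n) • W) = (G.σ ^ n) • (G.τ • W) := by
  rw [← smul_restrictScalars (K := K) G.τ, ← smul_restrictScalars (K := K) (G.σ ^ n), smul_smul,
    restrictScalars_pow, ← (G.comm.pow_left n).eq, ← restrictScalars_pow, mul_smul,
    smul_restrictScalars, smul_restrictScalars]

omit [IsGalois K L] in
/-- Nonsplitting from the orbit of the automorphisms over `L`. -/
lemma isNonSplit_of_orbit (τ : F ≃ₐ[L] F) {W : HeightOneSpectrum (𝓞 F)}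
    (h : ∀ g : F ≃ₐ[K] F, ∃ m : ℕ, g • W = (τ ^ m) • W) :
    IsNonSplit K L (primeUnder K W) := by
  intro u₁ u₂ h₁ h₂
  have key : ∀ u : HeightOneSpectrum (𝓞 L), primeUnder K u = primeUnder K W →
      u = primeUnder L W := by
    intro u hu
    obtain ⟨W', rfl⟩ := primeUnder_surjective (K := L) (L := F) u
    rw [primeUnder_tower] at hu
    obtain ⟨g, hg⟩ := exists_smul_eq_of_primeUnder_eq hu.symm
    obtain ⟨m, hm⟩ := h g
    rw [← hg, hm, primeUnder_smul]
  rw [key u₁ (primeUnder_eq_iff.mpr h₁), key u₂ (primeUnder_eq_iff.mpr h₂)]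

omit [IsGalois K L] [NumberField K] in
/-- Nonsplitting in `L'` moves every automorphism into those over `L'`. -/
lemma exists_pow_smul_eq (hp : p.Prime) (hdeg : finrank L F = p) {W : HeightOneSpectrum (𝓞 F)}
    (hns : IsNonSplit K L (primeUnder K W)) {τ : F ≃ₐ[L] F} (hτ : τ ≠ 1) (g : F ≃ₐ[K] F) :
    ∃ m : ℕ, g • W = (τ ^ m) • W := by
  have : IsGalois L F := IsGalois.tower_top_of_isGalois K L F
  have h1 : primeUnder L W = primeUnder L (g • W) := hns _ _
    (primeUnder_eq_iff.mp (primeUnder_tower W))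
    (primeUnder_eq_iff.mp ((primeUnder_tower _).trans (primeUnder_smul g W)))
  obtain ⟨η, hη⟩ := exists_smul_eq_of_primeUnder_eq h1
  obtain ⟨m, rfl⟩ := Submonoid.mem_powers_iff _ _ |>.mp
    (mem_powers_iff_mem_zpowers.mpr (mem_zpowers_of_ne_one hp hdeg hτ η))
  exact ⟨m, hη.symm⟩

/-- An unramified place is not fixed by both generators. -/
lemma IsCross.not_both_fix (h : IsCross K L L' F p v) (G : Gens (K := K) (L := L) (L' := L') (F := F) p)
    {W : HeightOneSpectrum (𝓞 F)} (he : ramIdx K W = 1)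
    (hσ : G.σ • W = W) (hτ : G.τ • W = W) : False := by
  have : IsGalois L F := IsGalois.tower_top_of_isGalois K L F
  obtain ⟨g, hg⟩ := exists_generator_stabilizer W he
  obtain ⟨i, hi⟩ := Subgroup.mem_zpowers_iff.mp (hg (G.σ.restrictScalars K) hσ)
  obtain ⟨j, hj⟩ := Subgroup.mem_zpowers_iff.mp (hg (G.τ.restrictScalars K) hτ)
  obtain ⟨a, b, hab⟩ := G.gen g
  have hgp : g ^ (p : ℤ) = 1 := by
    have hsp : (G.σ.restrictScalars K) ^ p = 1 := by
      have : IsGalois L' F := IsGalois.tower_top_of_isGalois K L' F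
      rw [← restrictScalars_pow, aut_pow_eq_one h.degσ]
      rfl
    have htp : (G.τ.restrictScalars K) ^ p = 1 := by
      rw [← restrictScalars_pow, aut_pow_eq_one h.degτ]
      rfl
    rw [zpow_natCast, hab, (G.comm.pow_pow a b).mul_pow, ← pow_mul, ← pow_mul, mul_comm a,
      mul_comm b, pow_mul, pow_mul, hsp, htp, one_pow, one_pow, one_mul]
  have hip : ¬ (p : ℤ) ∣ i := fun ⟨c, hc⟩ ↦ G.σ_ne (AlgEquiv.ext fun x ↦ by
    have := AlgEquiv.congr_fun hi x
    rw [hc, zpow_mul, hgp, one_zpow] at this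
    exact this.symm)
  obtain ⟨x, y, hxy⟩ := (Nat.prime_iff_prime_int.mp h.prime).coprime_iff_not_dvd.mpr hip
  have hts : G.τ.restrictScalars K = (G.σ.restrictScalars K) ^ (y * j) := by
    rw [← hj, ← hi, ← zpow_mul]
    have : g ^ j = g ^ ((x * (p : ℤ) + y * i) * j) := by rw [hxy, one_mul]
    rw [this, add_mul, zpow_add, mul_comm x, mul_assoc, zpow_mul g (p : ℤ), hgp, one_zpow, one_mul,
      mul_comm y i, mul_assoc]
  refine G.τ_ne (AlgEquiv.ext fun x' ↦ ?_)
  have h1 : G.τ.restrictScalars K = 1 := h.faithful _ (fun z ↦ G.τ.commutes z) fun z ↦ by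
    rw [hts]
    have hmem : (G.σ.restrictScalars K) ^ (y * j) ∈
        MulAction.stabilizer (F ≃ₐ[K] F) (algebraMap L' F z) :=
      Subgroup.zpow_mem _ (G.σ.commutes z) _
    exact hmem
  exact AlgEquiv.congr_fun h1 x'

lemma ordv_sigma_prod (hdeg : finrank L' F = p) (hp : p.Prime) {σ : F ≃ₐ[L'] F} (hσ : σ ≠ 1)
    [IsGalois L' F] (W : HeightOneSpectrum (𝓞 F)) {y : F} (hy : y ≠ 0) :
    ordv W (algebraMap L' F (Algebra.norm L' y)) =
      ∑ i ∈ Finset.range p, ordv ((σ ^ i)⁻¹ • W) y := by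
  rw [← prod_pow_eq_norm hp hdeg hσ, ordv_prod _ _ _ fun i _ ↦ (map_ne_zero (σ ^ i)).mpr hy]
  exact Finset.sum_congr rfl fun i _ ↦ ordv_apply _ _ _

omit [IsGalois K L'] in
lemma IsCross.ramIdx_L' (h : IsCross K L L' F p v) (W : HeightOneSpectrum (𝓞 F)) :
    ramIdx L' W = 1 := by
  have : IsGalois L' F := IsGalois.tower_top_of_isGalois K L' F
  rw [← card_inertia, Subgroup.card_eq_one, Subgroup.eq_bot_iff_forall]
  intro g hg
  have := h.faithful (g.restrictScalars K)
    (apply_algebraMap_of_mem_inertia h.unrL (mem_inertia_restrictScalars hg)) fun x ↦ g.commutes x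
  exact AlgEquiv.ext fun x ↦ AlgEquiv.congr_fun this x

omit [IsGalois K L'] in
lemma IsCross.ramIdx_eq (h : IsCross K L L' F p v) (W : HeightOneSpectrum (𝓞 F)) :
    ramIdx K W = ramIdx K (primeUnder L' W) := by
  rw [ramIdx_tower (L := L'), h.ramIdx_L', one_mul]

omit [IsGalois K L] [IsGalois K L'] [NumberField K] [NumberField L] in
/-- Powers of an element moved along an orbit. -/
lemma orbit_index (G : Gens (K := K) (L := L) (L' := L') (F := F) p)
    {W : HeightOneSpectrum (𝓞 F)} (hp : p.Prime) (hdeg : finrank L' F = p) {k : ℕ}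
    (hk : G.τ • W = (G.σ ^ k) • W) (i : ZMod p) :
    G.σ • ((G.σ ^ i.val) • W) = (G.σ ^ (i + 1).val) • W ∧
      G.τ • ((G.σ ^ i.val) • W) = (G.σ ^ (i + k).val) • W := by
  have : IsGalois L' F := IsGalois.tower_top_of_isGalois K L' F
  have : Fact p.Prime := ⟨hp⟩
  have hmod : ∀ a b : ℕ, (a : ZMod p) = (b : ZMod p) → G.σ ^ a = G.σ ^ b := fun a b ↦
    pow_congr_zmod (aut_pow_eq_one hdeg G.σ)
  constructor
  · rw [smul_smul, ← pow_succ', hmod (i.val + 1) (i + 1).val (by simp)]
  · rw [G.smul_comm, hk, smul_smul, ← pow_add, hmod (i.val + k) (i + k).val (by simp)]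

/-- The crossing. -/
theorem IsCross.exists_crossed (h : IsCross K L L' F p v) {c : K} (hc : c ≠ 0)
    (hloc : ∀ v', v' ≠ v → IsLocalNormAt K L v' c) :
    ∃ c' : K, c' ≠ 0 ∧ (∀ v', v' ≠ v → IsLocalNormAt K L' v' c') ∧
      ((p : ℤ) ∣ ordv v c' → (p : ℤ) ∣ ordv v c) := by
  have hp := h.prime
  have : Fact p.Prime := ⟨hp⟩
  have : IsGalois L F := IsGalois.tower_top_of_isGalois K L F
  have : IsGalois L' F := IsGalois.tower_top_of_isGalois K L' F
  have hodd : ∀ {E : Type} [Field E] [Algebra E F] [IsGalois E F], finrank E F = p →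
      IsUnramifiedAtInfinitePlaces E F := fun {E} _ _ _ hE ↦
    IsUnramifiedAtInfinitePlaces_of_odd_finrank (hE ▸ hp.odd_of_ne_two h.ne_two)
  have := hodd h.degσ
  have : IsUnramifiedAtInfinitePlaces K L :=
    IsUnramifiedAtInfinitePlaces_of_odd_finrank (h.degL ▸ hp.odd_of_ne_two h.ne_two)
  have : IsUnramifiedAtInfinitePlaces K L' :=
    IsUnramifiedAtInfinitePlaces_of_odd_finrank (h.degL' ▸ hp.odd_of_ne_two h.ne_two)
  obtain ⟨G⟩ := h.exists_gens
  set s := G.σ.restrictScalars K
  set t := G.τ.restrictScalars K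
  have hdvdc : ∀ v', v' ≠ v → IsNonSplit K L v' → (p : ℤ) ∣ ordv v' c := fun v' hne hns ↦
    (isLocalNormAt_iff_dvd_ordv hp h.degL hns (fun u _ ↦ h.unrL u) hc).mp (hloc v' hne)
  -- scale `c` to a unit at the ramified places where `L` does not split
  set R := (finite_setOf_ramIdx_ne_one (L := L') hp h.degL').toFinset.image (primeUnder K)
  choose π hπ0 hπ1 using fun v' : HeightOneSpectrum (𝓞 K) ↦ exists_ordv_eq_one v'
  obtain ⟨t₀, ht₀, hnear⟩ := exists_near_div' R (fun v' ↦ π v' ^ (ordv v' c / p))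
    (fun v' _ ↦ zpow_ne_zero _ (hπ0 v')) 1
  set c₀ := c / t₀ ^ p with hc₀def
  have hc₀ : c₀ ≠ 0 := div_ne_zero hc (pow_ne_zero _ ht₀)
  have hloc₀ : ∀ v', v' ≠ v → IsLocalNormAt K L v' c₀ := fun v' hne ↦ by
    rw [hc₀def, div_eq_mul_inv]
    exact (hloc v' hne).mul (h.degL ▸ isLocalNormAt_pow_finrank ht₀).inv
  have hord₀ : ∀ v', ordv v' c₀ = ordv v' c - p * ordv v' t₀ := fun v' ↦ by
    rw [hc₀def, ordv_div v' hc (pow_ne_zero _ ht₀), ordv_pow]
  have hunit : ∀ u : HeightOneSpectrum (𝓞 L'), ramIdx K u ≠ 1 →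
      IsNonSplit K L (primeUnder K u) → ordv (primeUnder K u) c₀ = 0 := by
    intro u hu hns
    have hne : primeUnder K u ≠ v := fun e ↦ hu (h.unrV u e)
    have hmem : primeUnder K u ∈ R := Finset.mem_image_of_mem _ (by simpa using hu)
    have ht : ordv (primeUnder K u) t₀ = ordv (primeUnder K u) c / p := by
      rw [Near.ordv_eq le_rfl (hnear _ hmem) (zpow_ne_zero _ (hπ0 _)), ordv_zpow, hπ1, mul_one]
    rw [hord₀, ht, Int.mul_ediv_cancel' (hdvdc _ hne hns), sub_self]
  -- `c₀` is a norm from `F` to `L'`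
  have hnormF : ∃ y : F, Algebra.norm L' y = algebraMap K L' c₀ := by
    refine hasse_norm hp h.degσ (by simpa using hc₀) fun u ↦ ?_
    by_cases hns : IsNonSplit L' F u
    · refine (isLocalNormAt_iff_dvd_ordv hp h.degσ hns (fun W _ ↦ h.ramIdx_L' W)
        (by simpa using hc₀)).mpr ?_
      obtain ⟨W, hW⟩ := primeUnder_surjective (K := L') (L := F) u
      have hfix := (isNonSplit_iff hW).mp hns
      rw [ordv_algebraMap]
      by_cases he : ramIdx K u = 1
      · by_cases hv : primeUnder K u = v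
        · exfalso
          have hWv : primeUnder K W = v := by rw [← primeUnder_tower (L := L'), hW, hv]
          obtain ⟨m, hm⟩ := exists_pow_smul_eq (L := L') hp h.degσ (hWv ▸ h.nsL') G.σ_ne t
          exact h.not_both_fix G (W := W) (by rw [h.ramIdx_eq, hW, he]) (hfix _)
            (by rw [← smul_restrictScalars (K := K) G.τ]; exact hm.trans (hfix _))
        · rw [he, Nat.cast_one, one_mul]
          refine hord₀ _ ▸ dvd_sub (hdvdc _ hv ?_) (dvd_mul_right _ _)
          rw [← hW, primeUnder_tower]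
          refine isNonSplit_of_orbit G.τ (W := W) fun g ↦ ?_
          obtain ⟨a, b, rfl⟩ := G.gen g
          refine ⟨b, ?_⟩
          rw [(G.comm.pow_pow a b).eq, mul_smul, ← restrictScalars_pow, ← restrictScalars_pow,
            smul_restrictScalars, smul_restrictScalars, hfix]
      · rw [(h.ramL' u he).1]
        exact dvd_mul_right _ _
    · exact isLocalNormAt_of_not_isNonSplit hp h.degσ hns (by simpa using hc₀)
  obtain ⟨y, hy⟩ := hnormF
  have hy0 : y ≠ 0 := fun e ↦ by
    rw [e, Algebra.norm_zero, eq_comm, map_eq_zero] at hy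
    exact hc₀ hy
  have hyc : algebraMap K F c₀ = algebraMap L' F (Algebra.norm L' y) := by
    rw [hy, ← IsScalarTower.algebraMap_apply]
  -- Hilbert 90
  have : IsCyclic (F ≃ₐ[L'] F) :=
    isCyclic_of_prime_card ((IsGalois.card_aut_eq_finrank L' F).trans h.degσ)
  have hcomm_apply : ∀ (i : ℕ) (x : F), (G.σ ^ i) (G.τ x) = G.τ ((G.σ ^ i) x) := fun i x ↦ by
    have := AlgEquiv.congr_fun (G.comm.pow_left i).eq x
    rw [← restrictScalars_pow] at this
    exact this
  have hx1 : Algebra.norm L' (G.τ y / y) = 1 := by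
    refine (algebraMap L' F).injective ?_
    rw [map_one, div_eq_mul_inv, map_mul (Algebra.norm L'), Algebra.norm_inv, ← div_eq_mul_inv,
      map_div₀,
      ← prod_pow_eq_norm hp h.degσ G.σ_ne (G.τ y)]
    simp only [hcomm_apply]
    rw [← map_prod, prod_pow_eq_norm hp h.degσ G.σ_ne, ← hyc,
      IsScalarTower.algebraMap_apply K L F c₀, AlgEquiv.commutes,
      ← IsScalarTower.algebraMap_apply, div_self (by simpa using hc₀)]
  obtain ⟨z', hz'⟩ := groupCohomology.exists_div_of_norm_eq_one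
    (mem_zpowers_of_ne_one hp h.degσ G.σ_ne) hx1
  set z : F := ((z'⁻¹ : Fˣ) : F)
  have hz0 : z ≠ 0 := Units.ne_zero _
  have hz : G.σ z / z = G.τ y / y := by
    rw [← hz']
    simp only [z, Units.val_inv_eq_inv_val, map_inv₀]
    rw [inv_div_inv]
  -- descend the norm of `z` to `K`
  set P : F := algebraMap L F (Algebra.norm L z) with hPdef
  have hPprod : P = ∏ i ∈ Finset.range p, (G.τ ^ i) z :=
    (prod_pow_eq_norm hp h.degτ G.τ_ne z).symm
  have hP0 : P ≠ 0 := by simpa [hPdef] using norm_ne_zero' (K := L) hz0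
  have hsP : G.σ P = P := by
    have h1 : G.σ P / P = ∏ i ∈ Finset.range p, (G.τ ^ i) (G.σ z / z) := by
      rw [hPprod, map_prod, ← Finset.prod_div_distrib]
      refine Finset.prod_congr rfl fun i _ ↦ ?_
      rw [map_div₀]
      congr 1
      have := AlgEquiv.congr_fun (G.comm.pow_right i).eq z
      rw [← restrictScalars_pow] at this
      exact this
    have h2 : ∏ i ∈ Finset.range p, (G.τ ^ i) (G.σ z / z) = 1 := by
      simp only [hz, map_div₀, Finset.prod_div_distrib]
      have h3 : ∏ i ∈ Finset.range p, (G.τ ^ i) (G.τ y) = ∏ i ∈ Finset.range p, (G.τ ^ i) y := by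
        rw [prod_pow_eq_norm hp h.degτ G.τ_ne, prod_pow_eq_norm hp h.degτ G.τ_ne]
        congr 1
        exact (Algebra.norm_eq_of_algEquiv G.τ y).symm ▸ rfl
      rw [h3, div_self]
      exact Finset.prod_ne_zero_iff.mpr fun i _ ↦ (map_ne_zero (G.τ ^ i)).mpr hy0
    rwa [h2, div_eq_one_iff_eq hP0] at h1
  have htP : G.τ P = P := AlgEquiv.commutes _ _
  obtain ⟨c', hc'⟩ : ∃ c' : K, algebraMap K F c' = P := by
    refine (IsGalois.mem_range_algebraMap_iff_fixed P).mpr fun g ↦ ?_
    obtain ⟨a, b, rfl⟩ := G.gen g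
    have hmem : ∀ i : ℕ, s ^ i ∈ MulAction.stabilizer (F ≃ₐ[K] F) P := fun i ↦
      pow_mem (show s ∈ _ from hsP) i
    have hmem' : ∀ i : ℕ, t ^ i ∈ MulAction.stabilizer (F ≃ₐ[K] F) P := fun i ↦
      pow_mem (show t ∈ _ from htP) i
    exact mul_mem (hmem a) (hmem' b)
  have hc'0 : c' ≠ 0 := fun e ↦ hP0 (by rw [← hc', e, map_zero])
  -- valuations along an orbit at an unramified place where `L'` does not split
  have hcount : ∀ (W : HeightOneSpectrum (𝓞 F)) (k : ℕ), ramIdx K W = 1 →
      G.τ • W = (G.σ ^ k) • W →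
      (p : ℤ) ∣ ordv (primeUnder K W) c' - k * ordv (primeUnder K W) c₀ := by
    intro W k he hk
    set Pi : ZMod p → HeightOneSpectrum (𝓞 F) := fun i ↦ (G.σ ^ i.val) • W
    have hs : ∀ i, G.σ • Pi i = Pi (i + 1) := fun i ↦ (orbit_index G hp h.degσ hk i).1
    have ht : ∀ i, G.τ • Pi i = Pi (i + k) := fun i ↦ (orbit_index G hp h.degσ hk i).2
    have hsn : ∀ (n : ℕ) i, (G.σ ^ n)⁻¹ • Pi i = Pi (i - n) := fun n i ↦ by
      rw [inv_smul_eq_iff]
      induction n generalizing i with
      | zero => simp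
      | succ n ih => rw [pow_succ, mul_smul, hs, Nat.cast_succ,
          show i - (n + 1 : ZMod p) + 1 = i - n by ring, ← ih]
    have htn : ∀ (n : ℕ) i, (G.τ ^ n)⁻¹ • Pi i = Pi (i - n * k) := fun n i ↦ by
      rw [inv_smul_eq_iff]
      induction n generalizing i with
      | zero => simp
      | succ n ih => rw [pow_succ, mul_smul, ht, Nat.cast_succ,
          show i - (n + 1 : ZMod p) * k + k = i - n * k by ring, ← ih]
    have hunder : ∀ i, primeUnder K (Pi i) = primeUnder K W := fun i ↦ by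
      simp only [Pi]
      rw [← smul_restrictScalars (K := K) (G.σ ^ i.val), primeUnder_smul]
    have he' : ∀ i, ramIdx K (Pi i) = 1 := fun i ↦ by
      simp only [Pi]
      rw [h.ramIdx_eq, primeUnder_smul, ← h.ramIdx_eq, he]
    have hK : ∀ (i : ZMod p) (x : K), ordv (Pi i) (algebraMap K F x) = ordv (primeUnder K W) x :=
      fun i x ↦ by rw [ordv_algebraMap, he', hunder, Nat.cast_one, one_mul]
    set d : ZMod p → ℤ := fun i ↦ ordv (Pi i) y
    set zz : ZMod p → ℤ := fun i ↦ ordv (Pi i) z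
    have hshift : ∀ i, d (i - k) - d i = zz (i - 1) - zz i := fun i ↦ by
      have h1 := congrArg (ordv (Pi i)) hz
      rw [ordv_div _ (by simpa using hz0) hz0, ordv_div _ (by simpa using hy0) hy0,
        ordv_apply, ordv_apply] at h1
      have e1 := hsn 1 i
      have e2 := htn 1 i
      rw [pow_one] at e1 e2
      rw [e1, e2, Nat.cast_one, one_mul] at h1
      exact h1.symm
    have hsum : ∀ f : ZMod p → ℤ, ∀ m : ℕ → ZMod p,
        ∑ i, ∑ n ∈ Finset.range p, f (i - m n) = (p : ℤ) * ∑ i, f i := fun f m ↦ by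
      rw [Finset.sum_comm, Finset.sum_congr rfl fun n _ ↦
        show ∑ i, f (i - m n) = ∑ i, f i from (Equiv.subRight (m n)).sum_comp f,
        Finset.sum_const, Finset.card_range, nsmul_eq_mul]
    have hcd : ordv (primeUnder K W) c₀ = ∑ i, d i := by
      refine mul_left_cancel₀ (show (p : ℤ) ≠ 0 by exact_mod_cast hp.ne_zero) ?_
      rw [← hsum d (fun n ↦ (n : ZMod p))]
      have : ∀ i, ∑ n ∈ Finset.range p, d (i - n) = ordv (primeUnder K W) c₀ := fun i ↦ by
        rw [← hK i c₀, hyc, ordv_sigma_prod h.degσ hp G.σ_ne _ hy0]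
        exact Finset.sum_congr rfl fun n _ ↦ by rw [hsn]
      simp only [this, Finset.sum_const, Finset.card_univ, ZMod.card, nsmul_eq_mul]
    have hcz : ordv (primeUnder K W) c' = ∑ i, zz i := by
      refine mul_left_cancel₀ (show (p : ℤ) ≠ 0 by exact_mod_cast hp.ne_zero) ?_
      rw [← hsum zz (fun n ↦ (n : ZMod p) * k)]
      have : ∀ i, ∑ n ∈ Finset.range p, zz (i - n * k) = ordv (primeUnder K W) c' := fun i ↦ by
        rw [← hK i c', hc', hPdef, ordv_sigma_prod (L' := L) h.degτ hp G.τ_ne _ hz0]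
        exact Finset.sum_congr rfl fun n _ ↦ by rw [htn]
      simp only [this, Finset.sum_const, Finset.card_univ, ZMod.card, nsmul_eq_mul]
    rw [hcd, hcz]
    exact sum_shift_modEq k d zz hshift
  have hk_exists : ∀ W : HeightOneSpectrum (𝓞 F), IsNonSplit K L' (primeUnder K W) →
      ∃ k : ℕ, G.τ • W = (G.σ ^ k) • W := fun W hns ↦
    exists_pow_smul_eq (L := L') hp h.degσ hns G.σ_ne t
  refine ⟨c', hc'0, fun v' hne ↦ ?_, fun hdvd ↦ ?_⟩
  swap
  · -- at `v`
    set W := someAbove F v
    have hWv : primeUnder K W = v := primeUnder_someAbove v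
    have he : ramIdx K W = 1 := by
      rw [h.ramIdx_eq]; exact h.unrV _ (by rw [primeUnder_tower, hWv])
    obtain ⟨k, hk⟩ := hk_exists W (hWv ▸ h.nsL')
    have hkp : ¬ (p : ℤ) ∣ k := by
      intro hdk
      rw [Int.natCast_dvd_natCast] at hdk
      have htW : G.τ • W = W := by
        obtain ⟨q, rfl⟩ := hdk
        rw [hk, pow_mul, aut_pow_eq_one h.degσ, one_pow, one_smul]
      obtain ⟨m, hm⟩ := exists_pow_smul_eq (L := L) hp h.degτ (hWv ▸ h.nsL) G.τ_ne s
      have hsW : G.σ • W = W := by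
        rw [← smul_restrictScalars (K := K) G.σ]
        refine hm.trans ?_
        exact MulAction.mem_stabilizer_iff.mp
          (pow_mem (show G.τ ∈ MulAction.stabilizer (F ≃ₐ[L] F) W from htW) m)
      exact h.not_both_fix G he hsW htW
    have h1 := hcount W k he hk
    rw [hWv] at h1
    have h2 : (p : ℤ) ∣ k * ordv v c₀ := by
      have := dvd_sub hdvd h1
      rwa [sub_sub_cancel] at this
    have h3 := ((Nat.prime_iff_prime_int.mp hp).dvd_or_dvd h2).resolve_left hkp
    have h4 := dvd_add h3 (dvd_mul_right (p : ℤ) (ordv v t₀))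
    rwa [hord₀, sub_add_cancel] at h4
  -- at the other places
  by_cases hns' : IsNonSplit K L' v'
  swap
  · exact isLocalNormAt_of_not_isNonSplit hp h.degL' hns' hc'0
  set W := someAbove F v'
  have hWv : primeUnder K W = v' := primeUnder_someAbove v'
  set u := primeUnder L' W with hu_def
  have huv : primeUnder K u = v' := by rw [primeUnder_tower, hWv]
  by_cases he : ramIdx K u = 1
  · -- unramified
    refine (isLocalNormAt_iff_dvd_ordv hp h.degL' hns' (fun u₂ hu₂ ↦ ?_) hc'0).mpr ?_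
    · rwa [hns' u₂ u (primeUnder_eq_iff.mp hu₂) (primeUnder_eq_iff.mp huv)]
    have heW : ramIdx K W = 1 := by rw [h.ramIdx_eq, ← hu_def, he]
    obtain ⟨k, hk⟩ := hk_exists W (hWv ▸ hns')
    have h1 := hcount W k heW hk
    rw [hWv] at h1
    by_cases hd : (p : ℤ) ∣ k * ordv v' c₀
    · have := dvd_add h1 hd
      rwa [sub_add_cancel] at this
    · exfalso
      have hdk : ¬ p ∣ k := fun e ↦ hd (dvd_mul_of_dvd_left (Int.natCast_dvd_natCast.mpr e) _)
      refine hd (dvd_mul_of_dvd_right (hord₀ v' ▸ dvd_sub (hdvdc v' hne ?_) (dvd_mul_right _ _)) _)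
      rw [← hWv]
      refine isNonSplit_of_orbit G.τ (W := W) fun g ↦ ?_
      obtain ⟨a, b, rfl⟩ := G.gen g
      have hpow : ∀ m : ℕ, (G.τ ^ m) • W = (G.σ ^ (m * k)) • W := by
        intro m
        induction m with
        | zero => simp
        | succ m ih =>
          rw [pow_succ', mul_smul, ih, G.smul_comm, hk, smul_smul, ← pow_add, Nat.succ_mul]
      obtain ⟨m, hm⟩ : ∃ m : ℕ, (G.σ ^ (m * k)) = G.σ ^ a := by
        have hk0 : (k : ZMod p) ≠ 0 := by rwa [Ne, ZMod.natCast_eq_zero_iff]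
        refine ⟨((a : ZMod p) * (k : ZMod p)⁻¹).val, pow_congr_zmod (aut_pow_eq_one h.degσ G.σ) ?_⟩
        rw [Nat.cast_mul, ZMod.natCast_zmod_val, mul_assoc, inv_mul_cancel₀ hk0, mul_one]
      refine ⟨b + m, ?_⟩
      rw [(G.comm.pow_pow a b).eq, mul_smul, ← restrictScalars_pow, ← restrictScalars_pow,
        smul_restrictScalars, smul_restrictScalars, ← hm, ← hpow, smul_smul, ← pow_add]
  -- ramified
  obtain ⟨hep, hpv, kQ, hkQ⟩ := h.ramL' u he
  rw [huv] at hpv hkQ
  have heW : ramIdx K W = p := by rw [h.ramIdx_eq]; exact hep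
  have hinert : t ∈ W.asIdeal.inertia (F ≃ₐ[K] F) := by
    have hnt : Nontrivial (W.asIdeal.inertia (F ≃ₐ[K] F)) :=
      Finite.one_lt_card_iff_nontrivial.mp (by rw [card_inertia, heW]; exact hp.one_lt)
    obtain ⟨⟨g, hg⟩, hg1⟩ := exists_ne (1 : W.asIdeal.inertia (F ≃ₐ[K] F))
    obtain ⟨η, hη⟩ := exists_restrictScalars_eq (L := L) g
      (apply_algebraMap_of_mem_inertia h.unrL hg)
    have hη1 : η ≠ 1 := fun e ↦ hg1 (Subtype.ext (show g = 1 by rw [← hη, e]; rfl))
    obtain ⟨j, hj⟩ := Submonoid.mem_powers_iff _ _ |>.mp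
      (mem_powers_iff_mem_zpowers.mpr (mem_zpowers_of_ne_one hp h.degτ hη1 G.τ))
    have : t = g ^ j := by rw [← hη, ← restrictScalars_pow, hj]
    rw [this]
    exact pow_mem hg j
  have htW : G.τ • W = W := by
    have := Ideal.inertia_le_stabilizer _ hinert
    exact HeightOneSpectrum.ext this
  have htiW : ∀ i : ℕ, (G.τ ^ i) • W = W := fun i ↦ MulAction.mem_stabilizer_iff.mp
    (pow_mem (show G.τ ∈ MulAction.stabilizer (F ≃ₐ[L] F) W from htW) i)
  have hτL' : (G.τ.restrictScalars K).restrictNormal L' ≠ 1 := fun e ↦ G.τ_ne (by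
    have := h.faithful t (fun x ↦ G.τ.commutes x) fun x ↦ by
      rw [← t.restrictNormal_commutes L' x, e]; rfl
    exact AlgEquiv.ext fun x ↦ AlgEquiv.congr_fun this x)
  have hnormL' : ∀ x : L', ∏ i ∈ Finset.range p, (G.τ ^ i) (algebraMap L' F x) =
      algebraMap K F (Algebra.norm K x) := fun x ↦ by
    rw [IsScalarTower.algebraMap_apply K L' F, ← prod_pow_eq_norm hp h.degL' hτL' x, map_prod]
    refine Finset.prod_congr rfl fun i _ ↦ ?_
    rw [show (G.τ.restrictScalars K).restrictNormal L' ^ i =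
      ((G.τ.restrictScalars K) ^ i).restrictNormal L' from
        (map_pow (AlgEquiv.restrictNormalHom L') _ i).symm, AlgEquiv.restrictNormal_commutes,
      ← restrictScalars_pow]
    rfl
  by_cases hnsL : IsNonSplit K L v'
  · -- `L` does not split: residues
    have hsW : ∀ g : F ≃ₐ[K] F, g • W = W := fun g ↦ by
      obtain ⟨m, hm⟩ := exists_pow_smul_eq (L := L) hp h.degτ (hWv ▸ hnsL) G.τ_ne g
      rw [hm, htiW]
    have hσiW : ∀ i : ℕ, (G.σ ^ i)⁻¹ • W = W := fun i ↦ by
      rw [inv_smul_eq_iff, ← smul_restrictScalars (K := K) (G.σ ^ i), hsW]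
    have hyW : ordv W y = 0 := by
      have h1 := ordv_sigma_prod h.degσ hp G.σ_ne W hy0
      rw [← hyc, ordv_algebraMap, hWv, ← huv, hunit u he (huv ▸ hnsL), mul_zero] at h1
      simp only [hσiW, Finset.sum_const, Finset.card_range, nsmul_eq_mul] at h1
      exact (mul_eq_zero.mp h1.symm).resolve_left (by exact_mod_cast hp.ne_zero)
    have hty : Near W 1 (G.τ y / y) := near_apply_div_self (σ := t) hinert hy0 hyW
    obtain ⟨ω, hω0, hω1⟩ := exists_ordv_eq_one u
    have hωW : ordv W (algebraMap L' F ω) = 1 := by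
      rw [ordv_algebraMap, h.ramIdx_L', ← hu_def, hω1]; rfl
    set a := ordv W z
    have hω' : algebraMap L' F ω ≠ 0 := by simpa using hω0
    set r := z / algebraMap L' F ω ^ a with hr
    have hr0 : r ≠ 0 := div_ne_zero hz0 (zpow_ne_zero _ hω')
    have hrW : ordv W r = 0 := by
      rw [hr, ordv_div W hz0 (zpow_ne_zero _ hω'), ordv_zpow, hωW, mul_one, sub_self]
    have hσr : Near W 1 (G.σ r / r) := by
      rw [hr, map_div₀, map_zpow₀, AlgEquiv.commutes, div_div_div_cancel_right₀ (zpow_ne_zero _ hω'),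
        hz]
      exact hty
    have hτr : Near W 1 (G.τ r / r) := near_apply_div_self (σ := t) hinert hr0 hrW
    let Hr : Subgroup (F ≃ₐ[K] F) :=
      { carrier := {g | Near W 1 (g r / r)}
        one_mem' := by simpa [hr0] using near_one W 1
        mul_mem' := fun {g g'} hg hg' ↦ by
          have h1 : Near W 1 (g (g' r / r)) := by
            have h2 : g (g' r / r) - 1 = g (g' r / r - 1) := by rw [map_sub, map_one]
            by_cases h0 : g' r / r - 1 = 0
            · rw [Near, h2, h0, map_zero, map_zero]; exact zero_le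
            rw [Near, h2, valuation_le_exp_iff W ((map_ne_zero _).mpr h0), ordv_apply, hsW,
              ← valuation_le_exp_iff W h0]
            exact hg'
          have h3 := h1.mul W hg
          rw [map_div₀, div_mul_div_cancel₀ (by simpa using hr0)] at h3
          exact h3
        inv_mem' := fun {g} hg ↦ by
          have h2 : g⁻¹ (g r / r - 1) = g⁻¹ (g r / r) - 1 := by rw [map_sub, map_one]
          have h1 : Near W 1 (g⁻¹ (g r / r)) := by
            by_cases h0 : g r / r - 1 = 0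
            · rw [Near, ← h2, h0, map_zero, map_zero]; exact zero_le
            rw [Near, ← h2, valuation_le_exp_iff W ((map_ne_zero _).mpr h0), ordv_apply, hsW,
              ← valuation_le_exp_iff W h0]
            exact hg
          have h3 := h1.inv W le_rfl
          rw [map_div₀, inv_div, show g⁻¹ (g r) = r from g.symm_apply_apply r] at h3
          exact h3 }
    have hall : ∀ g, g ∈ Hr := fun g ↦ by
      obtain ⟨i, j, rfl⟩ := G.gen g
      exact mul_mem (pow_mem (show s ∈ Hr from hσr) i) (pow_mem (show t ∈ Hr from hτr) j)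
    obtain ⟨φ, -, -, hφ⟩ := exists_frob (K := K) W
    have hrQ : Near W 1 (r ^ (p * kQ)) := by
      have h1 := (hφ r hr0 hrW).inv W le_rfl
      have h2 := h1.mul W (hall φ)
      rw [hWv, hkQ, inv_div, div_mul_div_cancel₀ (by simpa using hr0), pow_succ,
        mul_div_cancel_right₀ _ hr0] at h2
      exact h2
    set Nω := Algebra.norm K ω ^ a
    have hNω0 : Nω ≠ 0 := zpow_ne_zero _ (norm_ne_zero' hω0)
    set R₀ := c' / Nω with hR₀
    have hR₀0 : R₀ ≠ 0 := div_ne_zero hc'0 hNω0
    have hR₀F : algebraMap K F R₀ = ∏ i ∈ Finset.range p, (G.τ ^ i) r := by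
      simp only [hr, map_div₀, map_zpow₀, Finset.prod_div_distrib]
      rw [← hPprod, Finset.prod_zpow, hnormL', hR₀, map_div₀, hc', map_zpow₀]
    have hprodnear : Near W 1 (algebraMap K F R₀ / r ^ p) := by
      have hrp : r ^ p = ∏ _i ∈ Finset.range p, r := by simp
      rw [hR₀F, hrp, ← Finset.prod_div_distrib]
      refine Finset.prod_induction _ _ (fun x y hx hy ↦ hx.mul W hy) (near_one W 1) fun i _ ↦ ?_
      have := pow_mem (show t ∈ Hr from hτr) i
      rw [← restrictScalars_pow] at this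
      exact this
    have hord : ordv v' R₀ = 0 := by
      have h1 : ordv W (algebraMap K F R₀) = 0 := by
        rw [Near.ordv_eq le_rfl hprodnear (pow_ne_zero _ hr0), ordv_pow, hrW, mul_zero]
      rw [ordv_algebraMap, hWv, heW] at h1
      exact (mul_eq_zero.mp h1).resolve_left (by exact_mod_cast hp.ne_zero)
    have hk0 : kQ ≠ 0 := fun e ↦ by
      have h2 := Fermat.Agent.ExtVanishing.two_le_absNorm K v'
      rw [hkQ, e] at h2
      omega
    have hpow : Near v' 1 (R₀ ^ kQ) := by
      have h1 := (hprodnear.pow W kQ).mul W hrQ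
      rw [div_pow, ← pow_mul, div_mul_cancel₀ _ (pow_ne_zero _ hr0), ← map_pow] at h1
      have h2 := near_one_of_near_algebraMap W h1
      rwa [hWv] at h2
    obtain ⟨t₁, ht₁, hnear₁⟩ := exists_pow_near v' hkQ hk0 hR₀0 hord hpow
    have hdec : c' = R₀ / t₁ ^ p * t₁ ^ p * Nω := by
      rw [div_mul_cancel₀ _ (pow_ne_zero _ ht₁), hR₀, div_mul_cancel₀ _ hNω0]
    rw [hdec]
    refine ((isLocalNormAt_of_near_one hp h.degL' hpv hnear₁).mul
      (h.degL' ▸ isLocalNormAt_pow_finrank ht₁)).mul ?_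
    have := (locNorms K L' v').zpow_mem
      (show Units.mk0 _ (norm_ne_zero' (K := K) hω0) ∈ locNorms K L' v' from
        isLocalNormAt_norm hω0) a
    simpa [mem_locNorms] using this
  · -- `L` splits: approximate `z` by an element of `L'`
    intro n
    set e := ramIdx K W
    have hfree : ∀ σ : F ≃ₐ[L'] F, σ • W = W → σ = 1 := by
      rcases fixed_or_free hp h.degσ W with hh | hh
      · exfalso
        refine hnsL (hWv ▸ isNonSplit_of_orbit G.τ (W := W) fun g ↦ ?_)
        obtain ⟨a, b, rfl⟩ := G.gen g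
        refine ⟨b, ?_⟩
        rw [(G.comm.pow_pow a b).eq, mul_smul, ← restrictScalars_pow, ← restrictScalars_pow,
          smul_restrictScalars, smul_restrictScalars, hh]
      · exact hh
    obtain ⟨b, hb, hb'⟩ := exists_near_div' (placesAbove F {u})
      (fun W' ↦ if W' = W then z else 1) (fun W' _ ↦ by split_ifs <;> simp [hz0]) (e * (n + 1))
    set kk := Algebra.norm L' b with hkk
    have hkz : Near W (e * (n + 1)) (algebraMap L' F kk / z) := by
      have hexp : algebraMap L' F kk / z =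
          ∏ η : F ≃ₐ[L'] F, η b / (if η = 1 then z else 1) := by
        rw [hkk, Algebra.norm_eq_prod_automorphisms, Finset.prod_div_distrib]
        simp
      rw [hexp]
      refine Finset.prod_induction _ _ (fun x y hx hy ↦ hx.mul W hy) (near_one W _) fun η _ ↦ ?_
      have hmem : η⁻¹ • W ∈ placesAbove F {u} := by
        rw [mem_placesAbove, primeUnder_smul, Finset.mem_singleton]
      have hn := hb' _ hmem
      by_cases h1 : η = 1
      · subst h1
        simpa using hn
      · rw [if_neg fun e ↦ h1 (inv_eq_one.mp (hfree _ e)), div_one] at hn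
        rw [if_neg h1, div_one]
        have h2 : η b - 1 = η (b - 1) := by rw [map_sub, map_one]
        rw [Near, h2]
        by_cases h0 : b - 1 = 0
        · rw [h0, map_zero, map_zero]; exact zero_le
        rw [valuation_le_exp_iff W ((map_ne_zero _).mpr h0), ordv_apply, ← valuation_le_exp_iff _ h0]
        exact hn
    have hmain : Near W (e * (n + 1)) (algebraMap K F (Algebra.norm K kk / c')) := by
      rw [map_div₀, ← hnormL' kk, hc', hPprod, ← Finset.prod_div_distrib]
      refine Finset.prod_induction _ _ (fun x y hx hy ↦ hx.mul W hy) (near_one W _) fun i _ ↦ ?_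
      rw [← map_div₀]
      have h2 : (G.τ ^ i) (algebraMap L' F kk / z) - 1 =
          (G.τ ^ i) (algebraMap L' F kk / z - 1) := by rw [map_sub, map_one]
      rw [Near, h2]
      by_cases h0 : algebraMap L' F kk / z - 1 = 0
      · rw [h0, map_zero, map_zero]; exact zero_le
      rw [valuation_le_exp_iff W ((map_ne_zero _).mpr h0), ordv_apply,
        inv_smul_eq_iff.mpr (htiW i).symm, ← valuation_le_exp_iff _ h0]
      exact hkz
    have hdown := near_of_near_algebraMap W hmain
    rw [hWv] at hdown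
    refine ⟨kk, ?_, ?_⟩
    · exact norm_ne_zero' hb
    change Near v' n _
    rw [← inv_div]
    exact (hdown.inv v' (by omega)).mono v' (Nat.le_succ n)

end

end Fermat.Agent.CFT
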