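import Fermat.Agent.CFT.Crossing
import Mathlib.NumberTheory.Cyclotomic.Gal
import Mathlib.NumberTheory.NumberField.Cyclotomic.Basic
import Mathlib.RingTheory.DedekindDomain.Different
import Mathlib.RingTheory.RootsOfUnity.Lemmas

/-!
The auxiliary cyclotomic extension of degree `p` and its product formula.
-/

set_option autoImplicit false

namespace Fermat.Agent.CFT

open NumberField IsDedekindDomain Module WithZero UniqueFactorizationMonoid
open scoped Classical Pointwise nonZeroDivisors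

noncomputable section

section OneField

variable {K : Type} [Field K] [NumberField K]

/-- Away from finitely many primes `q`, the prime `q` has valuation one at the places above it. -/
lemma exists_bad_primes :
    ∃ bad : Finset ℕ, ∀ q : ℕ, q.Prime → q ∉ bad → ∀ w : HeightOneSpectrum (𝓞 K),
      (q : 𝓞 K) ∈ w.asIdeal → ordv w (q : K) = 1 := by
  have hdiff : differentIdeal ℤ (𝓞 K) ≠ ⊥ := differentIdeal_ne_bot
  choose ℓ f hℓ hf hN hmem using
    fun w : HeightOneSpectrum (𝓞 K) ↦ Fermat.Agent.ExtVanishing.absNorm_prime_pow K w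
  refine ⟨(Ideal.finite_factors hdiff).toFinset.image ℓ, fun q hq hbad w hw ↦ ?_⟩
  have hqℓ : q = ℓ w := by
    by_contra hne
    obtain ⟨a, b, hab⟩ := Int.isCoprime_iff_nat_coprime.mpr
      (by simpa using (Nat.coprime_primes hq (hℓ w)).mpr hne :
        Nat.Coprime (Int.natAbs q) (Int.natAbs (ℓ w)))
    refine w.isPrime.ne_top ((Ideal.eq_top_iff_one _).mpr ?_)
    have h1 : ((a * (q : ℤ) + b * (ℓ w : ℤ) : ℤ) : 𝓞 K) = 1 := by rw [hab]; simp
    rw [← h1]
    push_cast
    exact add_mem (Ideal.mul_mem_left _ _ hw) (Ideal.mul_mem_left _ _ (hmem w))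
  have hq0 : (q : 𝓞 K) ≠ 0 := Nat.cast_ne_zero.mpr hq.ne_zero
  have hqK : algebraMap (𝓞 K) K (q : 𝓞 K) = (q : K) := map_natCast _ _
  have h1 : (1 : ℤ) ≤ ordv w (q : K) := by
    rw [← hqK]; exact (one_le_ordv_algebraMap_iff w hq0).mpr hw
  by_contra hne
  refine hbad ?_
  rw [Finset.mem_image]
  refine ⟨w, (Set.Finite.mem_toFinset _).mpr ?_, hqℓ.symm⟩
  have h2 : w.asIdeal ^ 2 ∣ Ideal.span {(q : 𝓞 K)} := by
    rw [← natCast_le_ordv_iff w hq0, hqK]
    push_cast
    omega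
  have : (Ideal.span {(q : ℤ)}).IsMaximal :=
    PrincipalIdealRing.isMaximal_of_irreducible
      (Int.prime_iff_natAbs_prime.2 (by simpa)).irreducible
  have hp0 : Ideal.span {(q : ℤ)} ≠ ⊥ := by simpa using hq.ne_zero
  simpa using pow_sub_one_dvd_differentIdeal ℤ w.asIdeal 2 (p := Ideal.span {(q : ℤ)}) hp0
    (by simpa [Ideal.map_span] using h2)

lemma eq_of_cnt_eq {I J : Ideal (𝓞 K)} (hI : I ≠ ⊥) (hJ : J ≠ ⊥)
    (h : ∀ v, cnt v I = cnt v J) : I = J := by
  have hm : normalizedFactors I = normalizedFactors J := by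
    refine Multiset.ext.mpr fun a ↦ ?_
    by_cases ha : Prime a
    · exact h ⟨a, Ideal.isPrime_of_prime ha, ha.ne_zero⟩
    · rw [Multiset.count_eq_zero.mpr fun hmem ↦ ha (prime_of_normalized_factor a hmem),
        Multiset.count_eq_zero.mpr fun hmem ↦ ha (prime_of_normalized_factor a hmem)]
  rw [← associated_iff_eq.mp (prod_normalizedFactors hI),
    ← associated_iff_eq.mp (prod_normalizedFactors hJ), hm]

lemma absNorm_eq_prod_cnt (s : Finset (HeightOneSpectrum (𝓞 K))) {I : Ideal (𝓞 K)} (hI : I ≠ ⊥)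
    (hs : ∀ v, v ∉ s → cnt v I = 0) :
    Ideal.absNorm I = ∏ v ∈ s, Ideal.absNorm v.asIdeal ^ cnt v I := by
  conv_lhs => rw [eq_of_cnt_eq (I := I) (J := ∏ v ∈ s, v.asIdeal ^ cnt v I) hI
    (Finset.prod_ne_zero_iff.mpr fun v _ ↦ pow_ne_zero _ v.ne_bot) fun v ↦ by
      rw [cnt_prod]; split_ifs with hv
      · rfl
      · exact hs v hv]
  simp only [map_prod, map_pow]

/-- Congruent elements have congruent norms. -/
lemma norm_congr {q : ℕ} {A B : 𝓞 K} (h : A - B ∈ Ideal.span {(q : 𝓞 K)}) :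
    ((Algebra.norm ℤ A : ℤ) : ZMod q) = ((Algebra.norm ℤ B : ℤ) : ZMod q) := by
  obtain ⟨e, he⟩ := Ideal.mem_span_singleton'.mp h
  set b := RingOfIntegers.basis K
  rw [show A = B + (q : ℤ) • e by rw [zsmul_eq_mul, Int.cast_natCast, mul_comm, he]; ring,
    Algebra.norm_eq_matrix_det b, Algebra.norm_eq_matrix_det b, ← eq_intCast (Int.castRingHom (ZMod q)),
    ← eq_intCast (Int.castRingHom (ZMod q)), RingHom.map_det, RingHom.map_det]
  congr 1
  ext i j
  rw [RingHom.mapMatrix_apply, RingHom.mapMatrix_apply, Matrix.map_apply, Matrix.map_apply,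
    map_add, Matrix.add_apply, map_zsmul, Matrix.smul_apply]
  simp

lemma absNorm_congr {q p m : ℕ} [Fact q.Prime] (hpm : Even m) (_hq : q = p * m + 1) {A B : 𝓞 K}
    (h : A - B ∈ Ideal.span {(q : 𝓞 K)}) :
    ((Ideal.absNorm (Ideal.span {A}) : ℕ) : ZMod q) ^ m =
      ((Ideal.absNorm (Ideal.span {B}) : ℕ) : ZMod q) ^ m := by
  have key : ∀ z : ℤ, ((z.natAbs : ℕ) : ZMod q) ^ m = (z : ZMod q) ^ m := fun z ↦ by
    rcases Int.natAbs_eq z with e | e
    · conv_rhs => rw [e, Int.cast_natCast]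
    · conv_rhs => rw [e, Int.cast_neg, Int.cast_natCast, hpm.neg_pow]
  rw [Ideal.absNorm_span_singleton, Ideal.absNorm_span_singleton, key, key, norm_congr h]

end OneField

section Cyclo

variable {K M : Type} [Field K] [NumberField K] [Field M] [NumberField M] [Algebra K M] {q : ℕ}
  [Fact q.Prime] {ζ : M} (hζ : IsPrimitiveRoot ζ q)

/-- The root of unity as an integer. -/
def zetaInt : 𝓞 M := hζ.toInteger

omit [NumberField M] in
lemma natCast_mem_of_zeta_sub {W : Ideal (𝓞 M)} {a b : ℕ} (hab : ¬ (a : ZMod q) = b)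
    (hW : W.IsPrime) (h : zetaInt hζ ^ a - zetaInt hζ ^ b ∈ W) : (q : 𝓞 M) ∈ W := by
  have hq : q.Prime := Fact.out
  have hz : IsPrimitiveRoot (zetaInt hζ) q := hζ.toInteger_isPrimitiveRoot
  obtain ⟨n, rfl⟩ : ∃ n, q = n + 1 := ⟨q - 1, by have := hq.pos; omega⟩
  set c := ((a : ZMod (n + 1)) - b).val with hc
  have hc0 : c ≠ 0 := fun e ↦ hab (sub_eq_zero.mp ((ZMod.val_eq_zero _).mp e))
  have hcq : c < n + 1 := ZMod.val_lt _
  have heq : zetaInt hζ ^ a = zetaInt hζ ^ (b + c) := pow_congr_zmod hz.pow_eq_one (by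
    rw [Nat.cast_add, hc, ZMod.natCast_zmod_val]; ring)
  have h1 : 1 - zetaInt hζ ^ c ∈ W := by
    rw [heq, show zetaInt hζ ^ (b + c) - zetaInt hζ ^ b =
      -(zetaInt hζ ^ b * (1 - zetaInt hζ ^ c)) by ring, neg_mem_iff] at h
    refine (hW.mem_or_mem h).resolve_left fun hb ↦ ?_
    exact hW.ne_top (Ideal.eq_top_of_isUnit_mem _ hb ((hz.isUnit n.succ_ne_zero).pow b))
  have h2 := hz.prod_one_sub_pow_eq_order
  obtain ⟨d, hd⟩ : ∃ d, c = d + 1 := ⟨c - 1, by omega⟩
  rw [show ((n + 1 : ℕ) : 𝓞 M) = (n : 𝓞 M) + 1 by push_cast; ring, ← h2]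
  exact W.mem_of_dvd (Finset.dvd_prod_of_mem _ (Finset.mem_range.mpr (show d < n by omega)))
    (hd ▸ h1)

omit [NumberField K] [NumberField M] [Fact (Nat.Prime q)] in
lemma natCast_notMem_of_under (W : HeightOneSpectrum (𝓞 M))
    (h : (q : 𝓞 K) ∉ (primeUnder K W).asIdeal) : (q : 𝓞 M) ∉ W.asIdeal := fun hm ↦ h (by
  change algebraMap (𝓞 K) (𝓞 M) (q : 𝓞 K) ∈ W.asIdeal
  rwa [map_natCast])

variable [IsGalois K M]

lemma exists_frob_zeta (W : HeightOneSpectrum (𝓞 M))
    (hq : (q : 𝓞 K) ∉ (primeUnder K W).asIdeal) :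
    ∃ φ : M ≃ₐ[K] M, φ • W = W ∧
      ((hζ.autToPow K φ : (ZMod q)ˣ) : ZMod q) = (Ideal.absNorm (primeUnder K W).asIdeal : ℕ) := by
  have := W.isPrime
  obtain ⟨φ, hfix, hr, -⟩ := exists_frob (K := K) W
  refine ⟨φ, hfix, ?_⟩
  set Q := Ideal.absNorm (primeUnder K W).asIdeal
  by_contra hne
  have h1 : zetaInt hζ ^ ((hζ.autToPow K φ : (ZMod q)ˣ) : ZMod q).val = φ • zetaInt hζ :=
    RingOfIntegers.ext (by
      change algebraMap (𝓞 M) M (zetaInt hζ ^ _) = φ ζ
      rw [map_pow]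
      exact hζ.autToPow_spec K φ)
  have h2 := hr (zetaInt hζ)
  rw [← h1] at h2
  exact natCast_notMem_of_under W hq (natCast_mem_of_zeta_sub hζ
    (by rwa [ZMod.natCast_zmod_val]) W.isPrime h2)

lemma ramIdx_eq_one_of_notMem (W : HeightOneSpectrum (𝓞 M))
    (hq : (q : 𝓞 K) ∉ (primeUnder K W).asIdeal) (hinj : Function.Injective (hζ.autToPow K)) :
    ramIdx K W = 1 := by
  have := W.isPrime
  rw [← card_inertia, Subgroup.card_eq_one, Subgroup.eq_bot_iff_forall]
  intro g hg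
  by_contra hne
  have h1 : zetaInt hζ ^ ((hζ.autToPow K g : (ZMod q)ˣ) : ZMod q).val = g • zetaInt hζ :=
    RingOfIntegers.ext (by
      change algebraMap (𝓞 M) M (zetaInt hζ ^ _) = g ζ
      rw [map_pow]
      exact hζ.autToPow_spec K g)
  have h2 : g • zetaInt hζ - zetaInt hζ ∈ W.asIdeal := hg _
  rw [← h1] at h2
  nth_rw 2 [← pow_one (zetaInt hζ)] at h2
  refine natCast_notMem_of_under W hq (natCast_mem_of_zeta_sub hζ ?_ W.isPrime h2)
  rw [ZMod.natCast_zmod_val, Nat.cast_one]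
  exact fun e ↦ hne (hinj ((Units.val_eq_one.mp e).trans (map_one _).symm))

lemma inertia_eq_top_of_mem (W : HeightOneSpectrum (𝓞 M))
    (hq : (q : 𝓞 K) ∈ (primeUnder K W).asIdeal) (h1 : ordv (primeUnder K W) (q : K) = 1)
    (hinj : Function.Injective (hζ.autToPow K)) :
    W.asIdeal.inertia (M ≃ₐ[K] M) = ⊤ := by
  have hqp : q.Prime := Fact.out
  have hz : IsPrimitiveRoot (zetaInt hζ) q := hζ.toInteger_isPrimitiveRoot
  have hcard : Nat.card (M ≃ₐ[K] M) ≤ q - 1 := by
    have := Nat.card_le_card_of_injective _ hinj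
    rwa [Nat.card_eq_fintype_card (α := (ZMod q)ˣ), ZMod.card_units] at this
  have hordq : ordv W (q : M) = ramIdx K W := by
    rw [show (q : M) = algebraMap K M (q : K) by simp, ordv_algebraMap, h1, mul_one]
  set a : ℕ → ℤ := fun c ↦ ordv W (algebraMap (𝓞 M) M (1 - zetaInt hζ ^ c)) with ha
  have hne : ∀ c, 0 < c → c < q → (1 - zetaInt hζ ^ c) ≠ 0 := fun c h0 hc ↦
    sub_ne_zero.mpr (hz.pow_ne_one_of_pos_of_lt h0.ne' hc).symm
  have hac : ∀ c, 0 < c → c < q → a c = a 1 := by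
    intro c h0 hc
    have hle : ∀ i j : ℕ, (1 - zetaInt hζ ^ (i * j)) ≠ 0 → a i ≤ a (i * j) := by
      intro i j h3
      have e : 1 - zetaInt hζ ^ (i * j) =
          (1 - zetaInt hζ ^ i) * ∑ k ∈ Finset.range j, (zetaInt hζ ^ i) ^ k := by
        rw [mul_neg_geom_sum, pow_mul]
      have h4 : (1 - zetaInt hζ ^ i) ≠ 0 ∧ (∑ k ∈ Finset.range j, (zetaInt hζ ^ i) ^ k) ≠ 0 :=
        ⟨left_ne_zero_of_mul (e ▸ h3), right_ne_zero_of_mul (e ▸ h3)⟩
      simp only [ha]
      rw [e, map_mul, ordv_mul W ((map_ne_zero_iff _ RingOfIntegers.coe_injective).mpr h4.1)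
        ((map_ne_zero_iff _ RingOfIntegers.coe_injective).mpr h4.2)]
      linarith [ordv_algebraMap_nonneg W (∑ k ∈ Finset.range j, (zetaInt hζ ^ i) ^ k)]
    refine le_antisymm ?_ (by simpa using hle 1 c (by simpa using hne c h0 hc))
    set j := ((c : ZMod q)⁻¹).val
    have hc0 : (c : ZMod q) ≠ 0 := by
      rw [Ne, ZMod.natCast_eq_zero_iff]
      exact fun h ↦ absurd (Nat.le_of_dvd h0 h) (by omega)
    have e1 : zetaInt hζ ^ (c * j) = zetaInt hζ ^ 1 := pow_congr_zmod hz.pow_eq_one (by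
      rw [Nat.cast_mul, ZMod.natCast_zmod_val, mul_inv_cancel₀ hc0, Nat.cast_one])
    have h5 := hle c j (by rw [e1]; exact hne 1 one_pos hqp.one_lt)
    simp only [ha, e1] at h5 ⊢
    exact h5
  have hsum : (ramIdx K W : ℤ) = ((q - 1 : ℕ) : ℤ) * a 1 := by
    obtain ⟨n, hn⟩ : ∃ n, q = n + 1 := ⟨q - 1, by have := hqp.pos; omega⟩
    have hp := (show IsPrimitiveRoot (zetaInt hζ) (n + 1) from hn ▸ hz).prod_one_sub_pow_eq_order
    rw [← hordq, show (q : M) = algebraMap (𝓞 M) M ((n : 𝓞 M) + 1) by rw [hn]; simp, ← hp,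
      map_prod, ordv_prod _ _ _ (fun k hk ↦ by
        exact (map_ne_zero_iff _ RingOfIntegers.coe_injective).mpr
          (hne (k + 1) k.succ_pos (by have := Finset.mem_range.mp hk; omega))),
      Finset.sum_congr rfl (fun k hk ↦ show ordv W _ = a 1 from
        hac (k + 1) k.succ_pos (by have := Finset.mem_range.mp hk; omega)),
      Finset.sum_const, Finset.card_range, nsmul_eq_mul, show q - 1 = n by omega]
  have hW : (q : 𝓞 M) ∈ W.asIdeal := by
    have : algebraMap (𝓞 K) (𝓞 M) (q : 𝓞 K) ∈ W.asIdeal := hq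
    rwa [map_natCast] at this
  have hpos : 0 < ramIdx K W := ramIdx_pos W
  have ha1 : 1 ≤ a 1 := by
    by_contra hlt
    have : (ramIdx K W : ℤ) ≤ 0 := by
      rw [hsum]; exact mul_nonpos_of_nonneg_of_nonpos (by positivity) (by omega)
    omega
  have hge : q - 1 ≤ ramIdx K W := by
    have : ((q - 1 : ℕ) : ℤ) ≤ ramIdx K W := hsum ▸ le_mul_of_one_le_right (by positivity) ha1
    exact_mod_cast this
  exact Subgroup.eq_top_of_le_card _ (by rw [card_inertia]; omega)

end Cyclo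

/-- The properties of the auxiliary extension that are used. -/
structure IsAux (K L' : Type) [Field K] [NumberField K] [Field L'] [NumberField L'] [Algebra K L']
    [IsGalois K L'] (p q m : ℕ) : Prop where
  deg : finrank K L' = p
  unr : ∀ u : HeightOneSpectrum (𝓞 L'), (q : 𝓞 K) ∉ (primeUnder K u).asIdeal → ramIdx K u = 1
  ram : ∀ u : HeightOneSpectrum (𝓞 L'), (q : 𝓞 K) ∈ (primeUnder K u).asIdeal → ramIdx K u = p
  inert : ∀ w : HeightOneSpectrum (𝓞 K), (q : 𝓞 K) ∉ w.asIdeal →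
    ((Ideal.absNorm w.asIdeal : ℕ) : ZMod q) ^ m ≠ 1 → IsNonSplit K L' w

variable (K : Type) [Field K] [NumberField K]

/-- The auxiliary extension exists. -/
theorem exists_isAux {p q m : ℕ} (hp : p.Prime) [Fact q.Prime] (hqm : q = p * m + 1)
    (hord : ∀ w : HeightOneSpectrum (𝓞 K), (q : 𝓞 K) ∈ w.asIdeal → ordv w (q : K) = 1)
    (v : HeightOneSpectrum (𝓞 K)) (hv : (q : 𝓞 K) ∉ v.asIdeal)
    (hvm : ((Ideal.absNorm v.asIdeal : ℕ) : ZMod q) ^ m ≠ 1) :
    ∃ (L' : Type) (_ : Field L') (_ : NumberField L') (_ : Algebra K L') (_ : IsGalois K L'),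
      IsAux K L' p q m := by
  have := Fact.mk hp
  have : NeZero q := ⟨(Fact.out : q.Prime).ne_zero⟩
  let M := CyclotomicField q K
  have : IsCyclotomicExtension {q} K M := CyclotomicField.isCyclotomicExtension q K
  have : NumberField M := IsCyclotomicExtension.numberField {q} K M
  have : IsGalois K M := IsCyclotomicExtension.isGalois {q} K M
  set ζ := IsCyclotomicExtension.zeta q K M
  have hζ : IsPrimitiveRoot ζ q := IsCyclotomicExtension.zeta_spec q K M
  have hinj : Function.Injective (hζ.autToPow K) := hζ.autToPow_injective K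
  set ψ : (M ≃ₐ[K] M) →* (ZMod q)ˣ := (powMonoidHom m).comp (hζ.autToPow K) with hψ
  set H := ψ.ker
  have : H.Normal := ψ.normal_ker
  set L' := IntermediateField.fixedField H
  have hfix : L'.fixingSubgroup = H := IntermediateField.fixingSubgroup_fixedField H
  have : IsGalois K L' := IsGalois.of_fixedField_normal_subgroup H
  have hfrob : ∀ W : HeightOneSpectrum (𝓞 M), (q : 𝓞 K) ∉ (primeUnder K W).asIdeal →
      ((Ideal.absNorm (primeUnder K W).asIdeal : ℕ) : ZMod q) ^ m ≠ 1 →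
      ∃ φ : M ≃ₐ[K] M, φ • W = W ∧ φ ∉ H := by
    intro W hW hm
    obtain ⟨φ, hφW, hφ⟩ := exists_frob_zeta hζ W hW
    refine ⟨φ, hφW, fun hmem ↦ hm ?_⟩
    have h1 : (hζ.autToPow K φ) ^ m = 1 := hmem
    rw [← hφ, ← Units.val_pow_eq_pow_val, h1, Units.val_one]
  have hHidx : H.index = p := by
    rw [Subgroup.index_ker]
    obtain ⟨φ, -, hφ⟩ := hfrob (someAbove M v) (by rwa [primeUnder_someAbove])
      (by rwa [primeUnder_someAbove])
    have hexp : ∀ x ∈ ψ.range, x ^ p = 1 := by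
      rintro _ ⟨g, rfl⟩
      simp only [hψ, MonoidHom.comp_apply, powMonoidHom_apply]
      rw [← pow_mul, mul_comm, show p * m = q - 1 by omega]
      exact ZMod.units_pow_card_sub_one_eq_one q _
    have hle : Nat.card ψ.range ≤ p := by
      have h := IsCyclic.card_pow_eq_one_le (α := (ZMod q)ˣ) hp.pos
      refine le_trans ?_ h
      rw [← Nat.card_eq_finsetCard]
      exact Nat.card_le_card_of_injective (fun x ↦ ⟨x.1, by simp [hexp x.1 x.2]⟩)
        fun x y e ↦ Subtype.ext (congrArg (fun z ↦ z.1) e)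
    have h1 : orderOf (⟨ψ φ, φ, rfl⟩ : ψ.range) = p :=
      orderOf_eq_prime (Subtype.ext (hexp _ ⟨φ, rfl⟩))
        fun e ↦ hφ (congrArg Subtype.val e)
    exact le_antisymm hle (h1 ▸ Nat.le_of_dvd Nat.card_pos (orderOf_dvd_natCard _))
  have hdeg : finrank K L' = p := by
    have h1 := Module.finrank_mul_finrank K L' M
    rw [IntermediateField.finrank_fixedField_eq_card, ← IsGalois.card_aut_eq_finrank K M,
      ← Subgroup.index_mul_card H, hHidx] at h1
    exact mul_right_cancel₀ Nat.card_pos.ne' h1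
  have hrestr : ∀ g : M ≃ₐ[K] M, g.restrictNormal L' = 1 → g ∈ H := fun g hg ↦ by
    rw [← hfix, IntermediateField.mem_fixingSubgroup_iff]
    intro x hx
    have := g.restrictNormal_commutes L' ⟨x, hx⟩
    rw [hg] at this
    exact this.symm
  refine ⟨L', inferInstance, inferInstance, inferInstance, inferInstance, hdeg, fun u hu ↦ ?_,
    fun u hu ↦ ?_, fun w hw hwm ↦ ?_⟩
  · obtain ⟨W, hW⟩ := primeUnder_surjective (K := L') (L := M) u
    have h1 := ramIdx_eq_one_of_notMem hζ W (by rwa [← primeUnder_tower (L := L'), hW]) hinj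
    rw [ramIdx_tower (L := L'), hW] at h1
    exact Nat.eq_one_of_mul_eq_one_left h1
  · obtain ⟨W, hW⟩ := primeUnder_surjective (K := L') (L := M) u
    have hWq : (q : 𝓞 K) ∈ (primeUnder K W).asIdeal := by rwa [← primeUnder_tower (L := L'), hW]
    have htop := inertia_eq_top_of_mem hζ W hWq (hord _ hWq) hinj
    rw [← card_inertia, show u.asIdeal.inertia (L' ≃ₐ[K] L') = ⊤ from eq_top_iff.mpr fun g _ ↦ by
      obtain ⟨g', rfl⟩ := AlgEquiv.restrictNormalHom_surjective (F := K) (E := M) (K₁ := L') g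
      rw [← hW]
      exact restrictNormal_mem_inertia (htop ▸ Subgroup.mem_top g'), Subgroup.card_top,
      IsGalois.card_aut_eq_finrank, hdeg]
  · have hW := primeUnder_someAbove (L := M) w
    obtain ⟨φ, hφW, hφH⟩ := hfrob (someAbove M w) (by rwa [hW]) (by rwa [hW])
    set u := primeUnder L' (someAbove M w)
    have huw : primeUnder K u = w := by rw [primeUnder_tower, hW]
    have hφu : φ.restrictNormal L' • u = u := by
      refine HeightOneSpectrum.ext (Ideal.ext fun r ↦ ?_)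
      obtain ⟨r, rfl⟩ := MulAction.surjective (φ.restrictNormal L') r
      rw [primeSmul_asIdeal, Ideal.smul_mem_pointwise_smul_iff]
      change algebraMap (𝓞 L') (𝓞 M) r ∈ (someAbove M w).asIdeal ↔
        algebraMap (𝓞 L') (𝓞 M) (φ.restrictNormal L' • r) ∈ (someAbove M w).asIdeal
      rw [show algebraMap (𝓞 L') (𝓞 M) (φ.restrictNormal L' • r) =
        φ • algebraMap (𝓞 L') (𝓞 M) r from RingOfIntegers.ext (φ.restrictNormal_commutes L' (r : L'))]
      conv_rhs => rw [← hφW, primeSmul_asIdeal, Ideal.smul_mem_pointwise_smul_iff]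
    refine (isNonSplit_iff huw).mpr ?_
    rcases fixed_or_free hp hdeg u with hh | hh
    · exact hh
    · exact absurd (hrestr φ (hh _ hφu)) hφH

variable {K}

/-- The product formula: for the auxiliary extension no element is a local norm everywhere but
at one inert place with valuation prime to `p`. -/
theorem IsAux.dvd_ordv {L' : Type} [Field L'] [NumberField L'] [Algebra K L'] [IsGalois K L']
    {p q m : ℕ} (h : IsAux K L' p q m) (hp : p.Prime) (hp2 : p ≠ 2) [Fact q.Prime]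
    (hqm : q = p * m + 1)
    (hord : ∀ w : HeightOneSpectrum (𝓞 K), (q : 𝓞 K) ∈ w.asIdeal → ordv w (q : K) = 1)
    {v : HeightOneSpectrum (𝓞 K)} (hv : (q : 𝓞 K) ∉ v.asIdeal)
    (hvm : ((Ideal.absNorm v.asIdeal : ℕ) : ZMod q) ^ m ≠ 1)
    {c : K} (hc : c ≠ 0) (hloc : ∀ v', v' ≠ v → IsLocalNormAt K L' v' c) :
    (p : ℤ) ∣ ordv v c := by
  have := Fact.mk hp
  have : IsUnramifiedAtInfinitePlaces K L' :=
    IsUnramifiedAtInfinitePlaces_of_odd_finrank (h.deg ▸ hp.odd_of_ne_two hp2)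
  have hq : q.Prime := Fact.out
  have hm : Even m := by
    have hodd : Odd q := hq.odd_of_ne_two fun e ↦ by
      have h1 : p * m = 1 := by omega
      exact hp.one_lt.ne' (Nat.eq_one_of_mul_eq_one_right h1)
    by_contra hne
    rw [Nat.not_even_iff_odd] at hne
    rw [hqm] at hodd
    exact (Nat.not_even_iff_odd.mpr hodd) ((hp.odd_of_ne_two hp2).mul hne).add_one
  have hq0 : (q : 𝓞 K) ≠ 0 := Nat.cast_ne_zero.mpr hq.ne_zero
  have hqbot : (Ideal.span {(q : 𝓞 K)}) ≠ ⊥ := by simpa using hq0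
  set Wq := (Ideal.finite_factors hqbot).toFinset
  have hWq : ∀ w, w ∈ Wq ↔ (q : 𝓞 K) ∈ w.asIdeal := fun w ↦ by
    simp only [Wq, Set.Finite.mem_toFinset, Set.mem_ofPred_eq, Ideal.dvd_span_singleton]
  have hvW : v ∉ Wq := fun e ↦ hv ((hWq v).mp e)
  have hinv : v ∉ Wq → IsNonSplit K L' v := fun _ ↦ h.inert v hv hvm
  -- scale to units at the places above `q`
  choose ω hω0 hω1 using fun u : HeightOneSpectrum (𝓞 L') ↦ exists_ordv_eq_one u
  obtain ⟨b₀, hb₀, hb₀near⟩ := exists_near_div' (placesAbove L' Wq)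
    (fun u ↦ ω u ^ ordv (primeUnder K u) c) (fun u _ ↦ zpow_ne_zero _ (hω0 u)) 1
  set c₁ := c / Algebra.norm K b₀ with hc₁def
  have hc₁ : c₁ ≠ 0 := div_ne_zero hc (norm_ne_zero' hb₀)
  have hloc₁ : ∀ v', v' ≠ v → IsLocalNormAt K L' v' c₁ := fun v' hne ↦ by
    rw [hc₁def, div_eq_mul_inv]
    exact (hloc v' hne).mul (isLocalNormAt_norm hb₀).inv
  have hfixq : ∀ w ∈ Wq, ∀ σ : L' ≃ₐ[K] L', σ • someAbove L' w = someAbove L' w := by
    intro w hw σ
    have htop : (someAbove L' w).asIdeal.inertia (L' ≃ₐ[K] L') = ⊤ :=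
      Subgroup.eq_top_of_le_card _ (by
        rw [card_inertia, h.ram _ (by rw [primeUnder_someAbove]; exact (hWq w).mp hw),
          IsGalois.card_aut_eq_finrank, h.deg])
    exact HeightOneSpectrum.ext
      (Ideal.inertia_le_stabilizer _ (htop ▸ Subgroup.mem_top σ))
  have hunit₁ : ∀ w ∈ Wq, ordv w c₁ = 0 := by
    intro w hw
    set u := someAbove L' w
    have huw : primeUnder K u = w := primeUnder_someAbove w
    have h1 : ordv u b₀ = ordv w c := by
      rw [Near.ordv_eq le_rfl (hb₀near u (by rw [mem_placesAbove, huw]; exact hw))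
        (zpow_ne_zero _ (hω0 u)), ordv_zpow, hω1, mul_one, huw]
    have h2 := ordv_algebraMap_norm (K := K) u hb₀
    rw [sum_ordv_of_fixed h.deg (hfixq w hw), ordv_algebraMap, huw,
      h.ram _ (by rw [huw]; exact (hWq w).mp hw), h1] at h2
    have h3 : ordv w (Algebra.norm K b₀) = ordv w c :=
      mul_left_cancel₀ (by exact_mod_cast hp.ne_zero) h2
    rw [hc₁def, ordv_div w hc (norm_ne_zero' hb₀), h3, sub_self]
  -- residues are `p`-th powers
  have hres : ∀ w ∈ Wq, ∃ t : K, t ≠ 0 ∧ Near w 1 (c₁ / t ^ p) := by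
    intro w hw
    set u := someAbove L' w
    have huw : primeUnder K u = w := primeUnder_someAbove w
    obtain ⟨ℓ, f, hℓ, hf, hN, hℓmem⟩ := Fermat.Agent.ExtVanishing.absNorm_prime_pow K w
    have hℓq : ℓ = q := by
      by_contra hne
      obtain ⟨a, b, hab⟩ := Int.isCoprime_iff_nat_coprime.mpr
        (by simpa using (Nat.coprime_primes hq hℓ).mpr (Ne.symm hne) :
          Nat.Coprime (Int.natAbs q) (Int.natAbs ℓ))
      refine w.isPrime.ne_top ((Ideal.eq_top_iff_one _).mpr ?_)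
      have h1 : ((a * (q : ℤ) + b * (ℓ : ℤ) : ℤ) : 𝓞 K) = 1 := by rw [hab]; simp
      rw [← h1]
      push_cast
      exact add_mem (Ideal.mul_mem_left _ _ ((hWq w).mp hw)) (Ideal.mul_mem_left _ _ hℓmem)
    subst hℓq
    obtain ⟨k, hk⟩ : ∃ k, ℓ ^ f = p * k + 1 := by
      have h1 : ℓ - 1 ∣ ℓ ^ f - 1 := by simpa using Nat.sub_dvd_pow_sub_pow ℓ 1 f
      rw [show ℓ - 1 = p * m by omega] at h1
      obtain ⟨k, hk⟩ := (dvd_mul_right p m).trans h1
      exact ⟨k, by have := Nat.one_le_pow f ℓ hℓ.pos; omega⟩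
    have hk0 : k ≠ 0 := fun e ↦ by
      rw [e, mul_zero, zero_add] at hk
      exact (Nat.one_lt_pow hf.ne' hℓ.one_lt).ne' hk
    refine exists_pow_near w (hN.trans hk) hk0 hc₁ (hunit₁ w hw) ?_
    obtain ⟨b, hb, hbnear⟩ := hloc₁ w (fun e ↦ hvW (e ▸ hw)) 1
    have hbnear' : Near w 1 (c₁ / Algebra.norm K b) := hbnear
    have hordb : ordv u b = 0 := by
      have h2 := ordv_algebraMap_norm (K := K) u hb
      rw [sum_ordv_of_fixed h.deg (hfixq w hw), ordv_algebraMap, huw,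
        ← Near.ordv_eq le_rfl hbnear' (norm_ne_zero' hb), hunit₁ w hw, mul_zero] at h2
      exact (mul_eq_zero.mp h2.symm).resolve_left (by exact_mod_cast hp.ne_zero)
    have htop : u.asIdeal.inertia (L' ≃ₐ[K] L') = ⊤ :=
      Subgroup.eq_top_of_le_card _ (by
        rw [card_inertia, h.ram _ (by rw [huw]; exact (hWq w).mp hw),
          IsGalois.card_aut_eq_finrank, h.deg])
    have hσb : ∀ σ : L' ≃ₐ[K] L', Near u 1 (σ b / b) := fun σ ↦
      near_apply_div_self (htop ▸ Subgroup.mem_top σ) hb hordb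
    have hnormb : Near u 1 (algebraMap K L' (Algebra.norm K b) / b ^ p) := by
      have hbp : b ^ p = ∏ _σ : L' ≃ₐ[K] L', b := by
        rw [Finset.prod_const, Finset.card_univ, Fintype.card_eq_nat_card,
          IsGalois.card_aut_eq_finrank, h.deg]
      rw [hbp, Algebra.norm_eq_prod_automorphisms, ← Finset.prod_div_distrib]
      exact Finset.prod_induction _ _ (fun x y hx hy ↦ hx.mul u hy) (near_one u 1) fun σ _ ↦ hσb σ
    obtain ⟨φ, -, -, hφ⟩ := exists_frob (K := K) u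
    have hbQ : Near u 1 (b ^ (p * k)) := by
      have h1 := ((hφ b hb hordb).inv u le_rfl).mul u (hσb φ)
      rw [huw, hN, hk, inv_div, div_mul_div_cancel₀ (by simpa using hb), pow_succ,
        mul_div_cancel_right₀ _ hb] at h1
      exact h1
    have hc₁u : Near u 1 (algebraMap K L' c₁ / algebraMap K L' (Algebra.norm K b)) := by
      rw [← map_div₀, Near, ← map_one (algebraMap K L'), ← map_sub]
      by_cases h0 : c₁ / Algebra.norm K b - 1 = 0
      · rw [h0, map_zero, map_zero]; exact zero_le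
      rw [valuation_le_exp_iff u ((map_ne_zero _).mpr h0), ordv_algebraMap, huw,
        h.ram _ (by rw [huw]; exact (hWq w).mp hw)]
      have h1 : ((1 : ℕ) : ℤ) ≤ ordv w (c₁ / Algebra.norm K b - 1) :=
        (valuation_le_exp_iff w h0).mp hbnear'
      push_cast at h1 ⊢
      have : (1 : ℤ) ≤ (p : ℤ) := by exact_mod_cast hp.one_le
      nlinarith
    have h3 := ((hc₁u.mul u hnormb).pow u k).mul u hbQ
    rw [div_mul_div_cancel₀ (by simpa using norm_ne_zero' (K := K) hb), div_pow, ← pow_mul,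
      div_mul_cancel₀ _ (pow_ne_zero _ hb), ← map_pow] at h3
    have h4 := near_one_of_near_algebraMap u h3
    rwa [huw] at h4
  choose! t ht0 htnear using hres
  obtain ⟨t₀, ht₀, ht₀near⟩ := exists_near_div' Wq t (fun w hw ↦ ht0 w hw) 1
  set c₂ := c₁ / t₀ ^ p with hc₂def
  have hc₂ : c₂ ≠ 0 := div_ne_zero hc₁ (pow_ne_zero _ ht₀)
  have hnear₂ : ∀ w ∈ Wq, Near w 1 c₂ := fun w hw ↦ by
    have h1 := (htnear w hw).mul w (((ht₀near w hw).inv w le_rfl).pow w p)
    rw [inv_div, div_pow, div_mul_div_cancel₀ (pow_ne_zero _ (ht0 w hw))] at h1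
    exact h1
  have hdiv₂ : ∀ v', v' ≠ v → v' ∉ Wq →
      ((Ideal.absNorm v'.asIdeal : ℕ) : ZMod q) ^ m ≠ 1 → (p : ℤ) ∣ ordv v' c₂ := by
    intro v' hne hv' hm'
    have hq' : (q : 𝓞 K) ∉ v'.asIdeal := fun e ↦ hv' ((hWq v').mpr e)
    rw [hc₂def, ordv_div v' hc₁ (pow_ne_zero _ ht₀), ordv_pow]
    exact dvd_sub ((isLocalNormAt_iff_dvd_ordv hp h.deg (h.inert v' hq' hm')
      (fun u hu ↦ h.unr u (hu.symm ▸ hq')) hc₁).mp (hloc₁ v' hne)) (dvd_mul_right _ _)
  have hvc : (p : ℤ) ∣ ordv v c₂ → (p : ℤ) ∣ ordv v c := by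
    intro h2
    rw [hc₂def, ordv_div v hc₁ (pow_ne_zero _ ht₀), ordv_pow, hc₁def,
      ordv_div v hc (norm_ne_zero' hb₀)] at h2
    have h3 := ordv_algebraMap_norm (K := K) (someAbove L' v) hb₀
    rw [sum_ordv_of_fixed h.deg ((isNonSplit_iff (primeUnder_someAbove v)).mp (hinv hvW)),
      ordv_algebraMap, h.unr _ (by rw [primeUnder_someAbove]; exact hv), primeUnder_someAbove,
      Nat.cast_one, one_mul] at h3
    rw [h3] at h2
    have := dvd_add (dvd_add h2 (dvd_mul_right (p : ℤ) (ordv v t₀)))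
      (dvd_mul_right (p : ℤ) (ordv (someAbove L' v) b₀))
    rwa [sub_add_cancel, sub_add_cancel] at this
  refine hvc ?_
  -- clear denominators by an element congruent to one
  set s := (finite_setOf_ordv_ne_zero hc₂).toFinset
  have hsW : ∀ w ∈ s, w ∉ Wq := fun w hw hwq ↦ by
    simp only [s, Set.Finite.mem_toFinset, Set.mem_ofPred_eq] at hw
    exact hw ((Near.ordv_eq le_rfl (y := (1 : K)) (by rw [div_one]; exact hnear₂ w hwq)
      one_ne_zero).trans (ordv_one w))
  obtain ⟨d, hd, e, he, hde⟩ : ∃ d ∈ ∏ w ∈ s, w.asIdeal ^ (-ordv w c₂).toNat,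
      ∃ e ∈ modulus Wq 1, d + e = 1 :=
    Ideal.isCoprime_iff_exists.mp (IsCoprime.prod_left fun w hw ↦
      (isCoprime_prime_modulus (hsW w hw)).pow_left)
  have hd1 : ∀ w ∈ Wq, d - 1 ∈ w.asIdeal := fun w hw ↦ by
    rw [show d - 1 = -e by rw [← hde]; ring]
    refine neg_mem (Ideal.dvd_iff_le.mp ?_ he)
    have := Finset.dvd_prod_of_mem (fun v' : HeightOneSpectrum (𝓞 K) ↦ v'.asIdeal ^ 1) hw
    simpa [modulus] using this
  have hdW : ∀ w ∈ Wq, d ∉ w.asIdeal := fun w hw hm' ↦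
    w.isPrime.ne_top ((Ideal.eq_top_iff_one _).mpr (by
      have := sub_mem hm' (hd1 w hw)
      rwa [sub_sub_cancel] at this))
  have hd0 : d ≠ 0 := by
    obtain ⟨P, hP, hle⟩ := Ideal.exists_le_maximal (Ideal.span {(q : 𝓞 K)}) (by
      rw [Ne, Ideal.span_singleton_eq_top]
      intro hu
      have := Ideal.absNorm_span_singleton (q : 𝓞 K)
      rw [Ideal.span_singleton_eq_top.mpr hu, Ideal.absNorm_top,
        show ((q : 𝓞 K)) = algebraMap ℤ (𝓞 K) q by simp, Algebra.norm_algebraMap, Int.natAbs_pow,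
        Int.natAbs_natCast] at this
      exact (Nat.one_lt_pow finrank_pos.ne' hq.one_lt).ne this)
    intro e0
    refine hdW ⟨P, hP.isPrime, fun hb ↦ hq0 ?_⟩ ((hWq _).mpr ?_) (e0 ▸ zero_mem _)
    · rw [hb, le_bot_iff, Ideal.span_singleton_eq_bot] at hle
      exact hle
    · exact hle (Ideal.mem_span_singleton_self _)
  have hd0' : algebraMap (𝓞 K) K d ≠ 0 := by simpa using hd0
  obtain ⟨A, hA⟩ := exists_eq_algebraMap (x := c₂ * algebraMap (𝓞 K) K d) fun w ↦ by
    rw [ordv_mul w hc₂ hd0']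
    have h1 := ordv_algebraMap_nonneg w d
    by_cases hw : w ∈ s
    · have h2 : ((-ordv w c₂).toNat : ℤ) ≤ ordv w (algebraMap (𝓞 K) K d) := by
        rw [natCast_le_ordv_iff w hd0, Ideal.dvd_span_singleton]
        exact Ideal.dvd_iff_le.mp
          (Finset.dvd_prod_of_mem (fun v' ↦ v'.asIdeal ^ (-ordv v' c₂).toNat) hw) hd
      omega
    · simp only [s, Set.Finite.mem_toFinset, Set.mem_ofPred_eq, not_not] at hw
      omega
  have hA0 : A ≠ 0 := fun e0 ↦ mul_ne_zero hc₂ hd0' (by rw [← hA, e0, map_zero])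
  have hAd : A - d ∈ Ideal.span {(q : 𝓞 K)} := by
    have hq0' : (q : K) ≠ 0 := Nat.cast_ne_zero.mpr hq.ne_zero
    obtain ⟨x, hx⟩ := exists_eq_algebraMap (x := (algebraMap (𝓞 K) K (A - d)) / (q : K)) fun w ↦ by
      by_cases h0 : algebraMap (𝓞 K) K (A - d) = 0
      · simp [h0, ordv]
      rw [ordv_div w h0 hq0']
      by_cases hw : w ∈ Wq
      · rw [hord w ((hWq w).mp hw)]
        have h0' : A - d ≠ 0 := fun e0 ↦ h0 (by rw [e0, map_zero])
        have h1 : (1 : ℤ) ≤ ordv w (algebraMap (𝓞 K) K (A - d)) := by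
          have h2 : w.valuation K (algebraMap (𝓞 K) K (A - d)) ≤ exp (-((1 : ℕ) : ℤ)) := by
            rw [map_sub, hA, show c₂ * algebraMap (𝓞 K) K d - algebraMap (𝓞 K) K d =
              (c₂ - 1) * algebraMap (𝓞 K) K d by ring, map_mul]
            exact (mul_le_of_le_one_right' (w.valuation_le_one d)).trans (hnear₂ w hw)
          exact_mod_cast (valuation_le_exp_iff w h0).mp h2
        omega
      · have h1 : ordv w (q : K) = 0 := by
          have h2 := ordv_algebraMap_nonneg w (q : 𝓞 K)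
          have h3 := mt (one_le_ordv_algebraMap_iff w hq0).mp fun hm' ↦ hw ((hWq w).mpr hm')
          rw [map_natCast] at h2 h3
          omega
        have := ordv_algebraMap_nonneg w (A - d)
        omega
    refine Ideal.mem_span_singleton'.mpr ⟨x, FaithfulSMul.algebraMap_injective (𝓞 K) K ?_⟩
    rw [map_mul, hx, map_natCast, div_mul_cancel₀ _ hq0']
  have hnorm := absNorm_congr hm hqm hAd
  set T := insert v ((finite_setOf_cnt_ne_zero (Ideal.span {A})).toFinset ∪
    (finite_setOf_cnt_ne_zero (Ideal.span {d})).toFinset)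
  have hTA : ∀ w, w ∉ T → cnt w (Ideal.span {A}) = 0 := fun w hw ↦ by
    by_contra hne
    exact hw (Finset.mem_insert_of_mem (Finset.mem_union_left _ (by simpa using hne)))
  have hTd : ∀ w, w ∉ T → cnt w (Ideal.span {d}) = 0 := fun w hw ↦ by
    by_contra hne
    exact hw (Finset.mem_insert_of_mem (Finset.mem_union_right _ (by simpa using hne)))
  rw [absNorm_eq_prod_cnt T (by simpa using hA0) hTA, absNorm_eq_prod_cnt T (by simpa using hd0) hTd,
    Nat.cast_prod, Nat.cast_prod, ← Finset.prod_pow, ← Finset.prod_pow] at hnorm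
  set r : HeightOneSpectrum (𝓞 K) → ZMod q := fun w ↦
    ((Ideal.absNorm w.asIdeal : ℕ) : ZMod q) ^ m with hr
  have hpw : ∀ (w : HeightOneSpectrum (𝓞 K)) (n : ℕ),
      ((Ideal.absNorm w.asIdeal ^ n : ℕ) : ZMod q) ^ m = r w ^ n := fun w n ↦ by
    rw [Nat.cast_pow, hr, ← pow_mul, ← pow_mul, mul_comm]
  simp only [hpw] at hnorm
  have hnz : ∀ w, w ∉ Wq → r w ≠ 0 := fun w hw ↦ by
    refine pow_ne_zero _ ?_
    rw [Ne, ZMod.natCast_eq_zero_iff]
    intro hdvd
    obtain ⟨ℓ, f, hℓ, -, hN, hℓmem⟩ := Fermat.Agent.ExtVanishing.absNorm_prime_pow K w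
    rw [hN] at hdvd
    have := (Nat.prime_dvd_prime_iff_eq hq hℓ).mp (hq.dvd_of_dvd_pow hdvd)
    exact hw ((hWq w).mpr (this ▸ hℓmem))
  have hrp : ∀ w, w ∉ Wq → r w ^ p = 1 := fun w hw ↦ by
    have hm0 : ((Ideal.absNorm w.asIdeal : ℕ) : ZMod q) ≠ 0 := fun e0 ↦ hnz w hw (by
      simp only [hr, e0]
      refine zero_pow fun e1 ↦ ?_
      rw [e1, mul_zero, zero_add] at hqm
      exact hq.ne_one hqm)
    rw [hr, ← pow_mul, mul_comm, show p * m = q - 1 by omega]
    exact ZMod.pow_card_sub_one_eq_one hm0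
  have hcnt : ∀ w, (cnt w (Ideal.span {A}) : ℤ) = ordv w c₂ + cnt w (Ideal.span {d}) := fun w ↦ by
    rw [cnt_span w hA0, cnt_span w hd0, hA, ordv_mul w hc₂ hd0']
  have hW0 : ∀ w ∈ Wq, cnt w (Ideal.span {d}) = 0 ∧ cnt w (Ideal.span {A}) = 0 := fun w hw ↦ by
    have h1 : cnt w (Ideal.span {d}) = 0 := by
      by_contra hne
      refine hdW w hw ?_
      have := (le_cnt_iff w (I := Ideal.span {d}) (by simpa using hd0) 1).mp
        (Nat.one_le_iff_ne_zero.mpr hne)
      rwa [pow_one, Ideal.dvd_span_singleton] at this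
    have h2 : ordv w c₂ = 0 := (Near.ordv_eq le_rfl (y := (1 : K))
      (by rw [div_one]; exact hnear₂ w hw) one_ne_zero).trans (ordv_one w)
    have := hcnt w
    exact ⟨h1, by omega⟩
  have hsame : ∀ w ∈ T.erase v, r w ^ cnt w (Ideal.span {A}) = r w ^ cnt w (Ideal.span {d}) := by
    intro w hw
    rw [Finset.mem_erase] at hw
    by_cases hwq : w ∈ Wq
    · rw [(hW0 w hwq).1, (hW0 w hwq).2]
    by_cases h1 : r w = 1
    · rw [h1, one_pow, one_pow]
    refine pow_congr_zmod (hrp w hwq) ?_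
    have h2 := hdiv₂ w hw.1 hwq h1
    rw [← ZMod.intCast_zmod_eq_zero_iff_dvd] at h2
    have h3 := congrArg (fun z : ℤ ↦ (z : ZMod p)) (hcnt w)
    simp only [Int.cast_natCast, Int.cast_add, h2, zero_add] at h3
    exact h3
  rw [← Finset.mul_prod_erase T _ (Finset.mem_insert_self v _),
    ← Finset.mul_prod_erase T _ (Finset.mem_insert_self v _),
    Finset.prod_congr rfl hsame] at hnorm
  have hne0 : ∏ w ∈ T.erase v, r w ^ cnt w (Ideal.span {d}) ≠ 0 := by
    refine Finset.prod_ne_zero_iff.mpr fun w _ ↦ ?_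
    by_cases hwq : w ∈ Wq
    · rw [(hW0 w hwq).1, pow_zero]; exact one_ne_zero
    · exact pow_ne_zero _ (hnz w hwq)
  have h4 := mul_right_cancel₀ hne0 hnorm
  set u : (ZMod q)ˣ := Units.mk0 (r v) (hnz v hvW)
  have hord_u : orderOf u = p := orderOf_eq_prime (Units.ext (by
      rw [Units.val_pow_eq_pow_val, Units.val_one]; exact hrp v hvW))
    fun e1 ↦ hvm (congrArg Units.val e1)
  have h5 : u ^ cnt v (Ideal.span {A}) = u ^ cnt v (Ideal.span {d}) :=
    Units.ext (by simpa [u] using h4)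
  rw [pow_eq_pow_iff_modEq, hord_u] at h5
  have h6 := (Nat.modEq_iff_dvd.mp h5)
  rw [hcnt v, show (cnt v (Ideal.span {d}) : ℤ) - (ordv v c₂ + cnt v (Ideal.span {d})) =
    -ordv v c₂ by ring, dvd_neg] at h6
  exact h6

end

end Fermat.Agent.CFT
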