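import Fermat.Agent.CFT.Brauer.Reciprocity
import Fermat.Agent.CFT.Brauer.TwoPlace
import Fermat.Agent.CFT.Brauer.Hasse
import Fermat.Agent.CFT.Brauer.Places
import Fermat.Agent.GalCoh.Descent.DescentS

/-!
The class field theory inputs of the Galois cohomology layer.
-/

set_option autoImplicit false

namespace Fermat.Agent.CFT

/-- All class field theory inputs, unconditionally. -/
theorem cftInputs (p : ℕ) [Fact p.Prime] : GalCoh.CFTInputs p where
  reciprocity := Brauer.reciprocity p
  hasseInjective := Brauer.hasseInjective p
  localH2Cyclic := Brauer.localH2Cyclic p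
  twoPlaceClasses := Brauer.twoPlaceClasses p
  descentS := GalCoh.descentS_of p (Brauer.hasseInjective p) (Brauer.localH2Cyclic p)

end Fermat.Agent.CFT

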