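import Fermat.Agent.CFT.Herbrand
import Mathlib.GroupTheory.FiniteAbelian.Basic
import Mathlib.RingTheory.RootsOfUnity.Lemmas
import Mathlib.RingTheory.Polynomial.Cyclotomic.Roots
import Mathlib.RingTheory.RootsOfUnity.Complex
import Mathlib.LinearAlgebra.Dimension.Localization
import Mathlib.LinearAlgebra.Dimension.Torsion.Finite
import Mathlib.LinearAlgebra.FreeModule.PID

/-!
The Herbrand quotient of a finitely generated module over a cyclic group of prime order depends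
only on two ranks.
-/

set_option autoImplicit false

namespace Fermat.Agent.CFT

open Module Polynomial

variable {A : Type*} [AddCommGroup A] [Module.Finite ℤ A]

lemma finrank_range_add_finrank_ker_int {B : Type*} [AddCommGroup B] (φ : A →ₗ[ℤ] B) :
    finrank ℤ (LinearMap.range φ) + finrank ℤ (LinearMap.ker φ) = finrank ℤ A := by
  rw [← φ.quotKerEquivRange.finrank_eq]
  exact Submodule.finrank_quotient_add_finrank _

/-- Submodules commensurable through a nonzero integer have the same rank. -/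
lemma finrank_eq_of_smul_mem {P Q : Submodule ℤ A} (h : P ≤ Q) {n : ℤ} (hn : n ≠ 0)
    (hm : ∀ x ∈ Q, n • x ∈ P) : finrank ℤ P = finrank ℤ Q := by
  refine le_antisymm (Submodule.finrank_mono h) ?_
  let φ : Q →ₗ[ℤ] P :=
    (n • Q.subtype).codRestrict P fun x ↦ hm x x.2
  have h0 : finrank ℤ (LinearMap.ker φ) = 0 := by
    refine Module.IsTorsion.finrank_eq_zero fun {x} ↦ ⟨⟨n, mem_nonZeroDivisors_of_ne_zero hn⟩, ?_⟩
    have hx : ((φ x : P) : A) = 0 := by rw [LinearMap.mem_ker.mp x.2]; rfl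
    apply Subtype.ext; apply Subtype.ext
    exact hx
  have := finrank_range_add_finrank_ker_int φ
  have := Submodule.finrank_le (LinearMap.range φ)
  omega

/-- A subgroup containing a nonzero multiple of a finitely generated group has finite index. -/
lemma index_ne_zero_of_smul_mem (B : AddSubgroup A) {n : ℤ} (hn : n ≠ 0)
    (h : ∀ x, n • x ∈ B) : B.index ≠ 0 := by
  have hfin : Finite (A ⧸ B) := by
    let B' : Submodule ℤ A := AddSubgroup.toIntSubmodule B
    have : Finite (A ⧸ B') := Module.finite_of_fg_torsion _ (fun {x} ↦ by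
      obtain ⟨a, rfl⟩ := Submodule.Quotient.mk_surjective B' x
      exact ⟨⟨n, mem_nonZeroDivisors_of_ne_zero hn⟩,
        (Submodule.Quotient.mk_eq_zero B').mpr (h a)⟩)
    exact this
  exact Nat.card_ne_zero.mpr ⟨inferInstance, hfin⟩

/-- Some nonzero multiple kills the torsion. -/
lemma exists_smul_torsion_eq_zero (A : Type*) [AddCommGroup A] [Module.Finite ℤ A] :
    ∃ m : ℕ, m ≠ 0 ∧ ∀ a : A, ∀ k : ℤ, k ≠ 0 → k • a = 0 → m • a = 0 := by
  have : Finite (Submodule.torsion ℤ A) :=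
    Module.finite_of_fg_torsion _ (Submodule.torsion_isTorsion)
  refine ⟨Nat.card (Submodule.torsion ℤ A), Nat.card_pos.ne', fun a k hk hka ↦ ?_⟩
  exact congrArg Subtype.val (card_nsmul_eq_zero' (x := (⟨a,
    ⟨⟨k, mem_nonZeroDivisors_of_ne_zero hk⟩, hka⟩⟩ : Submodule.torsion ℤ A)))

/-- Multiplication by `p` on a torsion-free module has index `p ^ rank`. -/
lemma index_range_nsmul (W : Type*) [AddCommGroup W] [Module.Finite ℤ W] [Module.Free ℤ W]
    (p : ℕ) [NeZero p] :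
    (nsmulAddMonoidHom (α := W) p).range.index = p ^ finrank ℤ W := by
  classical
  set b := Module.Free.chooseBasis ℤ W
  let r : W →+ (Module.Free.ChooseBasisIndex ℤ W → ZMod p) :=
    { toFun := fun w i ↦ (b.repr w i : ZMod p)
      map_zero' := funext fun i ↦ by simp
      map_add' := fun x y ↦ funext fun i ↦ by simp }
  have hker : r.ker = (nsmulAddMonoidHom (α := W) p).range := by
    refine le_antisymm (fun w hw ↦ ?_) ?_
    · have h : ∀ i, (p : ℤ) ∣ b.repr w i := fun i ↦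
        (ZMod.intCast_zmod_eq_zero_iff_dvd _ _).mp (congrFun hw i)
      choose q hq using h
      refine ⟨∑ i, q i • b i, ?_⟩
      conv_rhs => rw [← b.sum_repr w]
      simp only [nsmulAddMonoidHom_apply, Finset.smul_sum]
      exact Finset.sum_congr rfl fun i _ ↦ by rw [hq i, mul_smul, natCast_zsmul]
    · rintro _ ⟨x, rfl⟩
      exact funext fun i ↦ by simp [r]
  rw [← hker, AddSubgroup.index_ker, (AddMonoidHom.range_eq_top (f := r)).mpr fun y ↦
    ⟨∑ i, ((y i).val : ℤ) • b i, funext fun i ↦ by simp [r, Finsupp.single_apply]⟩]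
  rw [AddSubgroup.card_top, Nat.card_fun, Nat.card_zmod, Nat.card_eq_fintype_card,
    finrank_eq_card_basis b]

/-- Two polynomials witnessing that `(ζ - 1) ^ (p - 1)` and `p` are associated. -/
lemma exists_cyclotomic_assoc {p : ℕ} (hp : p.Prime) :
    ∃ q q' : ℤ[X], cyclotomic p ℤ ∣ (X - 1) ^ (p - 1) * q - C (p : ℤ) ∧
      cyclotomic p ℤ ∣ C (p : ℤ) * q' - (X - 1) ^ (p - 1) := by
  obtain ⟨n, rfl⟩ : ∃ n, p = n + 1 := ⟨p - 1, by have := hp.pos; omega⟩
  obtain ⟨ζ, hζ⟩ : ∃ ζ : ℂ, IsPrimitiveRoot ζ (n + 1) :=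
    ⟨_, Complex.isPrimitiveRoot_exp (n + 1) n.succ_ne_zero⟩
  have hdvd : ∀ P : ℤ[X], aeval ζ P = 0 → cyclotomic (n + 1) ℤ ∣ P := fun P hP ↦ by
    rw [cyclotomic_eq_minpoly hζ n.succ_pos]
    exact minpoly.isIntegrallyClosed_dvd (hζ.isIntegral n.succ_pos) hP
  have hk : ∀ i ∈ Finset.range n, ∃ k : ℕ, ζ ^ ((i + 1) * k) = ζ := fun i hi ↦ by
    have hco : Nat.Coprime (i + 1) (n + 1) :=
      ((hp.coprime_iff_not_dvd).mpr fun h ↦ by
        have := Nat.le_of_dvd (by omega) h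
        have := Finset.mem_range.mp hi
        omega).symm
    obtain ⟨k, -, hk⟩ := Nat.exists_mul_mod_eq_one_of_coprime hco hp.one_lt
    refine ⟨k, ?_⟩
    rw [← Nat.div_add_mod ((i + 1) * k) (n + 1), hk, pow_add, pow_mul, hζ.pow_eq_one, one_pow,
      one_mul, pow_one]
  choose k hk using hk
  refine ⟨C ((-1) ^ n) * ∏ i ∈ Finset.range n, ∑ j ∈ Finset.range (i + 1), X ^ j,
    C ((-1) ^ n) * ∏ i ∈ (Finset.range n).attach,
      ∑ j ∈ Finset.range (k i.1 i.2), X ^ ((i.1 + 1) * j), hdvd _ ?_, hdvd _ ?_⟩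
  · have h := hζ.prod_pow_sub_one_eq_order
    simp only [map_sub, map_mul, map_pow, map_prod, map_sum, aeval_X, map_one, map_neg,
      Nat.add_sub_cancel, map_natCast]
    rw [sub_eq_zero, mul_left_comm,
      show (ζ - 1) ^ n = ∏ i ∈ Finset.range n, (ζ - 1) by simp, ← Finset.prod_mul_distrib]
    simp only [mul_geom_sum]
    rw [h]; push_cast; ring
  · have h := hζ.prod_pow_sub_one_eq_order
    simp only [map_sub, map_mul, map_pow, map_prod, map_sum, aeval_X, map_one, map_neg,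
      Nat.add_sub_cancel, map_natCast]
    rw [sub_eq_zero, show ((n + 1 : ℕ) : ℂ) = (n : ℂ) + 1 by push_cast; ring, ← h,
      ← Finset.prod_attach (Finset.range n) (fun i ↦ ζ ^ (i + 1) - 1)]
    rw [show ((-1 : ℂ) ^ n * ∏ i ∈ (Finset.range n).attach, (ζ ^ (i.1 + 1) - 1)) *
        ((-1) ^ n * ∏ i ∈ (Finset.range n).attach,
          ∑ j ∈ Finset.range (k i.1 i.2), ζ ^ ((i.1 + 1) * j)) =
        ((-1 : ℂ) ^ n * (-1) ^ n) * ∏ i ∈ (Finset.range n).attach,
          ((∑ j ∈ Finset.range (k i.1 i.2), ζ ^ ((i.1 + 1) * j)) * (ζ ^ (i.1 + 1) - 1)) by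
        rw [Finset.prod_mul_distrib]; ring,
      ← mul_pow, neg_one_mul, neg_neg, one_pow, one_mul,
      Finset.prod_congr rfl fun i _ ↦ show
        (∑ j ∈ Finset.range (k i.1 i.2), ζ ^ ((i.1 + 1) * j)) * (ζ ^ (i.1 + 1) - 1) = ζ - 1 by
        simp only [pow_mul]
        rw [geom_sum_mul, ← pow_mul, hk],
      Finset.prod_const, Finset.card_attach, Finset.card_range]

/-- The index of `σ - 1` on a torsion-free module killed by `1 + σ + ⋯ + σ ^ (p - 1)`. -/
lemma index_range_sub_one {W : Type*} [AddCommGroup W] [Module.Finite ℤ W] [Module.Free ℤ W]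
    {p : ℕ} (hp : p.Prime) (s : Module.End ℤ W) (hs : ∑ i ∈ Finset.range p, s ^ i = 0) :
    (s - 1).toAddMonoidHom.range.index ^ (p - 1) = p ^ finrank ℤ W := by
  have : NeZero p := ⟨hp.ne_zero⟩
  have := Fact.mk hp
  obtain ⟨q, q', hq, hq'⟩ := exists_cyclotomic_assoc hp
  have hz : ∀ P : ℤ[X], cyclotomic p ℤ ∣ P → aeval s P = 0 := fun P ⟨c, hc⟩ ↦ by
    rw [hc, map_mul, cyclotomic_prime ℤ p]
    simp [hs]
  set x := s - 1 with hx
  have e1 : ∀ w, (x ^ (p - 1)) (aeval s q w) = (p : ℤ) • w := fun w ↦ by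
    have := LinearMap.congr_fun (hz _ hq) w
    simp [sub_eq_zero] at this
    simpa using this
  have e2 : ∀ w, (p : ℤ) • aeval s q' w = (x ^ (p - 1)) w := fun w ↦ by
    have := LinearMap.congr_fun (hz _ hq') w
    simp [sub_eq_zero] at this
    simpa using this
  have e3 : ∀ w, aeval s q ((x ^ (p - 1)) w) = (p : ℤ) • w := fun w ↦ by
    rw [← e1 w]
    have hc : aeval s q * x ^ (p - 1) = x ^ (p - 1) * aeval s q := by
      rw [show x ^ (p - 1) = aeval s (((X : ℤ[X]) - 1) ^ (p - 1)) by simp [hx],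
        ← map_mul, ← map_mul, mul_comm]
    exact LinearMap.congr_fun hc w
  have hinj : Function.Injective x := by
    rw [injective_iff_map_eq_zero]
    intro w hw
    have h : (x ^ (p - 1)) w = 0 := by
      obtain ⟨k, hk⟩ : ∃ k, p - 1 = k + 1 := ⟨p - 2, by have := hp.two_le; omega⟩
      rw [hk, pow_succ, Module.End.mul_apply, hw, map_zero]
    have := e3 w
    rw [h, map_zero] at this
    exact (smul_eq_zero.mp this.symm).resolve_left (by exact_mod_cast hp.ne_zero)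
  have hpow : ∀ k : ℕ,
      (x ^ k).toAddMonoidHom.range.index = x.toAddMonoidHom.range.index ^ k := by
    intro k
    induction k with
    | zero =>
      rw [pow_zero, pow_zero, (AddMonoidHom.range_eq_top (f := (1 : Module.End ℤ W).toAddMonoidHom)).mpr fun w ↦ ⟨w, rfl⟩,
        AddSubgroup.index_top]
    | succ k ih =>
      have h1 : (x ^ (k + 1)).toAddMonoidHom.range =
          ((x ^ k).toAddMonoidHom.range).map x.toAddMonoidHom := by
        ext w
        simp only [AddMonoidHom.mem_range, AddSubgroup.mem_map, LinearMap.toAddMonoidHom_coe,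
          pow_succ', Module.End.mul_apply]
        exact ⟨fun ⟨a, ha⟩ ↦ ⟨_, ⟨a, rfl⟩, ha⟩, fun ⟨_, ⟨a, rfl⟩, ha⟩ ↦ ⟨a, ha⟩⟩
      rw [h1, ← AddSubgroup.relIndex_mul_index (show _ ≤ x.toAddMonoidHom.range by rintro _ ⟨a, -, rfl⟩; exact ⟨a, rfl⟩),
        show ((x ^ k).toAddMonoidHom.range.map x.toAddMonoidHom).relIndex x.toAddMonoidHom.range =
            (x ^ k).toAddMonoidHom.range.index by
          rw [AddMonoidHom.range_eq_map x.toAddMonoidHom,
            AddSubgroup.relIndex_map_map_of_injective _ _ hinj, AddSubgroup.relIndex_top_right],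
        ih, pow_succ]
  rw [← hpow, ← index_range_nsmul W p]
  congr 1
  refine le_antisymm ?_ ?_
  · rintro _ ⟨w, rfl⟩
    exact ⟨aeval s q' w, by simpa using e2 w⟩
  · rintro _ ⟨w, rfl⟩
    exact ⟨aeval s q w, by simpa using e1 w⟩

/-- The Herbrand quotient of a finitely generated module with an action of a cyclic group of
prime order, from its rank and the rank of its invariants. -/
theorem herbrand_lattice {p : ℕ} (hp : p.Prime) (s : Module.End ℤ A) (hs : s ^ p = 1)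
    (f g : A →+ A) (hf : ∀ a, f a = s a - a) (hg : ∀ a, g a = ∑ i ∈ Finset.range p, (s ^ i) a) :
    herbIdx f g ^ (p - 1) * p ^ finrank ℤ A =
      herbIdx g f ^ (p - 1) * p ^ (p * finrank ℤ (LinearMap.ker (s - 1))) := by
  have : NeZero p := ⟨hp.ne_zero⟩
  set N : Module.End ℤ A := ∑ i ∈ Finset.range p, s ^ i with hN
  have hgN : ∀ a, g a = N a := fun a ↦ by rw [hg, hN, LinearMap.sum_apply]
  have hfx : ∀ a, f a = (s - 1) a := fun a ↦ by rw [hf]; rfl
  have hxN : (s - 1) * N = 0 := by rw [hN, mul_geom_sum, hs, sub_self]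
  have hNx : N * (s - 1) = 0 := by rw [hN, geom_sum_mul, hs, sub_self]
  have hNs : N * s = N := by rwa [mul_sub, mul_one, sub_eq_zero] at hNx
  have hsN : s * N = N := by rwa [sub_mul, one_mul, sub_eq_zero] at hxN
  have hNfix : ∀ a, s a = a → N a = (p : ℤ) • a := by
    intro a ha
    have h : ∀ i : ℕ, (s ^ i) a = a := by
      intro i
      induction i with
      | zero => rfl
      | succ i ih => rw [pow_succ, Module.End.mul_apply, ha, ih]
    simp [hN, LinearMap.sum_apply, h]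
  have hNN : ∀ a, N (N a) = (p : ℤ) • N a := fun a ↦ hNfix _ (LinearMap.congr_fun hsN a)
  obtain ⟨m, hm0, hm⟩ := exists_smul_torsion_eq_zero A
  set μ : A →ₗ[ℤ] A := (m : ℤ) • LinearMap.id with hμ
  set B₁ : Submodule ℤ A := (LinearMap.ker (s - 1)).map μ with hB₁
  set B₂ : Submodule ℤ A := (LinearMap.ker N).map μ with hB₂
  have htf : ∀ a : A, ∀ k : ℤ, k ≠ 0 → k • μ a = 0 → μ a = 0 := fun a k hk h ↦ by
    have h' : (k * m : ℤ) • a = 0 := by rw [mul_smul]; simpa [hμ] using h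
    simpa [hμ] using hm a _ (mul_ne_zero hk (by exact_mod_cast hm0)) h'
  have htf' : ∀ {B : Submodule ℤ A}, (∀ x ∈ B, ∃ a, μ a = x) →
      Module.Free ℤ B := fun {B} hB ↦ by
    have : Module.IsTorsionFree ℤ B := by
      refine Module.IsTorsionFree.of_smul_eq_zero fun k x hkx ↦ ?_
      by_cases hk : k = 0
      · exact Or.inl hk
      obtain ⟨a, ha⟩ := hB x x.2
      refine Or.inr (Subtype.ext ?_)
      have := congrArg Subtype.val hkx
      rw [Submodule.coe_smul, ← ha] at this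
      rw [← ha]
      exact htf a k hk this
    exact inferInstance
  have hB₁le : B₁ ≤ LinearMap.ker (s - 1) := by
    rintro _ ⟨a, ha, rfl⟩
    refine LinearMap.mem_ker.mpr ?_
    change (s - 1) ((m : ℤ) • a) = 0
    rw [map_smul, LinearMap.mem_ker.mp ha, smul_zero]
  have hB₂le : B₂ ≤ LinearMap.ker N := by
    rintro _ ⟨a, ha, rfl⟩
    refine LinearMap.mem_ker.mpr ?_
    change N ((m : ℤ) • a) = 0
    rw [map_smul, LinearMap.mem_ker.mp ha, smul_zero]
  have := htf' (B := B₁) fun x ⟨a, _, ha⟩ ↦ ⟨a, ha⟩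
  have := htf' (B := B₂) fun x ⟨a, _, ha⟩ ↦ ⟨a, ha⟩
  have hdisj : ∀ b ∈ B₂, s b = b → b = 0 := by
    rintro b ⟨a, ha, rfl⟩ hsb
    refine htf a p (by exact_mod_cast hp.ne_zero) ?_
    rw [← hNfix _ hsb]
    exact LinearMap.mem_ker.mp (hB₂le ⟨a, ha, rfl⟩)
  have hstab : ∀ b ∈ B₂, s b - b ∈ B₂ := by
    rintro _ ⟨a, ha, rfl⟩
    refine ⟨s a - a, ?_, by simp [hμ, smul_sub]⟩
    have : N (s a) = N a := LinearMap.congr_fun hNs a
    exact LinearMap.mem_ker.mpr (by rw [map_sub, this, sub_self])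
  set B : AddSubgroup A := (B₁ ⊔ B₂).toAddSubgroup with hB
  have hmemB : ∀ x, x ∈ B ↔ ∃ b₁ ∈ B₁, ∃ b₂ ∈ B₂, b₁ + b₂ = x := fun x ↦ Submodule.mem_sup
  have hfix₁ : ∀ b ∈ B₁, f b = 0 := fun b hb ↦ (hfx b).trans (hB₁le hb)
  have hN₂ : ∀ b ∈ B₂, g b = 0 := fun b hb ↦ (hgN b).trans (hB₂le hb)
  have hg₁ : ∀ b ∈ B₁, g b = (p : ℤ) • b := fun b hb ↦
    (hgN b).trans (hNfix b (sub_eq_zero.mp ((hf b).symm.trans (hfix₁ b hb))))
  have hBf : B.map f ≤ B := by
    rintro _ ⟨x, hx, rfl⟩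
    obtain ⟨b₁, h₁, b₂, h₂, rfl⟩ := (hmemB x).mp hx
    rw [map_add, hfix₁ b₁ h₁, zero_add, hf]
    exact Submodule.mem_sup_right (hstab b₂ h₂)
  have hBg : B.map g ≤ B := by
    rintro _ ⟨x, hx, rfl⟩
    obtain ⟨b₁, h₁, b₂, h₂, rfl⟩ := (hmemB x).mp hx
    rw [map_add, hN₂ b₂ h₂, add_zero, hg₁ b₁ h₁]
    exact Submodule.mem_sup_left (B₁.smul_mem _ h₁)
  have hidx : B.index ≠ 0 := by
    refine index_ne_zero_of_smul_mem B (n := (m * p : ℤ)) (by
      exact_mod_cast mul_ne_zero hm0 hp.ne_zero) fun a ↦ ?_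
    have h1 : N a ∈ LinearMap.ker (s - 1) :=
      LinearMap.mem_ker.mpr (LinearMap.congr_fun hxN a)
    have h2 : (p : ℤ) • a - N a ∈ LinearMap.ker N := LinearMap.mem_ker.mpr (by
      rw [map_sub, map_smul, hNN, sub_self])
    have : ((m * p : ℤ)) • a = μ (N a) + μ ((p : ℤ) • a - N a) := by
      simp [hμ, mul_smul, smul_sub]
    rw [this]
    exact Submodule.add_mem_sup ⟨_, h1, rfl⟩ ⟨_, h2, rfl⟩
  have hfg : ∀ a, f (g a) = 0 := fun a ↦ by
    rw [hfx, hgN]; exact LinearMap.congr_fun hxN a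
  have hgf : ∀ a, g (f a) = 0 := fun a ↦ by
    rw [hfx, hgN]; exact LinearMap.congr_fun hNx a
  have key := herbrand_finite_index f g hfg hgf B hBf hBg hidx
  have e1 : herbIdxOn f g B = p ^ finrank ℤ B₁ := by
    have hk : f.ker ⊓ B = B₁.toAddSubgroup.subtype.range := by
      rw [AddSubgroup.range_subtype]
      refine le_antisymm ?_ fun b hb ↦ ⟨hfix₁ b hb, Submodule.mem_sup_left hb⟩
      rintro x ⟨hx, hxB⟩
      obtain ⟨b₁, h₁, b₂, h₂, rfl⟩ := (hmemB x).mp hxB
      have : f b₂ = 0 := by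
        have hx' : f (b₁ + b₂) = 0 := hx
        rwa [map_add, hfix₁ b₁ h₁, zero_add] at hx'
      rw [hdisj b₂ h₂ (sub_eq_zero.mp ((hf b₂).symm.trans this)), add_zero]
      exact h₁
    have hm' : B.map g = (nsmulAddMonoidHom (α := B₁) p).range.map B₁.toAddSubgroup.subtype := by
      refine le_antisymm ?_ ?_
      · rintro _ ⟨x, hx, rfl⟩
        obtain ⟨b₁, h₁, b₂, h₂, rfl⟩ := (hmemB x).mp hx
        refine ⟨p • ⟨b₁, h₁⟩, ⟨⟨b₁, h₁⟩, rfl⟩, ?_⟩
        rw [map_add, hN₂ b₂ h₂, add_zero, hg₁ b₁ h₁, natCast_zsmul]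
        rfl
      · rintro _ ⟨_, ⟨b, rfl⟩, rfl⟩
        exact ⟨b, Submodule.mem_sup_left b.2, by rw [hg₁ b b.2, natCast_zsmul]; rfl⟩
    rw [herbIdxOn, hk, hm', AddMonoidHom.range_eq_map B₁.toAddSubgroup.subtype,
      AddSubgroup.relIndex_map_map_of_injective _ _ Subtype.val_injective,
      AddSubgroup.relIndex_top_right]
    exact index_range_nsmul B₁ p
  have e2 : herbIdxOn g f B ^ (p - 1) = p ^ finrank ℤ B₂ := by
    let s₂ : Module.End ℤ B₂ := s.restrict fun b hb ↦ by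
      simpa using B₂.add_mem (hstab b hb) hb
    have hs₂ : ∀ b : B₂, ∀ i : ℕ, (((s₂ ^ i) b : B₂) : A) = (s ^ i) (b : A) := by
      intro b i
      induction i with
      | zero => rfl
      | succ i ih =>
        rw [pow_succ', pow_succ', Module.End.mul_apply, Module.End.mul_apply, ← ih]
        rfl
    have hΦ : ∑ i ∈ Finset.range p, s₂ ^ i = 0 := LinearMap.ext fun b ↦ Subtype.ext (by
      rw [LinearMap.sum_apply, AddSubmonoidClass.coe_finsetSum]
      simp only [hs₂]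
      rw [← hg, hN₂ b b.2]; rfl)
    have hk : g.ker ⊓ B = B₂.toAddSubgroup.subtype.range := by
      rw [AddSubgroup.range_subtype]
      refine le_antisymm ?_ fun b hb ↦ ⟨hN₂ b hb, Submodule.mem_sup_right hb⟩
      rintro x ⟨hx, hxB⟩
      obtain ⟨b₁, h₁, b₂, h₂, rfl⟩ := (hmemB x).mp hxB
      have : g b₁ = 0 := by
        have hx' : g (b₁ + b₂) = 0 := hx
        rwa [map_add, hN₂ b₂ h₂, add_zero] at hx'
      have h₁' := h₁
      obtain ⟨a, -, rfl⟩ := h₁
      rw [hg₁ _ h₁'] at this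
      rw [htf a p (by exact_mod_cast hp.ne_zero) this, zero_add]
      exact h₂
    have hm' : B.map f = (s₂ - 1).toAddMonoidHom.range.map B₂.toAddSubgroup.subtype := by
      refine le_antisymm ?_ ?_
      · rintro _ ⟨x, hx, rfl⟩
        obtain ⟨b₁, h₁, b₂, h₂, rfl⟩ := (hmemB x).mp hx
        refine ⟨(s₂ - 1) ⟨b₂, h₂⟩, ⟨⟨b₂, h₂⟩, rfl⟩, ?_⟩
        rw [map_add, hfix₁ b₁ h₁, zero_add, hf]
        rfl
      · rintro _ ⟨_, ⟨b, rfl⟩, rfl⟩
        exact ⟨b, Submodule.mem_sup_right b.2, by rw [hf]; rfl⟩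
    rw [herbIdxOn, hk, hm', AddMonoidHom.range_eq_map B₂.toAddSubgroup.subtype,
      AddSubgroup.relIndex_map_map_of_injective _ _ Subtype.val_injective,
      AddSubgroup.relIndex_top_right]
    exact index_range_sub_one hp s₂ hΦ
  have r1 : finrank ℤ B₁ = finrank ℤ (LinearMap.ker (s - 1)) :=
    finrank_eq_of_smul_mem hB₁le (n := (m : ℤ)) (by exact_mod_cast hm0) fun x hx ↦
      ⟨x, hx, by simp [hμ]⟩
  have r2 : finrank ℤ B₂ = finrank ℤ (LinearMap.ker N) :=
    finrank_eq_of_smul_mem hB₂le (n := (m : ℤ)) (by exact_mod_cast hm0) fun x hx ↦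
      ⟨x, hx, by simp [hμ]⟩
  have r3 : finrank ℤ (LinearMap.range (s - 1)) = finrank ℤ (LinearMap.ker N) := by
    obtain ⟨q, -, hq, -⟩ := exists_cyclotomic_assoc hp
    refine finrank_eq_of_smul_mem (n := (p : ℤ)) ?_ (by exact_mod_cast hp.ne_zero) fun x hx ↦ ?_
    · rintro _ ⟨a, rfl⟩
      exact LinearMap.mem_ker.mpr (LinearMap.congr_fun hNx a)
    · obtain ⟨c, hc⟩ := hq
      have := Fact.mk hp
      have h : aeval s ((X - 1) ^ (p - 1) * q - C (p : ℤ)) x = 0 := by
        rw [hc, mul_comm, map_mul, Module.End.mul_apply, cyclotomic_prime ℤ p]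
        simp [← hN, LinearMap.mem_ker.mp hx]
      simp [sub_eq_zero] at h
      obtain ⟨k, hk⟩ : ∃ k, p - 1 = k + 1 := ⟨p - 2, by have := hp.two_le; omega⟩
      rw [hk, pow_succ', Module.End.mul_apply] at h
      exact ⟨((s - 1) ^ k) (aeval s q x), by simpa using h⟩
  have hr : finrank ℤ A = finrank ℤ (LinearMap.ker (s - 1)) + finrank ℤ B₂ := by
    rw [r2, ← r3, ← finrank_range_add_finrank_ker_int (s - 1)]
    ring
  have key' := congrArg (· ^ (p - 1)) key
  simp only [mul_pow] at key'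
  rw [e2, e1, r1] at key'
  rw [hr, pow_add, mul_left_comm, key']
  obtain ⟨k, rfl⟩ : ∃ k, p = k + 1 := ⟨p - 1, by have := hp.pos; omega⟩
  simp only [Nat.add_sub_cancel]
  ring

end Fermat.Agent.CFT
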