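import Fermat.Agent.CFT.Val
import Mathlib.RingTheory.Valuation.Basic

/-!
Congruences to one, local norms form an open group.
-/

set_option autoImplicit false

namespace Fermat.Agent.CFT

open NumberField IsDedekindDomain Module WithZero

noncomputable section

section Near

variable {K : Type*} [Field K] [NumberField K] (v : HeightOneSpectrum (𝓞 K))

lemma exp_neg_natCast_le_one (n : ℕ) : exp (-(n : ℤ)) ≤ (1 : WithZero (Multiplicative ℤ)) := by
  rw [← exp_zero, exp_le_exp]; omega

lemma exp_neg_lt_one {n : ℕ} (hn : 1 ≤ n) :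
    exp (-(n : ℤ)) < (1 : WithZero (Multiplicative ℤ)) := by
  rw [← exp_zero, exp_lt_exp]; omega

/-- `x ≡ 1` modulo the `n`-th power of `v`. -/
def Near (n : ℕ) (x : K) : Prop := v.valuation K (x - 1) ≤ exp (-(n : ℤ))

lemma near_one (n : ℕ) : Near v n (1 : K) := by simp [Near]

lemma Near.mono {m n : ℕ} (h : m ≤ n) {x : K} (hx : Near v n x) : Near v m x :=
  hx.trans (exp_le_exp.mpr (by omega))

lemma Near.valuation_eq_one {n : ℕ} (hn : 1 ≤ n) {x : K} (h : Near v n x) :
    v.valuation K x = 1 := by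
  have := Valuation.map_one_add_of_lt (v.valuation K) (h.trans_lt (exp_neg_lt_one hn))
  rwa [add_sub_cancel] at this

lemma Near.ne_zero {n : ℕ} (hn : 1 ≤ n) {x : K} (h : Near v n x) : x ≠ 0 := fun h0 ↦ by
  simpa [h0] using h.valuation_eq_one v hn

lemma Near.mul {n : ℕ} {x y : K} (hx : Near v n x) (hy : Near v n y) : Near v n (x * y) := by
  have hy1 : v.valuation K y ≤ 1 := by
    rw [show y = (y - 1) + 1 by ring]
    exact ((v.valuation K).map_add _ _).trans (max_le (hy.trans (exp_neg_natCast_le_one n)) (by simp))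
  rw [Near, show x * y - 1 = (x - 1) * y + (y - 1) by ring]
  refine ((v.valuation K).map_add _ _).trans (max_le ?_ hy)
  rw [map_mul]
  exact (mul_le_of_le_one_right' hy1).trans hx

lemma Near.inv {n : ℕ} (hn : 1 ≤ n) {x : K} (hx : Near v n x) : Near v n x⁻¹ := by
  have h0 := hx.ne_zero v hn
  rw [Near, show x⁻¹ - 1 = -((x - 1) / x) by field_simp; ring, Valuation.map_neg, map_div₀,
    hx.valuation_eq_one v hn, div_one]
  exact hx

/-- Truncated binomial estimate. -/
lemma valuation_pow_sub_le (n : ℕ) {t : K} (ht : v.valuation K t ≤ 1) :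
    v.valuation K ((1 + t) ^ n - (1 + n * t)) ≤ v.valuation K t ^ 2 := by
  induction n with
  | zero => simp
  | succ n ih =>
    have hn : v.valuation K (n : K) ≤ 1 := by
      simpa using v.valuation_le_one (K := K) ((n : 𝓞 K))
    have h1 : v.valuation K (1 + t) ≤ 1 :=
      ((v.valuation K).map_add _ _).trans (max_le (by simp) ht)
    rw [show (1 + t) ^ (n + 1) - (1 + ((n + 1 : ℕ) : K) * t) =
      ((1 + t) ^ n - (1 + n * t)) * (1 + t) + n * t ^ 2 by push_cast; ring]
    refine ((v.valuation K).map_add _ _).trans (max_le ?_ ?_)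
    · rw [map_mul]; exact (mul_le_of_le_one_right' h1).trans ih
    · rw [map_mul, map_pow]; exact mul_le_of_le_one_left' hn

/-- Elements close to `1` are close to `p`-th powers to any precision. -/
lemma exists_near_div_pow {p : ℕ} (hp : p ≠ 0) :
    ∃ N : ℕ, 1 ≤ N ∧ ∀ x : K, Near v N x → ∀ m : ℕ, ∃ y : K, y ≠ 0 ∧ Near v m (x / y ^ p) := by
  obtain ⟨e, he⟩ : ∃ e : ℕ, v.valuation K (p : K) = exp (-(e : ℤ)) :=
    ⟨_, by
      rw [show (p : K) = algebraMap (𝓞 K) K (p : 𝓞 K) by simp, v.valuation_of_algebraMap]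
      exact v.intValuation_if_neg (Nat.cast_ne_zero.mpr hp)⟩
  refine ⟨2 * e + 1, by omega, fun x hx m ↦ ?_⟩
  induction m with
  | zero => exact ⟨1, one_ne_zero, by simpa using hx.mono v (Nat.zero_le _)⟩
  | succ m ih =>
    by_cases hm : m < 2 * e + 1
    · exact ⟨1, one_ne_zero, by simpa using hx.mono v (show m + 1 ≤ 2 * e + 1 by omega)⟩
    obtain ⟨y, hy, hxy⟩ := ih
    obtain ⟨k, rfl⟩ : ∃ k, m = k + e := ⟨m - e, by omega⟩
    set z := x / y ^ p with hz
    set t := (z - 1) / (p : K) with ht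
    have htv : v.valuation K t ≤ exp (-(k : ℤ)) := by
      rw [ht, map_div₀, he, div_le_iff₀ (exp_pos), ← exp_add]
      refine hxy.trans (exp_le_exp.mpr ?_)
      push_cast; omega
    have hk : 1 ≤ k := by omega
    have ht1 : Near v k (1 + t) := by simpa [Near] using htv
    refine ⟨y * (1 + t), mul_ne_zero hy (ht1.ne_zero v hk), ?_⟩
    have hpow : v.valuation K ((1 + t) ^ p) = 1 := by rw [map_pow, ht1.valuation_eq_one v hk, one_pow]
    have hz1 : z = 1 + (p : K) * t := by
      rw [ht, mul_div_cancel₀ _ (Nat.cast_ne_zero.mpr hp)]; ring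
    have heq : x / (y * (1 + t)) ^ p - 1 =
        -((1 + t) ^ p - (1 + (p : K) * t)) / (1 + t) ^ p := by
      rw [← hz1, hz, mul_pow]
      field_simp [ht1.ne_zero v hk]
      ring
    rw [Near, heq, map_div₀, Valuation.map_neg, hpow, div_one]
    refine (valuation_pow_sub_le v p (htv.trans (exp_neg_natCast_le_one k))).trans ?_
    refine (pow_le_pow_left₀ (zero_le) htv 2).trans ?_
    rw [← exp_nsmul, exp_le_exp]
    push_cast; rw [nsmul_eq_mul]; push_cast; omega

end Near

section LocalNorm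

variable {K L : Type*} [Field K] [NumberField K] [Field L] [NumberField L] [Algebra K L]
  {v : HeightOneSpectrum (𝓞 K)}

lemma norm_ne_zero' {b : L} (hb : b ≠ 0) : Algebra.norm K b ≠ 0 := by
  rwa [Ne, Algebra.norm_eq_zero_iff]

omit [NumberField L] in
lemma isLocalNormAt_iff {a : K} :
    IsLocalNormAt K L v a ↔ ∀ n : ℕ, ∃ b : L, b ≠ 0 ∧ Near v n (a / Algebra.norm K b) := Iff.rfl

lemma isLocalNormAt_norm {b : L} (hb : b ≠ 0) : IsLocalNormAt K L v (Algebra.norm K b) := fun n ↦
  ⟨b, hb, by simp [CongrAt, norm_ne_zero' hb]⟩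

lemma isLocalNormAt_one : IsLocalNormAt K L v (1 : K) := fun n ↦
  ⟨1, one_ne_zero, by simp [CongrAt]⟩

omit [NumberField L] in
lemma IsLocalNormAt.mul {a a' : K} (h : IsLocalNormAt K L v a) (h' : IsLocalNormAt K L v a') :
    IsLocalNormAt K L v (a * a') := fun n ↦ by
  obtain ⟨b, hb, hab⟩ := h n
  obtain ⟨b', hb', hab'⟩ := h' n
  refine ⟨b * b', mul_ne_zero hb hb', ?_⟩
  change Near v n _
  rw [map_mul, mul_div_mul_comm]
  exact Near.mul v hab hab'

omit [NumberField L] in
lemma IsLocalNormAt.inv {a : K} (h : IsLocalNormAt K L v a) : IsLocalNormAt K L v a⁻¹ := fun n ↦ by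
  obtain ⟨b, hb, hab⟩ := h (n + 1)
  refine ⟨b⁻¹, inv_ne_zero hb, ?_⟩
  change Near v n _
  rw [show Algebra.norm K b⁻¹ = (Algebra.norm K b)⁻¹ from eq_inv_of_mul_eq_one_left
    (by rw [← map_mul, inv_mul_cancel₀ hb, map_one]), inv_div_inv, ← inv_div]
  exact ((show Near v (n + 1) _ from hab).inv v (by omega)).mono v (by omega)

lemma isLocalNormAt_pow_finrank {a : K} (ha : a ≠ 0) :
    IsLocalNormAt K L v (a ^ finrank K L) := by
  rw [← Algebra.norm_algebraMap (S := L) a]
  exact isLocalNormAt_norm (by simpa using ha)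

/-- Elements close enough to `1` are local norms. -/
theorem exists_near_isLocalNormAt (v : HeightOneSpectrum (𝓞 K)) :
    ∃ N : ℕ, 1 ≤ N ∧ ∀ x : K, Near v N x → IsLocalNormAt K L v x := by
  obtain ⟨N, hN1, hN⟩ := exists_near_div_pow v (p := finrank K L) (Nat.pos_iff_ne_zero.mp finrank_pos)
  refine ⟨N, hN1, fun x hx n ↦ ?_⟩
  obtain ⟨y, hy, hxy⟩ := hN x hx n
  exact ⟨algebraMap K L y, by simpa using hy, by rw [CongrAt, Algebra.norm_algebraMap]; exact hxy⟩

end LocalNorm

end

end Fermat.Agent.CFT
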