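import Fermat.Agent.ExtVanishing.ClassSum
import Mathlib.RingTheory.DedekindDomain.Factorization

/-!
L-series of characters modulo an ideal are bounded near `s = 1`.
No conditions at the real places: the characters are periodic on `𝓞 K` modulo `m`.
-/

set_option autoImplicit false

namespace Fermat.Agent.CFT

open NumberField IsDedekindDomain Module
open Fermat.Agent.ExtVanishing
open scoped nonZeroDivisors Classical

noncomputable section

variable {K : Type*} [Field K] [NumberField K]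

/-- A unitary character of the ideals prime to `m`, extended by `0`, which on principal ideals
`(x)` depends only on `x` modulo `m`. -/
structure RayChar (m : Ideal (𝓞 K)) : Type _ where
  toHom : Ideal (𝓞 K) →* ℂ
  eq_zero : ∀ I, ¬ IsCoprime I m → toHom I = 0
  norm_eq : ∀ I, IsCoprime I m → ‖toHom I‖ = 1
  congr : ∀ x y : 𝓞 K, x - y ∈ m → toHom (Ideal.span {x}) = toHom (Ideal.span {y})

namespace RayChar

variable {m : Ideal (𝓞 K)}

omit [NumberField K] in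
lemma norm_le (ψ : RayChar m) (I : Ideal (𝓞 K)) : ‖ψ.toHom I‖ ≤ 1 := by
  by_cases h : IsCoprime I m
  · exact (ψ.norm_eq I h).le
  · simp [ψ.eq_zero I h]

omit [NumberField K] in
lemma ne_zero (ψ : RayChar m) {I : Ideal (𝓞 K)} (h : IsCoprime I m) : ψ.toHom I ≠ 0 := fun h0 ↦ by
  simpa [h0] using ψ.norm_eq I h

/-- Nontriviality. -/
def IsNontrivial (ψ : RayChar m) : Prop := ∃ I, I ≠ ⊥ ∧ IsCoprime I m ∧ ψ.toHom I ≠ 1

end RayChar

/-- Every ideal class contains an integral ideal prime to `m`. -/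
theorem exists_mk0_eq_isCoprime (m : Ideal (𝓞 K)) (hm : m ≠ ⊥) (c : ClassGroup (𝓞 K)) :
    ∃ J : (Ideal (𝓞 K))⁰, ClassGroup.mk0 J = c ∧ IsCoprime (J : Ideal (𝓞 K)) m := by
  obtain ⟨J₀, hJ₀⟩ := ClassGroup.mk0_surjective c⁻¹
  have hJ0 : (J₀ : Ideal (𝓞 K)) ≠ 0 := nonZeroDivisors.coe_ne_zero J₀
  have hJm : (J₀ : Ideal (𝓞 K)) * m ≠ ⊥ := mul_ne_zero hJ0 hm
  obtain ⟨I, hI⟩ : ∃ I : Ideal (𝓞 K),
      ∃ x : 𝓞 K, x ≠ 0 ∧ Ideal.span {x} = (J₀ : Ideal (𝓞 K)) * I ∧ IsCoprime I m := by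
    obtain ⟨x, hx⟩ : ∃ x : 𝓞 K, Ideal.span {x} ⊔ (J₀ : Ideal (𝓞 K)) * m = J₀ := by
      obtain ⟨a, ha⟩ := IsDedekindDomain.exists_sup_span_eq
        (I := (J₀ : Ideal (𝓞 K)) * m) (J := (J₀ : Ideal (𝓞 K))) Ideal.mul_le_left hJm
      exact ⟨a, by rw [sup_comm]; exact ha⟩
    have hxmem : x ∈ (J₀ : Ideal (𝓞 K)) := by
      rw [← hx]; exact Ideal.mem_sup_left (Ideal.mem_span_singleton_self x)
    by_cases hx0 : x = 0
    · have hm1 : m = ⊤ := by
        rw [hx0, Set.singleton_zero, Ideal.span_zero, bot_sup_eq] at hx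
        rw [← Ideal.one_eq_top]
        exact mul_left_cancel₀ hJ0 (hx.trans (mul_one _).symm)
      obtain ⟨y, hy, hy0⟩ := Submodule.exists_mem_ne_zero_of_ne_bot hJ0
      obtain ⟨I, hI⟩ := Ideal.dvd_span_singleton.mpr hy
      exact ⟨I, y, hy0, hI, by rw [hm1, ← Ideal.one_eq_top]; exact isCoprime_one_right⟩
    · obtain ⟨I, hI⟩ := Ideal.dvd_span_singleton.mpr hxmem
      refine ⟨I, x, hx0, hI, Ideal.isCoprime_iff_sup_eq.mpr ?_⟩
      rw [hI, ← Ideal.mul_sup] at hx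
      rw [← Ideal.one_eq_top]
      exact mul_left_cancel₀ hJ0 (hx.trans (mul_one _).symm)
  obtain ⟨x, hx0, hxI, hIm⟩ := hI
  have hI0 : I ≠ 0 := fun h ↦ hx0 (by simpa [h] using hxI)
  let I₁ : (Ideal (𝓞 K))⁰ := ⟨I, mem_nonZeroDivisors_of_ne_zero hI0⟩
  refine ⟨I₁, ?_, hIm⟩
  have h1 : ClassGroup.mk0 (J₀ * I₁) = 1 :=
    (ClassGroup.mk0_eq_one_iff (SetLike.coe_mem (J₀ * I₁))).mpr ⟨⟨x, hxI.symm⟩⟩
  rw [map_mul, hJ₀, inv_mul_eq_one] at h1
  exact h1.symm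

/-- Lattice sum of a periodic weight over an ideal prime to the period. -/
lemma exists_periodic_sum_bound (m : Ideal (𝓞 K)) (hm : m ≠ ⊥) [Fintype (𝓞 K ⧸ m)]
    (J : (Ideal (𝓞 K))⁰) (hJ : IsCoprime (J : Ideal (𝓞 K)) m) (f : 𝓞 K ⧸ m → ℂ) :
    ∃ B, ∀ s ∈ Set.Ioc (1 : ℝ) 2,
      ‖(∑' x : (J : Ideal (𝓞 K)), f (Ideal.Quotient.mk m (x : 𝓞 K)) *
          (cutoff K s (emb K (x : 𝓞 K)) : ℂ)) -
        (∑ r, f r) * ((idealLatticeSum K ⊤ s /
          ((Ideal.absNorm (J : Ideal (𝓞 K)) : ℝ) * Ideal.absNorm m) : ℝ) : ℂ)‖ ≤ B := by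
  set Jm := (J : Ideal (𝓞 K)) * m with hJm
  have hJm0 : Jm ≠ ⊥ := mul_ne_zero (nonZeroDivisors.coe_ne_zero J) hm
  have hlift : ∀ r : 𝓞 K ⧸ m, ∃ x : 𝓞 K,
      x ∈ (J : Ideal (𝓞 K)) ∧ Ideal.Quotient.mk m x = r := by
    intro r
    obtain ⟨r, rfl⟩ := Ideal.Quotient.mk_surjective r
    obtain ⟨a, ha, b, hb, hab⟩ := Submodule.mem_sup.mp
      (show r ∈ (J : Ideal (𝓞 K)) ⊔ m by rw [Ideal.isCoprime_iff_sup_eq.mp hJ]; exact trivial)
    refine ⟨a, ha, ?_⟩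
    rw [← hab, map_add, Ideal.Quotient.eq_zero_iff_mem.mpr hb, add_zero]
  choose d hdJ hd using hlift
  have hmem : ∀ (r : 𝓞 K ⧸ m) (y : Jm), d r + (y : 𝓞 K) ∈ (J : Ideal (𝓞 K)) :=
    fun r y ↦ Ideal.add_mem _ (hdJ r) ((Ideal.mul_le_left : Jm ≤ (J : Ideal (𝓞 K))) y.2)
  have hq : ∀ (r : 𝓞 K ⧸ m) (y : Jm), Ideal.Quotient.mk m (d r + (y : 𝓞 K)) = r := fun r y ↦ by
    rw [map_add, hd, Ideal.Quotient.eq_zero_iff_mem.mpr ((Ideal.mul_le_right : Jm ≤ m) y.2), add_zero]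
  let e : (𝓞 K ⧸ m) × Jm → (J : Ideal (𝓞 K)) := fun p ↦ ⟨d p.1 + (p.2 : 𝓞 K), hmem p.1 p.2⟩
  have he : Function.Bijective e := by
    refine ⟨fun a b hab ↦ ?_, fun x ↦ ?_⟩
    · have h0 : d a.1 + (a.2 : 𝓞 K) = d b.1 + (b.2 : 𝓞 K) := congrArg Subtype.val hab
      have h1 : a.1 = b.1 := by rw [← hq a.1 a.2, ← hq b.1 b.2, h0]
      refine Prod.ext h1 (Subtype.ext ?_)
      rw [h1] at h0
      exact add_left_cancel h0
    · have hxm : (x : 𝓞 K) - d (Ideal.Quotient.mk m x) ∈ Jm := by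
        rw [hJm, Ideal.mul_eq_inf_of_coprime (Ideal.isCoprime_iff_sup_eq.mp hJ)]
        refine ⟨Ideal.sub_mem _ x.2 (hdJ _), Ideal.Quotient.eq_zero_iff_mem.mp ?_⟩
        rw [map_sub, hd, sub_self]
      exact ⟨(Ideal.Quotient.mk m x, ⟨_, hxm⟩), Subtype.ext (by simp [e])⟩
  choose Bt hBt using fun r ↦ exists_sum_translate_le K Jm (d r)
  obtain ⟨Bz, hBz⟩ := exists_abs_sum_top_sub_le K Jm hJm0
  refine ⟨∑ r, ‖f r‖ * (Bt r + Bz), fun s hs ↦ ?_⟩
  have hN : (Ideal.absNorm Jm : ℝ) =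
      (Ideal.absNorm (J : Ideal (𝓞 K)) : ℝ) * Ideal.absNorm m := by
    rw [hJm, map_mul, Nat.cast_mul]
  have hN1 : (1 : ℝ) ≤ Ideal.absNorm Jm := by
    exact_mod_cast Nat.one_le_iff_ne_zero.mpr
      (by rw [ne_eq, Ideal.absNorm_eq_zero_iff]; exact hJm0)
  have hcut : Summable fun x : (J : Ideal (𝓞 K)) ↦ cutoff K s (emb K (x : 𝓞 K)) :=
    (summable_cutoff K hs.1).comp_injective Subtype.val_injective
  obtain ⟨C, hC⟩ : ∃ C, ∀ r, ‖f r‖ ≤ C :=
    ⟨∑ r, ‖f r‖, fun r ↦ Finset.single_le_sum (f := fun r ↦ ‖f r‖) (fun _ _ ↦ norm_nonneg _)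
      (Finset.mem_univ r)⟩
  have hsum : Summable fun p : (𝓞 K ⧸ m) × Jm ↦
      f p.1 * (cutoff K s (emb K (d p.1 + (p.2 : 𝓞 K))) : ℂ) := by
    refine Summable.of_norm_bounded ((hcut.comp_injective he.1).mul_left C) fun p ↦ ?_
    rw [norm_mul, Complex.norm_real, Real.norm_eq_abs, abs_of_nonneg (cutoff_nonneg _ _)]
    exact mul_le_mul_of_nonneg_right (hC _) (cutoff_nonneg _ _)
  have hmain : (∑' x : (J : Ideal (𝓞 K)), f (Ideal.Quotient.mk m (x : 𝓞 K)) *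
      (cutoff K s (emb K (x : 𝓞 K)) : ℂ)) =
      ∑ r, f r * ((∑' y : Jm, cutoff K s (emb K (d r + (y : 𝓞 K))) : ℝ) : ℂ) := by
    rw [← (Equiv.ofBijective e he).tsum_eq]
    simp only [Equiv.ofBijective_apply]
    rw [tsum_congr fun p ↦ by
      rw [show ((e p : (J : Ideal (𝓞 K))) : 𝓞 K) = d p.1 + (p.2 : 𝓞 K) from rfl, hq],
      hsum.tsum_prod, tsum_fintype]
    refine Finset.sum_congr rfl fun r _ ↦ ?_
    dsimp only
    rw [tsum_mul_left, Complex.ofReal_tsum]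
  rw [hmain, Finset.sum_mul, ← Finset.sum_sub_distrib]
  refine (norm_sum_le _ _).trans (Finset.sum_le_sum fun r _ ↦ ?_)
  rw [← mul_sub, norm_mul, ← Complex.ofReal_sub, Complex.norm_real, Real.norm_eq_abs, ← hN]
  refine mul_le_mul_of_nonneg_left ?_ (norm_nonneg _)
  have h1 := hBt r s hs
  have htop : (∑' x : 𝓞 K, cutoff K s (emb K x)) = idealLatticeSum K ⊤ s :=
    ((Equiv.subtypeUnivEquiv (p := fun x : 𝓞 K ↦ x ∈ (⊤ : Ideal (𝓞 K)))
      fun _ ↦ trivial).tsum_eq fun x ↦ cutoff K s (emb K x)).symm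
  have h2 := hBz s hs
  rw [htop] at h2
  have h3 : |idealLatticeSum K Jm s - idealLatticeSum K ⊤ s / Ideal.absNorm Jm| ≤ Bz := by
    refine le_trans ?_ h2
    rw [show idealLatticeSum K Jm s - idealLatticeSum K ⊤ s / Ideal.absNorm Jm =
      ((Ideal.absNorm Jm : ℝ) * idealLatticeSum K Jm s - idealLatticeSum K ⊤ s) /
        Ideal.absNorm Jm by field_simp, abs_div, Nat.abs_cast, abs_sub_comm]
    exact div_le_self (abs_nonneg _) hN1
  exact (abs_sub_le _ (idealLatticeSum K Jm s) _).trans (add_le_add h1 h3)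

lemma idealLatticeSum_top_le :
    ∃ C, 0 ≤ C ∧ ∀ s ∈ Set.Ioc (1 : ℝ) 2,
      0 ≤ idealLatticeSum K ⊤ s ∧ idealLatticeSum K ⊤ s * (s - 1) ≤ C := by
  obtain ⟨_, C, -, hC, hζ⟩ := exists_idealZeta_bounds K
  refine ⟨(Units.torsionOrder K : ℝ) * C, by positivity, fun s hs ↦ ?_⟩
  have h0 : ClassGroup.mk0 (1 : (Ideal (𝓞 K))⁰) = (1 : ClassGroup (𝓞 K))⁻¹ := by simp
  have h2 := (classZeta_identity K h0 hs.1).2
  rw [OneMemClass.coe_one, map_one, Nat.cast_one, Real.one_rpow, mul_one, Ideal.one_eq_top] at h2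
  rw [h2]
  have hz : classZeta K 1 s ≤ C / (s - 1) := by
    refine le_trans ?_ (hζ s hs).2
    rw [idealZeta_eq_sum K hs.1]
    exact Finset.single_le_sum (fun c _ ↦ classZeta_nonneg K c s) (Finset.mem_univ 1)
  refine ⟨mul_nonneg (Nat.cast_nonneg _) (classZeta_nonneg K 1 s), ?_⟩
  rw [mul_assoc]
  refine mul_le_mul_of_nonneg_left ?_ (Nat.cast_nonneg _)
  exact (le_div_iff₀ (by linarith [hs.1])).mp hz

/-- The L-series of a nontrivial character modulo `m` is bounded near `1`. -/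
theorem exists_rayLSeries_bound {m : Ideal (𝓞 K)} (hm : m ≠ ⊥) (ψ : RayChar m)
    (hψ : ψ.IsNontrivial) :
    ∃ B, ∀ s ∈ Set.Ioc (1 : ℝ) 2,
      ‖∑' I : (Ideal (𝓞 K))⁰, ψ.toHom (I : Ideal (𝓞 K)) * (idealTerm K s I : ℂ)‖ ≤ B := by
  have : Finite (𝓞 K ⧸ m) := Ring.HasFiniteQuotients.finiteQuotient hm
  have := Fintype.ofFinite (𝓞 K ⧸ m)
  let f : 𝓞 K ⧸ m → ℂ := fun r ↦ ψ.toHom (Ideal.span {Quotient.out r})
  have hf : ∀ x, f (Ideal.Quotient.mk m x) = ψ.toHom (Ideal.span {x}) := fun x ↦ by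
    refine ψ.congr _ _ ?_
    rw [← Ideal.Quotient.mk_eq_mk_iff_sub_mem]
    exact Quotient.out_eq _
  choose J hJc hJm using fun c : ClassGroup (𝓞 K) ↦ exists_mk0_eq_isCoprime m hm c⁻¹
  set A : ℂ := ∑ r, f r with hA
  choose B hB using fun c ↦ exists_periodic_sum_bound m hm (J c) (hJm c) f
  -- the coefficient of the lattice sum vanishes after summing over classes
  have key : A * ∑ c, (ψ.toHom (J c : Ideal (𝓞 K)))⁻¹ = 0 := by
    by_cases hA0 : A = 0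
    · rw [hA0, zero_mul]
    have htriv : ∀ x : 𝓞 K, IsCoprime (Ideal.span {x}) m → ψ.toHom (Ideal.span {x}) = 1 := by
      intro x hx
      have hu : IsUnit (Ideal.Quotient.mk m x) := by
        obtain ⟨a, ha, b, hb, hab⟩ := Submodule.mem_sup.mp
          (show (1 : 𝓞 K) ∈ Ideal.span {x} ⊔ m by
            rw [Ideal.isCoprime_iff_sup_eq.mp hx]; exact trivial)
        obtain ⟨t, rfl⟩ := Ideal.mem_span_singleton'.mp ha
        refine isUnit_iff_exists_inv.mpr ⟨Ideal.Quotient.mk m t, ?_⟩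
        rw [← map_mul, ← map_one (Ideal.Quotient.mk m), ← hab, map_add,
          Ideal.Quotient.eq_zero_iff_mem.mpr hb, add_zero, mul_comm]
      have h1 : ∀ r, f (Ideal.Quotient.mk m x * r) = ψ.toHom (Ideal.span {x}) * f r := by
        intro r
        obtain ⟨y, rfl⟩ := Ideal.Quotient.mk_surjective r
        rw [← map_mul, hf, hf, ← Ideal.span_singleton_mul_span_singleton, map_mul]
      have h2 : A = ψ.toHom (Ideal.span {x}) * A := by
        conv_lhs => rw [hA, ← (Equiv.ofBijective _ (IsUnit.isUnit_iff_mulLeft_bijective.mp hu)).sum_comp f]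
        simp only [Equiv.ofBijective_apply, h1, ← Finset.mul_sum, ← hA]
      exact (mul_eq_right₀ hA0).mp h2.symm
    have hwd : ∀ (I I' : (Ideal (𝓞 K))⁰), IsCoprime (I : Ideal (𝓞 K)) m →
        IsCoprime (I' : Ideal (𝓞 K)) m → ClassGroup.mk0 I = ClassGroup.mk0 I' →
        ψ.toHom (I : Ideal (𝓞 K)) = ψ.toHom (I' : Ideal (𝓞 K)) := by
      intro I I' hI hI' heq
      obtain ⟨L, hL, hLm⟩ := exists_mk0_eq_isCoprime m hm (ClassGroup.mk0 I)⁻¹
      have e : ∀ M : (Ideal (𝓞 K))⁰, IsCoprime (M : Ideal (𝓞 K)) m →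
          ClassGroup.mk0 M = ClassGroup.mk0 I →
          ψ.toHom (M : Ideal (𝓞 K)) * ψ.toHom (L : Ideal (𝓞 K)) = 1 := by
        intro M hM hMI
        obtain ⟨g, hg⟩ := ((ClassGroup.mk0_eq_one_iff (SetLike.coe_mem (M * L))).mp
          (by rw [map_mul, hMI, hL, mul_inv_cancel])).principal
        rw [← map_mul, show (M : Ideal (𝓞 K)) * L = Ideal.span {g} from hg]
        exact htriv g (by
          rw [show Ideal.span {g} = (M : Ideal (𝓞 K)) * L from hg.symm]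
          exact hM.mul_left hLm)
      exact mul_right_cancel₀ (ψ.ne_zero hLm) ((e I hI rfl).trans (e I' hI' heq.symm).symm)
    have hmul : ∀ c c', ψ.toHom (J (c * c') : Ideal (𝓞 K)) =
        ψ.toHom (J c : Ideal (𝓞 K)) * ψ.toHom (J c' : Ideal (𝓞 K)) := fun c c' ↦ by
      rw [← map_mul]
      exact hwd (J (c * c')) (J c * J c') (hJm _) ((hJm c).mul_left (hJm c'))
        (by rw [hJc, map_mul, hJc, hJc, mul_inv])
    obtain ⟨I₀, hI₀, hI₀m, hI₀1⟩ := hψ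
    let I₁ : (Ideal (𝓞 K))⁰ := ⟨I₀, mem_nonZeroDivisors_of_ne_zero hI₀⟩
    set a := (ClassGroup.mk0 I₁)⁻¹ with ha
    have hJa : ψ.toHom (J a : Ideal (𝓞 K)) ≠ 1 := by
      rwa [hwd (J a) I₁ (hJm a) hI₀m (by rw [hJc, ha, inv_inv])]
    have h3 : ∑ c, (ψ.toHom (J c : Ideal (𝓞 K)))⁻¹ = 0 := by
      set g := fun c ↦ (ψ.toHom (J c : Ideal (𝓞 K)))⁻¹
      have h1 : ∑ c, g (a * c) = ∑ c, g c := Equiv.sum_comp (Equiv.mulLeft a) g
      simp only [g, hmul, mul_inv, ← Finset.mul_sum] at h1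
      have h2 : ((ψ.toHom (J a : Ideal (𝓞 K)))⁻¹ - 1) * ∑ c, g c = 0 := by
        rw [sub_mul, one_mul, sub_eq_zero]; exact h1
      exact (mul_eq_zero.mp h2).resolve_left (sub_ne_zero.mpr (fun h ↦ hJa (inv_eq_one.mp h)))
    rw [h3, mul_zero]
  obtain ⟨C, hC0, hC⟩ := idealLatticeSum_top_le (K := K)
  set nJ : ClassGroup (𝓞 K) → ℝ := fun c ↦ (Ideal.absNorm (J c : Ideal (𝓞 K)) : ℝ) with hnJ
  have hnJ1 : ∀ c, 1 ≤ nJ c := fun c ↦ by
    simp only [nJ, Nat.one_le_cast]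
    exact Ideal.absNorm_pos_of_nonZeroDivisors (J c)
  refine ⟨∑ c, nJ c ^ 2 * (B c + ‖A‖ * C * (Real.log (nJ c) + 1)), fun s hs ↦ ?_⟩
  have hs0 : 0 < s - 1 := by linarith [hs.1]
  have hsum : Summable fun I : (Ideal (𝓞 K))⁰ ↦
      ψ.toHom (I : Ideal (𝓞 K)) * (idealTerm K s I : ℂ) := by
    refine Summable.of_norm_bounded (summable_idealTerm K hs.1) fun I ↦ ?_
    rw [norm_mul, Complex.norm_real, Real.norm_eq_abs, abs_of_nonneg (idealTerm_nonneg _ _ _)]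
    exact mul_le_of_le_one_left (idealTerm_nonneg _ _ _) (ψ.norm_le _)
  rw [← (Equiv.sigmaFiberEquiv (ClassGroup.mk0 (R := 𝓞 K))).tsum_eq,
    ((Equiv.sigmaFiberEquiv (ClassGroup.mk0 (R := 𝓞 K))).summable_iff.mpr hsum).tsum_sigma
      (f := fun p ↦ ψ.toHom ((Equiv.sigmaFiberEquiv (ClassGroup.mk0 (R := 𝓞 K)) p : (Ideal (𝓞 K))⁰) :
        Ideal (𝓞 K)) * (idealTerm K s (Equiv.sigmaFiberEquiv (ClassGroup.mk0 (R := 𝓞 K)) p) : ℂ)),
    tsum_fintype]
  set S : ClassGroup (𝓞 K) → ℂ := fun c ↦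
    ∑' I : ClassIdeals K c, ψ.toHom (I.1 : Ideal (𝓞 K)) * (idealTerm K s I.1 : ℂ) with hS
  change ‖∑ c, S c‖ ≤ _
  set Zt : ℝ := idealLatticeSum K ⊤ s
  set w : ℝ := (Units.torsionOrder K : ℝ) with hwdef
  have hw : 1 ≤ w := by simp only [w, Nat.one_le_cast]; exact Units.torsionOrder_pos K
  set Nm : ℝ := (Ideal.absNorm m : ℝ) with hNmdef
  have hNm : 1 ≤ Nm := by
    simp only [Nm, Nat.one_le_cast]
    exact Nat.one_le_iff_ne_zero.mpr (by rw [ne_eq, Ideal.absNorm_eq_zero_iff]; exact hm)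
  -- subtract the main term, which sums to zero
  set M : ClassGroup (𝓞 K) → ℂ := fun c ↦
    A * (ψ.toHom (J c : Ideal (𝓞 K)))⁻¹ * ((Zt / (w * Nm) : ℝ) : ℂ) with hM
  have hM0 : ∑ c, M c = 0 := by
    simp only [M, ← Finset.sum_mul, ← Finset.mul_sum, key, zero_mul]
  rw [← sub_zero (∑ c, S c), ← hM0, ← Finset.sum_sub_distrib]
  refine (norm_sum_le _ _).trans (Finset.sum_le_sum fun c _ ↦ ?_)
  set u := ψ.toHom (J c : Ideal (𝓞 K))
  have hu : u ≠ 0 := ψ.ne_zero (hJm c)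
  set N := nJ c
  have hN : 1 ≤ N := hnJ1 c
  set T : ℂ := ∑' x : (J c : Ideal (𝓞 K)), f (Ideal.Quotient.mk m (x : 𝓞 K)) *
          (cutoff K s (emb K (x : 𝓞 K)) : ℂ) with hT
  have hid := (weighted_classZeta_identity K (c := c) (J := J c) (hJc c) hs.1
    (fun I ↦ ψ.toHom I) (B := 1) ψ.norm_le).2
  have hTS : T = (w : ℂ) * ((N ^ (-s) : ℝ) : ℂ) * (u * S c) := by
    rw [hT, tsum_congr fun x ↦ by rw [hf]]
    refine hid.trans ?_
    rw [hS, Complex.ofReal_natCast, ← tsum_mul_left (a := u)]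
    congr 1
    exact tsum_congr fun I ↦ by rw [map_mul]; ring
  have hNs : 0 < N ^ s := Real.rpow_pos_of_pos (by linarith) _
  have hSc : S c = ((N ^ s / w : ℝ) : ℂ) * u⁻¹ * T := by
    rw [hTS, Real.rpow_neg (by linarith), Complex.ofReal_div, Complex.ofReal_inv]
    have : (w : ℂ) ≠ 0 := Complex.ofReal_ne_zero.mpr (by linarith)
    have : ((N ^ s : ℝ) : ℂ) ≠ 0 := Complex.ofReal_ne_zero.mpr hNs.ne'
    field_simp
  have hT' := hB c s hs
  rw [← hT, ← hA] at hT'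
  have hsplit : S c - M c = ((N ^ s / w : ℝ) : ℂ) * u⁻¹ * (T - A * ((Zt / (N * Nm) : ℝ) : ℂ))
      + A * u⁻¹ * (((N ^ (s - 1) - 1) * (Zt / (w * Nm)) : ℝ) : ℂ) := by
    have h1 : N ^ (s - 1) = N ^ s / N := by rw [Real.rpow_sub (by linarith), Real.rpow_one]
    rw [hSc, hM, h1]
    simp only [Complex.ofReal_div, Complex.ofReal_mul, Complex.ofReal_sub, Complex.ofReal_one]
    ring
  have hu1 : ‖u⁻¹‖ = 1 := by rw [norm_inv, ψ.norm_eq _ (hJm c), inv_one]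
  rw [hsplit]
  refine (norm_add_le _ _).trans ?_
  rw [norm_mul, norm_mul, hu1, mul_one, norm_mul, norm_mul, hu1, mul_one, Complex.norm_real,
    Complex.norm_real, Real.norm_eq_abs, Real.norm_eq_abs, mul_add]
  have hN2 : N ^ s ≤ N ^ (2 : ℕ) := by
    rw [← Real.rpow_natCast]
    exact Real.rpow_le_rpow_of_exponent_le hN (by push_cast; exact hs.2)
  have hlog : N ^ (s - 1) - 1 ≤ (s - 1) * Real.log N * N ^ (2 : ℕ) := by
    have hE : N ^ (s - 1) = Real.exp ((s - 1) * Real.log N) := by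
      rw [Real.rpow_def_of_pos (by linarith), mul_comm]
    have k1 := Real.add_one_le_exp (-((s - 1) * Real.log N))
    have hl : 0 ≤ (s - 1) * Real.log N := mul_nonneg hs0.le (Real.log_nonneg hN)
    have hr : N ^ (s - 1) ≤ N ^ (2 : ℕ) := by
      rw [← Real.rpow_natCast]
      exact Real.rpow_le_rpow_of_exponent_le hN (by push_cast; linarith [hs.2])
    rw [Real.exp_neg, ← hE] at k1
    have hpos : 0 < N ^ (s - 1) := Real.rpow_pos_of_pos (by linarith) _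
    have h4 : (1 - (s - 1) * Real.log N) * N ^ (s - 1) ≤ 1 := by
      calc _ ≤ (N ^ (s - 1))⁻¹ * N ^ (s - 1) := mul_le_mul_of_nonneg_right (by linarith) hpos.le
        _ = 1 := inv_mul_cancel₀ hpos.ne'
    nlinarith
  have hB0 : 0 ≤ B c := le_trans (norm_nonneg _) hT'
  obtain ⟨hZ0, hZC⟩ := hC s hs
  refine add_le_add (mul_le_mul ?_ hT' (norm_nonneg _) (by positivity)) ?_
  · rw [abs_of_nonneg (by positivity)]
    exact (div_le_self hNs.le hw).trans hN2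
  · have hr1 : 1 ≤ N ^ (s - 1) := Real.one_le_rpow hN hs0.le
    have hZd : Zt / (w * Nm) ≤ Zt := div_le_self hZ0 (one_le_mul_of_one_le_of_one_le hw hNm)
    have hZd0 : 0 ≤ Zt / (w * Nm) := by positivity
    rw [abs_of_nonneg (mul_nonneg (by linarith) hZd0)]
    have h5 : (N ^ (s - 1) - 1) * (Zt / (w * Nm)) ≤ N ^ (2 : ℕ) * (C * (Real.log N + 1)) := by
      calc _ ≤ ((s - 1) * Real.log N * N ^ (2 : ℕ)) * Zt :=
            mul_le_mul hlog hZd hZd0 (by positivity)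
        _ = N ^ (2 : ℕ) * (Real.log N * (Zt * (s - 1))) := by ring
        _ ≤ N ^ (2 : ℕ) * (Real.log N * C) :=
            mul_le_mul_of_nonneg_left (mul_le_mul_of_nonneg_left hZC (Real.log_nonneg hN))
              (by positivity)
        _ ≤ _ := mul_le_mul_of_nonneg_left (by nlinarith) (by positivity)
    calc ‖A‖ * _ ≤ ‖A‖ * (N ^ (2 : ℕ) * (C * (Real.log N + 1))) :=
          mul_le_mul_of_nonneg_left h5 (norm_nonneg _)
      _ = _ := by ring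

end

end Fermat.Agent.CFT
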