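import Fermat.Agent.CFT.SUnits
import Fermat.Agent.CFT.RayBound
import Fermat.Agent.CFT.Near
import Mathlib.RingTheory.RootsOfUnity.Complex

/-!
Ray characters from homomorphisms on `Kˣ` which kill the S-units and the elements which are local
norms (or merely close to one) at the places of `S`.
-/

set_option autoImplicit false

namespace Fermat.Agent.CFT

open NumberField IsDedekindDomain Module UniqueFactorizationMonoid
open scoped Classical

noncomputable section

variable {K : Type*} [Field K] [NumberField K]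

/-- The exponent of `v` in an ideal. -/
def cnt (v : HeightOneSpectrum (𝓞 K)) (I : Ideal (𝓞 K)) : ℕ :=
  (normalizedFactors I).count v.asIdeal

lemma cnt_mul (v : HeightOneSpectrum (𝓞 K)) {I J : Ideal (𝓞 K)} (hI : I ≠ ⊥) (hJ : J ≠ ⊥) :
    cnt v (I * J) = cnt v I + cnt v J := by
  rw [cnt, normalizedFactors_mul hI hJ, Multiset.count_add]; rfl

lemma le_cnt_iff (v : HeightOneSpectrum (𝓞 K)) {I : Ideal (𝓞 K)} (hI : I ≠ ⊥) (n : ℕ) :
    n ≤ cnt v I ↔ v.asIdeal ^ n ∣ I := by
  rw [dvd_iff_normalizedFactors_le_normalizedFactors (pow_ne_zero n v.ne_bot) hI,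
    normalizedFactors_pow, normalizedFactors_irreducible v.irreducible, normalize_eq,
    Multiset.nsmul_singleton, cnt, ← Multiset.le_count_iff_replicate_le]

lemma cnt_one (v : HeightOneSpectrum (𝓞 K)) : cnt v 1 = 0 := by
  rw [cnt, normalizedFactors_one, Multiset.count_zero]

lemma cnt_prime (v v' : HeightOneSpectrum (𝓞 K)) :
    cnt v' v.asIdeal = if v' = v then 1 else 0 := by
  rw [cnt, normalizedFactors_irreducible v.irreducible, normalize_eq, Multiset.count_singleton]
  simp only [HeightOneSpectrum.ext_iff]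

lemma cnt_span (v : HeightOneSpectrum (𝓞 K)) {r : 𝓞 K} (hr : r ≠ 0) :
    (cnt v (Ideal.span {r}) : ℤ) = ordv v (algebraMap (𝓞 K) K r) := by
  obtain ⟨a, ha⟩ : ∃ a : ℕ, ordv v (algebraMap (𝓞 K) K r) = a :=
    ⟨_, (Int.toNat_of_nonneg (ordv_algebraMap_nonneg v r)).symm⟩
  have h : ∀ n, n ≤ cnt v (Ideal.span {r}) ↔ n ≤ a := fun n ↦ by
    rw [le_cnt_iff v (by simpa using hr), ← natCast_le_ordv_iff v hr, ha, Nat.cast_le]
  have := (h _).mp le_rfl
  have := (h a).mpr le_rfl
  omega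

lemma finite_setOf_cnt_ne_zero (I : Ideal (𝓞 K)) :
    {v : HeightOneSpectrum (𝓞 K) | cnt v I ≠ 0}.Finite := by
  refine ((normalizedFactors I).toFinset.finite_toSet.preimage
    (f := HeightOneSpectrum.asIdeal) fun v _ v' _ h ↦ HeightOneSpectrum.ext h).subset fun v hv ↦ ?_
  simpa using Multiset.one_le_count_iff_mem.mp (Nat.one_le_iff_ne_zero.mpr hv)

/-- The exponents of an ideal as a finitely supported function. -/
def idealDiv (I : Ideal (𝓞 K)) : HeightOneSpectrum (𝓞 K) →₀ ℤ :=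
  Finsupp.ofSupportFinite (fun v ↦ (cnt v I : ℤ))
    ((finite_setOf_cnt_ne_zero I).subset fun v hv h ↦ hv (by simp [h]))

variable {S : Finset (HeightOneSpectrum (𝓞 K))}

/-- An element with the same divisor as `I` outside `S`. -/
def divRep (hgen : GenClass (S : Set (HeightOneSpectrum (𝓞 K)))) (I : Ideal (𝓞 K)) : Kˣ :=
  Units.mk0 _ (hgen.exists_ordv (idealDiv I)).choose_spec.1

lemma ordv_divRep (hgen : GenClass (S : Set (HeightOneSpectrum (𝓞 K)))) (I : Ideal (𝓞 K))
    {v : HeightOneSpectrum (𝓞 K)} (hv : v ∉ S) : ordv v (divRep hgen I : K) = cnt v I :=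
  (hgen.exists_ordv (idealDiv I)).choose_spec.2 v hv

/-- The modulus `∏_{v ∈ S} v ^ N`. -/
def modulus (S : Finset (HeightOneSpectrum (𝓞 K))) (N : ℕ) : Ideal (𝓞 K) :=
  ∏ v ∈ S, v.asIdeal ^ N

omit [NumberField K] in
lemma modulus_ne_bot (N : ℕ) : modulus S N ≠ ⊥ :=
  Finset.prod_ne_zero_iff.mpr fun v _ ↦ pow_ne_zero N v.ne_bot

lemma not_dvd_of_isCoprime_modulus {N : ℕ} (hN : 1 ≤ N) {I : Ideal (𝓞 K)}
    (h : IsCoprime I (modulus S N)) {v : HeightOneSpectrum (𝓞 K)} (hv : v ∈ S) :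
    ¬ v.asIdeal ∣ I := fun hd ↦
  v.prime.not_isUnit ((h.of_isCoprime_of_dvd_left hd).isUnit_of_dvd'
    dvd_rfl ((dvd_pow_self _ (by omega)).trans (Finset.dvd_prod_of_mem _ hv)))

lemma isCoprime_prime_modulus {N : ℕ} {v : HeightOneSpectrum (𝓞 K)} (hv : v ∉ S) :
    IsCoprime v.asIdeal (modulus S N) :=
  IsCoprime.prod_right fun v' hv' ↦ (isCoprime_of_not_dvd v fun hd ↦
    hv ((HeightOneSpectrum.ext (v'.isMaximal.eq_of_le v.isPrime.ne_top
      (Ideal.dvd_iff_le.mp hd))).symm ▸ hv')).pow_right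

/-- A ray character from a homomorphism on `Kˣ`. -/
theorem exists_rayChar (hS : S.Nonempty) (hgen : GenClass (S : Set (HeightOneSpectrum (𝓞 K))))
    {p : ℕ} [NeZero p] (Λ : Kˣ →* Multiplicative (ZMod p)) {ζ : ℂ} (hζ : IsPrimitiveRoot ζ p)
    (hU : ∀ u ∈ sUnits K (S : Set (HeightOneSpectrum (𝓞 K))), Λ u = 1) {N : ℕ} (hN : 1 ≤ N)
    (hloc : ∀ x : Kˣ, (∀ v ∈ S, Near v N (x : K)) → Λ x = 1) :
    ∃ ψ : RayChar (modulus S N), ∀ I, IsCoprime I (modulus S N) → ∀ x : Kˣ,
      (∀ v, v ∉ S → ordv v (x : K) = cnt v I) → ψ.toHom I = ζ ^ ((Λ x).toAdd.val) := by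
  set m := modulus S N
  obtain ⟨v₀, hv₀⟩ := hS
  have hbot : ∀ I : Ideal (𝓞 K), IsCoprime I m → I ≠ ⊥ := fun I hI h ↦
    not_dvd_of_isCoprime_modulus hN hI hv₀ (h ▸ dvd_zero _)
  have hwd : ∀ x y : Kˣ, (∀ v, v ∉ S → ordv v (x : K) = ordv v (y : K)) → Λ x = Λ y := by
    intro x y h
    have hu : x / y ∈ sUnits K (S : Set (HeightOneSpectrum (𝓞 K))) := fun v hv ↦ by
      rw [Units.val_div_eq_div_val, ordv_div v x.ne_zero y.ne_zero, h v hv, sub_self]
    simpa [div_eq_one] using hU _ hu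
  have hpow : ∀ a b : ZMod p, ζ ^ (a + b).val = ζ ^ a.val * ζ ^ b.val := fun a b ↦ by
    rw [← pow_add, ← pow_mod_orderOf ζ (a.val + b.val), ← hζ.eq_orderOf, ZMod.val_add]
  let F : Ideal (𝓞 K) → ℂ := fun I ↦
    if IsCoprime I m then ζ ^ ((Λ (divRep hgen I)).toAdd.val) else 0
  have hF : ∀ I, IsCoprime I m → ∀ x : Kˣ, (∀ v, v ∉ S → ordv v (x : K) = cnt v I) →
      F I = ζ ^ ((Λ x).toAdd.val) := fun I hI x hx ↦ by
    simp only [F, if_pos hI]
    rw [hwd _ x fun v hv ↦ (ordv_divRep hgen I hv).trans (hx v hv).symm]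
  refine ⟨{ toHom := { toFun := F, map_one' := ?_, map_mul' := ?_ }
            eq_zero := fun I hI ↦ ?_, norm_eq := fun I hI ↦ ?_, congr := ?_ }, hF⟩
  · rw [hF 1 isCoprime_one_left 1 fun v hv ↦ by
      rw [cnt_one, Nat.cast_zero, Units.val_one, ordv_one]]
    simp
  · intro I J
    by_cases hI : IsCoprime I m
    · by_cases hJ : IsCoprime J m
      · rw [hF (I * J) (hI.mul_left hJ) (divRep hgen I * divRep hgen J) fun v hv ↦ by
          rw [Units.val_mul, ordv_mul v (Units.ne_zero _) (Units.ne_zero _), ordv_divRep hgen I hv,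
            ordv_divRep hgen J hv, cnt_mul v (hbot I hI) (hbot J hJ), Nat.cast_add]]
        simp only [F, if_pos hI, if_pos hJ, map_mul, toAdd_mul]
        exact hpow _ _
      · simp [F, if_neg hJ, mt IsCoprime.of_mul_left_right hJ]
    · simp [F, if_neg hI, mt IsCoprime.of_mul_left_left hI]
  · simp [F, if_neg hI]
  · change ‖F I‖ = 1
    simp [F, if_pos hI, hζ.norm'_eq_one (NeZero.ne p)]
  · intro x y hxy
    change F (Ideal.span {x}) = F (Ideal.span {y})
    have hcop : ∀ a b : 𝓞 K, a - b ∈ m → IsCoprime (Ideal.span {a}) m →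
        IsCoprime (Ideal.span {b}) m := fun a b hab ha ↦ by
      rw [Ideal.isCoprime_iff_sup_eq] at ha ⊢
      refine top_le_iff.mp (ha ▸ sup_le ?_ le_sup_right)
      rw [Ideal.span_singleton_le_iff_mem, show a = b + (a - b) by ring]
      exact add_mem (Ideal.mem_sup_left (Ideal.mem_span_singleton_self b))
        (Ideal.mem_sup_right hab)
    by_cases hx : IsCoprime (Ideal.span {x}) m
    · have hy := hcop x y hxy hx
      have hx0 : x ≠ 0 := fun h ↦ hbot _ hx (by simp [h])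
      have hy0 : y ≠ 0 := fun h ↦ hbot _ hy (by simp [h])
      let ux : Kˣ := Units.mk0 (algebraMap (𝓞 K) K x) (by simpa using hx0)
      let uy : Kˣ := Units.mk0 (algebraMap (𝓞 K) K y) (by simpa using hy0)
      rw [hF _ hx ux fun v _ ↦ (cnt_span v hx0).symm, hF _ hy uy fun v _ ↦ (cnt_span v hy0).symm]
      congr 3
      have h1 : Λ (ux / uy) = 1 := hloc _ fun v hv ↦ by
        have hyv : ordv v (algebraMap (𝓞 K) K y) = 0 := by
          rw [← cnt_span v hy0, Nat.cast_eq_zero]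
          by_contra h0
          exact not_dvd_of_isCoprime_modulus hN hy hv
            (by simpa using (le_cnt_iff v (by simpa using hy0) 1).mp (Nat.one_le_iff_ne_zero.mpr h0))
        have hy1 : v.valuation K (algebraMap (𝓞 K) K y) = 1 := by
          rw [valuation_eq_exp v (by simpa using hy0), hyv, neg_zero, WithZero.exp_zero]
        rw [Near, Units.val_div_eq_div_val]
        simp only [ux, uy, Units.val_mk0]
        rw [div_sub_one (by simpa using hy0), ← map_sub, map_div₀, hy1, div_one,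
          v.valuation_of_algebraMap, v.intValuation_le_pow_iff_mem]
        exact Ideal.dvd_iff_le.mp (Finset.dvd_prod_of_mem _ hv) hxy
      simpa [div_eq_one] using h1
    · have hy : ¬ IsCoprime (Ideal.span {y}) m := fun h ↦
        hx (hcop y x (by rw [← neg_sub]; exact neg_mem hxy) h)
      simp only [F, if_neg hx, if_neg hy]

end

end Fermat.Agent.CFT
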