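import Fermat.Agent.CFT.SecondIndex
import Mathlib.RingTheory.Frobenius
import Mathlib.FieldTheory.Finite.Basic

/-!
Units at a place modulo the place: inertia, Frobenius, powers.
-/

set_option autoImplicit false

namespace Fermat.Agent.CFT

open NumberField IsDedekindDomain Module WithZero
open Fermat.Agent.ExtVanishing
open scoped Classical Pointwise

noncomputable section

section OneField

variable {K : Type*} [Field K] [NumberField K] (v : HeightOneSpectrum (𝓞 K))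

lemma Near.pow {n : ℕ} {x : K} (h : Near v n x) (k : ℕ) : Near v n (x ^ k) := by
  induction k with
  | zero => simpa using near_one v n
  | succ k ih => rw [pow_succ]; exact ih.mul v h

lemma Near.zpow {n : ℕ} (hn : 1 ≤ n) {x : K} (h : Near v n x) (k : ℤ) : Near v n (x ^ k) := by
  cases k with
  | ofNat k => simpa using h.pow v k
  | negSucc k => rw [zpow_negSucc]; exact (h.pow v (k + 1)).inv v hn

lemma near_div_of_sub_mem {n : ℕ} {a b : 𝓞 K} (hb : b ∉ v.asIdeal) (h : a - b ∈ v.asIdeal ^ n) :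
    Near v n (algebraMap (𝓞 K) K a / algebraMap (𝓞 K) K b) := by
  have hb0 : b ≠ 0 := fun e ↦ hb (e ▸ zero_mem _)
  have hb1 : v.valuation K (algebraMap (𝓞 K) K b) = 1 := by
    rw [v.valuation_of_algebraMap]
    exact v.intValuation_eq_one_iff.mpr hb
  rw [Near, div_sub_one (by simpa using hb0), map_div₀, hb1, div_one, ← map_sub,
    v.valuation_of_algebraMap, v.intValuation_le_pow_iff_mem]
  exact h

lemma sub_mem_of_near_div {a b : 𝓞 K} (hb : b ∉ v.asIdeal) {n : ℕ}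
    (h : Near v n (algebraMap (𝓞 K) K a / algebraMap (𝓞 K) K b)) : a - b ∈ v.asIdeal ^ n := by
  have hb0 : b ≠ 0 := fun e ↦ hb (e ▸ zero_mem _)
  have hb1 : v.valuation K (algebraMap (𝓞 K) K b) = 1 := by
    rw [v.valuation_of_algebraMap]
    exact v.intValuation_eq_one_iff.mpr hb
  rw [Near, div_sub_one (by simpa using hb0), map_div₀, hb1, div_one, ← map_sub,
    v.valuation_of_algebraMap, v.intValuation_le_pow_iff_mem] at h
  exact h

lemma exists_unit_frac {u : K} (hu : u ≠ 0) (h0 : ordv v u = 0) :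
    ∃ a b : 𝓞 K, a ∉ v.asIdeal ∧ b ∉ v.asIdeal ∧
      u = algebraMap (𝓞 K) K a / algebraMap (𝓞 K) K b := by
  have h1 : v.valuation K u = 1 := by rw [valuation_eq_exp v hu, h0, neg_zero, exp_zero]
  obtain ⟨a, ⟨b, hb⟩, hab⟩ := v.exists_primeCompl_mul_eq_of_integer (K := K) u h1.le
  have hb' : b ∉ v.asIdeal := hb
  refine ⟨a, b, ?_, hb', ?_⟩
  · have h2 : v.valuation K (algebraMap (𝓞 K) K a) = 1 := by
      rw [← hab, map_mul, h1, one_mul, v.valuation_of_algebraMap]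
      exact v.intValuation_eq_one_iff.mpr hb'
    rw [v.valuation_of_algebraMap] at h2
    exact v.intValuation_eq_one_iff.mp h2
  · rw [eq_div_iff (by simpa using fun e : b = 0 ↦ hb' (e ▸ zero_mem _))]
    exact hab

/-- An element near `1` is a `p`-th power times elements as near `1` as we like, for `p` prime to
the place. -/
lemma exists_near_div_pow_of_near_one {p : ℕ} (hp : p.Prime) (hpv : (p : 𝓞 K) ∉ v.asIdeal) {x : K}
    (hx : Near v 1 x) (m : ℕ) : ∃ y : K, y ≠ 0 ∧ Near v m (x / y ^ p) := by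
  obtain ⟨ℓ, f, hℓ, -, -, hℓv⟩ := absNorm_prime_pow K v
  have hℓp : ℓ ≠ p := fun e ↦ hpv (e ▸ hℓv)
  have hstep : ∀ n : ℕ, 1 ≤ n → ∀ z : K, Near v n z → Near v (n + 1) (z ^ ℓ) := by
    intro n hn z hz
    set t := z - 1 with ht
    have hzt : z = 1 + t := by rw [ht]; ring
    have htv : v.valuation K t ≤ exp (-(n : ℤ)) := hz
    have hℓv' : v.valuation K (ℓ : K) ≤ exp (-(1 : ℤ)) := by
      rw [show (ℓ : K) = algebraMap (𝓞 K) K (ℓ : 𝓞 K) by simp, v.valuation_of_algebraMap,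
        show (-(1 : ℤ)) = -((1 : ℕ) : ℤ) by simp, v.intValuation_le_pow_iff_mem, pow_one]
      exact hℓv
    rw [Near, hzt, show (1 + t) ^ ℓ - 1 = ((1 + t) ^ ℓ - (1 + ℓ * t)) + ℓ * t by ring]
    refine ((v.valuation K).map_add _ _).trans (max_le ?_ ?_)
    · refine (valuation_pow_sub_le v ℓ (htv.trans (exp_neg_natCast_le_one n))).trans ?_
      refine (pow_le_pow_left₀ zero_le htv 2).trans ?_
      rw [← exp_nsmul, exp_le_exp, nsmul_eq_mul]
      push_cast
      omega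
    · rw [map_mul]
      refine (mul_le_mul' hℓv' htv).trans ?_
      rw [← exp_add, exp_le_exp]
      push_cast
      omega
  have hiter : ∀ k : ℕ, Near v (k + 1) (x ^ ℓ ^ k) := by
    intro k
    induction k with
    | zero => simpa using hx
    | succ k ih => rw [pow_succ, pow_mul]; exact hstep (k + 1) (by omega) _ ih
  have hco : IsCoprime ((ℓ ^ m : ℕ) : ℤ) (p : ℤ) :=
    Int.isCoprime_iff_nat_coprime.mpr
      (by simpa using Nat.Coprime.pow_left m ((Nat.coprime_primes hℓ hp).mpr hℓp))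
  obtain ⟨a, b, hab⟩ := hco
  have hx0 := hx.ne_zero v le_rfl
  refine ⟨x ^ b, zpow_ne_zero _ hx0, ?_⟩
  have e : x / (x ^ b) ^ p = (x ^ ℓ ^ m) ^ a := by
    rw [← zpow_natCast (x ^ b), ← zpow_natCast x (ℓ ^ m), ← zpow_mul, ← zpow_mul,
      div_eq_iff (zpow_ne_zero _ hx0), ← zpow_add₀ hx0,
      show ((ℓ ^ m : ℕ) : ℤ) * a + b * (p : ℤ) = 1 by linarith, zpow_one]
  rw [e]
  exact ((hiter m).zpow v (by omega) a).mono v (Nat.le_succ m)

/-- A unit whose `(N v - 1) / p`-th power is near `1` is a `p`-th power modulo the place. -/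
lemma exists_pow_near {p k : ℕ} (hQ : Ideal.absNorm v.asIdeal = p * k + 1) (hk : k ≠ 0)
    {x : K} (hx : x ≠ 0) (h0 : ordv v x = 0) (hpow : Near v 1 (x ^ k)) :
    ∃ t : K, t ≠ 0 ∧ Near v 1 (x / t ^ p) := by
  obtain ⟨a, b, ha, hb, rfl⟩ := exists_unit_frac v hx h0
  have : v.asIdeal.IsMaximal := v.isMaximal
  let : Field (𝓞 K ⧸ v.asIdeal) := Ideal.Quotient.field _
  have : Finite (𝓞 K ⧸ v.asIdeal) := Ring.HasFiniteQuotients.finiteQuotient v.ne_bot
  cases nonempty_fintype (𝓞 K ⧸ v.asIdeal)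
  have hcard : Nat.card (𝓞 K ⧸ v.asIdeal)ˣ = p * k := by
    rw [Nat.card_eq_fintype_card, Fintype.card_units, ← Nat.card_eq_fintype_card,
      show Nat.card (𝓞 K ⧸ v.asIdeal) = Ideal.absNorm v.asIdeal by rw [Ideal.absNorm_apply]; rfl,
      hQ, Nat.add_sub_cancel]
  have ha' : Ideal.Quotient.mk v.asIdeal a ≠ 0 := by
    rwa [Ne, Ideal.Quotient.eq_zero_iff_mem]
  have hb' : Ideal.Quotient.mk v.asIdeal b ≠ 0 := by
    rwa [Ne, Ideal.Quotient.eq_zero_iff_mem]
  set ξ : (𝓞 K ⧸ v.asIdeal)ˣ := Units.mk0 _ ha' / Units.mk0 _ hb'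
  have hξ : ξ ^ k = 1 := by
    have h := hpow
    rw [div_pow, ← map_pow, ← map_pow] at h
    have hb'' : b ^ k ∉ v.asIdeal := fun e ↦ hb (v.isPrime.mem_of_pow_mem k e)
    have hmem := sub_mem_of_near_div v hb'' h
    rw [pow_one, ← Ideal.Quotient.eq] at hmem
    rw [div_pow, div_eq_one]
    exact Units.ext (by simpa [map_pow] using hmem)
  obtain ⟨g, hg⟩ := IsCyclic.exists_generator (α := (𝓞 K ⧸ v.asIdeal)ˣ)
  obtain ⟨i, hi⟩ := Subgroup.mem_zpowers_iff.mp (hg ξ)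
  have hdvd : (p : ℤ) ∣ i := by
    rw [← hi, ← zpow_natCast (g ^ i), ← zpow_mul, ← orderOf_dvd_iff_zpow_eq_one,
      orderOf_eq_card_of_forall_mem_zpowers hg, hcard, Nat.cast_mul] at hξ
    exact Int.dvd_of_mul_dvd_mul_right (by exact_mod_cast hk) hξ
  obtain ⟨j, rfl⟩ := hdvd
  obtain ⟨t, ht⟩ := Ideal.Quotient.mk_surjective ((g ^ j : (𝓞 K ⧸ v.asIdeal)ˣ) : 𝓞 K ⧸ v.asIdeal)
  have htv : t ∉ v.asIdeal := fun e ↦ (g ^ j).ne_zero (by
    rw [← ht, Ideal.Quotient.eq_zero_iff_mem]; exact e)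
  refine ⟨algebraMap (𝓞 K) K t, by simpa using fun e : t = 0 ↦ htv (e ▸ zero_mem _), ?_⟩
  rw [div_div, ← map_pow, ← map_mul]
  refine near_div_of_sub_mem v (v.isPrime.mul_notMem hb fun e ↦ htv (v.isPrime.mem_of_pow_mem p e)) ?_
  rw [pow_one, ← Ideal.Quotient.eq, map_mul, map_pow, ht]
  rw [eq_div_iff_mul_eq', mul_comm (p : ℤ), zpow_mul, zpow_natCast] at hi
  have := congrArg Units.val hi
  simp only [Units.val_mul, Units.val_pow_eq_pow_val, Units.val_mk0] at this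
  rw [← this]
  ring

end OneField

variable {K L : Type} [Field K] [NumberField K] [Field L] [NumberField L] [Algebra K L]

/-- Elements near `1` are local norms in degree prime to the place. -/
lemma isLocalNormAt_of_near_one {p : ℕ} (hp : p.Prime) (hdeg : finrank K L = p)
    {v : HeightOneSpectrum (𝓞 K)} (hpv : (p : 𝓞 K) ∉ v.asIdeal) {x : K} (hx : Near v 1 x) :
    IsLocalNormAt K L v x := fun n ↦ by
  obtain ⟨y, hy, hxy⟩ := exists_near_div_pow_of_near_one v hp hpv hx n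
  refine ⟨algebraMap K L y, by simpa using hy, ?_⟩
  change Near v n _
  rwa [Algebra.norm_algebraMap, hdeg]

omit [NumberField K] in
omit [NumberField L] in
lemma smul_apply_frac (σ : L ≃ₐ[K] L) (a b : 𝓞 L) :
    σ (algebraMap (𝓞 L) L a / algebraMap (𝓞 L) L b) =
      algebraMap (𝓞 L) L (σ • a) / algebraMap (𝓞 L) L (σ • b) := by
  rw [map_div₀]; rfl

omit [NumberField K] in
/-- An automorphism congruent to the identity fixes units modulo the place. -/
lemma near_apply_div_self {w : HeightOneSpectrum (𝓞 L)} {σ : L ≃ₐ[K] L}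
    (hσ : σ ∈ w.asIdeal.inertia (L ≃ₐ[K] L)) {u : L} (hu : u ≠ 0) (h0 : ordv w u = 0) :
    Near w 1 (σ u / u) := by
  obtain ⟨a, b, ha, hb, rfl⟩ := exists_unit_frac w hu h0
  have key : ∀ r : 𝓞 L, r ∉ w.asIdeal →
      Near w 1 (algebraMap (𝓞 L) L (σ • r) / algebraMap (𝓞 L) L r) := fun r hr ↦
    near_div_of_sub_mem w hr (by rw [pow_one]; exact hσ r)
  rw [smul_apply_frac, div_div_div_comm]
  exact (key a ha).mul w ((key b hb).inv w le_rfl) |> fun h ↦ by
    rwa [← div_eq_mul_inv] at h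

variable [IsGalois K L]

/-- Frobenius at a place, on units. -/
lemma exists_frob (w : HeightOneSpectrum (𝓞 L)) :
    ∃ φ : L ≃ₐ[K] L, φ • w = w ∧
      (∀ r : 𝓞 L, φ • r - r ^ Ideal.absNorm (primeUnder K w).asIdeal ∈ w.asIdeal) ∧
      ∀ u : L, u ≠ 0 → ordv w u = 0 →
        Near w 1 (φ u / u ^ Ideal.absNorm (primeUnder K w).asIdeal) := by
  have : IsGaloisGroup (L ≃ₐ[K] L) (𝓞 K) (𝓞 L) := IsGaloisGroup.of_isFractionRing _ _ _ K L
  have : Finite (𝓞 L ⧸ w.asIdeal) := Ring.HasFiniteQuotients.finiteQuotient w.ne_bot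
  have := w.isPrime
  obtain ⟨φ, hφ⟩ := IsArithFrobAt.exists_of_isInvariant (𝓞 K) (L ≃ₐ[K] L) w.asIdeal
  set Q := Ideal.absNorm (primeUnder K w).asIdeal
  have hr : ∀ r : 𝓞 L, φ • r - r ^ Q ∈ w.asIdeal := fun r ↦ by
    have h : φ • r - r ^ Nat.card (𝓞 K ⧸ w.asIdeal.under (𝓞 K)) ∈ w.asIdeal := hφ r
    rwa [show Nat.card (𝓞 K ⧸ w.asIdeal.under (𝓞 K)) = Q by
      rw [show Q = Ideal.absNorm (primeUnder K w).asIdeal from rfl, Ideal.absNorm_apply]; rfl] at h
  refine ⟨φ, HeightOneSpectrum.ext hφ.mem_stabilizer, hr, fun u hu h0 ↦ ?_⟩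
  obtain ⟨a, b, ha, hb, rfl⟩ := exists_unit_frac w hu h0
  have key : ∀ r : 𝓞 L, r ∉ w.asIdeal →
      Near w 1 (algebraMap (𝓞 L) L (φ • r) / algebraMap (𝓞 L) L (r ^ Q)) := fun r hr' ↦
    near_div_of_sub_mem w (fun e ↦ hr' (w.isPrime.mem_of_pow_mem Q e)) (by rw [pow_one]; exact hr r)
  rw [smul_apply_frac, div_pow, ← map_pow, ← map_pow, div_div_div_comm, div_eq_mul_inv]
  exact (key a ha).mul w ((key b hb).inv w le_rfl)

/-- The decomposition group of an unramified place is cyclic. -/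
lemma exists_generator_stabilizer (w : HeightOneSpectrum (𝓞 L)) (he : ramIdx K w = 1) :
    ∃ g : L ≃ₐ[K] L, ∀ h : L ≃ₐ[K] L, h • w = w → h ∈ Subgroup.zpowers g := by
  have : Finite (𝓞 L ⧸ w.asIdeal) := Ring.HasFiniteQuotients.finiteQuotient w.ne_bot
  have : Finite (𝓞 K ⧸ (primeUnder K w).asIdeal) :=
    Ring.HasFiniteQuotients.finiteQuotient (primeUnder K w).ne_bot
  have := w.isMaximal
  have := (primeUnder K w).isMaximal
  let : Field (𝓞 L ⧸ w.asIdeal) := Ideal.Quotient.field _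
  let : Field (𝓞 K ⧸ (primeUnder K w).asIdeal) := Ideal.Quotient.field _
  have hinj : Function.Injective
      (Ideal.Quotient.stabilizerHom w.asIdeal (primeUnder K w).asIdeal (L ≃ₐ[K] L)) := by
    rw [← MonoidHom.ker_eq_bot_iff, Ideal.Quotient.ker_stabilizerHom, Subgroup.eq_bot_iff_forall]
    intro x hx
    have h1 : w.asIdeal.inertia (L ≃ₐ[K] L) = ⊥ :=
      Subgroup.card_eq_one.mp ((card_inertia w).trans he)
    exact Subtype.ext ((Subgroup.mem_bot).mp (h1 ▸ hx))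
  have : IsCyclic (MulAction.stabilizer (L ≃ₐ[K] L) w.asIdeal) :=
    isCyclic_of_injective _ hinj
  obtain ⟨g, hg⟩ := IsCyclic.exists_generator (α := MulAction.stabilizer (L ≃ₐ[K] L) w.asIdeal)
  refine ⟨g, fun h hh ↦ ?_⟩
  obtain ⟨i, hi⟩ := Subgroup.mem_zpowers_iff.mp
    (hg ⟨h, congrArg HeightOneSpectrum.asIdeal hh⟩)
  exact Subgroup.mem_zpowers_iff.mpr ⟨i, by simpa using congrArg Subtype.val hi⟩

end

end Fermat.Agent.CFT
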