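import Fermat.Agent.CFT.Val
import Fermat.Agent.CFT.Lattice
import Mathlib.NumberTheory.NumberField.Units.DirichletTheorem

/-!
S-units of number fields: finite generation, rank, generation of the class group.
-/

set_option autoImplicit false

namespace Fermat.Agent.CFT

open NumberField IsDedekindDomain Module
open scoped nonZeroDivisors

noncomputable section

variable (K : Type*) [Field K] [NumberField K]

/-- Nonzero elements with valuation zero outside `S`. -/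
def sUnits (S : Set (HeightOneSpectrum (𝓞 K))) : Subgroup Kˣ where
  carrier := {x | ∀ v, v ∉ S → ordv v (x : K) = 0}
  one_mem' v _ := by simp
  mul_mem' {x y} hx hy v hv := by
    rw [Units.val_mul, ordv_mul v x.ne_zero y.ne_zero, hx v hv, hy v hv, add_zero]
  inv_mem' {x} hx v hv := by
    rw [Units.val_inv_eq_inv_val, ordv_inv, hx v hv, neg_zero]

variable {K}

lemma natCast_le_ordv_iff (v : HeightOneSpectrum (𝓞 K)) {r : 𝓞 K} (hr : r ≠ 0) (n : ℕ) :
    (n : ℤ) ≤ ordv v (algebraMap (𝓞 K) K r) ↔ v.asIdeal ^ n ∣ Ideal.span {r} := by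
  rw [← valuation_le_exp_iff v (by simpa using hr), v.valuation_of_algebraMap,
    v.intValuation_le_pow_iff_mem, Ideal.dvd_span_singleton]

/-- The primes of `S` generate the class group, phrased with valuations. -/
def GenClass (S : Set (HeightOneSpectrum (𝓞 K))) : Prop :=
  ∀ v, v ∉ S → ∃ x : K, x ≠ 0 ∧ ordv v x = 1 ∧ ∀ v', v' ∉ S → v' ≠ v → ordv v' x = 0

lemma isCoprime_of_not_dvd (v : HeightOneSpectrum (𝓞 K)) {J : Ideal (𝓞 K)}
    (h : ¬ v.asIdeal ∣ J) : IsCoprime v.asIdeal J := by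
  rw [Ideal.isCoprime_iff_sup_eq]
  exact v.isMaximal.out.2 _ (lt_of_le_of_ne le_sup_left fun e ↦
    h (Ideal.dvd_iff_le.mpr (le_sup_right.trans e.ge)))

lemma exists_ordv_eq_of_mul_eq {x y : 𝓞 K} (hx : x ≠ 0) (hy : y ≠ 0) {I J : Ideal (𝓞 K)}
    (h : Ideal.span {x} * I = Ideal.span {y} * J) (v : HeightOneSpectrum (𝓞 K))
    (hJ : IsCoprime v.asIdeal J) :
    (IsCoprime v.asIdeal I → ordv v (algebraMap (𝓞 K) K y / algebraMap (𝓞 K) K x) = 0) ∧
      (I = v.asIdeal → ordv v (algebraMap (𝓞 K) K y / algebraMap (𝓞 K) K x) = 1) := by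
  rw [ordv_div v (by simpa using hy) (by simpa using hx)]
  obtain ⟨a, ha⟩ : ∃ a : ℕ, ordv v (algebraMap (𝓞 K) K x) = a :=
    ⟨_, (Int.toNat_of_nonneg (ordv_algebraMap_nonneg v x)).symm⟩
  obtain ⟨b, hb⟩ : ∃ b : ℕ, ordv v (algebraMap (𝓞 K) K y) = b :=
    ⟨_, (Int.toNat_of_nonneg (ordv_algebraMap_nonneg v y)).symm⟩
  have hxd : ∀ n, v.asIdeal ^ n ∣ Ideal.span {x} ↔ n ≤ a := fun n ↦ by
    rw [← natCast_le_ordv_iff v hx, ha, Nat.cast_le]
  have hyd : ∀ n, v.asIdeal ^ n ∣ Ideal.span {x} * I ↔ n ≤ b := fun n ↦ by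
    rw [h, ← Nat.cast_le (α := ℤ), ← hb, natCast_le_ordv_iff v hy]
    exact ⟨fun hd ↦ (hJ.pow_left).dvd_of_dvd_mul_right hd, fun hd ↦ hd.trans (dvd_mul_right _ _)⟩
  constructor
  · intro hI
    have hiff : ∀ n, n ≤ a ↔ n ≤ b := fun n ↦ by
      rw [← hxd, ← hyd]
      exact ⟨fun hd ↦ hd.trans (dvd_mul_right _ _), fun hd ↦ (hI.pow_left).dvd_of_dvd_mul_right hd⟩
    have := (hiff a).mp le_rfl
    have := (hiff b).mpr le_rfl
    omega
  · rintro rfl
    have hiff : ∀ n, n + 1 ≤ b ↔ n ≤ a := fun n ↦ by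
      rw [← hxd, ← hyd, pow_succ]
      exact mul_dvd_mul_iff_right v.ne_bot
    have := (hiff a).mpr le_rfl
    rcases Nat.eq_zero_or_pos b with hb0 | hb0
    · omega
    have := (hiff (b - 1)).mp (by omega)
    omega

/-- Any large enough set of primes generates the class group. -/
lemma exists_genClass (K : Type*) [Field K] [NumberField K] :
    ∃ T : Finset (HeightOneSpectrum (𝓞 K)), ∀ S : Set (HeightOneSpectrum (𝓞 K)), ↑T ⊆ S →
      GenClass S := by
  classical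
  have hJ : ∀ c : ClassGroup (𝓞 K), ∃ J : (Ideal (𝓞 K))⁰, ClassGroup.mk0 J = c :=
    fun c ↦ ClassGroup.mk0_surjective c
  choose J hJ using hJ
  refine ⟨Finset.univ.biUnion fun c : ClassGroup (𝓞 K) ↦
    (Ideal.finite_factors (mem_nonZeroDivisors_iff_ne_zero.mp (J c).2)).toFinset,
    fun S hS v hv ↦ ?_⟩
  let I : (Ideal (𝓞 K))⁰ := ⟨v.asIdeal, mem_nonZeroDivisors_of_ne_zero v.ne_bot⟩
  obtain ⟨c, hc⟩ : ∃ c, ClassGroup.mk0 I = c := ⟨_, rfl⟩
  obtain ⟨x, y, hx, hy, hxy⟩ :=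
    (ClassGroup.mk0_eq_mk0_iff (I := I) (J := J c)).mp (hc.trans (hJ c).symm)
  have hcop : ∀ v', v' ∉ S → IsCoprime v'.asIdeal (J c : Ideal (𝓞 K)) := fun v' hv' ↦ by
    refine isCoprime_of_not_dvd v' fun hd ↦ hv' (hS ?_)
    simp only [Finset.coe_biUnion, Set.mem_iUnion]
    exact ⟨c, Finset.mem_coe.mpr (Finset.mem_univ c), by simpa using hd⟩
  refine ⟨algebraMap (𝓞 K) K y / algebraMap (𝓞 K) K x, by simp [hx, hy],
    (exists_ordv_eq_of_mul_eq hx hy hxy v (hcop v hv)).2 rfl, fun v' hv' hne ↦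
      (exists_ordv_eq_of_mul_eq hx hy hxy v' (hcop v' hv')).1 ?_⟩
  refine isCoprime_of_not_dvd v' fun hd ↦ hne ?_
  exact HeightOneSpectrum.ext ((v.isMaximal.eq_of_le v'.isPrime.ne_top
    (Ideal.dvd_iff_le.mp hd)).symm)

/-- With a generating set, every finitely supported prescription of valuations outside `S` is
met. -/
lemma GenClass.exists_ordv {S : Set (HeightOneSpectrum (𝓞 K))} (hS : GenClass S)
    (d : HeightOneSpectrum (𝓞 K) →₀ ℤ) :
    ∃ x : K, x ≠ 0 ∧ ∀ v, v ∉ S → ordv v x = d v := by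
  induction d using Finsupp.induction_linear with
  | zero => exact ⟨1, one_ne_zero, fun v _ ↦ by simp⟩
  | add f g hf hg =>
    obtain ⟨x, hx, hx'⟩ := hf
    obtain ⟨y, hy, hy'⟩ := hg
    exact ⟨x * y, mul_ne_zero hx hy, fun v hv ↦ by
      rw [ordv_mul v hx hy, hx' v hv, hy' v hv, Finsupp.add_apply]⟩
  | single v₀ n =>
    by_cases h : v₀ ∈ S
    · exact ⟨1, one_ne_zero, fun v hv ↦ by
        rw [Finsupp.single_eq_of_ne (fun e ↦ hv (by rw [e]; exact h)), ordv_one]⟩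
    obtain ⟨x, hx, hx1, hx0⟩ := hS v₀ h
    refine ⟨x ^ n, zpow_ne_zero n hx, fun v hv ↦ ?_⟩
    rw [ordv_zpow]
    by_cases e : v = v₀
    · subst e; simp [hx1]
    · rw [hx0 v hv e, Finsupp.single_eq_of_ne e, mul_zero]

/-- A power of a prime is principal. -/
lemma exists_ordv_eq_classNumber [DecidableEq (HeightOneSpectrum (𝓞 K))]
    (v : HeightOneSpectrum (𝓞 K)) :
    ∃ x : K, x ≠ 0 ∧ ∀ v' : HeightOneSpectrum (𝓞 K),
      ordv v' x = if v' = v then (classNumber K : ℤ) else 0 := by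
  set h := classNumber K
  have hone : ClassGroup.mk0 ⟨v.asIdeal ^ h,
      pow_mem (mem_nonZeroDivisors_of_ne_zero v.ne_bot) h⟩ = 1 := by
    rw [show (⟨v.asIdeal ^ h, pow_mem (mem_nonZeroDivisors_of_ne_zero v.ne_bot) h⟩ :
        (Ideal (𝓞 K))⁰) = ⟨v.asIdeal, mem_nonZeroDivisors_of_ne_zero v.ne_bot⟩ ^ h from rfl,
      map_pow]
    exact pow_card_eq_one
  obtain ⟨r, hr⟩ := ((ClassGroup.mk0_eq_one_iff _).mp hone).principal
  rw [← Ideal.span] at hr
  have hr0 : r ≠ 0 := fun e ↦ pow_ne_zero h v.ne_bot (by rw [hr, e]; simp)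
  refine ⟨algebraMap (𝓞 K) K r, by simpa using hr0, fun v' ↦ ?_⟩
  obtain ⟨a, ha⟩ : ∃ a : ℕ, ordv v' (algebraMap (𝓞 K) K r) = a :=
    ⟨_, (Int.toNat_of_nonneg (ordv_algebraMap_nonneg v' r)).symm⟩
  have hd : ∀ n, n ≤ a ↔ v'.asIdeal ^ n ∣ v.asIdeal ^ h := fun n ↦ by
    rw [hr, ← natCast_le_ordv_iff v' hr0, ha, Nat.cast_le]
  split_ifs with e
  · subst e
    have h1 := (hd h).mpr dvd_rfl
    have h2 := (pow_dvd_pow_iff v'.ne_bot v'.prime.not_isUnit).mp ((hd a).mp le_rfl)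
    omega
  · rcases Nat.eq_zero_or_pos a with ha0 | ha0
    · omega
    have h1 := v'.prime.dvd_of_dvd_pow (by simpa using (hd 1).mp ha0)
    exact absurd (HeightOneSpectrum.ext (v.isMaximal.eq_of_le v'.isPrime.ne_top
      (Ideal.dvd_iff_le.mp h1)).symm) e

/-- The divisor map on `S`-units. -/
def divMap (S : Finset (HeightOneSpectrum (𝓞 K))) :
    Additive (sUnits K (S : Set (HeightOneSpectrum (𝓞 K)))) →ₗ[ℤ]
      ({v // v ∈ S} → ℤ) :=
  AddMonoidHom.toIntLinearMap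
    { toFun := fun x v ↦ ordv v.1 ((x.toMul : Kˣ) : K)
      map_zero' := funext fun v ↦ by simp
      map_add' := fun x y ↦ funext fun v ↦ by
        simp [ordv_mul v.1 (x.toMul : Kˣ).ne_zero (y.toMul : Kˣ).ne_zero] }

lemma divMap_apply (S : Finset (HeightOneSpectrum (𝓞 K)))
    (x : Additive (sUnits K (S : Set (HeightOneSpectrum (𝓞 K)))))
    (v : {v // v ∈ S}) :
    divMap S x v = ordv v.1 ((x.toMul : Kˣ) : K) := rfl

lemma ordv_unit (v : HeightOneSpectrum (𝓞 K)) (u : (𝓞 K)ˣ) :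
    ordv v (algebraMap (𝓞 K) K (u : 𝓞 K)) = 0 := by
  have h1 := ordv_algebraMap_nonneg v (u : 𝓞 K)
  have h2 := ordv_algebraMap_nonneg v ((u⁻¹ : (𝓞 K)ˣ) : 𝓞 K)
  have h3 : ordv v (algebraMap (𝓞 K) K (u : 𝓞 K)) +
      ordv v (algebraMap (𝓞 K) K ((u⁻¹ : (𝓞 K)ˣ) : 𝓞 K)) = 0 := by
    rw [← ordv_mul v (by simp) (by simp), ← map_mul, Units.mul_inv, map_one, ordv_one]
  omega

/-- Units are `S`-units. -/
def unitsToSUnits (S : Set (HeightOneSpectrum (𝓞 K))) :
    Additive (𝓞 K)ˣ →ₗ[ℤ] Additive (sUnits K S) :=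
  (MonoidHom.toAdditive ((Units.map (algebraMap (𝓞 K) K).toMonoidHom).codRestrict (sUnits K S)
    fun u v _ ↦ ordv_unit v u)).toIntLinearMap

lemma unitsToSUnits_injective (S : Set (HeightOneSpectrum (𝓞 K))) :
    Function.Injective (unitsToSUnits S) := fun x y h ↦ by
  have h1 : ((Units.map (algebraMap (𝓞 K) K).toMonoidHom) x.toMul : Kˣ) =
      Units.map (algebraMap (𝓞 K) K).toMonoidHom y.toMul :=
    congrArg (fun z ↦ ((Additive.toMul z : sUnits K S) : Kˣ)) h
  exact Additive.toMul.injective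
    (Units.map_injective (FaithfulSMul.algebraMap_injective (𝓞 K) K) h1)

variable (S : Finset (HeightOneSpectrum (𝓞 K)))

lemma ker_divMap : LinearMap.ker (divMap S) =
    LinearMap.range (unitsToSUnits (S : Set (HeightOneSpectrum (𝓞 K)))) := by
  refine le_antisymm (fun x hx ↦ ?_) ?_
  · set z : Kˣ := (x.toMul : sUnits K _).1
    have h0 : ∀ v, ordv v (z : K) = 0 := fun v ↦ by
      by_cases hv : v ∈ S
      · exact congrFun hx ⟨v, hv⟩
      · exact x.toMul.2 v hv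
    obtain ⟨a, ha⟩ := exists_eq_algebraMap (x := (z : K)) fun w ↦ (h0 w).ge
    obtain ⟨b, hb⟩ := exists_eq_algebraMap (x := ((z : K))⁻¹) fun w ↦ by rw [ordv_inv, h0 w, neg_zero]
    have hab : a * b = 1 := FaithfulSMul.algebraMap_injective (𝓞 K) K (by
      rw [map_mul, ha, hb, map_one, mul_inv_cancel₀ z.ne_zero])
    refine ⟨Additive.ofMul ⟨a, b, hab, by rw [mul_comm, hab]⟩, ?_⟩
    exact Additive.toMul.injective (Subtype.ext (Units.ext ha))
  · rintro _ ⟨u, rfl⟩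
    exact funext fun v ↦ ordv_unit v.1 u.toMul

instance moduleFinite_sUnits :
    Module.Finite ℤ (Additive (sUnits K (S : Set (HeightOneSpectrum (𝓞 K))))) := by
  refine ⟨Submodule.fg_of_fg_map_of_fg_inf_ker (divMap S) (IsNoetherian.noetherian _) ?_⟩
  rw [top_inf_eq, ker_divMap, LinearMap.range_eq_map]
  exact Submodule.FG.map _ Module.Finite.fg_top

/-- The rank of the group of `S`-units. -/
theorem finrank_sUnits :
    finrank ℤ (Additive (sUnits K (S : Set (HeightOneSpectrum (𝓞 K))))) =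
      Units.rank K + S.card := by
  classical
  have h1 : finrank ℤ (LinearMap.range (divMap S)) = S.card := by
    rw [finrank_eq_of_smul_mem (Q := ⊤) le_top (n := (classNumber K : ℤ))
      (by exact_mod_cast classNumber_pos K |>.ne') ?_, finrank_top, Module.finrank_pi,
      Fintype.card_coe]
    intro f _
    choose x hx hx' using fun v : {v // v ∈ S} ↦
      exists_ordv_eq_classNumber v.1
    let u : {v // v ∈ S} →
        Additive (sUnits K (S : Set (HeightOneSpectrum (𝓞 K)))) := fun v ↦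
      Additive.ofMul ⟨Units.mk0 (x v) (hx v), fun v' hv' ↦ by
        rw [Units.val_mk0, hx' v v', if_neg fun e ↦ hv' (by rw [e]; exact v.2)]⟩
    refine ⟨∑ v, f v • u v, funext fun w ↦ ?_⟩
    have hu : ∀ v, divMap S (u v) w = if w = v then (classNumber K : ℤ) else 0 := fun v ↦ by
      rw [divMap_apply]
      exact (hx' v w.1).trans (if_congr Subtype.ext_iff.symm rfl rfl)
    rw [map_sum, Finset.sum_apply]
    simp only [map_smul, Pi.smul_apply, smul_eq_mul, hu, mul_ite, mul_zero]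
    rw [Finset.sum_ite_eq, if_pos (Finset.mem_univ _), mul_comm]
  have h2 := finrank_range_add_finrank_ker_int (divMap S)
  rw [h1, ker_divMap, ← (LinearEquiv.ofInjective _
    (unitsToSUnits_injective (S : Set (HeightOneSpectrum (𝓞 K))))).finrank_eq, Units.finrank_eq] at h2
  omega

end

end Fermat.Agent.CFT
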