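import Fermat.Agent.CFT.RayBound
import Fermat.Agent.ExtVanishing.CharTrivial

/-!
The second inequality of class field theory, analytically: a positive family of characters
modulo `m` killing the primes of `K` below primes of degree one of an extension `M` of degree
at most `n` has at most `n` members.
-/

set_option autoImplicit false

namespace Fermat.Agent.CFT

open NumberField IsDedekindDomain Module
open Fermat.Agent.ExtVanishing
open scoped nonZeroDivisors Classical

noncomputable section

lemma tsum_le_mul_tsum_range {κ ι : Type*} (π : κ → ι) (n : ℕ)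
    (hfib : ∀ i, ∀ F : Finset κ, (∀ q ∈ F, π q = i) → F.card ≤ n) (x : ι → ℝ) (y : κ → ℝ)
    (hx : ∀ i, 0 ≤ x i) (hy : ∀ q, y q = x (π q)) (hsx : Summable x) :
    ∑' q, y q ≤ (n : ℝ) * ∑' i, Set.indicator (Set.range π) x i := by
  refine Real.tsum_le_of_sum_le (fun q ↦ hy q ▸ hx _) fun F ↦ ?_
  calc ∑ q ∈ F, y q = ∑ i ∈ F.image π, ∑ q ∈ F.filter (fun q ↦ π q = i), y q :=
        (Finset.sum_fiberwise_of_maps_to (fun q hq ↦ Finset.mem_image_of_mem _ hq) _).symm
    _ ≤ ∑ i ∈ F.image π, (n : ℝ) * Set.indicator (Set.range π) x i := by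
        refine Finset.sum_le_sum fun i hi ↦ ?_
        obtain ⟨q₀, -, rfl⟩ := Finset.mem_image.mp hi
        rw [Finset.sum_congr rfl fun q hq ↦ by rw [hy, (Finset.mem_filter.mp hq).2],
          Finset.sum_const, nsmul_eq_mul, Set.indicator_of_mem (Set.mem_range_self q₀)]
        exact mul_le_mul_of_nonneg_right
          (Nat.cast_le.mpr (hfib _ _ fun q hq ↦ (Finset.mem_filter.mp hq).2)) (hx _)
    _ ≤ (n : ℝ) * ∑' i, Set.indicator (Set.range π) x i := by
        rw [← Finset.mul_sum]
        exact mul_le_mul_of_nonneg_left ((hsx.indicator _).sum_le_tsum _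
          fun i _ ↦ Set.indicator_nonneg (fun j _ ↦ hx j) i) (Nat.cast_nonneg _)

/-- The second inequality: a positive family of characters modulo `m` killing the degree-one
primes coming from `M` has at most `n` members. -/
theorem card_le_of_kills_split {K : Type*} [Field K] [NumberField K] {M : Type*} [Field M]
    [NumberField M] {m : Ideal (𝓞 K)} (hm : m ≠ ⊥) {ι : Type*} [Fintype ι] (ψ : ι → RayChar m)
    (i₀ : ι) (hnt : ∀ i, i ≠ i₀ → (ψ i).IsNontrivial)
    (hpos : ∀ P : HeightOneSpectrum (𝓞 K), 0 ≤ ∑ i, ((ψ i).toHom P.asIdeal).re)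
    (n : ℕ) (T : Finset (HeightOneSpectrum (𝓞 K)))
    (π : {Q : HeightOneSpectrum (𝓞 M) // (Ideal.absNorm Q.asIdeal).Prime} →
      HeightOneSpectrum (𝓞 K))
    (hnorm : ∀ Q, Ideal.absNorm (π Q).asIdeal = Ideal.absNorm Q.1.asIdeal)
    (hfib : ∀ P, ∀ F : Finset _, (∀ Q ∈ F, π Q = P) → F.card ≤ n)
    (hkill : ∀ Q, π Q ∉ T → ∀ i, (ψ i).toHom (π Q).asIdeal = 1) :
    Fintype.card ι ≤ n := by
  by_contra hlt
  rw [not_le] at hlt
  choose BL hBL using fun i (hi : i ≠ i₀) ↦ exists_rayLSeries_bound hm (ψ i) (hnt i hi)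
  obtain ⟨cM, CM, hcM, -, hζM⟩ := exists_idealZeta_bounds M
  obtain ⟨cK, CK, -, hCK, hζK⟩ := exists_idealZeta_bounds K
  obtain ⟨B0, hB0⟩ := exists_nonPrimeNorm_bound M
  set ZM := idealZeta M 2
  set ZK := idealZeta K 2
  set R1 : ℝ := ∑ i, (if hi : i = i₀ then Real.log CK
    else Real.log (max (BL i hi) 1) + ZK) with hR1
  have key : ∀ s ∈ Set.Ioc (1 : ℝ) 2,
      ((Fintype.card ι : ℝ) - n) * (-Real.log (s - 1)) ≤
        (Fintype.card ι : ℝ) * (-Real.log cM + B0 + 2 * ZM + n * T.card) + n * R1 := by
    intro s hs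
    have hs0 : 0 < s - 1 := by linarith [hs.1]
    have hsK := summable_primeTerm (K := K) hs.1
    have hsM := summable_primeTerm (K := M) hs.1
    set X := primeTerm K s
    set Y := primeTerm M s
    let Gd : Set (HeightOneSpectrum (𝓞 M)) := {Q | (Ideal.absNorm Q.asIdeal).Prime}
    set R : Set (HeightOneSpectrum (𝓞 K)) := Set.range π \ ↑T with hR
    set A := ∑' P, Set.indicator R X P with hA
    -- lower bound through the zeta function of `M`
    have h1 : Real.log cM - Real.log (s - 1) ≤ B0 + n * (A + T.card) + 2 * ZM := by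
      have hY : ∑' Q, Y Q ≤ B0 + n * (A + T.card) := by
        rw [show ∑' Q, Y Q = ∑' Q, Set.indicator Gdᶜ Y Q + ∑' Q, Set.indicator Gd Y Q by
            rw [← (hsM.indicator Gdᶜ).tsum_add (hsM.indicator Gd)]
            exact tsum_congr fun Q ↦ (congrFun (Set.indicator_compl_add_self Gd Y) Q).symm]
        refine add_le_add ?_ ?_
        · refine Real.tsum_le_of_sum_le
            (fun Q ↦ Set.indicator_nonneg (fun Q _ ↦ primeTerm_nonneg M s Q) _) fun S ↦ ?_
          rw [Finset.sum_indicator_eq_sum_filter]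
          exact hB0 s hs.1.le _ fun Q hQ ↦ (Finset.mem_filter.mp hQ).2
        · rw [← tsum_subtype Gd Y]
          refine (tsum_le_mul_tsum_range π n hfib X (fun Q ↦ Y Q.1) (primeTerm_nonneg K s)
            (fun Q ↦ by simp only [X, Y, primeTerm, hnorm]) hsK).trans ?_
          refine mul_le_mul_of_nonneg_left ?_ (Nat.cast_nonneg _)
          have e : ∀ P, Set.indicator (Set.range π) X P ≤
              Set.indicator R X P + Set.indicator (↑T : Set _) (fun _ ↦ (1 : ℝ)) P := by
            intro P
            have := primeTerm_nonneg K s P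
            have := primeTerm_le_half hs.1.le P
            change X P ≤ 1 / 2 at *
            simp only [Set.indicator_apply]
            by_cases h3 : P ∈ Set.range π
            · by_cases h2 : P ∈ T
              · have h4 : P ∉ R := fun h ↦ h.2 h2
                rw [if_pos h3, if_neg h4, if_pos (Finset.mem_coe.mpr h2)]
                linarith
              · have h4 : P ∈ R := ⟨h3, h2⟩
                rw [if_pos h3, if_pos h4, if_neg (fun h ↦ h2 (Finset.mem_coe.mp h))]
                linarith
            · rw [if_neg h3]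
              split_ifs <;> linarith
          have hsT : Summable (Set.indicator (↑T : Set (HeightOneSpectrum (𝓞 K)))
              (fun _ ↦ (1 : ℝ))) := summable_of_ne_finset_zero (s := T) fun P hP ↦
            Set.indicator_of_notMem (Finset.mem_coe.not.mpr hP) _
          refine ((hsK.indicator _).tsum_le_tsum e ((hsK.indicator _).add hsT)).trans ?_
          rw [(hsK.indicator _).tsum_add hsT]
          refine le_of_eq (congrArg₂ (· + ·) rfl ?_)
          rw [tsum_eq_sum (s := T) fun P hP ↦ Set.indicator_of_notMem (Finset.mem_coe.not.mpr hP) _,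
            Finset.sum_congr rfl fun P hP ↦ Set.indicator_of_mem (Finset.mem_coe.mpr hP) _,
            Finset.sum_const, nsmul_eq_mul, mul_one]
      rw [← Real.log_div hcM.ne' hs0.ne', Real.log_le_iff_le_exp (div_pos hcM hs0)]
      exact ((hζM s hs).1.trans (idealZeta_euler_bounds hs.1).2).trans
        (Real.exp_le_exp.mpr (by linarith))
    -- upper bound through the L-series
    have hre : ∀ i, Summable fun P : HeightOneSpectrum (𝓞 K) ↦
        ((ψ i).toHom P.asIdeal).re * X P := fun i ↦ by
      refine Summable.of_norm_bounded hsK fun P ↦ ?_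
      rw [Real.norm_eq_abs, abs_mul, abs_of_nonneg (primeTerm_nonneg K s P)]
      exact mul_le_of_le_one_left (primeTerm_nonneg K s P)
        ((Complex.abs_re_le_norm _).trans ((ψ i).norm_le _))
    have h2 : (Fintype.card ι : ℝ) * A ≤ ∑ i, ∑' P, ((ψ i).toHom P.asIdeal).re * X P := by
      rw [← Summable.tsum_finsetSum (fun i _ ↦ hre i), ← tsum_mul_left]
      refine Summable.tsum_le_tsum (fun P ↦ ?_) ((hsK.indicator _).mul_left _)
        (summable_sum fun i _ ↦ hre i)
      rw [← Finset.sum_mul]
      by_cases hP : P ∈ R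
      · obtain ⟨⟨Q, rfl⟩, hPT⟩ := hP
        rw [Set.indicator_of_mem (show π Q ∈ R from ⟨⟨Q, rfl⟩, hPT⟩),
          Finset.sum_congr rfl fun i _ ↦ by rw [hkill Q (by simpa using hPT) i]]
        simp [X]
      · rw [Set.indicator_of_notMem hP, mul_zero]
        exact mul_nonneg (hpos P) (primeTerm_nonneg K s P)
    have h3 : ∑ i, ∑' P, ((ψ i).toHom P.asIdeal).re * X P ≤ -Real.log (s - 1) + R1 := by
      have hb : ∀ i, ∑' P, ((ψ i).toHom P.asIdeal).re * X P ≤
          (if i = i₀ then -Real.log (s - 1) else 0) + (if hi : i = i₀ then Real.log CK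
            else Real.log (max (BL i hi) 1) + ZK) := by
        intro i
        split_ifs with hi
        · have hle : ∑' P, ((ψ i).toHom P.asIdeal).re * X P ≤ ∑' P, X P :=
            (hre i).tsum_le_tsum (fun P ↦ mul_le_of_le_one_left (primeTerm_nonneg K s P)
              (((Complex.re_le_norm _)).trans ((ψ i).norm_le _))) hsK
          have h4 : ∑' P, X P ≤ Real.log CK - Real.log (s - 1) := by
            rw [← Real.log_div hCK.ne' hs0.ne', Real.le_log_iff_exp_le (div_pos hCK hs0)]
            exact (idealZeta_euler_bounds hs.1).1.trans (hζK s hs).2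
          linarith
        · let F : (Ideal (𝓞 K))⁰ →* ℂ := ((ψ i).toHom.comp (Submonoid.subtype _)) *
            ((Complex.ofRealHom.toMonoidHom).comp (idealTermHom (K := K) s))
          have hFval : ∀ I, F I = (ψ i).toHom (I : Ideal (𝓞 K)) * (idealTerm K s I : ℂ) :=
            fun I ↦ rfl
          have hFn : ∀ I, ‖F I‖ ≤ idealTerm K s I := fun I ↦ by
            rw [hFval, norm_mul, Complex.norm_real, Real.norm_eq_abs,
              abs_of_nonneg (idealTerm_nonneg _ _ _)]
            exact mul_le_of_le_one_left (idealTerm_nonneg _ _ _) ((ψ i).norm_le _)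
          have hFs : Summable fun I ↦ ‖F I‖ :=
            (summable_idealTerm K hs.1).of_nonneg_of_le (fun _ ↦ norm_nonneg _) hFn
          have hb := (exp_le_norm_tsum_powProd (summable_powProd_monoidHom F hFs)).trans
            (le_of_eq (by rw [tsum_powProd_monoidHom F]))
          rw [tsum_congr hFval] at hb
          have hb' := hb.trans ((hBL i hi s hs).trans (le_max_left _ 1))
          rw [← Real.le_log_iff_exp_le (lt_of_lt_of_le one_pos (le_max_right _ _))] at hb'
          have hre' : ∀ P, (F (primeNZ K P)).re = ((ψ i).toHom P.asIdeal).re * X P := fun P ↦ by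
            rw [hFval, idealTerm_primeNZ, Complex.mul_re]
            simp [X, primeNZ]
          rw [tsum_congr hre'] at hb'
          have hsq : ∑' P, ‖F (primeNZ K P)‖ ^ 2 ≤ ZK := by
            obtain ⟨hs2, hle2⟩ := tsum_primeTerm_sq_le (K := K) hs.1
            have hpt : ∀ P, ‖F (primeNZ K P)‖ ^ 2 ≤ primeTerm K s P ^ 2 := fun P ↦
              pow_le_pow_left₀ (norm_nonneg _) ((hFn _).trans_eq (idealTerm_primeNZ s P)) 2
            exact ((hs2.of_nonneg_of_le (fun P ↦ sq_nonneg _) hpt).tsum_le_tsum hpt hs2).trans hle2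
          linarith
      refine (Finset.sum_le_sum fun i _ ↦ hb i).trans (le_of_eq ?_)
      rw [Finset.sum_add_distrib, Finset.sum_ite_eq' Finset.univ i₀, if_pos (Finset.mem_univ _)]
    have hn0 : (0 : ℝ) ≤ n := Nat.cast_nonneg _
    have e1 : (n : ℝ) * ((Fintype.card ι : ℝ) * A) ≤ n * (-Real.log (s - 1) + R1) :=
      mul_le_mul_of_nonneg_left (h2.trans h3) hn0
    have e2 : (Fintype.card ι : ℝ) * (Real.log cM - Real.log (s - 1)) ≤
        (Fintype.card ι : ℝ) * (B0 + n * (A + T.card) + 2 * ZM) :=
      mul_le_mul_of_nonneg_left h1 (Nat.cast_nonneg _)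
    linarith
  set R : ℝ := (Fintype.card ι : ℝ) * (-Real.log cM + B0 + 2 * ZM + n * T.card) + n * R1
  have hk := key (1 + Real.exp (-(|R| + 1)))
    ⟨by linarith [Real.exp_pos (-(|R| + 1))],
      by linarith [Real.exp_le_one_iff.mpr (show -(|R| + 1) ≤ 0 by linarith [abs_nonneg R])]⟩
  rw [add_sub_cancel_left, Real.log_exp, neg_neg] at hk
  have : (n : ℝ) + 1 ≤ Fintype.card ι := by exact_mod_cast hlt
  nlinarith [le_abs_self R, abs_nonneg R]

end

end Fermat.Agent.CFT
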