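import Fermat.Agent.CFT.Approx
import Fermat.Agent.CFT.Ray
import Fermat.Agent.CFT.SecondInequality
import Mathlib.LinearAlgebra.LinearIndependent.Lemmas
import Mathlib.LinearAlgebra.FiniteDimensional.Basic
import Mathlib.Algebra.Module.ZMod

/-!
The second inequality for a cyclic extension: S-units and elements which are local norms at S
generate a subgroup of index at most `p`.
-/

set_option autoImplicit false

namespace Fermat.Agent.CFT

open NumberField IsDedekindDomain Module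
open scoped Classical

noncomputable section

section OneField

variable {K : Type*} [Field K] [NumberField K]

lemma cnt_pow (v : HeightOneSpectrum (𝓞 K)) {I : Ideal (𝓞 K)} (hI : I ≠ ⊥) (n : ℕ) :
    cnt v (I ^ n) = n * cnt v I := by
  induction n with
  | zero => rw [pow_zero, cnt_one, zero_mul]
  | succ n ih => rw [pow_succ, cnt_mul v (pow_ne_zero n hI) hI, ih, Nat.succ_mul]

lemma cnt_prod (s : Finset (HeightOneSpectrum (𝓞 K))) (e : HeightOneSpectrum (𝓞 K) → ℕ)
    (w : HeightOneSpectrum (𝓞 K)) :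
    cnt w (∏ v ∈ s, v.asIdeal ^ e v) = if w ∈ s then e w else 0 := by
  induction s using Finset.cons_induction with
  | empty => rw [Finset.prod_empty, cnt_one, if_neg (Finset.notMem_empty w)]
  | cons a t ha ih =>
    rw [Finset.prod_cons, cnt_mul w (pow_ne_zero _ a.ne_bot)
      (Finset.prod_ne_zero_iff.mpr fun v _ ↦ pow_ne_zero _ v.ne_bot), ih,
      cnt_pow w a.ne_bot, cnt_prime a w]
    by_cases h : w = a
    · subst h; simp [ha]
    · simp [h]

/-- The part of a nonzero integer away from `S`. -/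
lemma exists_ideal_away (S : Finset (HeightOneSpectrum (𝓞 K))) (N : ℕ) {r : 𝓞 K} (hr : r ≠ 0) :
    ∃ I : Ideal (𝓞 K), I ≠ ⊥ ∧ IsCoprime I (modulus S N) ∧
      ∀ v, v ∉ S → (cnt v I : ℤ) = ordv v (algebraMap (𝓞 K) K r) := by
  set s := (finite_setOf_cnt_ne_zero (Ideal.span {r})).toFinset \ S
  refine ⟨∏ v ∈ s, v.asIdeal ^ cnt v (Ideal.span {r}),
    Finset.prod_ne_zero_iff.mpr fun v _ ↦ pow_ne_zero _ v.ne_bot, ?_, fun v hv ↦ ?_⟩
  · exact IsCoprime.prod_left fun v hv ↦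
      (isCoprime_prime_modulus (Finset.mem_sdiff.mp hv).2).pow_left
  · rw [cnt_prod, ← cnt_span v hr]
    congr 1
    split_ifs with h
    · rfl
    · simp only [s, Finset.mem_sdiff, Set.Finite.mem_toFinset, Set.mem_ofPred_eq, not_and] at h
      by_contra h0
      exact h (fun e ↦ h0 e.symm) hv

end OneField

lemma sum_root_pow_re_nonneg {p : ℕ} [Fact p.Prime] {ζ : ℂ} (hζ : IsPrimitiveRoot ζ p)
    (u : ZMod p) : ∃ r : ℝ, 0 ≤ r ∧ ∑ a : ZMod p, ζ ^ (a * u).val = (r : ℂ) := by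
  by_cases hu : u = 0
  · refine ⟨p, Nat.cast_nonneg p, ?_⟩
    simp [hu, ZMod.card]
  refine ⟨0, le_rfl, ?_⟩
  rw [show ∑ a : ZMod p, ζ ^ (a * u).val = ∑ a : ZMod p, ζ ^ a.val from
      Fintype.sum_equiv (Equiv.mulRight₀ u hu) _ _ fun a ↦ rfl,
    Complex.ofReal_zero, ← hζ.geom_sum_eq_zero (Fact.out : p.Prime).one_lt]
  exact Finset.sum_nbij (fun a : ZMod p ↦ a.val)
    (fun a _ ↦ Finset.mem_range.mpr (ZMod.val_lt a))
    (fun a _ b _ h ↦ ZMod.val_injective p h)
    (fun n hn ↦ ⟨(n : ZMod p), Finset.mem_univ _,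
      ZMod.val_natCast_of_lt (Finset.mem_range.mp hn)⟩) (fun _ _ ↦ rfl)

/-- An abelian group of exponent `p` with more than `p` elements maps onto `(ℤ/p)²`. -/
lemma exists_surjective_pair {A : Type*} [AddCommGroup A] {p : ℕ} [Fact p.Prime]
    (hexp : ∀ a : A, p • a = 0) (h : ¬ (Finite A ∧ Nat.card A ≤ p)) :
    ∃ π : A →+ ZMod p × ZMod p, Function.Surjective π := by
  let : Module (ZMod p) A := AddCommGroup.zmodModule hexp
  obtain ⟨a, ha⟩ : ∃ a : A, a ≠ 0 := by
    by_contra! hall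
    refine h ⟨Finite.of_surjective (fun _ : Unit ↦ (0 : A)) fun b ↦ ⟨(), (hall b).symm⟩, ?_⟩
    have : Subsingleton A := ⟨fun b c ↦ (hall b).trans (hall c).symm⟩
    rw [Nat.card_of_subsingleton (0 : A)]
    exact (Fact.out : p.Prime).one_le
  obtain ⟨b, hb⟩ : ∃ b : A, ∀ k : ZMod p, k • a ≠ b := by
    by_contra! hall
    have hs : Function.Surjective fun k : ZMod p ↦ k • a := hall
    refine h ⟨Finite.of_surjective _ hs, ?_⟩
    simpa using Nat.card_le_card_of_surjective _ hs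
  have hli : LinearIndependent (ZMod p) ![a, b] :=
    (LinearIndependent.pair_iff' ha).mpr hb
  let ι : ZMod p × ZMod p →ₗ[ZMod p] A :=
    LinearMap.coprod (LinearMap.toSpanSingleton _ _ a) (LinearMap.toSpanSingleton _ _ b)
  have hι : LinearMap.ker ι = ⊥ := by
    rw [LinearMap.ker_eq_bot']
    rintro ⟨x, y⟩ hxy
    have := LinearIndependent.pair_iff.mp hli x y (by simpa [ι] using hxy)
    simp [this.1, this.2]
  obtain ⟨π, hπ⟩ := ι.exists_leftInverse_of_injective hι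
  refine ⟨π.toAddMonoidHom, ?_⟩
  intro c
  have h1 := LinearMap.congr_fun hπ c
  rw [LinearMap.comp_apply, LinearMap.id_apply] at h1
  exact ⟨_, h1⟩

variable {K L : Type} [Field K] [NumberField K] [Field L] [NumberField L] [Algebra K L]

lemma natCard_quot_algebraMap_surjective (Q : HeightOneSpectrum (𝓞 L))
    (hQ : (Ideal.absNorm Q.asIdeal).Prime) (r : 𝓞 L) :
    ∃ k : ℤ, r - (k : 𝓞 L) ∈ Q.asIdeal := by
  have := Fact.mk hQ
  have hcard : Nat.card (𝓞 L ⧸ Q.asIdeal) = Ideal.absNorm Q.asIdeal := by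
    rw [Ideal.absNorm_apply]; rfl
  have hone : (1 : 𝓞 L ⧸ Q.asIdeal) ≠ 0 := by
    rw [← map_one (Ideal.Quotient.mk Q.asIdeal), Ne, Ideal.Quotient.eq_zero_iff_mem]
    exact fun h ↦ Q.isPrime.ne_top ((Ideal.eq_top_iff_one _).mpr h)
  obtain ⟨k, hk⟩ := AddSubgroup.mem_zmultiples_iff.mp
    (mem_zmultiples_of_prime_card hcard hone (g' := Ideal.Quotient.mk Q.asIdeal r))
  refine ⟨k, ?_⟩
  rw [← Ideal.Quotient.eq_zero_iff_mem, map_sub, map_intCast, ← hk, zsmul_one, sub_self]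

lemma absNorm_primeUnder_of_prime (Q : HeightOneSpectrum (𝓞 L))
    (hQ : (Ideal.absNorm Q.asIdeal).Prime) :
    Ideal.absNorm (primeUnder K Q).asIdeal = Ideal.absNorm Q.asIdeal := by
  rw [Ideal.absNorm_apply, Ideal.absNorm_apply]
  change Nat.card (𝓞 K ⧸ (primeUnder K Q).asIdeal) = Nat.card (𝓞 L ⧸ Q.asIdeal)
  refine Nat.card_congr (Equiv.ofBijective
    (algebraMap (𝓞 K ⧸ (primeUnder K Q).asIdeal) (𝓞 L ⧸ Q.asIdeal))
    ⟨FaithfulSMul.algebraMap_injective _ _, fun y ↦ ?_⟩)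
  obtain ⟨r, rfl⟩ := Ideal.Quotient.mk_surjective y
  obtain ⟨k, hk⟩ := natCard_quot_algebraMap_surjective Q hQ r
  refine ⟨(k : 𝓞 K ⧸ (primeUnder K Q).asIdeal), ?_⟩
  rw [map_intCast, ← map_intCast (Ideal.Quotient.mk Q.asIdeal), eq_comm, Ideal.Quotient.eq]
  exact hk

variable [IsGalois K L] {p : ℕ}

lemma card_inertia (w : HeightOneSpectrum (𝓞 L)) :
    Nat.card (w.asIdeal.inertia (L ≃ₐ[K] L)) = ramIdx K w := by
  have : IsGaloisGroup (L ≃ₐ[K] L) (𝓞 K) (𝓞 L) := IsGaloisGroup.of_isFractionRing _ _ _ K L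
  have := (primeUnder K w).isPrime
  have := w.isPrime
  have : Finite (𝓞 K ⧸ (primeUnder K w).asIdeal) :=
    Ring.HasFiniteQuotients.finiteQuotient (primeUnder K w).ne_bot
  have : (primeUnder K w).asIdeal.IsMaximal := (primeUnder K w).isMaximal
  have : Finite (primeUnder K w).asIdeal.ResidueField :=
    Finite.of_surjective _ (Ideal.bijective_algebraMap_quotient_residueField _).2
  rw [Ideal.card_inertia_eq_ramificationIdxIn (primeUnder K w).asIdeal,
    Ideal.ramificationIdxIn_eq_ramificationIdx (primeUnder K w).asIdeal w.asIdeal (L ≃ₐ[K] L),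
    ramIdx, Ideal.ramificationIdx'_eq_ramificationIdx _ _ (primeUnder K w).ne_bot]

/-- An unramified prime of prime norm is moved by some automorphism. -/
lemma free_of_absNorm_prime (hp : p.Prime) (hdeg : finrank K L = p)
    (Q : HeightOneSpectrum (𝓞 L)) (hQ : (Ideal.absNorm Q.asIdeal).Prime) (he : ramIdx K Q = 1)
    (σ : L ≃ₐ[K] L) (hσ : σ • Q = Q) : σ = 1 := by
  rcases fixed_or_free hp hdeg Q with h | h
  · exfalso
    obtain ⟨τ, hτ⟩ := exists_ne_one (L := L) hp hdeg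
    have hbot : Q.asIdeal.inertia (L ≃ₐ[K] L) = ⊥ :=
      Subgroup.card_eq_one.mp ((card_inertia Q).trans he)
    refine hτ ((Subgroup.mem_bot).mp (hbot ▸ fun r ↦ ?_))
    obtain ⟨k, hk⟩ := natCard_quot_algebraMap_surjective Q hQ r
    have h1 : τ • (r - (k : 𝓞 L)) ∈ Q.asIdeal := by
      have := Ideal.smul_mem_pointwise_smul τ _ _ hk
      rwa [← primeSmul_asIdeal, h τ] at this
    have h2 : τ • r - (k : 𝓞 L) ∈ Q.asIdeal := by
      rwa [smul_sub, show τ • (k : 𝓞 L) = (k : 𝓞 L) from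
        map_intCast (MulSemiringAction.toRingHom (L ≃ₐ[K] L) (𝓞 L) τ) k] at h1
    change τ • r - r ∈ Q.asIdeal
    rw [show τ • r - r = (τ • r - (k : 𝓞 L)) - (r - (k : 𝓞 L)) by ring]
    exact sub_mem h2 hk
  · exact h σ hσ

/-- The local norms at all places of `S`. -/
def locS (L : Type) [Field L] [NumberField L] [Algebra K L]
    (S : Finset (HeightOneSpectrum (𝓞 K))) : Subgroup Kˣ :=
  ⨅ v ∈ S, locNorms K L v

omit [IsGalois K L] in
lemma mem_locS {S : Finset (HeightOneSpectrum (𝓞 K))} {x : Kˣ} :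
    x ∈ locS L S ↔ ∀ v ∈ S, IsLocalNormAt K L v (x : K) := by
  simp [locS, Subgroup.mem_iInf, mem_locNorms]

/-- A finite set of places large enough for the cyclic extension `L / K`. -/
structure IsGood (L : Type) [Field L] [NumberField L] [Algebra K L] [IsGalois K L]
    (S : Finset (HeightOneSpectrum (𝓞 K))) : Prop where
  nonempty : S.Nonempty
  unramified : ∀ w : HeightOneSpectrum (𝓞 L), primeUnder K w ∉ S → ramIdx K w = 1
  gen : GenClass (S : Set (HeightOneSpectrum (𝓞 K)))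
  genL : GenClass (placesAbove L S : Set (HeightOneSpectrum (𝓞 L)))

lemma exists_isGood (hp : p.Prime) (hdeg : finrank K L = p) :
    ∃ T : Finset (HeightOneSpectrum (𝓞 K)), ∀ S, T ⊆ S → IsGood L S := by
  obtain ⟨TK, hTK⟩ := exists_genClass K
  obtain ⟨TL, hTL⟩ := exists_genClass L
  obtain ⟨P, hP, hP0⟩ : ∃ P : Ideal (𝓞 K), P.IsPrime ∧ P ≠ ⊥ := by
    obtain ⟨P, hP⟩ := Ideal.exists_maximal (𝓞 K)
    exact ⟨P, hP.isPrime, fun h ↦ RingOfIntegers.not_isField K (Ring.isField_iff_maximal_bot.mpr (h ▸ hP))⟩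
  refine ⟨insert ⟨P, hP, hP0⟩ (TK ∪ (TL ∪
    (finite_setOf_ramIdx_ne_one (L := L) hp hdeg).toFinset).image (primeUnder K)),
    fun S hS ↦ ⟨⟨_, hS (Finset.mem_insert_self _ _)⟩, fun w hw ↦ ?_, hTK S ?_, hTL _ ?_⟩⟩
  · by_contra h
    exact hw (hS (Finset.mem_insert_of_mem (Finset.mem_union_right _
      (Finset.mem_image_of_mem _ (Finset.mem_union_right _ (by simpa using h))))))
  · exact fun v hv ↦ hS (Finset.mem_insert_of_mem (Finset.mem_union_left _ hv))
  · intro w hw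
    rw [Finset.mem_coe, mem_placesAbove]
    exact hS (Finset.mem_insert_of_mem (Finset.mem_union_right _
      (Finset.mem_image_of_mem _ (Finset.mem_union_left _ hw))))

/-- The second inequality. -/
theorem index_sUnits_sup_locS_le (hp : p.Prime) (hdeg : finrank K L = p)
    {S : Finset (HeightOneSpectrum (𝓞 K))} (hS : IsGood L S) :
    (sUnits K (S : Set (HeightOneSpectrum (𝓞 K))) ⊔ locS L S).index ≠ 0 ∧
      (sUnits K (S : Set (HeightOneSpectrum (𝓞 K))) ⊔ locS L S).index ≤ p := by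
  have := Fact.mk hp
  set H := sUnits K (S : Set (HeightOneSpectrum (𝓞 K))) ⊔ locS L S with hH
  by_contra hbad
  have hpowmem : ∀ x : Kˣ, x ^ p ∈ H := fun x ↦ Subgroup.mem_sup_right (mem_locS.mpr fun v _ ↦ by
    rw [Units.val_pow_eq_pow_val, ← hdeg]
    exact isLocalNormAt_pow_finrank x.ne_zero)
  obtain ⟨π, hπ⟩ := exists_surjective_pair (A := Additive (Kˣ ⧸ H)) (p := p) (fun a ↦ by
      obtain ⟨x, hx⟩ := QuotientGroup.mk_surjective a.toMul
      refine Additive.toMul.injective ?_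
      rw [toMul_nsmul, ← hx, toMul_zero, ← QuotientGroup.mk_pow]
      exact (QuotientGroup.eq_one_iff _).mpr (hpowmem x))
    fun ⟨hf, hc⟩ ↦ hbad ⟨Nat.card_ne_zero.mpr ⟨inferInstance,
      (Finite.of_equiv (Additive (Kˣ ⧸ H)) Additive.toMul)⟩, hc⟩
  obtain ⟨N, hN1, hN⟩ : ∃ N : ℕ, 1 ≤ N ∧
      ∀ v ∈ S, ∀ x : K, Near v N x → IsLocalNormAt K L v x := by
    choose n hn1 hn using fun v : HeightOneSpectrum (𝓞 K) ↦ exists_near_isLocalNormAt (L := L) v
    exact ⟨S.sup n + 1, Nat.le_add_left 1 _, fun v hv x hx ↦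
      hn v x (hx.mono v ((Finset.le_sup hv).trans (Nat.le_succ _)))⟩
  let cl : Kˣ →* Multiplicative (ZMod p × ZMod p) :=
    (AddMonoidHom.toMultiplicativeRight π).comp (QuotientGroup.mk' H)
  have hcl : ∀ x ∈ H, cl x = 1 := fun x hx ↦ by
    simp [cl, (QuotientGroup.eq_one_iff x).mpr hx]
  let Λ : ZMod p × ZMod p → Kˣ →* Multiplicative (ZMod p) := fun c ↦
    (AddMonoidHom.toMultiplicative ((AddMonoidHom.mulLeft c.1).comp (AddMonoidHom.fst _ _) +
      (AddMonoidHom.mulLeft c.2).comp (AddMonoidHom.snd _ _))).comp cl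
  have hΛ : ∀ c x, (Λ c x).toAdd = c.1 * (cl x).toAdd.1 + c.2 * (cl x).toAdd.2 := fun c x ↦ rfl
  obtain ⟨ζ, hζ⟩ : ∃ ζ : ℂ, IsPrimitiveRoot ζ p := ⟨_, Complex.isPrimitiveRoot_exp p hp.ne_zero⟩
  have hmk : ∀ c, ∀ x ∈ H, Λ c x = 1 := fun c x hx ↦
    Multiplicative.toAdd.injective (by simp [hΛ, hcl x hx])
  choose ψ hψ using fun c ↦ exists_rayChar hS.nonempty hS.gen (Λ c) hζ
    (fun u hu ↦ hmk c u (Subgroup.mem_sup_left hu)) hN1
    (fun x hx ↦ hmk c x (Subgroup.mem_sup_right (mem_locS.mpr fun v hv ↦ hN v hv _ (hx v hv))))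
  have hnt : ∀ c, c ≠ 0 → (ψ c).IsNontrivial := by
    intro c hc
    obtain ⟨x, hx⟩ : ∃ x : Kˣ, (Λ c x).toAdd = 1 := by
      have : c.1 ≠ 0 ∨ c.2 ≠ 0 := by
        by_contra! h
        exact hc (Prod.ext h.1 h.2)
      obtain ⟨q, hq⟩ := hπ (if c.1 ≠ 0 then (c.1⁻¹, 0) else (0, c.2⁻¹))
      obtain ⟨x, hx⟩ := QuotientGroup.mk_surjective q.toMul
      refine ⟨x, ?_⟩
      rw [hΛ, show (cl x).toAdd = π q by simp [cl, hx], hq]
      split_ifs with h
      · simp [h]
      · push Not at h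
        simp [h, this.resolve_left (by simp [h])]
    obtain ⟨y, d, hy, hd, hyd⟩ := exists_near_div S (fun _ ↦ (x : K)) (fun _ _ ↦ x.ne_zero) N
    have hy' : algebraMap (𝓞 K) K y ≠ 0 := by simpa using hy
    have hd' : algebraMap (𝓞 K) K d ≠ 0 := by simpa using hd
    have hr : y * d ^ (p - 1) ≠ 0 := mul_ne_zero hy (pow_ne_zero _ hd)
    let ur : Kˣ := Units.mk0 (algebraMap (𝓞 K) K (y * d ^ (p - 1))) (by simpa using ⟨hy, fun h ↦ absurd h hd⟩)
    have hq : ur / x ∈ H := Subgroup.mem_sup_right (mem_locS.mpr fun v hv ↦ by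
      rw [Units.val_div_eq_div_val]
      simp only [ur, Units.val_mk0, map_mul, map_pow]
      rw [show algebraMap (𝓞 K) K y * algebraMap (𝓞 K) K d ^ (p - 1) / (x : K) =
        algebraMap (𝓞 K) K y / algebraMap (𝓞 K) K d / (x : K) * algebraMap (𝓞 K) K d ^ p by
          rw [show algebraMap (𝓞 K) K d ^ p = algebraMap (𝓞 K) K d ^ (p - 1) * algebraMap (𝓞 K) K d by
            rw [← pow_succ, Nat.sub_add_cancel hp.one_le]]
          field_simp]
      exact (hN v hv _ (hyd v hv)).mul (hdeg ▸ isLocalNormAt_pow_finrank hd'))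
    obtain ⟨I, hI0, hIc, hIv⟩ := exists_ideal_away S N hr
    refine ⟨I, hI0, hIc, ?_⟩
    rw [hψ c I hIc ur fun v hv ↦ (hIv v hv).symm]
    have hval : (Λ c ur).toAdd = 1 := by
      rw [show Λ c ur = Λ c x by simpa [div_eq_one] using hmk c _ hq, hx]
    rw [hval, ZMod.val_one, pow_one]
    exact hζ.ne_one hp.one_lt
  have hpos : ∀ P : HeightOneSpectrum (𝓞 K), 0 ≤ ∑ c, ((ψ c).toHom P.asIdeal).re := by
    intro P
    by_cases hP : P ∈ S
    · refine Finset.sum_nonneg fun c _ ↦ ?_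
      rw [(ψ c).eq_zero _ fun h ↦ not_dvd_of_isCoprime_modulus hN1 h hP dvd_rfl]
      simp
    have hc := isCoprime_prime_modulus (N := N) hP
    set x := divRep hS.gen P.asIdeal
    have h1 : ∀ c, (ψ c).toHom P.asIdeal = ζ ^ (c.1 * (cl x).toAdd.1).val * ζ ^ (c.2 * (cl x).toAdd.2).val :=
      fun c ↦ by
        rw [hψ c _ hc x fun v hv ↦ ordv_divRep hS.gen _ hv, hΛ, ← pow_add,
          ← pow_mod_orderOf ζ (_ + _), ← hζ.eq_orderOf, ZMod.val_add]
    obtain ⟨r₁, hr₁, e₁⟩ := sum_root_pow_re_nonneg hζ (cl x).toAdd.1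
    obtain ⟨r₂, hr₂, e₂⟩ := sum_root_pow_re_nonneg hζ (cl x).toAdd.2
    rw [← Complex.re_sum]
    simp only [h1]
    rw [Fintype.sum_prod_type]
    simp only []
    rw [← Finset.sum_mul_sum, e₁, e₂, ← Complex.ofReal_mul, Complex.ofReal_re]
    exact mul_nonneg hr₁ hr₂
  have hfib : ∀ P : HeightOneSpectrum (𝓞 K),
      ∀ F : Finset {Q : HeightOneSpectrum (𝓞 L) // (Ideal.absNorm Q.asIdeal).Prime},
      (∀ Q ∈ F, primeUnder K Q.1 = P) → F.card ≤ p := by
    intro P F hF
    have h1 := card_placesAbove (L := L) hp hdeg {P}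
    have h2 : (F.map (Function.Embedding.subtype _)).card ≤ (placesAbove L {P}).card :=
      Finset.card_le_card fun w hw ↦ by
        obtain ⟨Q, hQ, rfl⟩ := Finset.mem_map.mp hw
        rw [mem_placesAbove, Finset.mem_singleton]
        exact hF Q hQ
    rw [Finset.card_map] at h2
    rw [Finset.card_singleton] at h1
    omega
  have hkill : ∀ Q : {Q : HeightOneSpectrum (𝓞 L) // (Ideal.absNorm Q.asIdeal).Prime},
      primeUnder K Q.1 ∉ S → ∀ c, (ψ c).toHom (primeUnder K Q.1).asIdeal = 1 := by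
    rintro ⟨Q, hQ⟩ hQS c
    simp only at hQS ⊢
    have hfree := free_of_absNorm_prime hp hdeg Q hQ (hS.unramified Q hQS)
    obtain ⟨y, hy, hy1, hy0⟩ := hS.genL Q (by rw [Finset.mem_coe, mem_placesAbove]; exact hQS)
    let x : Kˣ := Units.mk0 (Algebra.norm K y) (norm_ne_zero' hy)
    have hxv : ∀ v, v ∉ S → ordv v (x : K) = cnt v (primeUnder K Q).asIdeal := by
      intro v hv
      have h := ordv_algebraMap_norm (K := K) (someAbove L v) hy
      rw [ordv_algebraMap, hS.unramified _ (by rwa [primeUnder_someAbove]),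
        primeUnder_someAbove, Nat.cast_one, one_mul] at h
      rw [Units.val_mk0, h, cnt_prime]
      have hterm : ∀ σ : L ≃ₐ[K] L, ordv (σ • someAbove L v) y =
          if σ • someAbove L v = Q then 1 else 0 := fun σ ↦ by
        split_ifs with e
        · rw [e, hy1]
        · exact hy0 _ (by rw [Finset.mem_coe, mem_placesAbove, primeUnder_smul,
            primeUnder_someAbove]; exact hv) e
      simp only [hterm]
      rw [Finset.sum_boole]
      by_cases e : v = primeUnder K Q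
      · rw [if_pos e, Nat.cast_one]
        obtain ⟨σ, hσ⟩ := exists_smul_eq_of_primeUnder_eq ((primeUnder_someAbove (L := L) v).trans e)
        rw [Finset.card_eq_one.mpr ⟨σ, Finset.ext fun τ ↦ ?_⟩, Nat.cast_one]
        simp only [Finset.mem_filter, Finset.mem_univ, true_and, Finset.mem_singleton]
        refine ⟨fun hτ ↦ ?_, fun hτ ↦ hτ ▸ hσ⟩
        have : (τ * σ⁻¹) • Q = Q := by
          rw [← hσ, smul_smul, inv_mul_cancel_right]
          exact hτ.trans hσ.symm
        exact mul_inv_eq_one.mp (hfree _ this)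
      · rw [if_neg e, Nat.cast_zero, Finset.filter_false_of_mem, Finset.card_empty, Nat.cast_zero]
        intro σ _ hσ
        refine e ?_
        rw [← hσ, primeUnder_smul, primeUnder_someAbove]
    rw [hψ c _ (isCoprime_prime_modulus hQS) x hxv,
      hmk c x (Subgroup.mem_sup_right (mem_locS.mpr fun v _ ↦ isLocalNormAt_norm hy))]
    simp
  have := card_le_of_kills_split (modulus_ne_bot (S := S) N) ψ 0 hnt hpos p S
    (fun Q ↦ primeUnder K Q.1) (fun Q ↦ absNorm_primeUnder_of_prime Q.1 Q.2) hfib hkill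
  rw [Fintype.card_prod, ZMod.card] at this
  nlinarith [hp.two_le]

end

end Fermat.Agent.CFT
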