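import Fermat.Agent.CFT.Basic
import Mathlib.NumberTheory.RamificationInertia.Galois
import Mathlib.NumberTheory.RamificationInertia.Valuation
import Mathlib.FieldTheory.Galois.Basic
import Mathlib.NumberTheory.NumberField.ClassNumber
import Mathlib.RingTheory.Norm.Transitivity
import Mathlib.RingTheory.DedekindDomain.Factorization
import Mathlib.RingTheory.Ideal.Quotient.HasFiniteQuotients

/-!
Additive valuations on number fields, Galois action on the primes, ramification basics.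
-/

set_option autoImplicit false

namespace Fermat.Agent.CFT

open NumberField IsDedekindDomain Module
open scoped Pointwise nonZeroDivisors

noncomputable section

section OneField

variable {K : Type*} [Field K] [NumberField K] (v : HeightOneSpectrum (𝓞 K))

/-- The additive valuation at `v` (with junk value `0` at `0`). -/
def ordv (x : K) : ℤ := -(v.valuation K x).log

lemma valuation_ne_zero {x : K} (hx : x ≠ 0) : v.valuation K x ≠ 0 := by simpa using hx

lemma valuation_eq_exp {x : K} (hx : x ≠ 0) : v.valuation K x = WithZero.exp (-ordv v x) := by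
  rw [ordv, neg_neg, WithZero.exp_log (valuation_ne_zero v hx)]

lemma valuation_le_exp_iff {x : K} (hx : x ≠ 0) {n : ℤ} :
    v.valuation K x ≤ WithZero.exp (-n) ↔ n ≤ ordv v x := by
  rw [valuation_eq_exp v hx, WithZero.exp_le_exp, neg_le_neg_iff]

@[simp] lemma ordv_one : ordv v (1 : K) = 0 := by simp [ordv]

lemma ordv_mul {x y : K} (hx : x ≠ 0) (hy : y ≠ 0) : ordv v (x * y) = ordv v x + ordv v y := by
  rw [ordv, map_mul, WithZero.log_mul (valuation_ne_zero v hx) (valuation_ne_zero v hy), neg_add]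
  rfl

lemma ordv_inv (x : K) : ordv v x⁻¹ = -ordv v x := by
  simp only [ordv, map_inv₀, WithZero.log_inv]

lemma ordv_div {x y : K} (hx : x ≠ 0) (hy : y ≠ 0) : ordv v (x / y) = ordv v x - ordv v y := by
  rw [div_eq_mul_inv, ordv_mul v hx (inv_ne_zero hy), ordv_inv, sub_eq_add_neg]

lemma ordv_zpow (x : K) (n : ℤ) : ordv v (x ^ n) = n * ordv v x := by
  simp only [ordv, map_zpow₀, WithZero.log_zpow, smul_eq_mul]
  ring

lemma ordv_pow (x : K) (n : ℕ) : ordv v (x ^ n) = n * ordv v x := by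
  rw [← zpow_natCast, ordv_zpow]

lemma ordv_prod {ι : Type*} (s : Finset ι) (f : ι → K) (h : ∀ i ∈ s, f i ≠ 0) :
    ordv v (∏ i ∈ s, f i) = ∑ i ∈ s, ordv v (f i) := by
  induction s using Finset.cons_induction with
  | empty => simp
  | cons a t ha ih =>
    simp only [Finset.mem_cons, forall_eq_or_imp] at h
    rw [Finset.prod_cons, Finset.sum_cons, ordv_mul v h.1 (Finset.prod_ne_zero_iff.mpr h.2), ih h.2]

lemma ordv_algebraMap_nonneg (r : 𝓞 K) : 0 ≤ ordv v (algebraMap (𝓞 K) K r) := by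
  by_cases hr : r = 0
  · simp [hr, ordv]
  have h0 : algebraMap (𝓞 K) K r ≠ 0 := by simpa using hr
  exact (valuation_le_exp_iff v h0).mp (by simpa using v.valuation_le_one r)

lemma one_le_ordv_algebraMap_iff {r : 𝓞 K} (hr : r ≠ 0) :
    1 ≤ ordv v (algebraMap (𝓞 K) K r) ↔ r ∈ v.asIdeal := by
  have h0 : algebraMap (𝓞 K) K r ≠ 0 := by simpa using hr
  rw [← valuation_le_exp_iff v h0, v.valuation_of_algebraMap,
    show (-(1 : ℤ)) = -((1 : ℕ) : ℤ) by simp, v.intValuation_le_pow_iff_mem, pow_one]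

lemma exists_ordv_eq_one : ∃ x : K, x ≠ 0 ∧ ordv v x = 1 := by
  obtain ⟨x, hx⟩ := v.valuation_exists_uniformizer K
  have hx0 : x ≠ 0 := fun h ↦ by
    rw [h, map_zero] at hx
    exact WithZero.exp_ne_zero hx.symm
  exact ⟨x, hx0, by rw [ordv, hx]; simp⟩

/-- An element with nonnegative valuation everywhere is integral. -/
lemma exists_eq_algebraMap {x : K} (h : ∀ w : HeightOneSpectrum (𝓞 K), 0 ≤ ordv w x) :
    ∃ r : 𝓞 K, algebraMap (𝓞 K) K r = x := by
  refine HeightOneSpectrum.mem_integers_of_valuation_le_one K x fun w ↦ ?_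
  by_cases hx : x = 0
  · simp [hx]
  · simpa using (valuation_le_exp_iff w hx).mpr (h w)

lemma finite_setOf_ordv_ne_zero {x : K} (hx : x ≠ 0) :
    {w : HeightOneSpectrum (𝓞 K) | ordv w x ≠ 0}.Finite := by
  obtain ⟨a, b, hb, rfl⟩ := IsFractionRing.div_surjective (A := 𝓞 K) x
  have hb0 : b ≠ 0 := nonZeroDivisors.ne_zero hb
  have ha0 : a ≠ 0 := fun h ↦ hx (by simp [h])
  have key : ∀ r : 𝓞 K, r ≠ 0 →
      {w : HeightOneSpectrum (𝓞 K) | ordv w (algebraMap (𝓞 K) K r) ≠ 0}.Finite := fun r hr ↦ by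
    refine (Ideal.finite_factors (I := Ideal.span {r}) (by simpa using hr)).subset fun w hw ↦ ?_
    refine Ideal.dvd_span_singleton.mpr ((one_le_ordv_algebraMap_iff w hr).mp ?_)
    have h1 := ordv_algebraMap_nonneg w r
    have h2 : ordv w (algebraMap (𝓞 K) K r) ≠ 0 := hw
    omega
  refine ((key a ha0).union (key b hb0)).subset fun w hw ↦ ?_
  by_contra h
  simp only [Set.mem_union, Set.mem_ofPred_eq, not_or, not_not] at h
  exact hw (by rw [ordv_div w (by simpa using ha0) (by simpa using hb0), h.1, h.2, sub_zero])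

end OneField

section Galois

variable {K L : Type*} [Field K] [NumberField K] [Field L] [NumberField L] [Algebra K L]

/-- Galois automorphisms permute the primes. -/
scoped instance primeAction : MulAction (L ≃ₐ[K] L) (HeightOneSpectrum (𝓞 L)) where
  smul σ w := ⟨σ • w.asIdeal, by
    rw [Ideal.pointwise_smul_eq_comap]; exact w.isPrime.comap _, fun h ↦ w.ne_bot (by
      have h2 : σ⁻¹ • σ • w.asIdeal = σ⁻¹ • (⊥ : Ideal (𝓞 L)) := by rw [h]
      rwa [inv_smul_smul, Ideal.smul_bot] at h2)⟩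
  one_smul w := HeightOneSpectrum.ext (one_smul _ w.asIdeal)
  mul_smul σ τ w := HeightOneSpectrum.ext (mul_smul σ τ w.asIdeal)

omit [NumberField K] [NumberField L] in
lemma primeSmul_asIdeal (σ : L ≃ₐ[K] L) (w : HeightOneSpectrum (𝓞 L)) :
    (σ • w).asIdeal = σ • w.asIdeal := rfl

omit [NumberField K] in
lemma intValuation_smul (σ : L ≃ₐ[K] L) (w : HeightOneSpectrum (𝓞 L)) (r : 𝓞 L) :
    (σ • w).intValuation (σ • r) = w.intValuation r := by
  by_cases hr : r = 0
  · simp [hr]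
  have hr' : σ • r ≠ 0 := by simpa using (smul_ne_zero_iff_ne σ).mpr hr
  have hpow : ∀ n : ℕ, (σ • r ∈ (σ • w).asIdeal ^ n) ↔ r ∈ w.asIdeal ^ n := fun n ↦ by
    rw [primeSmul_asIdeal, ← smul_pow', Ideal.smul_mem_pointwise_smul_iff]
  obtain ⟨a, ha⟩ : ∃ a : ℕ, w.intValuation r = WithZero.exp (-(a : ℤ)) :=
    ⟨_, w.intValuation_if_neg hr⟩
  obtain ⟨b, hb⟩ : ∃ b : ℕ, (σ • w).intValuation (σ • r) = WithZero.exp (-(b : ℤ)) :=
    ⟨_, (σ • w).intValuation_if_neg hr'⟩
  rw [ha, hb]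
  have e : ∀ n : ℕ, n ≤ b ↔ n ≤ a := fun n ↦ by
    rw [← Int.ofNat_le, ← neg_le_neg_iff, ← WithZero.exp_le_exp, ← hb,
      HeightOneSpectrum.intValuation_le_pow_iff_mem, hpow,
      ← HeightOneSpectrum.intValuation_le_pow_iff_mem, ha, WithZero.exp_le_exp, neg_le_neg_iff,
      Int.ofNat_le]
  rw [le_antisymm ((e b).mp le_rfl) ((e a).mpr le_rfl)]

omit [NumberField K] in
lemma ordv_smul (σ : L ≃ₐ[K] L) (w : HeightOneSpectrum (𝓞 L)) (x : L) :
    ordv (σ • w) (σ x) = ordv w x := by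
  obtain ⟨a, b, hb, rfl⟩ := IsFractionRing.div_surjective (A := 𝓞 L) x
  have e : ∀ r : 𝓞 L, σ (algebraMap (𝓞 L) L r) = algebraMap (𝓞 L) L (σ • r) := fun r ↦ rfl
  simp only [ordv, map_div₀, e, HeightOneSpectrum.valuation_of_algebraMap, intValuation_smul]

omit [NumberField K] in
lemma ordv_apply (σ : L ≃ₐ[K] L) (w : HeightOneSpectrum (𝓞 L)) (x : L) :
    ordv w (σ x) = ordv (σ⁻¹ • w) x := by
  conv_lhs => rw [← smul_inv_smul σ w, ordv_smul]

variable (K) in
/-- The prime of `K` below a prime of `L`. -/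
def primeUnder (w : HeightOneSpectrum (𝓞 L)) : HeightOneSpectrum (𝓞 K) :=
  ⟨w.asIdeal.under (𝓞 K), w.isPrime.under _, Ideal.IsIntegral.comap_ne_bot (𝓞 K) w.ne_bot⟩

instance primeUnder_liesOver (w : HeightOneSpectrum (𝓞 L)) :
    w.asIdeal.LiesOver (primeUnder K w).asIdeal := ⟨rfl⟩

omit [NumberField K] [NumberField L] in
lemma primeUnder_eq_iff {w : HeightOneSpectrum (𝓞 L)} {v : HeightOneSpectrum (𝓞 K)} :
    primeUnder K w = v ↔ w.asIdeal.under (𝓞 K) = v.asIdeal :=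
  ⟨fun h ↦ h ▸ rfl, fun h ↦ HeightOneSpectrum.ext h⟩

omit [NumberField L] in
lemma primeUnder_surjective : Function.Surjective (primeUnder K (L := L)) := by
  intro v
  have := v.isMaximal
  obtain ⟨Q, hQ, hQv⟩ := Ideal.exists_ideal_over_maximal_of_isIntegral (S := 𝓞 L) v.asIdeal (by
      rw [(RingHom.injective_iff_ker_eq_bot _).mp (FaithfulSMul.algebraMap_injective (𝓞 K) (𝓞 L))]
      exact bot_le)
  have hQ0 : Q ≠ ⊥ := fun h ↦ v.ne_bot (by
    rw [← hQv, h, Ideal.comap_bot_of_injective _ (FaithfulSMul.algebraMap_injective _ _)])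
  exact ⟨⟨Q, hQ.isPrime, hQ0⟩, HeightOneSpectrum.ext hQv⟩

omit [NumberField K] [NumberField L] in
lemma smul_algebraMap_ringOfIntegers (σ : L ≃ₐ[K] L) (r : 𝓞 K) :
    σ • algebraMap (𝓞 K) (𝓞 L) r = algebraMap (𝓞 K) (𝓞 L) r :=
  RingOfIntegers.ext (σ.commutes (r : K))

omit [NumberField K] [NumberField L] in
lemma primeUnder_smul (σ : L ≃ₐ[K] L) (w : HeightOneSpectrum (𝓞 L)) :
    primeUnder K (σ • w) = primeUnder K w := by
  refine HeightOneSpectrum.ext (Ideal.ext fun a ↦ ?_)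
  change algebraMap (𝓞 K) (𝓞 L) a ∈ σ • w.asIdeal ↔ algebraMap (𝓞 K) (𝓞 L) a ∈ w.asIdeal
  conv_lhs => rw [← smul_algebraMap_ringOfIntegers σ a, Ideal.smul_mem_pointwise_smul_iff]

variable (K) in
/-- The ramification index of a prime of `L`. -/
def ramIdx (w : HeightOneSpectrum (𝓞 L)) : ℕ :=
  (primeUnder K w).asIdeal.ramificationIdx' w.asIdeal

omit [NumberField K] in
lemma ramIdx_pos (w : HeightOneSpectrum (𝓞 L)) : 0 < ramIdx K w :=
  Nat.pos_of_ne_zero
    (Ideal.IsDedekindDomain.ramificationIdx'_ne_zero_of_liesOver w.asIdeal (primeUnder K w).ne_bot)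

lemma ordv_algebraMap (w : HeightOneSpectrum (𝓞 L)) (x : K) :
    ordv w (algebraMap K L x) = ramIdx K w * ordv (primeUnder K w) x := by
  simp only [ordv, ← HeightOneSpectrum.valuation_liesOver L (primeUnder K w) w x,
    WithZero.log_pow, ramIdx, nsmul_eq_mul]
  ring

variable [IsGalois K L]

lemma exists_smul_eq_of_primeUnder_eq {w w' : HeightOneSpectrum (𝓞 L)}
    (h : primeUnder K w = primeUnder K w') : ∃ σ : L ≃ₐ[K] L, σ • w = w' := by
  have : IsGaloisGroup (L ≃ₐ[K] L) (𝓞 K) (𝓞 L) := IsGaloisGroup.of_isFractionRing _ _ _ K L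
  have : w'.asIdeal.LiesOver (primeUnder K w).asIdeal := ⟨congrArg HeightOneSpectrum.asIdeal h⟩
  obtain ⟨σ, hσ⟩ := Ideal.exists_smul_eq_of_isGaloisGroup (primeUnder K w).asIdeal w.asIdeal
    w'.asIdeal (L ≃ₐ[K] L)
  exact ⟨σ, HeightOneSpectrum.ext hσ⟩

lemma isNonSplit_iff {v : HeightOneSpectrum (𝓞 K)} {w : HeightOneSpectrum (𝓞 L)}
    (h : primeUnder K w = v) : IsNonSplit K L v ↔ ∀ σ : L ≃ₐ[K] L, σ • w = w := by
  constructor
  · intro hns σ
    exact hns _ _ (primeUnder_eq_iff.mp ((primeUnder_smul σ w).trans h)) (primeUnder_eq_iff.mp h)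
  · intro hfix w₁ w₂ h₁ h₂
    obtain ⟨σ, hσ⟩ := exists_smul_eq_of_primeUnder_eq (h.trans (primeUnder_eq_iff.mpr h₁).symm)
    obtain ⟨τ, hτ⟩ := exists_smul_eq_of_primeUnder_eq (h.trans (primeUnder_eq_iff.mpr h₂).symm)
    rw [← hσ, ← hτ, hfix, hfix]

/-- The valuation of a norm. -/
lemma ordv_algebraMap_norm (w : HeightOneSpectrum (𝓞 L)) {y : L} (hy : y ≠ 0) :
    ordv w (algebraMap K L (Algebra.norm K y)) = ∑ σ : L ≃ₐ[K] L, ordv (σ • w) y := by
  rw [Algebra.norm_eq_prod_automorphisms, ordv_prod _ _ _ (fun σ _ ↦ by simpa using hy)]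
  exact Fintype.sum_equiv (Equiv.inv _) _ _ fun σ ↦ by simp [ordv_apply]

section Prime

variable {p : ℕ}

lemma exists_ne_one (hp : p.Prime) (hdeg : finrank K L = p) : ∃ σ : L ≃ₐ[K] L, σ ≠ 1 := by
  have h := IsGalois.card_aut_eq_finrank K L
  rw [hdeg] at h
  have : Nontrivial (L ≃ₐ[K] L) := Finite.one_lt_card_iff_nontrivial.mp (h ▸ hp.one_lt)
  exact exists_ne 1

lemma mem_zpowers_of_ne_one (hp : p.Prime) (hdeg : finrank K L = p) {σ : L ≃ₐ[K] L}
    (hσ : σ ≠ 1) (τ : L ≃ₐ[K] L) : τ ∈ Subgroup.zpowers σ := by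
  have : Fact p.Prime := ⟨hp⟩
  exact mem_zpowers_of_prime_card (p := p) ((IsGalois.card_aut_eq_finrank K L).trans hdeg) hσ

/-- For prime degree, a prime is either fixed by the whole group or has trivial stabiliser. -/
lemma fixed_or_free (hp : p.Prime) (hdeg : finrank K L = p) (w : HeightOneSpectrum (𝓞 L)) :
    (∀ σ : L ≃ₐ[K] L, σ • w = w) ∨ ∀ σ : L ≃ₐ[K] L, σ • w = w → σ = 1 := by
  by_contra h
  rw [not_or] at h
  obtain ⟨h1, h2⟩ := h
  simp only [not_forall] at h1 h2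
  obtain ⟨τ, hτ⟩ := h1
  obtain ⟨σ, hσw, hσ⟩ := h2
  have : τ ∈ MulAction.stabilizer (L ≃ₐ[K] L) w :=
    (Subgroup.zpowers_le.mpr hσw) (mem_zpowers_of_ne_one hp hdeg hσ τ)
  exact hτ this

lemma sum_ordv_of_fixed (hdeg : finrank K L = p) {w : HeightOneSpectrum (𝓞 L)}
    (hfix : ∀ σ : L ≃ₐ[K] L, σ • w = w) (y : L) :
    ∑ σ : L ≃ₐ[K] L, ordv (σ • w) y = p * ordv w y := by
  simp only [hfix, Finset.sum_const, Finset.card_univ, nsmul_eq_mul]
  rw [Fintype.card_eq_nat_card, IsGalois.card_aut_eq_finrank, hdeg]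

/-- The ramification index is `1` unless all automorphisms act trivially modulo the prime. -/
lemma ramIdx_eq_one_of (hp : p.Prime) (hdeg : finrank K L = p) (w : HeightOneSpectrum (𝓞 L))
    {σ : L ≃ₐ[K] L} {r : 𝓞 L} (hr : σ • r - r ∉ w.asIdeal) : ramIdx K w = 1 := by
  have : IsGaloisGroup (L ≃ₐ[K] L) (𝓞 K) (𝓞 L) := IsGaloisGroup.of_isFractionRing _ _ _ K L
  have := (primeUnder K w).isPrime
  have := w.isPrime
  have : Finite (𝓞 K ⧸ (primeUnder K w).asIdeal) :=
    Ring.HasFiniteQuotients.finiteQuotient (primeUnder K w).ne_bot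
  have : (primeUnder K w).asIdeal.IsMaximal := (primeUnder K w).isMaximal
  have : Finite (primeUnder K w).asIdeal.ResidueField :=
    Finite.of_surjective _ (Ideal.bijective_algebraMap_quotient_residueField _).2
  have hI : Nat.card (w.asIdeal.inertia (L ≃ₐ[K] L)) = ramIdx K w := by
    rw [Ideal.card_inertia_eq_ramificationIdxIn (primeUnder K w).asIdeal,
      Ideal.ramificationIdxIn_eq_ramificationIdx (primeUnder K w).asIdeal w.asIdeal (L ≃ₐ[K] L),
      ramIdx, Ideal.ramificationIdx'_eq_ramificationIdx _ _ (primeUnder K w).ne_bot]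
  rw [← hI, Subgroup.card_eq_one]
  rw [Subgroup.eq_bot_iff_forall]
  intro τ hτ
  by_contra hne
  have : σ ∈ w.asIdeal.inertia (L ≃ₐ[K] L) :=
    (Subgroup.zpowers_le.mpr hτ) (mem_zpowers_of_ne_one hp hdeg hne σ)
  exact hr (this r)

/-- Only finitely many primes ramify. -/
lemma finite_setOf_ramIdx_ne_one (hp : p.Prime) (hdeg : finrank K L = p) :
    {w : HeightOneSpectrum (𝓞 L) | ramIdx K w ≠ 1}.Finite := by
  obtain ⟨σ, hσ⟩ := exists_ne_one hp hdeg
  obtain ⟨r, hr⟩ : ∃ r : 𝓞 L, σ • r - r ≠ 0 := by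
    by_contra! h
    refine hσ (AlgEquiv.ext fun x ↦ ?_)
    obtain ⟨a, b, hb, rfl⟩ := IsFractionRing.div_surjective (A := 𝓞 L) x
    have e : ∀ r : 𝓞 L, σ (algebraMap (𝓞 L) L r) = algebraMap (𝓞 L) L r := fun r ↦ by
      rw [show σ (algebraMap (𝓞 L) L r) = algebraMap (𝓞 L) L (σ • r) from rfl, sub_eq_zero.mp (h r)]
    simp only [map_div₀, e, AlgEquiv.one_apply]
  refine (Ideal.finite_factors (I := Ideal.span {σ • r - r}) (by simpa using hr)).subset
    fun w hw ↦ ?_
  by_contra hdvd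
  exact hw (ramIdx_eq_one_of hp hdeg w fun hmem ↦ hdvd (Ideal.dvd_span_singleton.mpr hmem))

end Prime

end Galois

end

end Fermat.Agent.CFT
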